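import Mathlib.RingTheory.Jacobson.Ring
import Mathlib.RingTheory.TensorProduct.Free
import Mathlib.RingTheory.TensorProduct.Finite
import Mathlib.FieldTheory.IsAlgClosed.Basic
import Mathlib.LinearAlgebra.TensorProduct.Basis
import Mathlib.RingTheory.TensorProduct.Nontrivial

/-!
Over an algebraically closed field, finitely generated domains stay domains after any base change to
a domain (Nullstellensatz argument).
-/

open scoped TensorProduct

namespace Fermat.Agent.RelJac

universe u v w

variable {k : Type u} [Field k] [IsAlgClosed k] {A : Type v} [CommRing A] [Algebra k A]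

/-- Every maximal ideal of a finitely generated algebra over an algebraically closed field is the
kernel of a `k`-point. -/
theorem exists_point_ker_eq [Algebra.FiniteType k A] (m : Ideal A) [m.IsMaximal] :
    ∃ φ : A →ₐ[k] k, RingHom.ker φ = m := by
  let : Field (A ⧸ m) := Ideal.Quotient.field m
  have : Algebra.FiniteType k (A ⧸ m) :=
    Algebra.FiniteType.of_surjective (Ideal.Quotient.mkₐ k m) Ideal.Quotient.mk_surjective
  have : Module.Finite k (A ⧸ m) := finite_of_finite_type_of_isJacobsonRing k (A ⧸ m)
  have hb : Function.Bijective (Algebra.ofId k (A ⧸ m)) :=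
    IsAlgClosed.algebraMap_bijective_of_isIntegral (k := k)
  refine ⟨(AlgEquiv.ofBijective (Algebra.ofId k (A ⧸ m)) hb).symm.toAlgHom.comp
    (Ideal.Quotient.mkₐ k m), ?_⟩
  ext a
  simp [RingHom.mem_ker, Ideal.Quotient.eq_zero_iff_mem]

/-- `k`-points separate the elements of a finitely generated domain. -/
theorem eq_zero_of_forall_point [Algebra.FiniteType k A] [IsDomain A] {a : A}
    (h : ∀ φ : A →ₐ[k] k, φ a = 0) : a = 0 := by
  have : IsJacobsonRing A := isJacobsonRing_of_finiteType (A := k)
  have hj : (⊥ : Ideal A).jacobson = ⊥ :=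
    IsJacobsonRing.out' _ (Ideal.isPrime_bot.isRadical)
  rw [← Ideal.mem_bot, ← hj, Ideal.jacobson, Ideal.mem_sInf]
  rintro m ⟨-, hm⟩
  obtain ⟨φ, rfl⟩ := exists_point_ker_eq (k := k) m
  exact RingHom.mem_ker.2 (h φ)

/-- The evaluation `A ⊗ K → K` at a point of `A`. -/
noncomputable def evalPoint (K : Type w) [CommRing K] [Algebra k K] (φ : A →ₐ[k] k) :
    K ⊗[k] A →ₐ[k] K :=
  Algebra.TensorProduct.lift (AlgHom.id k K) ((Algebra.ofId k K).comp φ) fun _ _ => .all _ _

omit [IsAlgClosed k] in
theorem evalPoint_tmul (K : Type w) [CommRing K] [Algebra k K] (φ : A →ₐ[k] k) (x : K) (a : A) :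
    evalPoint K φ (x ⊗ₜ a) = φ a • x := by
  simp [evalPoint, Algebra.smul_def, mul_comm]

/-- If `A` is a finitely generated domain over an algebraically closed field `k` and `K` is a
domain over `k`, then `K ⊗ A` is a domain. -/
theorem isDomain_tensorProduct [Algebra.FiniteType k A] [IsDomain A] (K : Type w) [CommRing K]
    [IsDomain K] [Algebra k K] : IsDomain (K ⊗[k] A) := by
  classical
  have : Nontrivial (K ⊗[k] A) :=
    Algebra.TensorProduct.nontrivial_of_algebraMap_injective_of_isDomain k K A
      (FaithfulSMul.algebraMap_injective k K) (FaithfulSMul.algebraMap_injective k A)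
  let b := Module.Free.chooseBasis k K
  let c := Algebra.TensorProduct.basis (R := k) A b
  suffices h : ∀ u v : K ⊗[k] A, u * v = 0 → u = 0 ∨ v = 0 by
    have : NoZeroDivisors (K ⊗[k] A) := ⟨fun {u v} => h u v⟩
    exact NoZeroDivisors.to_isDomain _
  intro u v huv
  -- coordinates of `z` in the basis `b`, with coefficients in `A`
  let coord : K ⊗[k] A → Module.Free.ChooseBasisIndex k K →₀ A :=
    fun z => c.repr (Algebra.TensorProduct.comm k K A z)
  have key : ∀ (φ : A →ₐ[k] k) (z : K ⊗[k] A),
      b.repr (evalPoint K φ z) = (coord z).mapRange φ (map_zero φ) := by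
    intro φ z
    induction z using TensorProduct.induction_on with
    | zero => simp [coord]
    | tmul x a =>
      ext i
      simp [coord, c, evalPoint_tmul]
    | add y z hy hz => simp [coord, hy, hz, Finsupp.mapRange_add' ]
  by_contra hne
  push Not at hne
  obtain ⟨i, hi⟩ : ∃ i, coord u i ≠ 0 := by
    by_contra h0
    push Not at h0
    exact hne.1 ((Algebra.TensorProduct.comm k K A).injective
      (c.repr.injective (by ext i; simpa [coord] using h0 i)))
  obtain ⟨j, hj⟩ : ∃ j, coord v j ≠ 0 := by
    by_contra h0
    push Not at h0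
    exact hne.2 ((Algebra.TensorProduct.comm k K A).injective
      (c.repr.injective (by ext i; simpa [coord] using h0 i)))
  refine mul_ne_zero hi hj (eq_zero_of_forall_point (k := k) fun φ => ?_)
  have h0 : evalPoint K φ u * evalPoint K φ v = 0 := by rw [← map_mul, huv, map_zero]
  rcases mul_eq_zero.1 h0 with h0 | h0
  · have := congrArg (fun f => f i) (key φ u)
    simp [h0] at this
    simp [← this]
  · have := congrArg (fun f => f j) (key φ v)
    simp [h0] at this
    simp [← this]

end Fermat.Agent.RelJac
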