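import Fermat.Agent.RelJac.DegreeOfModules
import Fermat.Prelude.Def_AlgebraicGeometry_RelPicardAlgEquivZeroCut
import Mathlib.AlgebraicGeometry.Geometrically.Integral

/-!
A module algebraically equivalent to zero has degree zero.
-/

noncomputable section

universe u

open CategoryTheory CategoryTheory.Limits AlgebraicGeometry TopologicalSpace NeronModelInfra
open AlgebraicGeometry.RelPicard

namespace Fermat.Agent.RelJac

open Sheaf (specOver)

/-- The source of a geometrically irreducible morphism to a point is connected. -/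
theorem preconnectedSpace_of_geometricallyIntegral {K : Type u} [Field K] {T : Scheme.{u}}
    (h : T ⟶ Spec (CommRingCat.of K)) [GeometricallyIntegral h] : PreconnectedSpace T := by
  have : Subsingleton (Spec (CommRingCat.of K)) := inferInstanceAs (Subsingleton (PrimeSpectrum K))
  have := GeometricallyIrreducible.irreducibleSpace_of_subsingleton h
  infer_instance

namespace CurveModel

variable {k : Type u} [Field k] {C : Scheme.{u}} {c : C ⟶ Spec (CommRingCat.of k)}
  {ε : SchemeHomOver (𝟙 (Spec (CommRingCat.of k))) c} (D : CurveModel c ε)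

/-- The family `C × (T over K) → (C × Spec K) × T`. -/
theorem degCls_eq_zero_of_isAlgEquivZero {K : Type u} [Field K] [Algebra k K]
    {L : (pullback c (specOver (k := k) K)).Modules} (hL : Scheme.Modules.IsInvertible L)
    (h : IsAlgEquivZero (pullback.snd c (specOver (k := k) K)) L) :
    Bundle.degCls (D.clsOf L hL) = 0 := by
  obtain ⟨T', h', hft, hgi, M, hM, t₀, t₁, ⟨e₀⟩, ⟨e₁⟩⟩ := h
  have : PreconnectedSpace T' := preconnectedSpace_of_geometricallyIntegral h'
  let a : pullback c (specOver (k := k) K) ⟶ Spec (CommRingCat.of K) :=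
    pullback.snd c (specOver (k := k) K)
  let Φ : pullback a h' ≅ pullback c (h' ≫ specOver (k := k) K) :=
    pullbackLeftPullbackSndIso c (specOver (k := k) K) h'
  let q : pullback c (specOver (k := k) K) ⟶ pullback a (𝟙 (Spec (CommRingCat.of K))) :=
    pullback.lift (𝟙 _) a (by rw [Category.id_comp, Category.comp_id])
  let N := (Scheme.Modules.pullback Φ.inv).obj M
  have hN : Scheme.Modules.IsInvertible N := hM.pullback Φ.inv
  let y : SchemeHomOver (𝟙 (Spec (CommRingCat.of K))) h' →
      SchemeHomOver (specOver (k := k) K) (h' ≫ specOver (k := k) K) := fun τ =>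
    ⟨τ.1, by rw [← Category.assoc, τ.2, Category.id_comp]⟩
  have hsq : ∀ τ, baseChangeSnd c (y τ) ≫ Φ.inv = q ≫ baseChangeSnd a τ := fun τ => by
    rw [Iso.comp_inv_eq]
    apply pullback.hom_ext <;>
      simp only [y, q, Φ, a, baseChangeSnd, Category.assoc, pullback.lift_fst, pullback.lift_snd,
        pullbackLeftPullbackSndIso_hom_fst, pullbackLeftPullbackSndIso_hom_snd,
        pullback.lift_fst_assoc, pullback.lift_snd_assoc, Category.comp_id, Category.id_comp]
  let i : ∀ τ, (Scheme.Modules.pullback (baseChangeSnd c (y τ))).obj N ≅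
      (Scheme.Modules.pullback q).obj ((Scheme.Modules.pullback (baseChangeSnd a τ)).obj M) :=
    fun τ => (Scheme.Modules.pullbackComp _ _).app M ≪≫
      (Scheme.Modules.pullbackCongr (hsq τ)).app M ≪≫
      ((Scheme.Modules.pullbackComp _ _).app M).symm
  have h0 : D.degAt hN (y t₀) = 0 := by
    unfold degAt
    rw [D.clsOf_congr _ (Scheme.Modules.isInvertible_unit _)
      (i t₀ ≪≫ (Scheme.Modules.pullback q).mapIso e₀ ≪≫ Scheme.Modules.pullbackUnitIso q),
      D.clsOf_unit, Bundle.degCls_one]
  have hq : q ≫ pullback.fst a (𝟙 (Spec (CommRingCat.of K))) = 𝟙 _ := pullback.lift_fst _ _ _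
  have h1 := D.degAt_eq_zero_of_connected hN (y t₀) h0 (y t₁)
  unfold degAt at h1
  rwa [D.clsOf_congr _ hL
    (i t₁ ≪≫ (Scheme.Modules.pullback q).mapIso e₁ ≪≫ (Scheme.Modules.pullbackComp _ _).app L ≪≫
      (Scheme.Modules.pullbackCongr hq).app L ≪≫ (Scheme.Modules.pullbackId _).app L)] at h1

/-- Fibrewise algebraic equivalence to zero gives degree zero at all algebraically closed points. -/
theorem degAt_eq_zero_of_fibrewise {T : Scheme.{u}} {t : T ⟶ Spec (CommRingCat.of k)}
    {M : RigidifiedLineBundle c ε t} (h : FibrewiseAlgEquivZero M) {K : Type u} [Field K]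
    [Algebra k K] (y : SchemeHomOver (specOver (k := k) K) t) : D.degAt M.isInvertible y = 0 := by
  let K' := AlgebraicClosure K
  let ψ : K →ₐ[k] K' := IsScalarTower.toAlgHom k K K'
  rw [← D.degAt_extend M.isInvertible ψ y]
  let y' : SchemeHomOver (specOver (k := k) K') t := postComp y (specHom ψ)
  have key := h K' y'.1
  let e : pullback c (specOver (k := k) K') ⟶ pullback (pullback.snd c t) y'.1 :=
    pullback.lift (baseChangeSnd c y') (pullback.snd c _) (by
      simp only [baseChangeSnd, pullback.lift_snd])
  have he : e ≫ fibreAt c t y'.1 = pullback.snd c (specOver (k := k) K') := pullback.lift_snd _ _ _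
  have hfst : e ≫ pullback.fst (pullback.snd c t) y'.1 = baseChangeSnd c y' :=
    pullback.lift_fst _ _ _
  exact D.degCls_eq_zero_of_isAlgEquivZero _
    ((key.pullback e he).of_iso ((Scheme.Modules.pullbackComp _ _).app M.L ≪≫
      (Scheme.Modules.pullbackCongr hfst).app M.L))

end CurveModel

end Fermat.Agent.RelJac
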