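import Fermat.Prelude.Def_AlgebraicGeometry_RelPicardAlgEquivZeroCut

/-!
A rigidified bundle on a geometrically integral base which is trivial over one rational point is
fibrewise algebraically equivalent to zero.
-/

noncomputable section

universe u

open CategoryTheory CategoryTheory.Limits AlgebraicGeometry NeronModelInfra
open AlgebraicGeometry.RelPicard

namespace Fermat.Agent.RelJac

variable {k : Type u} [Field k] {C P : Scheme.{u}} {c : C ⟶ Spec (CommRingCat.of k)}
  {ε : SchemeHomOver (𝟙 (Spec (CommRingCat.of k))) c} {f : P ⟶ Spec (CommRingCat.of k)}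

/-- Connect the fibre at a point with the fibre at the marked point through the base itself. -/
theorem fibrewiseAlgEquivZero_of_geometricallyIntegral [LocallyOfFiniteType f]
    [GeometricallyIntegral f] (M : RigidifiedLineBundle c ε f)
    (z : SchemeHomOver (𝟙 (Spec (CommRingCat.of k))) f)
    (hz : Nonempty ((M.pullbackAlong z).L ≅
      (RigidifiedLineBundle.unit (c := c) (ε := ε) (𝟙 _)).L)) :
    FibrewiseAlgEquivZero M := by
  intro K _ _ s
  obtain ⟨ez⟩ := hz
  let sK : Spec (CommRingCat.of K) ⟶ Spec (CommRingCat.of k) := s ≫ f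
  let a := fibreAt c f s
  let h : pullback f sK ⟶ Spec (CommRingCat.of K) := pullback.snd f sK
  let t₁ : SchemeHomOver (𝟙 (Spec (CommRingCat.of K))) h :=
    ⟨pullback.lift s (𝟙 _) (by rw [Category.id_comp]), pullback.lift_snd _ _ _⟩
  let t₀ : SchemeHomOver (𝟙 (Spec (CommRingCat.of K))) h :=
    ⟨pullback.lift (sK ≫ z.1) (𝟙 _) (by rw [Category.assoc, z.2, Category.comp_id, Category.id_comp]),
      pullback.lift_snd _ _ _⟩
  have hsnd : a ≫ sK = (pullback.fst (pullback.snd c f) s ≫ pullback.fst c f) ≫ c := by
    simp only [a, sK, fibreAt, Category.assoc, pullback.condition]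
    rw [← reassoc_of% (pullback.condition (f := pullback.snd c f) (g := s))]
  let π : pullback a h ⟶ pullback c f :=
    pullback.lift (pullback.fst a h ≫ pullback.fst (pullback.snd c f) s ≫ pullback.fst c f)
      (pullback.snd a h ≫ pullback.fst f sK) (by
        simp only [Category.assoc] at hsnd ⊢
        rw [← hsnd, pullback.condition (f := f) (g := sK),
          ← reassoc_of% (pullback.condition (f := a) (g := h))])
  let ζ : pullback a (𝟙 (Spec (CommRingCat.of K))) ⟶ pullback c (𝟙 (Spec (CommRingCat.of k))) :=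
    pullback.lift (pullback.fst a (𝟙 _) ≫ pullback.fst (pullback.snd c f) s ≫ pullback.fst c f)
      (pullback.snd a (𝟙 _) ≫ sK) (by
        simp only [Category.assoc] at hsnd ⊢
        rw [← hsnd, Category.comp_id,
          ← reassoc_of% (pullback.condition (f := a) (g := 𝟙 (Spec (CommRingCat.of K))))])
  have hbf : ∀ τ : SchemeHomOver (𝟙 (Spec (CommRingCat.of K))) h,
      baseChangeSnd a τ ≫ pullback.fst a h = pullback.fst a (𝟙 _) := fun τ =>
    (pullback.lift_fst _ _ _).trans (Category.comp_id _)
  have hbs : ∀ τ : SchemeHomOver (𝟙 (Spec (CommRingCat.of K))) h,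
      baseChangeSnd a τ ≫ pullback.snd a h = pullback.snd a (𝟙 _) ≫ τ.1 := fun τ =>
    pullback.lift_snd _ _ _
  have hπf : ∀ τ : SchemeHomOver (𝟙 (Spec (CommRingCat.of K))) h,
      baseChangeSnd a τ ≫ π ≫ pullback.fst c f =
        pullback.fst a (𝟙 _) ≫ pullback.fst (pullback.snd c f) s ≫ pullback.fst c f := fun τ => by
    rw [show π ≫ pullback.fst c f = _ from pullback.lift_fst _ _ _, ← Category.assoc, hbf]
  have hπs : ∀ τ : SchemeHomOver (𝟙 (Spec (CommRingCat.of K))) h,
      baseChangeSnd a τ ≫ π ≫ pullback.snd c f =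
        pullback.snd a (𝟙 _) ≫ τ.1 ≫ pullback.fst f sK := fun τ => by
    rw [show π ≫ pullback.snd c f = _ from pullback.lift_snd _ _ _, ← Category.assoc, hbs,
      Category.assoc]
  have h₀ : baseChangeSnd a t₀ ≫ π = ζ ≫ baseChangeSnd c z := by
    apply pullback.hom_ext
    · rw [Category.assoc, hπf, Category.assoc,
        show baseChangeSnd c z ≫ pullback.fst c f = _ from pullback.lift_fst _ _ _, Category.comp_id]
      exact (pullback.lift_fst _ _ _).symm
    · rw [Category.assoc, hπs, Category.assoc,
        show baseChangeSnd c z ≫ pullback.snd c f = _ from pullback.lift_snd _ _ _,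
        show t₀.1 ≫ pullback.fst f sK = _ from pullback.lift_fst _ _ _, ← Category.assoc (f := ζ),
        show ζ ≫ pullback.snd c (𝟙 _) = _ from pullback.lift_snd _ _ _]
      simp only [sK, Category.assoc]
  have h₁ : baseChangeSnd a t₁ ≫ π =
      pullback.fst a (𝟙 _) ≫ pullback.fst (pullback.snd c f) s := by
    apply pullback.hom_ext
    · rw [Category.assoc, hπf, Category.assoc]
    · rw [Category.assoc, hπs, Category.assoc,
        show t₁.1 ≫ pullback.fst f sK = _ from pullback.lift_fst _ _ _,
        pullback.condition (f := pullback.snd c f) (g := s), ← Category.assoc]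
      refine congrArg (· ≫ s) ?_
      exact ((pullback.condition (f := a) (g := 𝟙 (Spec (CommRingCat.of K)))).trans
        (Category.comp_id _)).symm
  refine ⟨pullback f sK, h, inferInstance, inferInstance,
    (Scheme.Modules.pullback π).obj M.L, M.isInvertible.pullback π, t₀, t₁, ⟨?_⟩, ⟨?_⟩⟩
  · exact (Scheme.Modules.pullbackComp _ _).app M.L ≪≫
      (Scheme.Modules.pullbackCongr h₀).app M.L ≪≫
      ((Scheme.Modules.pullbackComp _ _).app M.L).symm ≪≫
      (Scheme.Modules.pullback ζ).mapIso ez ≪≫ Scheme.Modules.pullbackUnitIso ζ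
  · exact (Scheme.Modules.pullbackComp _ _).app M.L ≪≫
      (Scheme.Modules.pullbackCongr h₁).app M.L ≪≫
      ((Scheme.Modules.pullbackComp _ _).app M.L).symm

end Fermat.Agent.RelJac
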