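import Mathlib.RingTheory.IsTensorProduct
import Mathlib.RingTheory.TensorProduct.Basic

/-!
Algebraic model of a scheme over `R` covered by two affine opens with affine intersection.
-/

open scoped TensorProduct

namespace Fermat.Agent.RelJac

universe u

/-- Two `R`-algebras `P`, `Q` (the two affine charts) mapping to a common one `L` (the overlap). -/
structure TwoChart (R : Type u) [CommRing R] where
  P : Type u
  Q : Type u
  L : Type u
  [commRingP : CommRing P]
  [commRingQ : CommRing Q]
  [commRingL : CommRing L]
  [algRP : Algebra R P]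
  [algRQ : Algebra R Q]
  [algRL : Algebra R L]
  [algPL : Algebra P L]
  [algQL : Algebra Q L]
  [towerP : IsScalarTower R P L]
  [towerQ : IsScalarTower R Q L]

attribute [instance] TwoChart.commRingP TwoChart.commRingQ TwoChart.commRingL TwoChart.algRP
  TwoChart.algRQ TwoChart.algRL TwoChart.algPL TwoChart.algQL TwoChart.towerP TwoChart.towerQ

namespace TwoChart

variable {R R' : Type u} [CommRing R] [CommRing R']

/-- `T'` lies over `T`: compatible ring maps on the three rings. -/
class Over (T : TwoChart R) (T' : TwoChart R') where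
  algP : Algebra T.P T'.P
  algQ : Algebra T.Q T'.Q
  algL : Algebra T.L T'.L
  commP : ∀ p : T.P, algebraMap T.L T'.L (algebraMap T.P T.L p) =
    algebraMap T'.P T'.L (algebraMap T.P T'.P p)
  commQ : ∀ q : T.Q, algebraMap T.L T'.L (algebraMap T.Q T.L q) =
    algebraMap T'.Q T'.L (algebraMap T.Q T'.Q q)

attribute [instance_reducible, instance] Over.algP Over.algQ Over.algL

section BaseChange

variable (R') (T : TwoChart R) [Algebra R R']

noncomputable instance algebraTensorP : Algebra (R' ⊗[R] T.P) (R' ⊗[R] T.L) :=
  (Algebra.TensorProduct.map (AlgHom.id R' R') (IsScalarTower.toAlgHom R T.P T.L)).toAlgebra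

noncomputable instance algebraTensorQ : Algebra (R' ⊗[R] T.Q) (R' ⊗[R] T.L) :=
  (Algebra.TensorProduct.map (AlgHom.id R' R') (IsScalarTower.toAlgHom R T.Q T.L)).toAlgebra

instance towerTensorP : IsScalarTower R' (R' ⊗[R] T.P) (R' ⊗[R] T.L) :=
  IsScalarTower.of_algebraMap_eq' (RingHom.ext fun r => by
    simp [RingHom.algebraMap_toAlgebra, Algebra.TensorProduct.algebraMap_apply])

instance towerTensorQ : IsScalarTower R' (R' ⊗[R] T.Q) (R' ⊗[R] T.L) :=
  IsScalarTower.of_algebraMap_eq' (RingHom.ext fun r => by
    simp [RingHom.algebraMap_toAlgebra, Algebra.TensorProduct.algebraMap_apply])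

/-- Base change of the two charts along `R → R'`; the three rings are `R' ⊗ P`, etc. -/
noncomputable abbrev baseChange : TwoChart R' where
  P := R' ⊗[R] T.P
  Q := R' ⊗[R] T.Q
  L := R' ⊗[R] T.L

end BaseChange

/-- Restriction from the first chart of a base change on pure tensors. -/
theorem baseChange_algebraMapP_tmul (T : TwoChart R) [Algebra R R'] (r : R') (p : T.P) :
    algebraMap (R' ⊗[R] T.P) (R' ⊗[R] T.L) (r ⊗ₜ p) = r ⊗ₜ algebraMap T.P T.L p :=
  rfl

/-- Restriction from the second chart of a base change on pure tensors. -/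
theorem baseChange_algebraMapQ_tmul (T : TwoChart R) [Algebra R R'] (r : R') (q : T.Q) :
    algebraMap (R' ⊗[R] T.Q) (R' ⊗[R] T.L) (r ⊗ₜ q) = r ⊗ₜ algebraMap T.Q T.L q :=
  rfl

/-- Exchange of the roles of the two charts. -/
abbrev swap (T : TwoChart R) : TwoChart R where
  P := T.Q
  Q := T.P
  L := T.L

end TwoChart

end Fermat.Agent.RelJac
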