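import Mathlib.RingTheory.Localization.Away.Basic
import Mathlib.RingTheory.Localization.BaseChange
import Mathlib.LinearAlgebra.TensorProduct.Basis
import Mathlib.RingTheory.TensorProduct.Free
import Fermat.Agent.RelJac.Chart

/-!
Two-chart spaces which are finite over the projective line: `P` is free over `R[x]`, `Q` is free
over `R[y]`, and both overlap rings are the localisations at `x`, resp. `y = 1/x`.
-/

open scoped TensorProduct

namespace Fermat.Agent.RelJac

universe u

variable {R : Type u} [CommRing R]

/-- A two-chart space finite flat over the projective line over `R`. -/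
class CurveLike (T : TwoChart R) where
  x : T.P
  y : T.Q
  x_mul_y : algebraMap T.P T.L x * algebraMap T.Q T.L y = 1
  awayP : IsLocalization.Away x T.L
  awayQ : IsLocalization.Away y T.L
  freeL : Module.Free R T.L
  ιP : Type
  finP : Fintype ιP
  basisP : Module.Basis (ιP × ℕ) R T.P
  basisP_succ : ∀ i m, basisP (i, m + 1) = x * basisP (i, m)
  ιQ : Type
  finQ : Fintype ιQ
  basisQ : Module.Basis (ιQ × ℕ) R T.Q
  basisQ_succ : ∀ i m, basisQ (i, m + 1) = y * basisQ (i, m)

attribute [instance] CurveLike.awayP CurveLike.awayQ CurveLike.freeL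
attribute [instance_reducible, instance] CurveLike.finP CurveLike.finQ

namespace CurveLike

variable (T : TwoChart R) [CurveLike T]

instance freeP : Module.Free R T.P := Module.Free.of_basis (basisP (T := T))

instance freeQ : Module.Free R T.Q := Module.Free.of_basis (basisQ (T := T))

/-- `x` as a unit of the overlap ring. -/
noncomputable def unitX : T.Lˣ where
  val := algebraMap T.P T.L (x (T := T))
  inv := algebraMap T.Q T.L (y (T := T))
  val_inv := x_mul_y
  inv_val := by rw [mul_comm]; exact x_mul_y

/-- A basis `(i, m) ↦ e_i x^m`. -/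
theorem basisP_eq (i : ιP (T := T)) (m : ℕ) :
    basisP (T := T) (i, m) = x (T := T) ^ m * basisP (T := T) (i, 0) := by
  induction m with
  | zero => simp
  | succ m ih => rw [basisP_succ, ih, pow_succ']; ring

/-- The basis of the second chart, by powers of `y`. -/
theorem basisQ_eq (i : ιQ (T := T)) (m : ℕ) :
    basisQ (T := T) (i, m) = y (T := T) ^ m * basisQ (T := T) (i, 0) := by
  induction m with
  | zero => simp
  | succ m ih => rw [basisQ_succ, ih, pow_succ']; ring

end CurveLike

/-- An element of a free algebra acting on a basis `(i, m)` by `(i, m) ↦ (i, m + 1)`. -/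
structure ShiftBasis (R : Type u) [CommRing R] (A : Type u) [CommRing A] [Algebra R A] (x : A)
    (ι : Type) where
  basis : Module.Basis (ι × ℕ) R A
  basis_succ : ∀ i m, basis (i, m + 1) = x * basis (i, m)

namespace ShiftBasis

variable {A : Type u} [CommRing A] [Algebra R A] {x : A} {ι : Type} (b : ShiftBasis R A x ι)

theorem repr_x_mul_succ (a : A) (i : ι) (m : ℕ) :
    b.basis.repr (x * a) (i, m + 1) = b.basis.repr a (i, m) := by
  classical
  suffices (Finsupp.lapply (i, m + 1)).comp (b.basis.repr.toLinearMap.comp (LinearMap.mulLeft R x)) =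
      (Finsupp.lapply (R := R) (i, m)).comp b.basis.repr.toLinearMap from LinearMap.congr_fun this a
  refine b.basis.ext fun ⟨j, l⟩ => ?_
  simp [← b.basis_succ, Finsupp.single_apply]

/-- Multiplication by a power of `x` shifts coordinates. -/
theorem repr_x_pow_mul (a : A) (i : ι) (m n : ℕ) :
    b.basis.repr (x ^ n * a) (i, m + n) = b.basis.repr a (i, m) := by
  induction n with
  | zero => simp
  | succ n ih => rw [pow_succ', mul_assoc, ← Nat.add_assoc, b.repr_x_mul_succ, ih]

include b in
/-- The coordinate is a regular element. -/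
theorem isRegular : IsRegular x := by
  have h : ∀ a, x * a = 0 → a = 0 := fun a ha => by
    refine b.basis.repr.injective (Finsupp.ext fun ⟨i, m⟩ => ?_)
    rw [← b.repr_x_mul_succ, ha, map_zero, Finsupp.coe_zero, Pi.zero_apply, Pi.zero_apply]
  exact isRegular_iff_eq_zero_of_mul.2 ⟨h, fun a ha => h a (by rwa [mul_comm])⟩

end ShiftBasis

namespace CurveLike

variable (T : TwoChart R) [CurveLike T]

/-- The shift basis of the first chart. -/
noncomputable def shiftP : ShiftBasis R T.P (x (T := T)) (ιP (T := T)) := ⟨basisP, basisP_succ⟩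

/-- The shift basis of the second chart. -/
noncomputable def shiftQ : ShiftBasis R T.Q (y (T := T)) (ιQ (T := T)) := ⟨basisQ, basisQ_succ⟩

/-- Restriction of functions from the first chart is injective. -/
theorem algebraMapP_injective : Function.Injective (algebraMap T.P T.L) :=
  IsLocalization.injective T.L (M := Submonoid.powers (x (T := T))) <| by
    rintro _ ⟨n, rfl⟩
    exact ((shiftP T).isRegular.pow n).mem_nonZeroDivisors

/-- Restriction of functions from the second chart is injective. -/
theorem algebraMapQ_injective : Function.Injective (algebraMap T.Q T.L) :=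
  IsLocalization.injective T.L (M := Submonoid.powers (y (T := T))) <| by
    rintro _ ⟨n, rfl⟩
    exact ((shiftQ T).isRegular.pow n).mem_nonZeroDivisors

theorem isLocalizationAway_tensor {A B : Type u} [CommRing A] [CommRing B] [Algebra R A]
    [Algebra R B] [Algebra A B] [IsScalarTower R A B] (a : A) [IsLocalization.Away a B]
    (S : Type u) [CommRing S] [Algebra R S] [Algebra (S ⊗[R] A) (S ⊗[R] B)]
    [IsScalarTower S (S ⊗[R] A) (S ⊗[R] B)]
    (H : ∀ x : A, algebraMap (S ⊗[R] A) (S ⊗[R] B) (1 ⊗ₜ x) = 1 ⊗ₜ algebraMap A B x) :
    IsLocalization.Away ((1 : S) ⊗ₜ[R] a) (S ⊗[R] B) := by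
  have h := IsLocalization.tensorProduct_tensorProduct_right R S (Submonoid.powers a) B
    (RingHom.ext fun x => H x)
  rwa [Submonoid.map_powers] at h

/-- The base change of a curve-like space is curve-like. -/
noncomputable instance baseChange (R' : Type u) [CommRing R'] [Algebra R R'] :
    CurveLike (T.baseChange R') where
  x := 1 ⊗ₜ x
  y := 1 ⊗ₜ y
  x_mul_y := by
    rw [TwoChart.baseChange_algebraMapP_tmul, TwoChart.baseChange_algebraMapQ_tmul,
      Algebra.TensorProduct.tmul_mul_tmul, x_mul_y, mul_one, Algebra.TensorProduct.one_def]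
  awayP := isLocalizationAway_tensor (x (T := T)) R' fun p => T.baseChange_algebraMapP_tmul 1 p
  awayQ := isLocalizationAway_tensor (y (T := T)) R' fun q => T.baseChange_algebraMapQ_tmul 1 q
  freeL := Module.Free.tensor
  ιP := ιP (T := T)
  finP := finP
  basisP := (basisP (T := T)).baseChange R'
  basisP_succ i m := by
    simp [Module.Basis.baseChange_apply, basisP_succ]
  ιQ := ιQ (T := T)
  finQ := finQ
  basisQ := (basisQ (T := T)).baseChange R'
  basisQ_succ i m := by
    simp [Module.Basis.baseChange_apply, basisQ_succ]

end CurveLike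

end Fermat.Agent.RelJac
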