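import Mathlib.AlgebraicGeometry.Pullbacks
import Mathlib.AlgebraicGeometry.OpenImmersion
import Mathlib.RingTheory.DedekindDomain.Basic
import Fermat.Prelude.Def_AlgebraicGeometry_NeronModelPropertyBundleCarrier
import Fermat.Agent.RelJac.CurveLike
import Fermat.Agent.RelJac.DomainTensor

/-!
The data extracted from a curve: two affine charts, finite over the two standard charts of the
projective line, with the marked point in the first one.
-/

open CategoryTheory AlgebraicGeometry NeronModelInfra

namespace Fermat.Agent.RelJac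

universe u

/-- A model of the curve `c` pointed by `ε` by a curve-like two-chart space. -/
structure CurveModel {k : Type u} [Field k] {C : Scheme.{u}} (c : C ⟶ Spec (CommRingCat.of k))
    (ε : SchemeHomOver (𝟙 (Spec (CommRingCat.of k))) c) where
  T : TwoChart.{u} k
  [curveLike : CurveLike T]
  [domainP : IsDomain T.P]
  [domainQ : IsDomain T.Q]
  [dedekindP : IsDedekindDomain T.P]
  [dedekindQ : IsDedekindDomain T.Q]
  [finiteTypeP : Algebra.FiniteType k T.P]
  [finiteTypeQ : Algebra.FiniteType k T.Q]
  jP : Spec (CommRingCat.of T.P) ⟶ C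
  jQ : Spec (CommRingCat.of T.Q) ⟶ C
  [isOpenImmersionP : IsOpenImmersion jP]
  [isOpenImmersionQ : IsOpenImmersion jQ]
  jP_over : jP ≫ c = Spec.map (CommRingCat.ofHom (algebraMap k T.P))
  jQ_over : jQ ≫ c = Spec.map (CommRingCat.ofHom (algebraMap k T.Q))
  cover : Set.range jP.base ∪ Set.range jQ.base = Set.univ
  isPullback : IsPullback (Spec.map (CommRingCat.ofHom (algebraMap T.P T.L)))
    (Spec.map (CommRingCat.ofHom (algebraMap T.Q T.L))) jP jQ
  e : T.P →ₐ[k] k
  e_spec : Spec.map (CommRingCat.ofHom e.toRingHom) ≫ jP = ε.1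
  e_x : e (CurveLike.x (T := T)) = 0

attribute [instance] CurveModel.curveLike CurveModel.domainP CurveModel.domainQ
  CurveModel.dedekindP CurveModel.dedekindQ CurveModel.finiteTypeP CurveModel.finiteTypeQ
  CurveModel.isOpenImmersionP CurveModel.isOpenImmersionQ

end Fermat.Agent.RelJac
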