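import Fermat.Agent.RelJac.Representing
import Fermat.Agent.RelJac.AlgEquivZero
import Fermat.Agent.RelJac.AlgEquivZeroOfConnected
import Fermat.Prelude.Def_AlgebraicGeometry_RepresentsRelSubPic

/-!
A representation of normalised degree zero classes represents the relative Picard functor cut out
by algebraic equivalence to zero.
-/

noncomputable section

universe u

open CategoryTheory CategoryTheory.Limits AlgebraicGeometry NeronModelInfra GoodReductionJacobian
  Opposite
open AlgebraicGeometry.RelPicard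

namespace Fermat.Agent.RelJac

open Sheaf (specOver)

namespace CurveModel

variable {k : Type u} [Field k] [IsAlgClosed k] {C : Scheme.{u}}
  {c : C ⟶ Spec (CommRingCat.of k)} {ε : SchemeHomOver (𝟙 (Spec (CommRingCat.of k))) c}
  {D : CurveModel c ε}

omit [IsAlgClosed k] in
theorem degAt_rigUnit {T : Scheme.{u}} (t : T ⟶ Spec (CommRingCat.of k)) (L : Type u) [Field L]
    [Algebra k L] (y : SchemeHomOver (specOver (k := k) L) t) :
    D.degAt (RigidifiedLineBundle.unit (c := c) (ε := ε) t).isInvertible y = 0 :=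
  D.degAt_unit y

/-- Description of the functor by rigidified bundles of degree zero. -/
structure PicClasses (Φ : PicFunctor D) where
  of : ∀ {T : Scheme.{u}} (t : T ⟶ Spec (CommRingCat.of k)) (M : RigidifiedLineBundle c ε t),
    (∀ (L : Type u) [Field L] [Algebra k L] (y : SchemeHomOver (specOver (k := k) L) t),
      D.degAt M.isInvertible y = 0) → Φ.F.obj (op T)
  str_of : ∀ {T : Scheme.{u}} (t : T ⟶ Spec (CommRingCat.of k)) (M : RigidifiedLineBundle c ε t) h,
    Φ.str (of t M h) = t
  exists_of : ∀ {T : Scheme.{u}} (t : T ⟶ Spec (CommRingCat.of k)) (η : Φ.F.obj (op T)),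
    Φ.str η = t → ∃ M h, of t M h = η
  of_eq_iff : ∀ {T : Scheme.{u}} (t : T ⟶ Spec (CommRingCat.of k))
    (M N : RigidifiedLineBundle c ε t) h h', of t M h = of t N h' ↔ Nonempty (M.L ≅ N.L)
  map_of : ∀ {T T' : Scheme.{u}} {t : T ⟶ Spec (CommRingCat.of k)}
    {t' : T' ⟶ Spec (CommRingCat.of k)} (g : SchemeHomOver t' t) (M : RigidifiedLineBundle c ε t)
    h h', Φ.F.map g.1.op (of t M h) = of t' (M.pullbackAlong g) h'
  el_one : Φ.el k 1 = of (specOver (k := k) k) (RigidifiedLineBundle.unit _)
    (degAt_rigUnit _)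

omit [IsAlgClosed k] in
/-- Degree zero at all points passes to inverse images. -/
theorem degAt_pullbackAlong {T T' : Scheme.{u}} {t : T ⟶ Spec (CommRingCat.of k)}
    {t' : T' ⟶ Spec (CommRingCat.of k)} (g : SchemeHomOver t' t) {M : RigidifiedLineBundle c ε t}
    (h : ∀ (L : Type u) [Field L] [Algebra k L] (y : SchemeHomOver (specOver (k := k) L) t),
      D.degAt M.isInvertible y = 0) (L : Type u) [Field L] [Algebra k L]
    (y : SchemeHomOver (specOver (k := k) L) t') :
    D.degAt (M.pullbackAlong g).isInvertible y = 0 :=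
  (D.degAt_pullback M.isInvertible g y).trans (h L _)

/-- A representation of the classes of degree zero represents the relative Picard functor cut out by
algebraic equivalence to zero. -/
theorem exists_designation {Φ : PicFunctor D} (R : PicFunctor.Representation Φ) (K : PicClasses Φ)
    (hsm : Smooth R.J.f) (hpr : IsProper R.J.f) (hgi : GeometricallyIntegral R.J.f)
    (hgc : GeometricallyConnected R.J.f) :
    ∃ Dsg : RelativePic0Designation k c,
      Nonempty (RepresentsRelSubPic c ε (algEquivZeroCut c ε) Dsg) ∧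
        Smooth Dsg.toBase ∧ IsProper Dsg.toBase ∧ GeometricallyConnected Dsg.toBase := by
  obtain ⟨P, hP, hPη⟩ := K.exists_of R.J.f (R.repr.homEquiv (𝟙 R.J.P)) R.str_univ
  have hs : specOver (k := k) k = 𝟙 _ := Spec.map_id _
  let z₀ : SchemeHomOver (specOver (k := k) k) R.J.f := (R.J.pts k).symm 1
  let z : SchemeHomOver (𝟙 (Spec (CommRingCat.of k))) R.J.f := ⟨z₀.1, z₀.2.trans hs⟩
  have cast : ∀ {t : Spec (CommRingCat.of k) ⟶ Spec (CommRingCat.of k)}
      (_ : specOver (k := k) k = t),
      K.of (specOver (k := k) k) (RigidifiedLineBundle.unit _) (degAt_rigUnit _) =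
        K.of t (RigidifiedLineBundle.unit _) (degAt_rigUnit _) := by
    rintro _ rfl
    rfl
  have hz : Nonempty ((P.pullbackAlong z).L ≅
      (RigidifiedLineBundle.unit (c := c) (ε := ε) (𝟙 _)).L) := by
    refine (K.of_eq_iff _ _ _ (degAt_pullbackAlong z hP) (degAt_rigUnit _)).1 ?_
    rw [← K.map_of z P hP, hPη, ← PicFunctor.homEquiv_eq_map]
    change R.repr.homEquiv z₀.1 = _
    rw [← R.el_pts, Equiv.apply_symm_apply, K.el_one, cast hs]
  have hmem : FibrewiseAlgEquivZero P :=
    fibrewiseAlgEquivZero_of_geometricallyIntegral P z hz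
  refine ⟨⟨R.J.P, R.J.f, z.1, z.2⟩, ⟨⟨P, hmem, fun {T} t M hM => ?_, hz⟩⟩, hsm, hpr, hgc⟩
  have hdeg : ∀ (L : Type u) [Field L] [Algebra k L] (y : SchemeHomOver (specOver (k := k) L) t),
      D.degAt M.isInvertible y = 0 := fun L _ _ y => D.degAt_eq_zero_of_fibrewise hM y
  have key : ∀ g : SchemeHomOver t R.J.f,
      Nonempty ((P.pullbackAlong g).L ≅ M.L) ↔ R.repr.homEquiv g.1 = K.of t M hdeg := fun g => by
    rw [PicFunctor.homEquiv_eq_map, ← hPη, K.map_of g P hP (degAt_pullbackAlong g hP),
      K.of_eq_iff]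
  have hg : R.repr.homEquiv.symm (K.of t M hdeg) ≫ R.J.f = t := by
    rw [← R.str_univ, ← Φ.str_map, ← PicFunctor.homEquiv_eq_map, Equiv.apply_symm_apply, K.str_of]
  refine ⟨⟨_, hg⟩, (key _).2 (R.repr.homEquiv.apply_symm_apply _), fun g hgM => Subtype.ext ?_⟩
  exact R.repr.homEquiv.injective
    (((key g).1 hgM).trans (R.repr.homEquiv.apply_symm_apply _).symm)

end CurveModel

end Fermat.Agent.RelJac
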