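import Fermat.Agent.RelJac.GraphBundle
import Mathlib.Algebra.Module.Submodule.Union

/-!
Over the base field every class of degree zero is, up to a fixed twist, a product of a fixed number
of point bundles of points of the overlap.
-/

open scoped TensorProduct

namespace Fermat.Agent.RelJac

universe u

open CurveLike (x y)

namespace Bundle

section Generic

variable {K : Type u} [Field K] {U : TwoChart K} [CurveLike U] {B : Bundle U}

omit [CurveLike U] in
/-- A section with values in the ideals defining a subbundle of the trivial bundle lifts. -/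
theorem mem_range_sectionsInclusion {J : Bundle U} (i : Hom J (trivial U))
    (hL : Function.Injective i.fL) {IP : Ideal U.P} {IQ : Ideal U.Q}
    (hIP : ∀ r ∈ IP, ∃ j, i.fP j = r) (hIQ : ∀ r ∈ IQ, ∃ j, i.fQ j = r) (s : B.H0)
    (hP : s.1.1 ∈ IP • (⊤ : Submodule U.P B.MP)) (hQ : s.1.2 ∈ IQ • (⊤ : Submodule U.Q B.MQ)) :
    s ∈ LinearMap.range (B.sectionsInclusion i) := by
  have hP' : IP • (⊤ : Submodule U.P B.MP) ≤ LinearMap.range (B.tensorInclusion i).fP := by
    refine Submodule.smul_le.2 fun r hr m _ => ?_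
    obtain ⟨j, hj⟩ := hIP r hr
    exact ⟨m ⊗ₜ j, by simp [tensorInclusion, hj]⟩
  have hQ' : IQ • (⊤ : Submodule U.Q B.MQ) ≤ LinearMap.range (B.tensorInclusion i).fQ := by
    refine Submodule.smul_le.2 fun r hr m _ => ?_
    obtain ⟨j, hj⟩ := hIQ r hr
    exact ⟨m ⊗ₜ j, by simp [tensorInclusion, hj]⟩
  obtain ⟨a, ha⟩ := hP' hP
  obtain ⟨b, hb⟩ := hQ' hQ
  have hmem : (a, b) ∈ (B.tensor J).H0 := by
    rw [mem_H0]
    have h1 : (B.tensorInclusion i).fL ((B.tensor J).ip a) =
        (B.tensorInclusion i).fL ((B.tensor J).iq b) :=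
      (((B.tensorInclusion i).commP a).trans (congrArg B.ip ha)).trans
        ((B.mem_H0.1 s.2).trans
          (((B.tensorInclusion i).commQ b).trans (congrArg B.iq hb)).symm)
    exact Module.Flat.lTensor_preserves_injective_linearMap (M := B.ML) i.fL hL
      ((TensorProduct.rid U.L B.ML).injective h1)
  exact ⟨⟨(a, b), hmem⟩, Subtype.ext (Prod.ext ha hb)⟩

/-- A rational fibre of an invertible module is spanned by any element not vanishing there. -/
theorem span_sup_ker_smul {A : Type u} [CommRing A] [Algebra K A] {M : Type u} [AddCommGroup M]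
    [Module A M] [Module.Invertible A M] [Module K M] [IsScalarTower K A M] (φ : A →ₐ[K] K) {s : M}
    (hs : s ∉ RingHom.ker φ.toRingHom • (⊤ : Submodule A M)) :
    Submodule.span A {s} ⊔ RingHom.ker φ.toRingHom • (⊤ : Submodule A M) = ⊤ := by
  refine eq_top_iff.2 fun z _ => ?_
  let F := fibreEquiv (M := M) φ
  have hs' : F (Submodule.Quotient.mk s) ≠ 0 := fun h0 => hs
    ((Submodule.Quotient.mk_eq_zero _).1 ((map_eq_zero_iff _ F.injective).1 h0))
  let c := F (Submodule.Quotient.mk z) / F (Submodule.Quotient.mk s)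
  have hz : z - c • s ∈ RingHom.ker φ.toRingHom • (⊤ : Submodule A M) := by
    rw [← Submodule.Quotient.mk_eq_zero, Submodule.Quotient.mk_sub, Submodule.Quotient.mk_smul,
      ← map_eq_zero_iff _ F.injective, map_sub, map_smul, smul_eq_mul, div_mul_cancel₀ _ hs',
      sub_self]
  have h := Submodule.add_mem_sup (Submodule.smul_of_tower_mem (Submodule.span A {s}) c
    (Submodule.mem_span_singleton_self s)) hz
  rwa [add_sub_cancel] at h

/-- Vanishing at a point of the overlap implies vanishing at its image in the first chart. -/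
theorem vanL_le_vanP (ψ : U.L →ₐ[K] K) :
    B.vanL ψ ≤ B.vanP (ψ.comp (IsScalarTower.toAlgHom K U.P U.L)) := by
  intro s hs
  rw [mem_vanP]
  by_contra hne
  have htop := span_sup_ker_smul _ hne
  set I := RingHom.ker ψ.toRingHom • (⊤ : Submodule U.L B.ML)
  have hip : ∀ m, B.ip m ∈ I := by
    intro m
    obtain ⟨a, ha, b, hb, rfl⟩ := Submodule.mem_sup.1 (htop.ge (Submodule.mem_top (x := m)))
    obtain ⟨c, rfl⟩ := Submodule.mem_span_singleton.1 ha
    rw [map_add, map_smul, ← algebraMap_smul U.L c (B.ip s.1.1)]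
    refine add_mem (Submodule.smul_mem _ _ hs) ?_
    refine Submodule.smul_induction_on hb (fun r hr n _ => ?_) fun u v hu hv => ?_
    · rw [map_smul, ← algebraMap_smul U.L r (B.ip n)]
      exact Submodule.smul_mem_smul hr Submodule.mem_top
    · rw [map_add]; exact add_mem hu hv
  obtain ⟨w, hw⟩ := exists_not_mem_fibre (M := B.ML) ψ
  obtain ⟨n, m, hm⟩ := B.exists_xpow_smul_eq_ip w
  exact hw (B.cancel_x_pow n w ▸ Submodule.smul_mem _ _ (hm ▸ hip m))

/-- Vanishing at a point of the overlap implies vanishing at its image in the second chart. -/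
theorem vanL_le_vanQ (ψ : U.L →ₐ[K] K) :
    B.vanL ψ ≤ B.vanQ (ψ.comp (IsScalarTower.toAlgHom K U.Q U.L)) := by
  intro s hs
  let s' : B.swap.H0 := ⟨(s.1.2, s.1.1), B.swap.mem_H0.2 (B.mem_H0.1 s.2).symm⟩
  have hs' : s' ∈ B.swap.vanL ψ := by
    rw [mem_vanL] at hs ⊢
    change B.iq s.1.2 ∈ _
    rw [← B.mem_H0.1 s.2]
    exact hs
  exact mem_vanQ.2 (mem_vanP.1 (vanL_le_vanP (B := B.swap) ψ hs'))

/-- A section spanning on the overlap and along `x = 0` spans on the first chart. -/
theorem span_eq_top_of_span_ip (m₀ : B.MP)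
    (hx : Submodule.span U.P {m₀} ⊔ Ideal.span {x (T := U)} • (⊤ : Submodule U.P B.MP) = ⊤)
    (hL : Submodule.span U.L {B.ip m₀} = ⊤) : Submodule.span U.P {m₀} = ⊤ := by
  set N := Submodule.span U.P {m₀}
  have hW : (⊤ : Submodule U.P (B.MP ⧸ N)) ≤ Ideal.span {x (T := U)} • ⊤ := by
    rintro w -
    obtain ⟨z, rfl⟩ := Submodule.Quotient.mk_surjective _ w
    obtain ⟨a, ha, b, hb, rfl⟩ := Submodule.mem_sup.1 (hx ▸ Submodule.mem_top (x := z))
    rw [Submodule.Quotient.mk_add, (Submodule.Quotient.mk_eq_zero N).2 ha, zero_add]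
    have h' := Submodule.mem_map_of_mem (f := N.mkQ) hb
    rw [Submodule.map_smul''] at h'
    exact Submodule.smul_mono le_rfl le_top h'
  obtain ⟨r, hr, hr0⟩ := Submodule.exists_sub_one_mem_and_smul_eq_zero_of_fg_of_le_smul
    (Ideal.span {x (T := U)}) ⊤ Module.Finite.fg_top hW
  obtain ⟨c, hc⟩ := Ideal.mem_span_singleton'.1 hr
  refine eq_top_iff.2 fun z _ => ?_
  obtain ⟨w, hw⟩ := Submodule.mem_span_singleton.1 (hL.ge (Submodule.mem_top (x := B.ip z)))
  obtain ⟨n, a, ha⟩ := IsLocalization.Away.surj (x (T := U)) w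
  have hz : x (T := U) ^ n • z ∈ N := by
    refine Submodule.mem_span_singleton.2 ⟨a, B.ip_injective ?_⟩
    rw [map_smul, map_smul, ← algebraMap_smul U.L a, ← ha, ← algebraMap_smul U.L (_ ^ n), map_pow,
      ← hw, smul_smul, mul_comm]
  have key : ∀ j : ℕ, Submodule.Quotient.mk z =
      (-c) ^ j • x (T := U) ^ j • (Submodule.Quotient.mk z : B.MP ⧸ N) := by
    intro j
    induction j with
    | zero => simp
    | succ j ih =>
      have h := hr0 ((Submodule.Quotient.mk z : B.MP ⧸ N)) Submodule.mem_top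
      rw [show r = 1 + c * x (T := U) from eq_add_of_sub_eq' hc.symm, add_smul, one_smul] at h
      have h1 : (Submodule.Quotient.mk z : B.MP ⧸ N) =
          (-c * x (T := U)) • Submodule.Quotient.mk z := by
        rw [neg_mul, neg_smul]
        exact eq_neg_of_add_eq_zero_left h
      conv_lhs => rw [ih, h1]
      rw [smul_smul, smul_smul, smul_smul]
      congr 1
      ring
  rw [← Submodule.Quotient.mk_eq_zero, key n, ← Submodule.Quotient.mk_smul,
    (Submodule.Quotient.mk_eq_zero N).2 hz, smul_zero]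

/-- A section spanning on the overlap and along `y = 0` spans on the second chart. -/
theorem span_eq_top_of_span_iq (m₀ : B.MQ)
    (hy : Submodule.span U.Q {m₀} ⊔ Ideal.span {y (T := U)} • (⊤ : Submodule U.Q B.MQ) = ⊤)
    (hL : Submodule.span U.L {B.iq m₀} = ⊤) : Submodule.span U.Q {m₀} = ⊤ :=
  span_eq_top_of_span_ip (U := U.swap) (B := B.swap) m₀ hy hL

omit [CurveLike U] in
/-- A section not spanning on the overlap vanishes at some point of it. -/
theorem exists_mem_vanL [IsAlgClosed K] [Algebra.FiniteType K U.L] (s : B.H0)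
    (h : Submodule.span U.L {B.ip s.1.1} ≠ ⊤) : ∃ ψ : U.L →ₐ[K] K, s ∈ B.vanL ψ := by
  set N := Submodule.span U.L {B.ip s.1.1}
  obtain ⟨m, hm, hle⟩ := Ideal.exists_le_maximal (N.colon (⊤ : Submodule U.L B.ML)) (by
    intro htop
    exact h (eq_top_iff.2 fun z _ => by
      simpa using Submodule.mem_colon.1 ((Ideal.eq_top_iff_one _).1 htop) z Submodule.mem_top))
  obtain ⟨ψ, rfl⟩ := exists_point_ker_eq (k := K) m
  refine ⟨ψ, mem_vanL.2 ?_⟩
  by_contra hne
  have hsup := span_sup_ker_smul (M := B.ML) ψ hne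
  have hW : (⊤ : Submodule U.L (B.ML ⧸ N)) ≤ RingHom.ker ψ.toRingHom • ⊤ := by
    rintro w -
    obtain ⟨z, rfl⟩ := Submodule.Quotient.mk_surjective _ w
    obtain ⟨a, ha, b, hb, rfl⟩ := Submodule.mem_sup.1 (hsup ▸ Submodule.mem_top (x := z))
    rw [Submodule.Quotient.mk_add, (Submodule.Quotient.mk_eq_zero N).2 ha, zero_add]
    have h' := Submodule.mem_map_of_mem (f := N.mkQ) hb
    rw [Submodule.map_smul''] at h'
    exact Submodule.smul_mono le_rfl le_top h'
  obtain ⟨r, hr, hr0⟩ := Submodule.exists_sub_one_mem_and_smul_eq_zero_of_fg_of_le_smul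
    (RingHom.ker ψ.toRingHom) ⊤ Module.Finite.fg_top hW
  have hrm : r ∈ RingHom.ker ψ.toRingHom := hle (Submodule.mem_colon.2 fun z _ => by
    have := hr0 (Submodule.Quotient.mk z) Submodule.mem_top
    rwa [← Submodule.Quotient.mk_smul, Submodule.Quotient.mk_eq_zero] at this)
  exact hm.ne_top ((Ideal.eq_top_iff_one _).2 (by simpa using sub_mem hrm hr))

end Generic

section Curve

variable {k : Type u} [Field k] [IsAlgClosed k] {T : TwoChart k} [CurveLike T]
  [IsDedekindDomain T.P] [IsDedekindDomain T.Q] [Algebra.FiniteType k T.P]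
  [Algebra.FiniteType k T.Q]

omit [IsAlgClosed k] in
theorem ratPoint_self {A : Type u} [CommRing A] [Algebra k A] (φ : A →ₐ[k] k) :
    ratPoint k φ = graphPoint φ :=
  Algebra.TensorProduct.ext' fun r a => by
    rw [ratPoint_tmul, graphPoint_tmul, smul_eq_mul, mul_comm]

omit [IsAlgClosed k] in
theorem graphIdeal_eq_ker_ratPoint {A : Type u} [CommRing A] [Algebra k A] (φ : A →ₐ[k] k) :
    graphIdeal φ = RingHom.ker (ratPoint k φ).toRingHom := by
  rw [ratPoint_self]; rfl

/-- The inclusion of a graph bundle into the trivial bundle. -/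
noncomputable def graphInclusion (φ : T.P →ₐ[k] k) :
    Hom (graph φ) (trivial (T.baseChange k)) where
  fP := (graphIdeal φ).subtype
  fQ := (comapQ (T.baseChange k) (graphL φ)).subtype
  fL := (graphL φ).subtype
  commP _ := rfl
  commQ _ := (one_mul _).symm

/-- The inclusion of a graph bundle into the trivial bundle. -/
noncomputable def graphQInclusion (φ : T.Q →ₐ[k] k) :
    Hom (graphQ φ) (trivial (T.baseChange k)) where
  fP := (comapQ (T.swap.baseChange k) (graphL (T := T.swap) φ)).subtype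
  fQ := (graphIdeal φ).subtype
  fL := (graphL (T := T.swap) φ).subtype
  commP _ := rfl
  commQ _ := (one_mul _).symm

omit [IsAlgClosed k] [IsDedekindDomain T.P] [IsDedekindDomain T.Q] [Algebra.FiniteType k T.P]
    [Algebra.FiniteType k T.Q] in
theorem one_mem_comapQ_graphL {R : Type u} [CommRing R] [Algebra k R] (φ : T.P →ₐ[k] R)
    (hφ : φ (x (T := T)) = 0) : (1 : R ⊗[k] T.Q) ∈ comapQ (T.baseChange R) (graphL φ) := by
  have h := graphS_mem φ
  rwa [graphS, hφ, TensorProduct.zero_tmul, sub_zero] at h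

/-- In large degree, no point over `x = 0` or `y = 0` is a base point. -/
theorem exists_deg_van_ne_top : ∃ d₀ : ℤ, ∀ B : Bundle (T.baseChange k), d₀ ≤ B.deg →
    0 < Module.finrank k B.H0 ∧
    (∀ φ : T.P →ₐ[k] k, φ (x (T := T)) = 0 → B.vanP (ratPoint k φ) ≠ ⊤) ∧
    ∀ φ : T.Q →ₐ[k] k, φ (y (T := T)) = 0 → B.vanQ (ratPoint k φ) ≠ ⊤ := by
  obtain ⟨_, _, _⟩ := isDomain_baseChange (T := T) k
  obtain ⟨d₁, hd₁⟩ := exists_deg_nonspecial (T := T.baseChange k)
  refine ⟨max (d₁ + 1) (1 - (trivial (T.baseChange k)).chi), fun B hB => ?_⟩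
  have hns : B.Nonspecial := hd₁ B (by omega)
  have hchi : 0 < B.chi := by rw [deg] at hB; omega
  have h0 := B.chi_of_nonspecial hns
  have key : ∀ (J : Bundle (T.baseChange k)) (i : Hom J (trivial (T.baseChange k)))
      (S : Submodule k B.H0), degCls J.cls = -1 → Function.Injective i.fP →
      S ≤ LinearMap.range (B.sectionsInclusion i) → S ≠ ⊤ := by
    intro J i S hJ hi hS htop
    rw [degCls_cls] at hJ
    have hc : (B.tensor J).chi = B.chi - 1 := by rw [B.chi_tensor J, hJ]; ring
    have hdeg : (B.tensor J).deg = B.deg - 1 := by rw [deg_tensor, hJ]; ring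
    have h1 := (B.tensor J).chi_of_nonspecial (hd₁ _ (by omega))
    have h2 : LinearMap.range (B.sectionsInclusion i) = ⊤ := eq_top_iff.2 (htop ▸ hS)
    have h3 := LinearMap.finrank_range_of_inj (B.sectionsInclusion_injective i hi)
    rw [h2, finrank_top] at h3
    omega
  refine ⟨by omega, fun φ hφ => ?_, fun φ hφ => ?_⟩
  · refine key _ (graphInclusion φ) _ (degCls_graph φ) Subtype.val_injective fun s hs => ?_
    refine mem_range_sectionsInclusion (graphInclusion φ) Subtype.val_injective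
      (IP := RingHom.ker (ratPoint k φ).toRingHom) (IQ := ⊤)
      (fun r hr => ⟨⟨r, (graphIdeal_eq_ker_ratPoint φ).ge hr⟩, rfl⟩)
      (fun r _ => ⟨⟨r, ?_⟩, rfl⟩) s (mem_vanP.1 hs) (by simp)
    simpa using Ideal.mul_mem_left _ r (one_mem_comapQ_graphL φ hφ)
  · refine key _ (graphQInclusion φ) _ (degCls_graphQ φ) Subtype.val_injective fun s hs => ?_
    refine mem_range_sectionsInclusion (graphQInclusion φ) Subtype.val_injective
      (IP := ⊤) (IQ := RingHom.ker (ratPoint k φ).toRingHom)
      (fun r _ => ⟨⟨r, ?_⟩, rfl⟩)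
      (fun r hr => ⟨⟨r, (graphIdeal_eq_ker_ratPoint φ).ge hr⟩, rfl⟩) s (by simp) (mem_vanQ.1 hs)
    simpa using Ideal.mul_mem_left _ r (one_mem_comapQ_graphL (T := T.swap) φ hφ)

/-- A nonzero section vanishing nowhere over `x = 0` and `y = 0`. -/
def IsClearSection (B : Bundle (T.baseChange k)) (s : B.H0) : Prop :=
  s ≠ 0 ∧ (∀ φ : T.P →ₐ[k] k, φ (x (T := T)) = 0 → s ∉ B.vanP (ratPoint k φ)) ∧
    ∀ φ : T.Q →ₐ[k] k, φ (y (T := T)) = 0 → s ∉ B.vanQ (ratPoint k φ)

/-- In large degree there are clear sections. -/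
theorem exists_deg_clearSection : ∃ d₀ : ℤ, ∀ B : Bundle (T.baseChange k), d₀ ≤ B.deg →
    ∃ s : B.H0, IsClearSection B s := by
  classical
  have hx0 : x (T := T) ≠ 0 := (CurveLike.shiftP T).isRegular.ne_zero
  have hy0 : y (T := T) ≠ 0 := (CurveLike.shiftQ T).isRegular.ne_zero
  have : IsDomain T.L := CurveLike.isDomain_L T
  have := CurveLike.finiteFibresP (T := T) _ hx0
  have := CurveLike.finiteFibresQ (T := T) _ hy0
  let ι := {φ : T.P →ₐ[k] k // φ (x (T := T)) = 0}
  let ι' := {φ : T.Q →ₐ[k] k // φ (y (T := T)) = 0}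
  have : Finite ι := Finite.of_injective
    (fun φ : ι => (Ideal.Quotient.liftₐ (Ideal.span {x (T := T)}) φ.1 fun a ha => by
      obtain ⟨r, rfl⟩ := Ideal.mem_span_singleton'.1 ha
      rw [map_mul, φ.2, mul_zero] : (T.P ⧸ Ideal.span {x (T := T)}) →ₐ[k] k))
    fun a b h => Subtype.ext (AlgHom.ext fun p => DFunLike.congr_fun h (Ideal.Quotient.mk _ p))
  have : Finite ι' := Finite.of_injective
    (fun φ : ι' => (Ideal.Quotient.liftₐ (Ideal.span {y (T := T)}) φ.1 fun a ha => by
      obtain ⟨r, rfl⟩ := Ideal.mem_span_singleton'.1 ha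
      rw [map_mul, φ.2, mul_zero] : (T.Q ⧸ Ideal.span {y (T := T)}) →ₐ[k] k))
    fun a b h => Subtype.ext (AlgHom.ext fun p => DFunLike.congr_fun h (Ideal.Quotient.mk _ p))
  obtain ⟨d₀, hd₀⟩ := exists_deg_van_ne_top (T := T)
  refine ⟨d₀, fun B hB => ?_⟩
  obtain ⟨hpos, hP, hQ⟩ := hd₀ B hB
  let p : Option (ι ⊕ ι') → Submodule k B.H0 := fun o =>
    o.elim ⊥ (Sum.elim (fun φ => B.vanP (ratPoint k φ.1)) fun φ => B.vanQ (ratPoint k φ.1))
  have hp : ∀ o, p o ≠ ⊤ := by
    rintro (_ | φ | φ)
    · intro h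
      have h0 : (⊥ : Submodule k B.H0) = ⊤ := h
      have h' := finrank_bot k B.H0
      rw [h0, finrank_top] at h'
      omega
    · exact hP φ.1 φ.2
    · exact hQ φ.1 φ.2
  obtain ⟨s, hs⟩ := Submodule.exists_forall_notMem_of_forall_ne_top p hp
  exact ⟨s, fun h => hs none (h ▸ zero_mem _), fun φ hφ => hs (some (.inl ⟨φ, hφ⟩)),
    fun φ hφ => hs (some (.inr ⟨φ, hφ⟩))⟩

/-- A bundle of degree `d` with a clear section is the inverse of `d` point bundles. -/
theorem exists_list_of_clearSection : ∀ (d : ℕ) (B : Bundle (T.baseChange k)), B.deg = d →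
    ∀ s : B.H0, IsClearSection B s →
      ∃ l : List (T.L →ₐ[k] k), l.length = d ∧
        B.cls * (l.map fun ψ => (pointBundle k ψ).cls).prod = 1 := by
  obtain ⟨_, _, _⟩ := isDomain_baseChange (T := T) k
  have : IsDomain T.L := CurveLike.isDomain_L T
  have : Algebra.FiniteType T.P T.L :=
    IsLocalization.finiteType_of_monoid_fg (Submonoid.powers (x (T := T))) T.L
  have : Algebra.FiniteType k T.L := Algebra.FiniteType.trans (S := T.P) inferInstance inferInstance
  have : Algebra.FiniteType k (k ⊗[k] T.L) :=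
    Algebra.FiniteType.equiv ‹Algebra.FiniteType k T.L› (Algebra.TensorProduct.lid k T.L).symm
  intro d
  induction d with
  | zero =>
    intro B hB s hs
    exact ⟨[], rfl, by simpa using cls_eq_one_of_deg_eq_zero hs.1 (by simpa using hB)⟩
  | succ d ih =>
    intro B hB s hs
    have := CurveLike.finiteFibresP (T := T) _ (CurveLike.shiftP T).isRegular.ne_zero
    have := CurveLike.finiteFibresQ (T := T) _ (CurveLike.shiftQ T).isRegular.ne_zero
    have hne : Submodule.span (k ⊗[k] T.L) {B.ip s.1.1} ≠ ⊤ := by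
      intro hL
      have hxP : Submodule.span (T.baseChange k).P {s.1.1} ⊔
          Ideal.span {x (T := T.baseChange k)} •
            (⊤ : Submodule (T.baseChange k).P B.MP) = ⊤ :=
        span_sup_smul_eq_top (x (T := T)) s.1.1 fun φ hφ => hs.2.1 φ hφ
      have hxQ : Submodule.span (T.baseChange k).Q {s.1.2} ⊔
          Ideal.span {y (T := T.baseChange k)} •
            (⊤ : Submodule (T.baseChange k).Q B.MQ) = ⊤ :=
        span_sup_smul_eq_top (y (T := T)) s.1.2 fun φ hφ => hs.2.2 φ hφ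
      have hP : Submodule.span (T.baseChange k).P {s.1.1} = ⊤ :=
        span_eq_top_of_span_ip (U := T.baseChange k) (B := B) s.1.1 hxP hL
      have hLQ : Submodule.span (T.baseChange k).L {B.iq s.1.2} = ⊤ := by
        rw [← B.mem_H0.1 s.2]
        exact hL
      have hQ : Submodule.span (T.baseChange k).Q {s.1.2} = ⊤ :=
        span_eq_top_of_span_iq (U := T.baseChange k) (B := B) s.1.2 hxQ hLQ
      have : Subsingleton (cokerP B s) := Submodule.Quotient.subsingleton_iff.2 hP
      have : Subsingleton (cokerQ B s) := Submodule.Quotient.subsingleton_iff.2 hQ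
      have : Subsingleton (cokerL B s) := Submodule.Quotient.subsingleton_iff.2 hL
      have := deg_eq_of_section hs.1
      simp [Module.finrank_zero_of_subsingleton, hB] at this
      omega
    obtain ⟨ψ', hψ'⟩ := exists_mem_vanL s hne
    let ψ : T.L →ₐ[k] k := (ψ'.restrictScalars k).comp Algebra.TensorProduct.includeRight
    have hψ : ratPoint k ψ = ψ' := by
      refine Algebra.TensorProduct.ext' fun r a => ?_
      rw [ratPoint_tmul, show r ⊗ₜ[k] a = r • ((1 : k) ⊗ₜ[k] a) by
        rw [TensorProduct.smul_tmul', smul_eq_mul, mul_one], map_smul, smul_eq_mul, smul_eq_mul,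
        mul_comm]
      rfl
    rw [← hψ] at hψ'
    let i := idealInclusion (pointIdeal_isBasisIdeal (R := k) ψ)
    obtain ⟨t, ht⟩ := mem_range_sectionsInclusion i Subtype.val_injective
      (IP := RingHom.ker ((ratPoint k ψ).comp
        (IsScalarTower.toAlgHom k (T.baseChange k).P (T.baseChange k).L)).toRingHom)
      (IQ := RingHom.ker ((ratPoint k ψ).comp
        (IsScalarTower.toAlgHom k (T.baseChange k).Q (T.baseChange k).L)).toRingHom)
      (fun r hr => ⟨⟨r, hr⟩, rfl⟩) (fun r hr => ⟨⟨r, hr⟩, rfl⟩) s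
      (mem_vanP.1 (vanL_le_vanP _ hψ')) (mem_vanQ.1 (vanL_le_vanQ _ hψ'))
    have ht' : IsClearSection (B.tensor (pointBundle k ψ)) t :=
      ⟨fun h => hs.1 (ht.symm.trans ((congrArg (B.sectionsInclusion i) h).trans (map_zero _))),
        fun φ hφ h => hs.2.1 φ hφ (ht ▸ B.sectionsInclusion_mem_vanP i _ h),
        fun φ hφ h => hs.2.2 φ hφ (ht ▸ B.sectionsInclusion_mem_vanQ i _ h)⟩
    have hdeg : (B.tensor (pointBundle k ψ)).deg = d := by
      have hpt : (pointBundle k ψ).deg = -1 :=
        (deg_bundle (pointIdeal_isBasisIdeal ψ)).trans (by norm_num)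
      rw [deg_tensor, hpt, hB]
      push_cast
      ring
    obtain ⟨l, hl, hprod⟩ := ih _ hdeg t ht'
    refine ⟨ψ :: l, by simp [hl], ?_⟩
    rw [List.map_cons, List.prod_cons, ← mul_assoc, ← cls_tensor]
    exact hprod

/-- Every class of degree zero is a fixed twist times a product of `d` point classes. -/
theorem exists_decomposition : ∃ n₀ d : ℕ, ∀ c : Cls (T.baseChange k), degCls c = 0 →
    ∃ l : List (T.L →ₐ[k] k), l.length = d ∧
      c * ((trivial (T.baseChange k)).twist n₀).cls *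
        (l.map fun ψ => (pointBundle k ψ).cls).prod = 1 := by
  obtain ⟨_, _, _⟩ := isDomain_baseChange (T := T) k
  obtain ⟨d₀, hd₀⟩ := exists_deg_clearSection (T := T)
  have hd : 1 ≤ CurveLike.mapDegree (T.baseChange k) := by
    rw [Nat.one_le_iff_ne_zero]
    intro h0
    have : IsEmpty (CurveLike.ιQ (T := T)) := Fintype.card_eq_zero_iff.1 h0
    exact not_subsingleton T.Q (CurveLike.basisQ (T := T)).repr.toEquiv.subsingleton
  refine ⟨d₀.toNat, d₀.toNat * CurveLike.mapDegree (T.baseChange k), fun c hc => ?_⟩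
  obtain ⟨B, hB⟩ := exists_cls_eq (c * ((trivial (T.baseChange k)).twist d₀.toNat).cls)
  have hdeg : B.deg = ((d₀.toNat * CurveLike.mapDegree (T.baseChange k) : ℕ) : ℤ) := by
    rw [← degCls_cls, hB, degCls_mul, hc, degCls_cls, deg, chi_twist]
    push_cast
    ring
  have hge : d₀.toNat ≤ d₀.toNat * CurveLike.mapDegree (T.baseChange k) :=
    Nat.le_mul_of_pos_right _ hd
  obtain ⟨s, hs⟩ := hd₀ B (by omega)
  obtain ⟨l, hl, hprod⟩ := exists_list_of_clearSection _ B hdeg s hs
  exact ⟨l, hl, hB ▸ hprod⟩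

end Curve

end Bundle

end Fermat.Agent.RelJac
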