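import Fermat.Agent.RelJac.PicScheme
import Fermat.Agent.RelJac.Assembly.GroupLaw

/-!
The group law of the model.
-/

noncomputable section

universe u

open CategoryTheory CategoryTheory.Limits AlgebraicGeometry NeronModelInfra GoodReductionJacobian
open AlgebraicGeometry.RelPicard

namespace Fermat.Agent.RelJac

open Sheaf (specOver)

namespace CurveModel.Pic0Model

variable {k : Type u} [Field k] [IsAlgClosed k] {C : Scheme.{u}}
  {c : C ⟶ Spec (CommRingCat.of k)} {ε : SchemeHomOver (𝟙 (Spec (CommRingCat.of k))) c}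
  {D : CurveModel c ε} (J : Pic0Model D)

/-- The group law inducing the multiplication of classes. -/
theorem exists_groupLaw : ∃ G : RelativeGroupLaw k J.f, G.IsCommutative ∧
    (∀ (R : Type u) [CommRing R] [Algebra k R] (x y : SchemeHomOver (specOver (k := k) R) J.f),
      J.pts R (G.mul (specOver (k := k) R) x y) = J.pts R x * J.pts R y) ∧
    ∀ (R : Type u) [CommRing R] [Algebra k R], J.pts R (G.one (specOver (k := k) R)) = 1 := by
  obtain ⟨G, hmul, hone, -, hcomm⟩ := exists_relativeGroupLaw_of_affine J.f
    (fun R _ _ => J.mulPts R) (fun R _ _ => J.onePts R) (fun R _ _ => J.invPts R)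
    (fun R _ _ x y z => J.mulPts_assoc x y z) (fun R _ _ x => J.onePts_mul x)
    (fun R _ _ x => J.invPts_mul x) (fun R S _ _ _ _ φ x y => J.mulPts_natural φ x y)
  refine ⟨G, hcomm fun R _ _ x y => ?_, fun R _ _ x y => ?_, fun R _ _ => ?_⟩
  · exact congrArg (J.pts R).symm (mul_comm _ _)
  · rw [hmul R x y]
    exact Equiv.apply_symm_apply _ _
  · rw [hone R]
    exact Equiv.apply_symm_apply _ _

end CurveModel.Pic0Model

end Fermat.Agent.RelJac
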