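import Fermat.Agent.RelJac.CurveClasses
import Fermat.Agent.RelJac.Decompose
import Fermat.Agent.RelJac.PicGroup

/-!
Properness and geometric integrality of the model from the decomposition of rational classes into
point classes.
-/

noncomputable section

universe u

open CategoryTheory CategoryTheory.Limits AlgebraicGeometry NeronModelInfra GoodReductionJacobian
open AlgebraicGeometry.RelPicard

namespace Fermat.Agent.RelJac

open Sheaf (specOver)

theorem list_prod_map_inv_mul {α G : Type*} [CommGroup G] (f : α → G) (δ : G) (l : List α) :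
    (l.map fun a => (f a)⁻¹ * δ).prod = (l.map f).prod⁻¹ * δ ^ l.length := by
  induction l with
  | nil => simp
  | cons a l ih =>
    simp only [List.map_cons, List.prod_cons, List.length_cons, ih, mul_inv, pow_succ]
    ac_rfl

namespace CurveModel.Pic0Model

variable {k : Type u} [Field k] [IsAlgClosed k] {C : Scheme.{u}}
  {c : C ⟶ Spec (CommRingCat.of k)} {ε : SchemeHomOver (𝟙 (Spec (CommRingCat.of k))) c}
  {D : CurveModel c ε} (J : Pic0Model D)

theorem coe_pts_mulTuple (G : RelativeGroupLaw k J.f)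
    (hmul : ∀ x y : SchemeHomOver (specOver (k := k) k) J.f,
      J.pts k (G.mul _ x y) = J.pts k x * J.pts k y)
    (hone : J.pts k (G.one (specOver (k := k) k)) = 1) :
    ∀ {n : ℕ} (x : Fin n → SchemeHomOver (specOver (k := k) k) J.f),
      J.pts k (mulTuple G x) = ∏ i, J.pts k (x i)
  | 0, x => by simp [mulTuple, hone]
  | n + 1, x => by
    rw [mulTuple, hmul, coe_pts_mulTuple G hmul hone, Fin.prod_univ_castSucc]
    rfl

/-- The model of the Picard functor is proper and geometrically integral: the decomposition of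
rational classes into point classes makes it a quotient of a power of the curve. -/
theorem isProper_pic0 [IsProper c] [IsIntegral C] :
    IsProper J.f ∧ GeometricallyIntegral J.f ∧ GeometricallyConnected J.f := by
  obtain ⟨n₀, d, hdec⟩ := Bundle.exists_decomposition (T := D.T)
  obtain ⟨G, -, hmul, hone⟩ := J.exists_groupLaw
  obtain ⟨ψ₀, uP, uQ, hagree, huP⟩ := D.exists_curve_classes
  obtain ⟨j, hj⟩ := J.exists_curveMap uP uQ hagree
  let δ : Bundle.Cls (D.T.baseChange k) := (pointBundle k ψ₀).cls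
  let σ : Bundle.Cls (D.T.baseChange k) := ((Bundle.trivial (D.T.baseChange k)).twist n₀).cls
  have hval : ∀ x : D.pic0 k, ∀ l : List (D.T.L →ₐ[k] k), l.length = d →
      x.1 * σ * (l.map fun ψ => (pointBundle k ψ).cls).prod = 1 →
      x.1 = (l.map fun ψ => (pointBundle k ψ).cls⁻¹ * δ).prod * (σ⁻¹ * δ⁻¹ ^ d) := by
    intro x l hl h
    rw [list_prod_map_inv_mul, hl, eq_inv_of_mul_eq_one_left ((mul_assoc _ _ _).symm.trans h)]
    rw [mul_inv_rev, inv_pow, mul_assoc, mul_comm (δ ^ d), mul_assoc σ⁻¹, inv_mul_cancel, mul_one]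
  -- the constant point
  obtain ⟨l₁, hl₁, hl₁'⟩ := hdec 1 Bundle.degCls_one
  let c₀ : D.pic0 k := (⟨σ⁻¹ * δ⁻¹ ^ d, by
    have h := hval 1 l₁ hl₁ hl₁'
    rw [OneMemClass.coe_one] at h
    rw [show σ⁻¹ * δ⁻¹ ^ d = (l₁.map fun ψ => (pointBundle k ψ).cls⁻¹ * δ).prod⁻¹ from
      eq_inv_of_mul_eq_one_right h.symm]
    refine Subgroup.inv_mem _ (Subgroup.list_prod_mem _ fun y hy => ?_)
    obtain ⟨ψ, -, rfl⟩ := List.mem_map.1 hy
    rw [← huP]
    exact (D.pic0Map _ uP).2⟩ : D.pic0 k)
  refine J.isProper_and_geometricallyIntegral G j d ((J.pts k).symm c₀) fun p => ?_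
  obtain ⟨l, hl, hp⟩ := hdec (J.pts k p).1 ((Bundle.isDegZero_field_iff _).1 (J.pts k p).2.2)
  let ψ : Fin d → (D.T.L →ₐ[k] k) := fun i => l.get (i.cast hl.symm)
  let x : Fin d → SchemeHomOver (specOver (k := k) k) c := fun i =>
    ⟨Spec.map (CommRingCat.ofHom ((ψ i).comp (IsScalarTower.toAlgHom k D.T.P D.T.L)).toRingHom) ≫
      D.jP, by
      rw [Category.assoc, D.jP_over, ← Spec.map_comp, ← CommRingCat.ofHom_comp]
      exact congrArg (fun t => Spec.map (CommRingCat.ofHom t))
        ((ψ i).comp (IsScalarTower.toAlgHom k D.T.P D.T.L)).comp_algebraMap⟩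
  refine ⟨x, (J.pts k).injective (Subtype.ext ?_)⟩
  rw [hmul, J.coe_pts_mulTuple G (hmul k) (hone k), Equiv.apply_symm_apply, Subgroup.coe_mul,
    Subgroup.val_finsetProd]
  rw [Finset.prod_congr rfl fun i _ =>
    (congrArg Subtype.val (hj k _ (x i) rfl)).trans (huP (ψ i))]
  rw [hval _ l hl hp]
  congr 1
  subst hl
  exact (Fin.prod_univ_fun_getElem l fun ψ => (pointBundle k ψ).cls⁻¹ * δ).symm

end CurveModel.Pic0Model

end Fermat.Agent.RelJac
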