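import Fermat.Agent.RelJac.ComplexBaseChange

/-!
Base change of the complex along `φ : R → R'` between `T ⊗ R` and `T ⊗ R'`.
-/

open scoped TensorProduct

namespace Fermat.Agent.RelJac

universe u

variable {k : Type u} [CommRing k] {T : TwoChart k}
  {R R' : Type u} [CommRing R] [Algebra k R] [CommRing R'] [Algebra k R']

attribute [local instance] Algebra.TensorProduct.rightAlgebra in
/-- The square formed by `k → R → R'` and a `k`-algebra `A` is a pushout. -/
theorem isPushout_map {A : Type u} [CommRing A] [Algebra k A] [Algebra R R'] [IsScalarTower k R R']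
    [Algebra (R ⊗[k] A) (R' ⊗[k] A)]
    [IsScalarTower R (R ⊗[k] A) (R' ⊗[k] A)]
    (h : ∀ x, algebraMap (R ⊗[k] A) (R' ⊗[k] A) x =
      Algebra.TensorProduct.map (IsScalarTower.toAlgHom k R R') (AlgHom.id k A) x) :
    Algebra.IsPushout R R' (R ⊗[k] A) (R' ⊗[k] A) := by
  have : IsScalarTower A (R ⊗[k] A) (R' ⊗[k] A) := IsScalarTower.of_algebraMap_eq fun a => by
    rw [h]; simp [RingHom.algebraMap_toAlgebra]
  have : IsScalarTower k (R ⊗[k] A) (R' ⊗[k] A) := IsScalarTower.of_algebraMap_eq fun a => by
    rw [h, AlgHom.commutes]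
  have : IsScalarTower R R' (R' ⊗[k] A) := inferInstance
  exact (Algebra.IsPushout.comp_iff k R A (R ⊗[k] A) (T' := R' ⊗[k] A) (T := R')).1 inferInstance

namespace Bundle

/-- `H¹` of a bundle vanishes after base change along `φ` exactly when the base changed differential
is surjective. -/
theorem nonspecial_bc_iff (φ : R →ₐ[k] R') (B : Bundle (T.baseChange R)) :
    letI := φ.toRingHom.toAlgebra
    (B.bc φ).Nonspecial ↔ Function.Surjective (B.d.baseChange R') := by
  let a₀ := φ.toRingHom.toAlgebra
  let i := T.overBC φ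
  let aP := (T.bcP φ).toAlgebra
  let aQ := (T.bcQ φ).toAlgebra
  let aL := (T.bcL φ).toAlgebra
  have : IsScalarTower k R R' := IsScalarTower.of_algebraMap_eq fun a => (φ.commutes a).symm
  have hP : ∀ x, algebraMap (R ⊗[k] T.P) (R' ⊗[k] T.P) x = T.bcP φ x := fun x => rfl
  have tP : IsScalarTower R (R ⊗[k] T.P) (R' ⊗[k] T.P) := IsScalarTower.of_algebraMap_eq fun r => by
    rw [hP]; simp [Algebra.TensorProduct.algebraMap_apply, RingHom.algebraMap_toAlgebra]
  have tQ : IsScalarTower R (R ⊗[k] T.Q) (R' ⊗[k] T.Q) := IsScalarTower.of_algebraMap_eq fun r => by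
    change _ = T.bcQ φ _
    simp [Algebra.TensorProduct.algebraMap_apply, RingHom.algebraMap_toAlgebra]
  have tL : IsScalarTower R (R ⊗[k] T.L) (R' ⊗[k] T.L) := IsScalarTower.of_algebraMap_eq fun r => by
    change _ = T.bcL φ _
    simp [Algebra.TensorProduct.algebraMap_apply, RingHom.algebraMap_toAlgebra]
  have := isPushout_map (k := k) (A := T.P) (R := R) (R' := R') fun x => rfl
  have := isPushout_map (k := k) (A := T.Q) (R := R) (R' := R') fun x => rfl
  have := isPushout_map (k := k) (A := T.L) (R := R) (R' := R') fun x => rfl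
  exact nonspecial_pullback_iff (T' := T.baseChange R') B

end Bundle

end Fermat.Agent.RelJac
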