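import Fermat.Agent.RelJac.Bundle

/-!
Instances of a bundle over a base change, keyed on the tensor product rings (the fields of `Bundle`
are keyed on the projections of `TwoChart`, which unfold for `baseChange`).
-/

open scoped TensorProduct

namespace Fermat.Agent.RelJac.Bundle

universe u

variable {k : Type u} [CommRing k] {T : TwoChart k} {R : Type u} [CommRing R] [Algebra k R]
  (B : Bundle (T.baseChange R))

@[implicit_reducible, instance] def modPKey : Module (R ⊗[k] T.P) B.MP := B.modP
@[implicit_reducible, instance] def modQKey : Module (R ⊗[k] T.Q) B.MQ := B.modQ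
@[implicit_reducible, instance] def modLKey : Module (R ⊗[k] T.L) B.ML := B.modL
@[implicit_reducible, instance] def modPLKey : Module (R ⊗[k] T.P) B.ML := B.modPL
@[implicit_reducible, instance] def modQLKey : Module (R ⊗[k] T.Q) B.ML := B.modQL
instance towerPKey : IsScalarTower R (R ⊗[k] T.P) B.MP := B.towerRP
instance towerQKey : IsScalarTower R (R ⊗[k] T.Q) B.MQ := B.towerRQ
instance towerLKey : IsScalarTower R (R ⊗[k] T.L) B.ML := B.towerRL
instance towerPLKey : IsScalarTower (R ⊗[k] T.P) (R ⊗[k] T.L) B.ML := B.towerPL
instance towerQLKey : IsScalarTower (R ⊗[k] T.Q) (R ⊗[k] T.L) B.ML := B.towerQL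
instance invPKey : Module.Invertible (R ⊗[k] T.P) B.MP := B.invP
instance invQKey : Module.Invertible (R ⊗[k] T.Q) B.MQ := B.invQ

end Fermat.Agent.RelJac.Bundle
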