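import Fermat.Agent.RelJac.Bundle

/-!
Pullback of line bundles along a map of two-chart spaces.
-/

open scoped TensorProduct

namespace Fermat.Agent.RelJac

universe u

variable {R R' R'' : Type u} [CommRing R] [CommRing R'] [CommRing R'']

namespace TwoChart

variable (T : TwoChart R) (T' : TwoChart R') (T'' : TwoChart R'')

/-- Charts lie over themselves. -/
@[reducible] def overSelf : T.Over T where
  algP := Algebra.id _
  algQ := Algebra.id _
  algL := Algebra.id _
  commP _ := rfl
  commQ _ := rfl

/-- Composition. -/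
@[reducible] def overTrans [T.Over T'] [T'.Over T''] : T.Over T'' where
  algP := ((algebraMap T'.P T''.P).comp (algebraMap T.P T'.P)).toAlgebra
  algQ := ((algebraMap T'.Q T''.Q).comp (algebraMap T.Q T'.Q)).toAlgebra
  algL := ((algebraMap T'.L T''.L).comp (algebraMap T.L T'.L)).toAlgebra
  commP p := by
    simp [RingHom.algebraMap_toAlgebra, Over.commP]
  commQ q := by
    simp [RingHom.algebraMap_toAlgebra, Over.commQ]

/-- Compatibility of three "over" structures. -/
class OverTower [T.Over T'] [T'.Over T''] [T.Over T''] : Prop where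
  towerP : IsScalarTower T.P T'.P T''.P
  towerQ : IsScalarTower T.Q T'.Q T''.Q
  towerL : IsScalarTower T.L T'.L T''.L

attribute [instance] OverTower.towerP OverTower.towerQ OverTower.towerL

/-- A composite of maps of two-chart spaces forms towers of algebras. -/
theorem overTower_overTrans [T.Over T'] [T'.Over T''] :
    letI := overTrans T T' T''
    OverTower T T' T'' :=
  letI := overTrans T T' T''
  ⟨IsScalarTower.of_algebraMap_eq fun _ => rfl, IsScalarTower.of_algebraMap_eq fun _ => rfl,
    IsScalarTower.of_algebraMap_eq fun _ => rfl⟩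

end TwoChart

namespace Bundle

variable {T : TwoChart R} {T' : TwoChart R'} [T.Over T'] (B : Bundle T)

/-- The chart map of a pulled back bundle, on the first chart. -/
noncomputable def pullbackIP :
    T'.P ⊗[T.P] B.MP →ₗ[T'.P] T'.L ⊗[T.L] B.ML :=
  letI : Module T.P (T'.L ⊗[T.L] B.ML) := Module.compHom _ (algebraMap T.P T'.P)
  haveI : IsScalarTower T.P T'.P (T'.L ⊗[T.L] B.ML) :=
    IsScalarTower.of_algebraMap_smul fun _ _ => rfl
  LinearMap.liftBaseChange T'.P
    { toFun := fun m => (1 : T'.L) ⊗ₜ B.ip m
      map_add' := fun x y => by simp [TensorProduct.tmul_add]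
      map_smul' := fun p m => by
        change _ = algebraMap T.P T'.P p • ((1 : T'.L) ⊗ₜ[T.L] B.ip m)
        rw [map_smul, ← algebraMap_smul T.L p (B.ip m), ← TensorProduct.smul_tmul, Algebra.smul_def,
          TwoChart.Over.commP, TensorProduct.smul_tmul', Algebra.smul_def] }

/-- The chart map of a pulled back bundle, on the second chart. -/
noncomputable def pullbackIQ :
    T'.Q ⊗[T.Q] B.MQ →ₗ[T'.Q] T'.L ⊗[T.L] B.ML :=
  letI : Module T.Q (T'.L ⊗[T.L] B.ML) := Module.compHom _ (algebraMap T.Q T'.Q)
  haveI : IsScalarTower T.Q T'.Q (T'.L ⊗[T.L] B.ML) :=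
    IsScalarTower.of_algebraMap_smul fun _ _ => rfl
  LinearMap.liftBaseChange T'.Q
    { toFun := fun m => (1 : T'.L) ⊗ₜ B.iq m
      map_add' := fun x y => by simp [TensorProduct.tmul_add]
      map_smul' := fun p m => by
        change _ = algebraMap T.Q T'.Q p • ((1 : T'.L) ⊗ₜ[T.L] B.iq m)
        rw [map_smul, ← algebraMap_smul T.L p (B.iq m), ← TensorProduct.smul_tmul, Algebra.smul_def,
          TwoChart.Over.commQ, TensorProduct.smul_tmul', Algebra.smul_def] }

/-- The first gluing map of an inverse image on pure tensors. -/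
@[simp]
theorem pullbackIP_tmul (a : T'.P) (m : B.MP) :
    B.pullbackIP (T' := T') (a ⊗ₜ m) = algebraMap T'.P T'.L a ⊗ₜ B.ip m := by
  simp only [pullbackIP, LinearMap.liftBaseChange_tmul, LinearMap.coe_mk, AddHom.coe_mk,
    TensorProduct.smul_tmul', ← Algebra.algebraMap_eq_smul_one]

/-- The second gluing map of an inverse image on pure tensors. -/
@[simp]
theorem pullbackIQ_tmul (a : T'.Q) (m : B.MQ) :
    B.pullbackIQ (T' := T') (a ⊗ₜ m) = algebraMap T'.Q T'.L a ⊗ₜ B.iq m := by
  simp only [pullbackIQ, LinearMap.liftBaseChange_tmul, LinearMap.coe_mk, AddHom.coe_mk,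
    TensorProduct.smul_tmul', ← Algebra.algebraMap_eq_smul_one]

theorem baseP_pullback : IsBaseChange T'.L (B.pullbackIP (T' := T')) := by
  let : Algebra T.P T'.L := ((algebraMap T.L T'.L).comp (algebraMap T.P T.L)).toAlgebra
  have : IsScalarTower T.P T.L T'.L := IsScalarTower.of_algebraMap_eq fun _ => rfl
  have : IsScalarTower T.P T'.P T'.L := IsScalarTower.of_algebraMap_eq fun p =>
    TwoChart.Over.commP p
  have : IsScalarTower T.P T'.L (T'.L ⊗[T.L] B.ML) := IsScalarTower.of_algebraMap_smul fun p x => by
    rw [IsScalarTower.algebraMap_apply T.P T.L T'.L, algebraMap_smul, algebraMap_smul]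
  have : IsScalarTower T.P T'.P (T'.L ⊗[T.L] B.ML) := IsScalarTower.of_algebraMap_smul fun p x => by
    rw [← algebraMap_smul T'.L (algebraMap T.P T'.P p) x,
      ← IsScalarTower.algebraMap_apply T.P T'.P T'.L, algebraMap_smul]
  refine IsBaseChange.of_comp (f := TensorProduct.mk T.P T'.P B.MP 1)
    (TensorProduct.isBaseChange _ _ _) ?_
  convert IsBaseChange.comp B.baseP (TensorProduct.isBaseChange T.L B.ML T'.L) using 1
  ext m
  simp

theorem baseQ_pullback : IsBaseChange T'.L (B.pullbackIQ (T' := T')) := by
  let : Algebra T.Q T'.L := ((algebraMap T.L T'.L).comp (algebraMap T.Q T.L)).toAlgebra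
  have : IsScalarTower T.Q T.L T'.L := IsScalarTower.of_algebraMap_eq fun _ => rfl
  have : IsScalarTower T.Q T'.Q T'.L := IsScalarTower.of_algebraMap_eq fun p =>
    TwoChart.Over.commQ p
  have : IsScalarTower T.Q T'.L (T'.L ⊗[T.L] B.ML) := IsScalarTower.of_algebraMap_smul fun p x => by
    rw [IsScalarTower.algebraMap_apply T.Q T.L T'.L, algebraMap_smul, algebraMap_smul]
  have : IsScalarTower T.Q T'.Q (T'.L ⊗[T.L] B.ML) := IsScalarTower.of_algebraMap_smul fun p x => by
    rw [← algebraMap_smul T'.L (algebraMap T.Q T'.Q p) x,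
      ← IsScalarTower.algebraMap_apply T.Q T'.Q T'.L, algebraMap_smul]
  refine IsBaseChange.of_comp (f := TensorProduct.mk T.Q T'.Q B.MQ 1)
    (TensorProduct.isBaseChange _ _ _) ?_
  convert IsBaseChange.comp B.baseQ (TensorProduct.isBaseChange T.L B.ML T'.L) using 1
  ext m
  simp

variable (T')

/-- The pullback of a bundle. -/
noncomputable abbrev pullback : Bundle T' where
  MP := T'.P ⊗[T.P] B.MP
  MQ := T'.Q ⊗[T.Q] B.MQ
  ML := T'.L ⊗[T.L] B.ML
  ip := B.pullbackIP
  iq := B.pullbackIQ
  baseP := B.baseP_pullback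
  baseQ := B.baseQ_pullback

variable {T'}

open TensorProduct in
/-- An isomorphism out of a pullback, from checks on the generators. -/
noncomputable def Iso.ofPullback {B : Bundle T} {C : Bundle T'}
    (eP : T'.P ⊗[T.P] B.MP ≃ₗ[T'.P] C.MP) (eQ : T'.Q ⊗[T.Q] B.MQ ≃ₗ[T'.Q] C.MQ)
    (eL : T'.L ⊗[T.L] B.ML ≃ₗ[T'.L] C.ML)
    (hP : ∀ m, eL (1 ⊗ₜ B.ip m) = C.ip (eP (1 ⊗ₜ m)))
    (hQ : ∀ m, eL (1 ⊗ₜ B.iq m) = C.iq (eQ (1 ⊗ₜ m))) : Iso (B.pullback T') C where
  eP := eP
  eQ := eQ
  eL := eL
  commP x := by
    change eL (B.pullbackIP x) = C.ip (eP x)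
    induction x using TensorProduct.induction_on with
    | zero => simp
    | tmul a m =>
      have ha : a ⊗ₜ[T.P] m = a • ((1 : T'.P) ⊗ₜ[T.P] m) := by
        rw [TensorProduct.smul_tmul', smul_eq_mul, mul_one]
      have hb : algebraMap T'.P T'.L a ⊗ₜ[T.L] B.ip m =
          algebraMap T'.P T'.L a • ((1 : T'.L) ⊗ₜ[T.L] B.ip m) := by
        rw [TensorProduct.smul_tmul', smul_eq_mul, mul_one]
      rw [pullbackIP_tmul, hb, map_smul, hP, ha, map_smul, map_smul, algebraMap_smul]
    | add x y hx hy => simp only [map_add, hx, hy]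
  commQ x := by
    change eL (B.pullbackIQ x) = C.iq (eQ x)
    induction x using TensorProduct.induction_on with
    | zero => simp
    | tmul a m =>
      have ha : a ⊗ₜ[T.Q] m = a • ((1 : T'.Q) ⊗ₜ[T.Q] m) := by
        rw [TensorProduct.smul_tmul', smul_eq_mul, mul_one]
      have hb : algebraMap T'.Q T'.L a ⊗ₜ[T.L] B.iq m =
          algebraMap T'.Q T'.L a • ((1 : T'.L) ⊗ₜ[T.L] B.iq m) := by
        rw [TensorProduct.smul_tmul', smul_eq_mul, mul_one]
      rw [pullbackIQ_tmul, hb, map_smul, hQ, ha, map_smul, map_smul, algebraMap_smul]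
    | add x y hx hy => simp only [map_add, hx, hy]

/-- Pullback respects isomorphisms. -/
noncomputable def pullbackCongr {B B' : Bundle T} (e : Iso B B') :
    Iso (B.pullback T') (B'.pullback T') :=
  Iso.ofPullback (C := B'.pullback T') (e.eP.baseChange T.P T'.P _ _)
    (e.eQ.baseChange T.Q T'.Q _ _) (e.eL.baseChange T.L T'.L _ _)
    (fun m => by simp [e.commP]) (fun m => by simp [e.commQ])

/-- Pullback respects tensor products. -/
noncomputable def pullbackTensor (B B' : Bundle T) :
    Iso ((B.tensor B').pullback T') ((B.pullback T').tensor (B'.pullback T')) :=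
  Iso.ofPullback (C := (B.pullback T').tensor (B'.pullback T'))
    (TensorProduct.AlgebraTensorModule.distribBaseChange _ _ _ _)
        (TensorProduct.AlgebraTensorModule.distribBaseChange _ _ _ _)
    (TensorProduct.AlgebraTensorModule.distribBaseChange _ _ _ _)
    (fun x => by
      refine TensorProduct.induction_on x ?_ ?_ ?_
      · simp
      · intro m m'
        simp
      · intro x y hx hy
        simp only [map_add, TensorProduct.tmul_add, hx, hy])
    (fun x => by
      refine TensorProduct.induction_on x ?_ ?_ ?_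
      · simp
      · intro m m'
        simp
      · intro x y hx hy
        simp only [map_add, TensorProduct.tmul_add, hx, hy])

/-- Pullback of the trivial bundle. -/
noncomputable def pullbackTrivial : Iso ((trivial T).pullback T') (trivial T') :=
  Iso.ofPullback (C := trivial T') (TensorProduct.AlgebraTensorModule.rid _ _ _)
    (TensorProduct.AlgebraTensorModule.rid _ _ _) (TensorProduct.AlgebraTensorModule.rid _ _ _)
    (fun m => by simp [Algebra.smul_def, TwoChart.Over.commP])
    (fun m => by simp [Algebra.smul_def, TwoChart.Over.commQ])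

/-- Pullback on isomorphism classes. -/
noncomputable def clsMap : Cls T →* Cls T' where
  toFun := Quotient.map (fun B => B.pullback T') fun _ _ ⟨e⟩ => ⟨pullbackCongr e⟩
  map_one' := Quotient.sound ⟨pullbackTrivial⟩
  map_mul' a b := Quotient.inductionOn₂ a b fun A B => Quotient.sound ⟨pullbackTensor A B⟩

/-- The pullback of the class of a bundle is the class of its pullback. -/
theorem clsMap_cls (B : Bundle T) : clsMap B.cls = (B.pullback T').cls := rfl

section Comp

variable {T'' : TwoChart R''} [T'.Over T''] [T.Over T''] [TwoChart.OverTower T T' T'']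

/-- Transitivity of pullback. -/
noncomputable def pullbackPullback (B : Bundle T) :
    Iso ((B.pullback T').pullback T'') (B.pullback T'') :=
  Iso.ofPullback (C := B.pullback T'')
    (TensorProduct.AlgebraTensorModule.cancelBaseChange _ _ _ _ _)
        (TensorProduct.AlgebraTensorModule.cancelBaseChange _ _ _ _ _)
    (TensorProduct.AlgebraTensorModule.cancelBaseChange _ _ _ _ _)
    (fun x => by
      refine TensorProduct.induction_on x ?_ ?_ ?_
      · simp
      · intro a m
        simp [Algebra.smul_def, TwoChart.Over.commP]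
      · intro x y hx hy
        simp only [map_add, TensorProduct.tmul_add, hx, hy])
    (fun x => by
      refine TensorProduct.induction_on x ?_ ?_ ?_
      · simp
      · intro a m
        simp [Algebra.smul_def, TwoChart.Over.commQ]
      · intro x y hx hy
        simp only [map_add, TensorProduct.tmul_add, hx, hy])

/-- Pullback of classes is compatible with composition. -/
theorem clsMap_clsMap (c : Cls T) : clsMap (T' := T'') (clsMap (T' := T') c) = clsMap c :=
  Quotient.inductionOn c fun B => Quotient.sound ⟨pullbackPullback B⟩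

end Comp

end Bundle

end Fermat.Agent.RelJac
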