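import Mathlib.RingTheory.TensorProduct.Maps
import Fermat.Agent.RelJac.Pullback
import Fermat.Agent.RelJac.BundleTensorKeys

/-!
Base change of bundles between `T ⊗ R` and `T ⊗ R'` along an algebra map, the map to the Picard
group of a chart, and the rigidifying map at a point of the first chart.
-/

open scoped TensorProduct

namespace Fermat.Agent.RelJac

universe u

variable {k : Type u} [CommRing k] (T : TwoChart k)
  {R R' R'' : Type u} [CommRing R] [Algebra k R] [CommRing R'] [Algebra k R'] [CommRing R'']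
  [Algebra k R'']

namespace TwoChart

/-- The map of first charts induced by `φ : R → R'`. -/
noncomputable abbrev bcP (φ : R →ₐ[k] R') : R ⊗[k] T.P →ₐ[k] R' ⊗[k] T.P :=
  Algebra.TensorProduct.map φ (AlgHom.id k T.P)

/-- The map of second charts induced by `φ : R → R'`. -/
noncomputable abbrev bcQ (φ : R →ₐ[k] R') : R ⊗[k] T.Q →ₐ[k] R' ⊗[k] T.Q :=
  Algebra.TensorProduct.map φ (AlgHom.id k T.Q)

/-- The map of overlaps induced by `φ : R → R'`. -/
noncomputable abbrev bcL (φ : R →ₐ[k] R') : R ⊗[k] T.L →ₐ[k] R' ⊗[k] T.L :=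
  Algebra.TensorProduct.map φ (AlgHom.id k T.L)

/-- Base change commutes with restriction from the first chart to the overlap. -/
theorem bcL_algebraMapP (φ : R →ₐ[k] R') (p : R ⊗[k] T.P) :
    T.bcL φ (algebraMap (R ⊗[k] T.P) (R ⊗[k] T.L) p) =
      algebraMap (R' ⊗[k] T.P) (R' ⊗[k] T.L) (T.bcP φ p) := by
  induction p using TensorProduct.induction_on with
  | zero => simp
  | tmul r p =>
    rw [baseChange_algebraMapP_tmul, Algebra.TensorProduct.map_tmul, Algebra.TensorProduct.map_tmul]
    rfl
  | add a b ha hb => simp [ha, hb]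

/-- Base change commutes with restriction from the second chart to the overlap. -/
theorem bcL_algebraMapQ (φ : R →ₐ[k] R') (p : R ⊗[k] T.Q) :
    T.bcL φ (algebraMap (R ⊗[k] T.Q) (R ⊗[k] T.L) p) =
      algebraMap (R' ⊗[k] T.Q) (R' ⊗[k] T.L) (T.bcQ φ p) := by
  induction p using TensorProduct.induction_on with
  | zero => simp
  | tmul r p =>
    rw [baseChange_algebraMapQ_tmul, Algebra.TensorProduct.map_tmul, Algebra.TensorProduct.map_tmul]
    rfl
  | add a b ha hb => simp [ha, hb]

theorem over_ext {A : Type u} [CommRing A] {U : TwoChart A} {U' : TwoChart A} (h₁ h₂ : U.Over U')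
    (hP : h₁.algP = h₂.algP) (hQ : h₁.algQ = h₂.algQ) (hL : h₁.algL = h₂.algL) : h₁ = h₂ := by
  obtain @⟨a₁, b₁, c₁, d₁, e₁⟩ := h₁
  obtain @⟨a₂, b₂, c₂, d₂, e₂⟩ := h₂
  subst hP hQ hL
  rfl

/-- `T ⊗ R'` lies over `T ⊗ R`. -/
@[reducible] noncomputable def overBC (φ : R →ₐ[k] R') :
    (T.baseChange R).Over (T.baseChange R') where
  algP := (T.bcP φ).toAlgebra
  algQ := (T.bcQ φ).toAlgebra
  algL := (T.bcL φ).toAlgebra
  commP := T.bcL_algebraMapP φ
  commQ := T.bcL_algebraMapQ φ

end TwoChart

namespace Bundle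

variable {T}

/-- Base change of a bundle along `φ`. -/
@[reducible] noncomputable def bc (φ : R →ₐ[k] R') (B : Bundle (T.baseChange R)) :
    Bundle (T.baseChange R') :=
  letI := T.overBC φ
  B.pullback (T.baseChange R')

/-- Base change of isomorphism classes along `φ`. -/
noncomputable def bcCls (φ : R →ₐ[k] R') :
    Cls (T.baseChange R) →* Cls (T.baseChange R') :=
  letI := T.overBC φ
  clsMap

/-- The base change of the class of a bundle is the class of its base change. -/
theorem bcCls_cls (φ : R →ₐ[k] R') (B : Bundle (T.baseChange R)) :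
    bcCls φ B.cls = (B.bc φ).cls := rfl

/-- Base change of classes is compatible with composition. -/
theorem bcCls_comp (φ : R →ₐ[k] R') (ψ : R' →ₐ[k] R'') (c : Cls (T.baseChange R)) :
    bcCls ψ (bcCls φ c) = bcCls (ψ.comp φ) c := by
  let i₁ := T.overBC φ
  let i₂ := T.overBC ψ
  let i₃ := T.overBC (ψ.comp φ)
  let p₁ := (T.bcP φ).toAlgebra
  let p₂ := (T.bcP ψ).toAlgebra
  let p₃ := (T.bcP (ψ.comp φ)).toAlgebra
  let q₁ := (T.bcQ φ).toAlgebra
  let q₂ := (T.bcQ ψ).toAlgebra
  let q₃ := (T.bcQ (ψ.comp φ)).toAlgebra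
  let l₁ := (T.bcL φ).toAlgebra
  let l₂ := (T.bcL ψ).toAlgebra
  let l₃ := (T.bcL (ψ.comp φ)).toAlgebra
  have : TwoChart.OverTower (T.baseChange R) (T.baseChange R') (T.baseChange R'') :=
    { towerP := IsScalarTower.of_algebraMap_eq fun a => DFunLike.congr_fun
        (Algebra.TensorProduct.map_comp ψ φ (AlgHom.id k T.P) (AlgHom.id k T.P)) a
      towerQ := IsScalarTower.of_algebraMap_eq fun a => DFunLike.congr_fun
        (Algebra.TensorProduct.map_comp ψ φ (AlgHom.id k T.Q) (AlgHom.id k T.Q)) a
      towerL := IsScalarTower.of_algebraMap_eq fun a => DFunLike.congr_fun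
        (Algebra.TensorProduct.map_comp ψ φ (AlgHom.id k T.L) (AlgHom.id k T.L)) a }
  exact clsMap_clsMap c

theorem clsMap_overSelf {A : Type u} [CommRing A] {U : TwoChart A} (c : Cls U) :
    (letI := TwoChart.overSelf U; clsMap (T' := U) c) = c := by
  let i := TwoChart.overSelf U
  obtain ⟨B, rfl⟩ := exists_cls_eq c
  exact cls_eq_iff.2 ⟨Iso.ofPullback (C := B) (TensorProduct.lid U.P B.MP)
    (TensorProduct.lid U.Q B.MQ) (TensorProduct.lid U.L B.ML) (fun m => by simp)
    (fun m => by simp)⟩

/-- Base change along the identity is the identity on classes. -/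
theorem bcCls_id (c : Cls (T.baseChange R)) : bcCls (AlgHom.id k R) c = c := by
  have h : T.overBC (AlgHom.id k R) = TwoChart.overSelf (T.baseChange R) :=
    TwoChart.over_ext _ _
      (Algebra.algebra_ext _ _ fun a => by
        change T.bcP (AlgHom.id k R) a = a
        rw [TwoChart.bcP, Algebra.TensorProduct.map_id]; rfl)
      (Algebra.algebra_ext _ _ fun a => by
        change T.bcQ (AlgHom.id k R) a = a
        rw [TwoChart.bcQ, Algebra.TensorProduct.map_id]; rfl)
      (Algebra.algebra_ext _ _ fun a => by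
        change T.bcL (AlgHom.id k R) a = a
        rw [TwoChart.bcL, Algebra.TensorProduct.map_id]; rfl)
  have h' := clsMap_overSelf c
  unfold bcCls
  exact (congrArg (fun i : (T.baseChange R).Over (T.baseChange R) =>
    (@clsMap R R _ _ (T.baseChange R) (T.baseChange R) i) c) h).trans h'

section Pic

variable {S : Type u} [CommRing S] {U : TwoChart S}

/-- The class in the Picard group of the first chart. -/
noncomputable def picP : Cls U →* CommRing.Pic U.P where
  toFun := Quotient.lift (fun B => CommRing.Pic.mk U.P B.MP) fun _ _ ⟨e⟩ =>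
    CommRing.Pic.mk_eq_mk_iff.2 ⟨e.eP⟩
  map_one' := CommRing.Pic.mk_self
  map_mul' a b := Quotient.inductionOn₂ a b fun _ _ => CommRing.Pic.mk_tensor

/-- The image of a class in the Picard group of the first chart is the class of the first module. -/
theorem picP_cls (B : Bundle U) : picP B.cls = CommRing.Pic.mk U.P B.MP := rfl

end Pic

/-- The `R`-point of the first chart given by `e : T.P → k`. -/
noncomputable def pointP (e : T.P →ₐ[k] k) : R ⊗[k] T.P →ₐ[R] R :=
  Algebra.TensorProduct.lift (AlgHom.id R R) ((Algebra.ofId k R).comp e) fun _ _ => .all _ _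

/-- The value of the marked point on a pure tensor. -/
theorem pointP_tmul (e : T.P →ₐ[k] k) (r : R) (p : T.P) :
    pointP e (r ⊗ₜ p) = r * algebraMap k R (e p) := by
  simp [pointP, Algebra.ofId_apply]

/-- The restriction of a class to the section given by `e`. -/
noncomputable def rig (e : T.P →ₐ[k] k) : Cls (T.baseChange R) →* CommRing.Pic R :=
  letI : Algebra (R ⊗[k] T.P) R := (pointP e).toRingHom.toAlgebra
  (CommRing.Pic.mapAlgebra (R ⊗[k] T.P) R).comp picP

end Bundle

end Fermat.Agent.RelJac
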