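import Mathlib.RingTheory.Spectrum.Prime.Module
import Mathlib.RingTheory.Support
import Mathlib.RingTheory.LocalRing.Module
import Mathlib.RingTheory.Spectrum.Prime.FreeLocus
import Mathlib.RingTheory.LocalRing.ResidueField.Ideal
import Mathlib.LinearAlgebra.TensorProduct.Tower
import Mathlib.LinearAlgebra.Dual.Lemmas
import Mathlib.Algebra.Module.Projective
import Mathlib.RingTheory.Finiteness.Basic
import Mathlib.LinearAlgebra.FreeModule.Basic

/-!
A map of projective modules which is injective on every fibre is injective.
-/

open scoped TensorProduct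

namespace Fermat.Agent.RelJac

universe u v w

variable {R : Type u} [CommRing R]

/-- A map into a free module which is injective on every fibre is injective. -/
theorem injective_of_forall_fibre_free {S : Type u} [Fintype S] {J : Type v}
    (g : (S → R) →ₗ[R] (J →₀ R))
    (h : ∀ p : PrimeSpectrum R, Function.Injective (g.baseChange p.asIdeal.ResidueField)) :
    Function.Injective g := by
  classical
  let row : J → S → R := fun j s => g (Pi.single s 1) j
  let W : Submodule R (S → R) := Submodule.span R (Set.range row)
  suffices hW : W = ⊤ by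
    refine (injective_iff_map_eq_zero g).2 fun v hv => funext fun s => ?_
    have key : ∀ w ∈ W, ∑ t, w t * v t = 0 := by
      intro w hw
      refine Submodule.span_induction ?_ (by simp) ?_ ?_ hw
      · rintro _ ⟨j, rfl⟩
        have := congrArg (fun F : J →₀ R => F j) hv
        rw [pi_eq_sum_univ' v, map_sum] at this
        simpa [row, mul_comm] using this
      · intro a b _ _ ha hb
        simp [add_mul, Finset.sum_add_distrib, ha, hb]
      · intro r a _ ha
        simp [mul_assoc, ← Finset.mul_sum, ha]
    simpa [Pi.single_apply] using key (Pi.single s 1) (hW ▸ Submodule.mem_top)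
  rw [← Submodule.Quotient.subsingleton_iff]
  by_contra hne
  rw [not_subsingleton_iff_nontrivial] at hne
  obtain ⟨p, hp⟩ := (Module.nonempty_support_iff (R := R)).2 hne
  rw [Module.mem_support_iff_nontrivial_residueField_tensorProduct] at hp
  obtain ⟨t, ht⟩ := exists_ne (0 : p.asIdeal.ResidueField ⊗[R] ((S → R) ⧸ W))
  obtain ⟨l, hl⟩ := Module.Projective.exists_dual_ne_zero p.asIdeal.ResidueField ht
  let c : S → p.asIdeal.ResidueField := fun s => l (1 ⊗ₜ W.mkQ (Pi.single s 1))
  have hlc : ∀ (a : p.asIdeal.ResidueField) (v : S → R),
      l (a ⊗ₜ W.mkQ v) = ∑ s, a * (v s • c s) := by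
    intro a v
    conv_lhs => rw [pi_eq_sum_univ' v]
    rw [map_sum, TensorProduct.tmul_sum, map_sum]
    refine Finset.sum_congr rfl fun s _ => ?_
    rw [show a ⊗ₜ[R] W.mkQ (v s • Pi.single s 1) =
        a • ((1 : p.asIdeal.ResidueField) ⊗ₜ[R] (v s • W.mkQ (Pi.single s 1))) by
      rw [TensorProduct.smul_tmul', smul_eq_mul, mul_one, map_smul],
      map_smul, TensorProduct.tmul_smul, ← algebraMap_smul p.asIdeal.ResidueField (v s),
      map_smul, algebraMap_smul, smul_eq_mul]
  have hrow : ∀ j, ∑ s, row j s • c s = 0 := fun j => by
    have := hlc 1 (row j)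
    rw [Submodule.mkQ_apply, (Submodule.Quotient.mk_eq_zero W).2 (Submodule.subset_span ⟨j, rfl⟩),
      TensorProduct.tmul_zero, map_zero] at this
    simpa using this.symm
  have hz : g.baseChange p.asIdeal.ResidueField (∑ s, c s ⊗ₜ Pi.single s 1) = 0 := by
    refine (TensorProduct.finsuppScalarRight R p.asIdeal.ResidueField p.asIdeal.ResidueField J).injective ?_
    ext j
    simpa [Finsupp.finsetSum_apply, row] using hrow j
  have hc : ∀ s, c s = 0 := fun s => by
    have := congrArg (TensorProduct.piScalarRight R p.asIdeal.ResidueField p.asIdeal.ResidueField S)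
      ((injective_iff_map_eq_zero _).1 (h p) _ hz)
    simpa [Pi.single_apply] using congr_fun this s
  apply hl
  clear hl ht
  induction t using TensorProduct.induction_on with
  | zero => simp
  | tmul a q =>
    obtain ⟨v, rfl⟩ := W.mkQ_surjective q
    rw [hlc]
    simp [hc]
  | add x y hx hy => rw [map_add, hx, hy, add_zero]

variable {X : Type u} {Y : Type w} [AddCommGroup X] [AddCommGroup Y] [Module R X] [Module R Y]

/-- A map of projective modules which is injective on every fibre is injective. -/
theorem injective_of_forall_fibre [Module.Projective R X] [Module.Projective R Y] (f : X →ₗ[R] Y)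
    (h : ∀ p : PrimeSpectrum R, Function.Injective (f.baseChange p.asIdeal.ResidueField)) :
    Function.Injective f := by
  classical
  obtain ⟨sX, hsX⟩ := Module.projective_def.1 (inferInstance : Module.Projective R X)
  obtain ⟨sY, hsY⟩ := Module.projective_def.1 (inferInstance : Module.Projective R Y)
  refine (injective_iff_map_eq_zero f).2 fun x hx => ?_
  let S := (sX x).support
  let incl : (S → R) →ₗ[R] (X →₀ R) :=
    Fintype.linearCombination R fun s : S => Finsupp.single s.1 1
  let π : (S → R) →ₗ[R] X := (Finsupp.linearCombination R id) ∘ₗ incl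
  let g : (S → R) →ₗ[R] (Y →₀ R) × (X →₀ R) := (sY ∘ₗ f ∘ₗ π).prod (incl - sX ∘ₗ π)
  let g' : (S → R) →ₗ[R] (Y ⊕ X →₀ R) :=
    (Finsupp.sumFinsuppLEquivProdFinsupp R).symm.toLinearMap ∘ₗ g
  have hg : Function.Injective g' := by
    refine injective_of_forall_fibre_free g' fun p => (injective_iff_map_eq_zero _).2 fun v hv => ?_
    have hv' : g.baseChange p.asIdeal.ResidueField v = 0 := by
      have := congrArg
        ((Finsupp.sumFinsuppLEquivProdFinsupp R).toLinearMap.baseChange p.asIdeal.ResidueField) hv
      simpa [g', ← LinearMap.comp_apply, ← LinearMap.baseChange_comp, ← LinearMap.comp_assoc]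
        using this
    have h1 : (sY ∘ₗ f ∘ₗ π).baseChange p.asIdeal.ResidueField v = 0 := by
      have := congrArg ((LinearMap.fst R _ _).baseChange p.asIdeal.ResidueField) hv'
      rwa [map_zero, ← LinearMap.comp_apply, ← LinearMap.baseChange_comp, LinearMap.fst_prod] at this
    have h2 : (incl - sX ∘ₗ π).baseChange p.asIdeal.ResidueField v = 0 := by
      have := congrArg ((LinearMap.snd R _ _).baseChange p.asIdeal.ResidueField) hv'
      rwa [map_zero, ← LinearMap.comp_apply, ← LinearMap.baseChange_comp, LinearMap.snd_prod] at this
    have h1' := congrArg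
      ((Finsupp.linearCombination R id : (Y →₀ R) →ₗ[R] Y).baseChange p.asIdeal.ResidueField) h1
    rw [map_zero, ← LinearMap.comp_apply, ← LinearMap.baseChange_comp, ← LinearMap.comp_assoc] at h1'
    have hY : (Finsupp.linearCombination R id : (Y →₀ R) →ₗ[R] Y) ∘ₗ sY = LinearMap.id :=
      LinearMap.ext hsY
    rw [hY, LinearMap.id_comp, LinearMap.baseChange_comp, LinearMap.comp_apply] at h1'
    have h3 : π.baseChange p.asIdeal.ResidueField v = 0 := h p (by rw [h1', map_zero])
    rw [LinearMap.baseChange_sub, LinearMap.sub_apply, LinearMap.baseChange_comp,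
      LinearMap.comp_apply, h3, map_zero, sub_zero] at h2
    let proj : (X →₀ R) →ₗ[R] (S → R) := LinearMap.pi fun s => Finsupp.lapply s.1
    have hproj : proj ∘ₗ incl = LinearMap.id := by
      refine LinearMap.ext fun w => funext fun s => ?_
      simp [proj, incl, Fintype.linearCombination_apply, Finsupp.single_apply]
    have := congrArg (proj.baseChange p.asIdeal.ResidueField) h2
    rwa [map_zero, ← LinearMap.comp_apply, ← LinearMap.baseChange_comp, hproj,
      LinearMap.baseChange_id, LinearMap.id_apply] at this
  let v : S → R := fun s => sX x s.1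
  have hv : incl v = sX x := by
    simp only [incl, Fintype.linearCombination_apply, Finsupp.smul_single, smul_eq_mul, mul_one, v]
    exact (Finset.sum_coe_sort S fun a => Finsupp.single a (sX x a)).trans (Finsupp.sum_single _)
  have hπ : π v = x := by
    simp only [π, LinearMap.comp_apply, hv]
    exact hsX x
  have h0 : v = 0 := hg (by
    rw [map_zero]
    simp [g', g, hπ, hv, hx])
  rw [← hπ, h0, map_zero]

end Fermat.Agent.RelJac
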