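import Fermat.Agent.RelJac.GoodTools
import Fermat.Agent.RelJac.InjFibre

/-!
Good sections on fibres, and spreading out of the defining conditions.
-/

open scoped TensorProduct

namespace Fermat.Agent.RelJac

universe u

open CurveLike (x y)
open Bundle

section General

variable {k : Type u} [CommRing k] {A : Type u} [CommRing A] [Algebra k A] {g : ℕ}
  {R : Type u} [CommRing R] [Algebra k R]

/-- If the fibre of a finite quotient at a field valued point is spanned by given elements, so is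
the quotient near that point. -/
theorem exists_span_nhd (b : Fin g → A) (J : Ideal (R ⊗[k] A))
    [Module.Finite R ((R ⊗[k] A) ⧸ J)] {L : Type u} [Field L] [Algebra k L] (ψ : R →ₐ[k] L)
    (h : ∀ z : L ⊗[k] A, ∃ r : Fin g → L, z - ∑ i, r i ⊗ₜ[k] b i ∈ J.map (mapBase A ψ)) :
    ∃ r : R, ψ r ≠ 0 ∧
      ∀ z : R ⊗[k] A, ∃ c : Fin g → R, r • z - ∑ i, c i ⊗ₜ[k] b i ∈ J := by
  let a₀ := ψ.toRingHom.toAlgebra
  have : IsScalarTower k R L := IsScalarTower.of_algebraMap_eq fun a => (ψ.commutes a).symm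
  let q := Ideal.Quotient.mkₐ R J
  let W : Submodule R ((R ⊗[k] A) ⧸ J) := Submodule.span R (Set.range fun i => q ((1 : R) ⊗ₜ b i))
  have : SMulCommClass R k L := ⟨fun r c z => by simp only [Algebra.smul_def]; ring⟩
  let Φ : L ⊗[k] A →ₐ[k] L ⊗[R] ((R ⊗[k] A) ⧸ J) :=
    Algebra.TensorProduct.lift
      (Algebra.TensorProduct.includeLeft : L →ₐ[k] L ⊗[R] ((R ⊗[k] A) ⧸ J))
      (((Algebra.TensorProduct.includeRight : (R ⊗[k] A) ⧸ J →ₐ[R] _).comp q).restrictScalars k
        |>.comp Algebra.TensorProduct.includeRight) fun a c => by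
      show _ * _ = _ * _
      exact mul_comm (G := L ⊗[R] ((R ⊗[k] A) ⧸ J)) _ _
  have hΦ : ∀ z : R ⊗[k] A, Φ (mapBase A ψ z) = 1 ⊗ₜ q z := by
    intro z
    induction z using TensorProduct.induction_on with
    | zero => simp
    | tmul r a =>
      have h1 : q (r ⊗ₜ a) = r • q (1 ⊗ₜ a) := by
        rw [← map_smul, TensorProduct.smul_tmul', smul_eq_mul, mul_one]
      rw [h1, TensorProduct.tmul_smul, TensorProduct.smul_tmul', Algebra.smul_def, mul_one]
      simp [Φ, RingHom.algebraMap_toAlgebra]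
    | add a b ha hb => rw [map_add, map_add, ha, hb, map_add, TensorProduct.tmul_add]
  have hJ : ∀ w ∈ J.map (mapBase A ψ), Φ w = 0 := by
    intro w hw
    have : J.map (mapBase A ψ) ≤ RingHom.ker Φ := Ideal.map_le_iff_le_comap.2 fun z hz => by
      rw [Ideal.mem_comap, RingHom.mem_ker, hΦ,
        show q z = 0 from Ideal.Quotient.eq_zero_iff_mem.2 hz, TensorProduct.tmul_zero]
    exact this hw
  have hsub : Subsingleton (L ⊗[R] (((R ⊗[k] A) ⧸ J) ⧸ W)) := by
    refine subsingleton_of_forall_eq 0 fun t => ?_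
    induction t using TensorProduct.induction_on with
    | zero => rfl
    | tmul a w =>
      obtain ⟨w, rfl⟩ := Submodule.Quotient.mk_surjective _ w
      obtain ⟨z, rfl⟩ := Ideal.Quotient.mk_surjective w
      obtain ⟨c, hc⟩ := h (mapBase A ψ z)
      have h1 := hJ _ hc
      rw [map_sub, sub_eq_zero, hΦ, map_sum] at h1
      have h2 := congrArg (LinearMap.baseChange L W.mkQ) h1
      rw [LinearMap.baseChange_tmul, map_sum] at h2
      have h3 : ∀ i, LinearMap.baseChange L W.mkQ (Φ (c i ⊗ₜ b i)) = 0 := fun i => by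
        have : Φ (c i ⊗ₜ b i) = c i ⊗ₜ q (1 ⊗ₜ b i) := by simp [Φ]
        rw [this, LinearMap.baseChange_tmul, Submodule.mkQ_apply,
          (Submodule.Quotient.mk_eq_zero W).2 (Submodule.subset_span ⟨i, rfl⟩),
          TensorProduct.tmul_zero]
      rw [Finset.sum_eq_zero fun i _ => h3 i] at h2
      have h4 : a ⊗ₜ[R] (Submodule.Quotient.mk (q z) : _ ⧸ W) =
          a • ((1 : L) ⊗ₜ[R] W.mkQ (q z)) := by
        rw [TensorProduct.smul_tmul', smul_eq_mul, mul_one, Submodule.mkQ_apply]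
      exact h4.trans (by rw [h2, smul_zero])
    | add a b ha hb => rw [ha, hb, add_zero]
  obtain ⟨r, hr, hr'⟩ := FibreTools.exists_annihilator_of_field L hsub
  refine ⟨r, hr, fun z => ?_⟩
  have := hr' (Submodule.Quotient.mk (q z))
  rw [← Submodule.Quotient.mk_smul, Submodule.Quotient.mk_eq_zero] at this
  obtain ⟨c, hc⟩ := (Submodule.mem_span_range_iff_exists_fun R).1 this
  refine ⟨c, Ideal.Quotient.eq.1 ?_⟩
  change q (r • z) = q (∑ i, c i ⊗ₜ[k] b i)
  rw [map_smul, ← hc, map_sum]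
  refine Finset.sum_congr rfl fun i _ => ?_
  rw [← map_smul, TensorProduct.smul_tmul', smul_eq_mul, mul_one]

/-- An ideal with finite quotient which generates the unit ideal on a fibre contains an element of
the base not vanishing at that fibre. -/
theorem exists_unit_nhd (J : Ideal (R ⊗[k] A)) [Module.Finite R ((R ⊗[k] A) ⧸ J)] {L : Type u}
    [Field L] [Algebra k L] (ψ : R →ₐ[k] L) (h : J.map (mapBase A ψ) = ⊤) :
    ∃ r : R, ψ r ≠ 0 ∧ algebraMap R (R ⊗[k] A) r ∈ J := by
  obtain ⟨r, hr, hr'⟩ := exists_span_nhd (g := 0) (fun i => i.elim0) J ψ fun z =>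
    ⟨0, by rw [h]; trivial⟩
  obtain ⟨c, hc⟩ := hr' 1
  exact ⟨r, hr, by simpa [Algebra.algebraMap_eq_smul_one] using hc⟩

/-- A set of elements of a ring meeting the complement of every maximal ideal generates it. -/
theorem one_mem_of_forall_maximal {S : Type u} [CommRing S] (I : Ideal S)
    (h : ∀ m : Ideal S, m.IsMaximal → ∃ r ∈ I, r ∉ m) : (1 : S) ∈ I := by
  by_contra hne
  obtain ⟨m, hm, hle⟩ := Ideal.exists_le_maximal I fun htop => hne (htop ▸ Submodule.mem_top)
  obtain ⟨r, hr, hr'⟩ := h m hm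
  exact hr' (hle hr)

end General

section Bundle

variable {k : Type u} [CommRing k] {T : TwoChart k} [CurveLike T] {g : ℕ} {b : Fin g → T.L}
  {R R' R'' : Type u} [CommRing R] [CommRing R'] [CommRing R''] [Algebra k R] [Algebra k R']
  [Algebra k R'']

/-- Goodness after two base changes is goodness after their composite. -/
theorem isGood_bc_bc (φ : R →ₐ[k] R') (ψ : R' →ₐ[k] R'') (B : Bundle (T.baseChange R)) :
    IsGood b ((B.bc φ).bc ψ) ↔ IsGood b (B.bc (ψ.comp φ)) :=
  isGood_iff_of_cls (by rw [← bcCls_cls, ← bcCls_cls, bcCls_comp, bcCls_cls])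

/-- Goodness after the identity base change is goodness. -/
theorem isGood_bc_id (B : Bundle (T.baseChange R)) :
    IsGood b (B.bc (AlgHom.id k R)) ↔ IsGood b B :=
  isGood_iff_of_cls (by rw [← bcCls_cls, bcCls_id])

/-- Any generating section of a good bundle is good. -/
theorem IsGood.isGoodSection {B : Bundle (T.baseChange R)} (h : IsGood b B) {s : B.H0}
    (hs : Submodule.span R {s} = ⊤) : IsGoodSection b s := by
  obtain ⟨-, t, ht, hP, hQ, hb⟩ := h
  obtain ⟨r, hr⟩ := Submodule.mem_span_singleton.1 (hs ▸ Submodule.mem_top : t ∈ Submodule.span R {s})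
  obtain ⟨r', hr'⟩ := Submodule.mem_span_singleton.1 (ht ▸ Submodule.mem_top : s ∈ Submodule.span R {t})
  have hle : ∀ {A : Type u} [CommRing A] [Algebra R A] {N : Type u} [AddCommGroup N] [Module A N]
      [Module R N] [IsScalarTower R A N] (z : N) (c : R),
      Pairing.divIdeal (A := A) (c • z) ≤ Pairing.divIdeal z := by
    intro A _ _ N _ _ _ _ z c a ha
    rw [Pairing.mem_divIdeal] at ha ⊢
    intro n
    obtain ⟨d, hd⟩ := ha n
    exact ⟨c • d, by rw [← hd, smul_assoc, smul_comm]⟩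
  have e1 : sectIdealP s = sectIdealP t :=
    le_antisymm (by rw [← hr']; exact hle t.1.1 r') (by rw [← hr]; exact hle s.1.1 r)
  have e2 : sectIdealQ s = sectIdealQ t :=
    le_antisymm (by rw [← hr']; exact hle t.1.2 r') (by rw [← hr]; exact hle s.1.2 r)
  have e3 : sectIdeal s = sectIdeal t :=
    le_antisymm (by rw [← hr']; exact sectIdeal_smul_le t r')
      (by rw [← hr]; exact sectIdeal_smul_le s r)
  exact ⟨e1 ▸ hP, e2 ▸ hQ, e3 ▸ hb⟩

/-- The part of the first chart over `x = 0` is finite over the base. -/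
theorem finite_quotient_x (I : Ideal (R ⊗[k] T.P))
    (hI : x (T := T.baseChange R) ∈ I) : Module.Finite R ((R ⊗[k] T.P) ⧸ I) := by
  classical
  let q := Ideal.Quotient.mkₐ R I
  refine ⟨⟨Finset.univ.image fun i => q (CurveLike.basisP (T := T.baseChange R) (i, 0)), ?_⟩⟩
  rw [eq_top_iff]
  rintro z -
  obtain ⟨p, rfl⟩ := Ideal.Quotient.mk_surjective z
  refine (Submodule.map_span_le q.toLinearMap _ _).2 ?_
    (Submodule.mem_map_of_mem ((CurveLike.basisP (T := T.baseChange R)).mem_span p))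
  rintro _ ⟨⟨i, m⟩, rfl⟩
  rcases m with _ | m
  · exact Submodule.subset_span (by simp)
  · rw [CurveLike.basisP_succ]
    have : q.toLinearMap (x (T := T.baseChange R) * CurveLike.basisP (T := T.baseChange R) (i, m)) = 0 :=
      Ideal.Quotient.eq_zero_iff_mem.2 (I.mul_mem_right _ hI)
    rw [this]
    exact Submodule.zero_mem _

theorem finite_quotient_y (I : Ideal (R ⊗[k] T.Q))
    (hI : y (T := T.baseChange R) ∈ I) : Module.Finite R ((R ⊗[k] T.Q) ⧸ I) :=
  finite_quotient_x (T := T.swap) I hI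

/-- Being disjoint from `x = 0` spreads out. -/
theorem exists_coprimeP_nhd {B : Bundle (T.baseChange R)} (s : B.H0) {L : Type u} [Field L]
    [Algebra k L] (ψ : R →ₐ[k] L)
    (h : sectIdealP (B.bcSection ψ s) ⊔ Ideal.span {x (T := T.baseChange L)} = ⊤) :
    ∃ r : R, ψ r ≠ 0 ∧
      algebraMap R (R ⊗[k] T.P) r ∈ sectIdealP s ⊔ Ideal.span {x (T := T.baseChange R)} := by
  set I : Ideal (R ⊗[k] T.P) := sectIdealP s ⊔ Ideal.span {x (T := T.baseChange R)}
  have := finite_quotient_x I (Ideal.mem_sup_right (Ideal.mem_span_singleton_self _))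
  have hx : x (T := T.baseChange L) = mapBase T.P ψ (x (T := T.baseChange R)) := by
    change (1 : L) ⊗ₜ[k] x (T := T) = mapBase T.P ψ (1 ⊗ₜ x (T := T))
    simp
  rw [(sectIdeals_bcSection ψ B s).1, hx, ← Set.image_singleton (f := mapBase T.P ψ),
    ← Ideal.map_span, ← Ideal.map_sup] at h
  exact exists_unit_nhd I ψ h

/-- Being disjoint from `x = ∞` spreads out. -/
theorem exists_coprimeQ_nhd {B : Bundle (T.baseChange R)} (s : B.H0) {L : Type u} [Field L]
    [Algebra k L] (ψ : R →ₐ[k] L)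
    (h : sectIdealQ (B.bcSection ψ s) ⊔ Ideal.span {y (T := T.baseChange L)} = ⊤) :
    ∃ r : R, ψ r ≠ 0 ∧
      algebraMap R (R ⊗[k] T.Q) r ∈ sectIdealQ s ⊔ Ideal.span {y (T := T.baseChange R)} := by
  set I : Ideal (R ⊗[k] T.Q) := sectIdealQ s ⊔ Ideal.span {y (T := T.baseChange R)}
  have := finite_quotient_y I (Ideal.mem_sup_right (Ideal.mem_span_singleton_self _))
  have hy : y (T := T.baseChange L) = mapBase T.Q ψ (y (T := T.baseChange R)) := by
    change (1 : L) ⊗ₜ[k] y (T := T) = mapBase T.Q ψ (1 ⊗ₜ y (T := T))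
    simp
  rw [(sectIdeals_bcSection ψ B s).2.1, hy, ← Set.image_singleton (f := mapBase T.Q ψ),
    ← Ideal.map_span, ← Ideal.map_sup] at h
  exact exists_unit_nhd I ψ h

/-- `H¹ = 0` spreads out. -/
theorem exists_nonspecial_nhd {B : Bundle (T.baseChange R)} {L : Type u} [Field L] [Algebra k L]
    (ψ : R →ₐ[k] L) (h : (B.bc ψ).Nonspecial) : ∃ r : R, ψ r ≠ 0 ∧ ∀ c : B.H1, r • c = 0 := by
  let a₀ := ψ.toRingHom.toAlgebra
  have h' := (TwoTerm.surjective_baseChange_iff B.d L).1 ((nonspecial_bc_iff ψ B).1 h)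
  exact FibreTools.exists_annihilator_of_field L h'

omit [CurveLike T] in
/-- Base change kills `H¹` where it is killed. -/
theorem nonspecial_bc_of_annihilated {B : Bundle (T.baseChange R)} (φ : R →ₐ[k] R') {r : R}
    (hr : IsUnit (φ r)) (h : ∀ c : B.H1, r • c = 0) : (B.bc φ).Nonspecial := by
  let a₀ := φ.toRingHom.toAlgebra
  exact (nonspecial_bc_iff φ B).2 ((TwoTerm.surjective_baseChange_iff B.d R').2
    (FibreTools.subsingleton_tensor_of_annihilated R' hr h))

end Bundle

section Field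

variable {k : Type u} [Field k] [IsAlgClosed k] {T : TwoChart k} [CurveLike T] [IsDedekindDomain T.P]
  [IsDedekindDomain T.Q] [Algebra.FiniteType k T.P] [Algebra.FiniteType k T.Q] {g : ℕ}
  {b : Fin g → T.L} {R : Type u} [CommRing R] [Algebra k R] {L : Type u} [Field L] [Algebra k L]

omit [IsAlgClosed k] [CurveLike T] [IsDedekindDomain T.P] [IsDedekindDomain T.Q]
    [Algebra.FiniteType k T.P] [Algebra.FiniteType k T.Q] in
theorem IsBasisIdeal.finrank_quotient {I : Ideal (L ⊗[k] T.L)} (h : IsBasisIdeal b I) :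
    Module.finrank L ((L ⊗[k] T.L) ⧸ I) = g := by
  obtain ⟨π, hπ, rfl⟩ := IsBasisIdeal.iff_exists_point.1 h
  rw [hπ.quotientEquiv.finrank_eq, Module.finrank_fin_fun]

/-- The degree of a good bundle. -/
theorem IsGoodSection.deg_eq {B : Bundle (T.baseChange L)} {s : B.H0} (hs : s ≠ 0)
    (h : IsGoodSection b s) : B.deg = g := by
  obtain ⟨_, _, _⟩ := isDomain_baseChange (T := T) L
  rw [← finrank_quotient_sectIdeal hs h.coprimeP h.coprimeQ]
  exact_mod_cast congrArg Nat.cast h.basis.finrank_quotient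

/-- Over a field, spanning and degree `g` give a good section. -/
theorem isGoodSection_of_span {B : Bundle (T.baseChange L)} {s : B.H0} (hs : s ≠ 0)
    (hP : sectIdealP s ⊔ Ideal.span {x (T := T.baseChange L)} = ⊤)
    (hQ : sectIdealQ s ⊔ Ideal.span {y (T := T.baseChange L)} = ⊤)
    (hspan : ∀ z : L ⊗[k] T.L, ∃ r : Fin g → L, z - ∑ i, r i ⊗ₜ[k] b i ∈ sectIdeal s)
    (hd : B.deg = g) : IsGoodSection b s := by
  obtain ⟨_, _, _⟩ := isDomain_baseChange (T := T) L
  refine ⟨hP, hQ, ?_⟩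
  obtain ⟨K, -, ⟨ε⟩⟩ := B.exists_inverse
  have := finite_quotient_of_coprime (U := T.baseChange L)
    (J := sectIdeal s) (sectIdealP_eq_comap s hP ε ▸ hP) (sectIdealQ_eq_comap s hQ ε ▸ hQ)
  let l : (Fin g → L) →ₗ[L] (L ⊗[k] T.L) ⧸ sectIdeal s :=
    (Ideal.Quotient.mkₐ L (sectIdeal s)).toLinearMap ∘ₗ Hilb.sect b
  have hl : ∀ r, l r = Ideal.Quotient.mk (sectIdeal s) (∑ i, r i ⊗ₜ[k] b i) := fun r => by
    simp [l, Hilb.sect_apply]
  have hsurj : Function.Surjective l := fun w => by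
    obtain ⟨z, rfl⟩ := Ideal.Quotient.mk_surjective w
    obtain ⟨r, hr⟩ := hspan z
    exact ⟨r, (hl r).trans (Ideal.Quotient.eq.2 hr).symm⟩
  have hdim : Module.finrank L (Fin g → L) = Module.finrank L ((L ⊗[k] T.L) ⧸ sectIdeal s) := by
    have h' := finrank_quotient_sectIdeal hs hP hQ
    rw [hd] at h'
    rw [Module.finrank_fin_fun]
    exact_mod_cast h'.symm
  have hinj : Function.Injective l :=
    (LinearMap.injective_iff_surjective_of_finrank_eq_finrank hdim).2 hsurj
  unfold IsBasisIdeal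
  exact (funext hl : (⇑l = _)) ▸ ⟨hinj, hsurj⟩

end Field

end Fermat.Agent.RelJac
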