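import Fermat.Agent.RelJac.Covering
import Fermat.Agent.RelJac.GoodFibre

/-!
Every class of degree zero over a field is, up to a class from the base field, the class of a
bundle which is good for some family of elements of the overlap.
-/

open scoped TensorProduct

namespace Fermat.Agent.RelJac

universe u

open CurveLike (x y)
open Bundle

section

variable {S : Type u} [CommRing S] {A : Type u} [CommRing A] [Algebra S A]

/-- A generator modulo `t` has zero ideal prime to `t`. -/
theorem range_pair_sup_eq_top {M N : Type u} [AddCommGroup M] [Module A M] [AddCommGroup N]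
    [Module A N] (e : M ⊗[A] N ≃ₗ[A] A) {z : N} {t : A}
    (h : Submodule.span A {z} ⊔ Ideal.span {t} • (⊤ : Submodule A N) = ⊤) :
    LinearMap.range (Pairing.pair e z) ⊔ Ideal.span {t} = ⊤ := by
  rw [Ideal.eq_top_iff_one, ← e.apply_symm_apply 1]
  induction e.symm 1 using TensorProduct.induction_on with
  | zero => rw [map_zero]; exact Submodule.zero_mem _
  | add a c ha hc => rw [map_add]; exact add_mem ha hc
  | tmul m n =>
    obtain ⟨a, ha, w, hw, rfl⟩ := Submodule.mem_sup.1 (h ▸ Submodule.mem_top (x := n))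
    obtain ⟨r, rfl⟩ := Submodule.mem_span_singleton.1 ha
    rw [Submodule.ideal_span_singleton_smul] at hw
    obtain ⟨v, -, rfl⟩ := (Submodule.mem_smul_pointwise_iff_exists _ _ _).1 hw
    rw [TensorProduct.tmul_add, TensorProduct.tmul_smul, TensorProduct.tmul_smul, map_add, map_smul,
      map_smul]
    refine Submodule.add_mem_sup (Submodule.smul_mem _ r ⟨m, rfl⟩) ?_
    rw [smul_eq_mul]
    exact Ideal.mul_mem_right _ _ (Ideal.mem_span_singleton_self t)

end

variable {k : Type u} [Field k] [IsAlgClosed k] {T : TwoChart k} [CurveLike T] [IsDedekindDomain T.P]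
  [IsDedekindDomain T.Q] [Algebra.FiniteType k T.P] [Algebra.FiniteType k T.Q]

/-- Every class of degree zero over a field is good after a shift by a class from the base field. -/
theorem exists_isGood {K : Type u} [Field K] [Algebra k K] (c : Cls (T.baseChange K))
    (hc : degCls c = 0) :
    ∃ (θ : Cls (T.baseChange k)) (g : ℕ) (b : Fin g → T.L) (B : Bundle (T.baseChange K)),
      B.cls = c * bcCls (Algebra.ofId k K) θ ∧ IsGood b B ∧ degCls θ = g := by
  obtain ⟨_, _, _⟩ := isDomain_baseChange (T := T) K
  obtain ⟨θ, B, -, hB, hn, hchi, hgen⟩ := exists_covering c hc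
  have h1 : Module.finrank K B.H0 = 1 := by
    have := B.chi_of_nonspecial hn
    omega
  obtain ⟨s, hs⟩ := exists_section_of_chi_pos (B' := B) (by omega)
  obtain ⟨hgP, hgQ⟩ := hgen s hs
  obtain ⟨M, -, ⟨ε⟩⟩ := B.exists_inverse
  have hP : sectIdealP s ⊔ Ideal.span {x (T := T.baseChange K)} = ⊤ :=
    sectIdealP_eq_range ε s ▸ range_pair_sup_eq_top ε.eP hgP
  have hQ : sectIdealQ s ⊔ Ideal.span {y (T := T.baseChange K)} = ⊤ :=
    sectIdealQ_eq_range ε s ▸ range_pair_sup_eq_top ε.eQ hgQ
  have := finite_quotient_of_coprime (U := T.baseChange K) (J := sectIdeal s)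
    (sectIdealP_eq_comap s hP ε ▸ hP) (sectIdealQ_eq_comap s hQ ε ▸ hQ)
  let q : T.L → (K ⊗[k] T.L) ⧸ sectIdeal s := fun a => Ideal.Quotient.mk _ (1 ⊗ₜ a)
  have htop : Submodule.span K (Set.range q) = ⊤ := by
    refine eq_top_iff.2 fun w _ => ?_
    obtain ⟨z, rfl⟩ := Ideal.Quotient.mk_surjective w
    induction z using TensorProduct.induction_on with
    | zero => rw [map_zero]; exact Submodule.zero_mem _
    | add a b ha hb => rw [map_add]; exact add_mem (ha trivial) (hb trivial)
    | tmul r a =>
      have : r ⊗ₜ[k] a = r • ((1 : K) ⊗ₜ[k] a) := by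
        rw [TensorProduct.smul_tmul', smul_eq_mul, mul_one]
      rw [this]
      exact Submodule.smul_mem _ r (Submodule.subset_span (Set.mem_range_self (f := q) a))
  obtain ⟨f, hf, hspan, -⟩ := Submodule.exists_fun_fin_finrank_span_eq K (Set.range q)
  choose b hb using hf
  have hlen := finrank_quotient_sectIdeal hs hP hQ
  have hg : B.deg = ((Module.finrank K (Submodule.span K (Set.range q)) : ℕ) : ℤ) := by
    rw [← hlen, htop, finrank_top]
  refine ⟨θ, _, b, B, hB, ⟨hn, s, eq_top_iff.2 fun w _ => Submodule.mem_span_singleton.2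
    (exists_smul_eq_of_finrank_eq_one h1 hs w), isGoodSection_of_span hs hP hQ (fun z => ?_) hg⟩, ?_⟩
  · have hz : Ideal.Quotient.mk (sectIdeal s) z ∈ Submodule.span K (Set.range f) := by
      rw [hspan, htop]
      exact Submodule.mem_top
    obtain ⟨r, hr⟩ := (Submodule.mem_span_range_iff_exists_fun K).1 hz
    refine ⟨r, Ideal.Quotient.eq.1 (hr.symm.trans ?_)⟩
    rw [map_sum]
    refine Finset.sum_congr rfl fun i _ => ?_
    rw [← hb i]
    change Ideal.Quotient.mk (sectIdeal s) (r i • ((1 : K) ⊗ₜ[k] b i)) = _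
    rw [TensorProduct.smul_tmul', smul_eq_mul, mul_one]
  · have h2 : degCls B.cls = degCls c + degCls (bcCls (Algebra.ofId k K) θ) := by
      rw [hB, degCls_mul]
    rw [degCls_bc_field, hc, zero_add, degCls_cls, hg] at h2
    exact h2.symm

end Fermat.Agent.RelJac
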