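import Mathlib.RingTheory.LocalRing.Module
import Mathlib.RingTheory.Flat.Basic
import Mathlib.RingTheory.Spectrum.Prime.FreeLocus
import Mathlib.RingTheory.TensorProduct.IsBaseChangeRightExact
import Mathlib.RingTheory.Support
import Mathlib.RingTheory.Spectrum.Prime.Module
import Mathlib.RingTheory.IsTensorProduct

/-!
Linear algebra of a two-term complex `d : C₀ → C₁` of projective modules: openness of the locus
where it is surjective, and base change of its kernel over that locus.
-/

open scoped TensorProduct

namespace Fermat.Agent.RelJac.TwoTerm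

variable {R : Type*} [CommRing R] {C₀ C₁ : Type*} [AddCommGroup C₀] [Module R C₀]
  [AddCommGroup C₁] [Module R C₁] (d : C₀ →ₗ[R] C₁)
variable (S : Type*) [CommRing S] [Algebra R S]

/-- The base change of `d` is surjective iff the cokernel of `d` dies after base change. -/
theorem surjective_baseChange_iff :
    Function.Surjective (d.baseChange S) ↔ Subsingleton (S ⊗[R] (C₁ ⧸ LinearMap.range d)) := by
  have hex : Function.Exact d (LinearMap.range d).mkQ := LinearMap.exact_map_mkQ_range d
  have h := lTensor_exact S hex (Submodule.mkQ_surjective _)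
  have hs : Function.Surjective ((LinearMap.range d).mkQ.lTensor S) :=
    LinearMap.lTensor_surjective S (Submodule.mkQ_surjective _)
  have : ⇑(d.baseChange S) = ⇑(d.lTensor S) := rfl
  rw [this]
  constructor
  · intro hd
    refine subsingleton_of_forall_eq 0 fun y => ?_
    obtain ⟨x, rfl⟩ := hs y
    exact (h x).2 (hd x)
  · intro _ x
    exact (h x).1 (Subsingleton.elim _ _)

variable {d}

/-- The natural map from the base change of the kernel to the kernel of the base change. -/
noncomputable def kerBaseChange :
    S ⊗[R] LinearMap.ker d →ₗ[S] LinearMap.ker (d.baseChange S) :=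
  ((LinearMap.ker d).subtype.baseChange S).codRestrict _ fun x => by
    rw [LinearMap.mem_ker]
    induction x using TensorProduct.induction_on with
    | zero => simp
    | tmul s x => simp [LinearMap.mem_ker.1 x.2]
    | add x y hx hy => simp [hx, hy]

@[simp]
theorem coe_kerBaseChange_apply (x : S ⊗[R] LinearMap.ker d) :
    (kerBaseChange S x : S ⊗[R] C₀) = (LinearMap.ker d).subtype.baseChange S x :=
  rfl

section Split

variable [Module.Projective R C₁] (hd : Function.Surjective d)
include hd

/-- The kernel of a surjection onto a projective module is a direct summand. -/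
theorem exists_retraction :
    ∃ r : C₀ →ₗ[R] LinearMap.ker d, r ∘ₗ (LinearMap.ker d).subtype = LinearMap.id := by
  obtain ⟨s, hs⟩ := Module.projective_lifting_property d LinearMap.id hd
  have h : ∀ x : C₀, ((LinearMap.id : C₀ →ₗ[R] C₀) - s ∘ₗ d) x ∈ LinearMap.ker d := fun x => by
    have hx : d (s (d x)) = d x := LinearMap.congr_fun hs (d x)
    simp [LinearMap.mem_ker, map_sub, hx]
  refine ⟨((LinearMap.id : C₀ →ₗ[R] C₀) - s ∘ₗ d).codRestrict (LinearMap.ker d) h, ?_⟩
  refine LinearMap.ext fun x => Subtype.ext ?_
  simp [LinearMap.mem_ker.1 x.2]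

/-- The kernel of a surjective differential between projective modules is projective. -/
theorem projective_ker [Module.Projective R C₀] : Module.Projective R (LinearMap.ker d) := by
  obtain ⟨r, hr⟩ := exists_retraction hd
  exact Module.Projective.of_split _ _ hr

/-- The kernel is finite if its inclusion factors through a finite module. -/
theorem finite_ker_of_factor {F : Type*} [AddCommGroup F] [Module R F] [Module.Finite R F]
    (f : LinearMap.ker d →ₗ[R] F) (g : F →ₗ[R] C₀) (h : ∀ x, g (f x) = (x : C₀)) :
    Module.Finite R (LinearMap.ker d) := by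
  obtain ⟨r, hr⟩ := exists_retraction hd
  refine Module.Finite.of_surjective (r ∘ₗ g) fun x => ⟨f x, ?_⟩
  simpa [h x] using LinearMap.congr_fun hr x

/-- Formation of the kernel commutes with base change. -/
theorem kerBaseChange_bijective : Function.Bijective (kerBaseChange (d := d) S) := by
  obtain ⟨r, hr⟩ := exists_retraction hd
  have hl : ∀ x : S ⊗[R] LinearMap.ker d,
      r.baseChange S ((LinearMap.ker d).subtype.baseChange S x) = x := fun x => by
    rw [← LinearMap.comp_apply, ← LinearMap.baseChange_comp, hr, LinearMap.baseChange_id,
      LinearMap.id_apply]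
  refine ⟨fun x y hxy => ?_, fun x => ?_⟩
  · rw [← hl x, ← hl y]
    exact congrArg (fun z : LinearMap.ker (d.baseChange S) => r.baseChange S z.1) hxy
  · have hex : Function.Exact (LinearMap.ker d).subtype d := LinearMap.exact_subtype_ker_map d
    obtain ⟨y, hy⟩ := ((lTensor_exact S hex hd) x.1).1 (LinearMap.mem_ker.1 x.2)
    exact ⟨y, Subtype.ext hy⟩

/-- Formation of the kernel commutes with base change, as an equivalence. -/
noncomputable def kerBaseChangeEquiv :
    S ⊗[R] LinearMap.ker d ≃ₗ[S] LinearMap.ker (d.baseChange S) :=
  LinearEquiv.ofBijective _ (kerBaseChange_bijective S hd)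

end Split

end Fermat.Agent.RelJac.TwoTerm
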