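import Fermat.Agent.RelJac.Bundle
import Fermat.Agent.RelJac.CurveLike
import Fermat.Agent.RelJac.TwoTermComplex

/-!
The two-term Čech complex of a line bundle on a curve-like two-chart space: finiteness of `H¹`,
vanishing of `H¹` after twisting, finiteness of `H⁰` when `H¹ = 0`.
-/

open scoped TensorProduct Pointwise

namespace Fermat.Agent.RelJac

universe u

variable {R : Type u} [CommRing R]

theorem projective_trans {A M : Type u} [CommRing A] [Algebra R A] [Module.Free R A]
    [AddCommGroup M] [Module A M] [Module R M] [IsScalarTower R A M] [Module.Projective A M] :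
    Module.Projective R M := by
  obtain ⟨s, hs⟩ := (Module.projective_def' (R := A) (P := M)).1 inferInstance
  exact Module.Projective.of_split (M := M →₀ A) (s.restrictScalars R)
    ((Finsupp.linearCombination A id).restrictScalars R)
    (LinearMap.ext fun m => LinearMap.congr_fun hs m)

namespace Bundle

variable {T : TwoChart R} (B : Bundle T)

/-- The Čech differential `(a, b) ↦ a - b`. -/
noncomputable def d : B.MP × B.MQ →ₗ[R] B.ML :=
  (B.ip.restrictScalars R).coprod (-(B.iq.restrictScalars R))

/-- The differential is the difference of the two gluing maps. -/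
theorem d_apply (m : B.MP × B.MQ) : B.d m = B.ip m.1 - B.iq m.2 := by
  simp [d, sub_eq_add_neg]

/-- Global sections. -/
noncomputable abbrev H0 : Submodule R (B.MP × B.MQ) := LinearMap.ker B.d

/-- The first cohomology. -/
noncomputable abbrev H1 : Type u := B.ML ⧸ LinearMap.range B.d

/-- `H¹ = 0`. -/
def Nonspecial : Prop := Function.Surjective B.d

/-- Global sections are pairs agreeing on the overlap. -/
theorem mem_H0 {m : B.MP × B.MQ} : m ∈ B.H0 ↔ B.ip m.1 = B.iq m.2 := by
  rw [LinearMap.mem_ker, d_apply, sub_eq_zero]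

/-- Isomorphic bundles have isomorphic complexes. -/
theorem Iso.d_comm {B' : Bundle T} (e : Iso B B') :
    B'.d ∘ₗ (e.eP.restrictScalars R).prodCongr (e.eQ.restrictScalars R) =
      (e.eL.restrictScalars R).toLinearMap ∘ₗ B.d := by
  refine LinearMap.ext fun m => ?_
  simp [d_apply, e.commP, e.commQ]

variable [CurveLike T]

open CurveLike (x y)

instance projectiveMP : Module.Projective R B.MP := projective_trans (A := T.P)

instance projectiveMQ : Module.Projective R B.MQ := projective_trans (A := T.Q)

instance projectiveML : Module.Projective R B.ML := projective_trans (A := T.L)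

/-- The overlap module is the localisation of the first chart module. -/
instance isLocalizedP : IsLocalizedModule (Submonoid.powers (x (T := T))) B.ip :=
  (isLocalizedModule_iff_isBaseChange (Submonoid.powers (x (T := T))) T.L B.ip).2 B.baseP

instance isLocalizedQ : IsLocalizedModule (Submonoid.powers (y (T := T))) B.iq :=
  (isLocalizedModule_iff_isBaseChange (Submonoid.powers (y (T := T))) T.L B.iq).2 B.baseQ

/-- The unit `x` of the overlap ring acts by moving between the charts. -/
theorem exists_xpow_smul_eq_ip (z : B.ML) :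
    ∃ (n : ℕ) (m : B.MP), algebraMap T.P T.L (x (T := T)) ^ n • z = B.ip m := by
  obtain ⟨⟨m, ⟨_, n, rfl⟩⟩, h⟩ := IsLocalizedModule.surj (Submonoid.powers (x (T := T))) B.ip z
  refine ⟨n, m, ?_⟩
  rw [← map_pow, algebraMap_smul]
  exact h

/-- A power of `y` moves any section on the overlap into the second chart. -/
theorem exists_ypow_smul_eq_iq (z : B.ML) :
    ∃ (n : ℕ) (m : B.MQ), algebraMap T.Q T.L (y (T := T)) ^ n • z = B.iq m := by
  obtain ⟨⟨m, ⟨_, n, rfl⟩⟩, h⟩ := IsLocalizedModule.surj (Submonoid.powers (y (T := T))) B.iq z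
  refine ⟨n, m, ?_⟩
  rw [← map_pow, algebraMap_smul]
  exact h

omit [CurveLike T] in
/-- Restrictions from the first chart are coboundaries. -/
theorem ip_mem_range (m : B.MP) : B.ip m ∈ LinearMap.range B.d := ⟨(m, 0), by simp [d_apply]⟩

omit [CurveLike T] in
/-- Restrictions from the second chart are coboundaries. -/
theorem iq_mem_range (m : B.MQ) : B.iq m ∈ LinearMap.range B.d := ⟨(0, -m), by simp [d_apply]⟩

/-- Powers of `y` cancel powers of `x` on the overlap. -/
theorem cancel_x_pow (n : ℕ) (z : B.ML) :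
    algebraMap T.Q T.L (y (T := T)) ^ n • algebraMap T.P T.L (x (T := T)) ^ n • z = z := by
  rw [smul_smul, ← mul_pow, mul_comm (algebraMap T.Q T.L _), CurveLike.x_mul_y, one_pow, one_smul]

/-- Powers of `x` cancel powers of `y` on the overlap. -/
theorem cancel_y_pow (n : ℕ) (z : B.ML) :
    algebraMap T.P T.L (x (T := T)) ^ n • algebraMap T.Q T.L (y (T := T)) ^ n • z = z := by
  rw [smul_smul, ← mul_pow, CurveLike.x_mul_y, one_pow, one_smul]

/-- Finitely many elements span `ML` modulo the image of `d`: the classes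
`y^j • ip (e_i x^0 • g)` with bounded `j`. -/
theorem exists_finite_span : ∃ s : Finset B.ML,
    Submodule.span R (s : Set B.ML) ⊔ LinearMap.range B.d = ⊤ := by
  classical
  obtain ⟨G, hG⟩ := Module.Finite.fg_top (R := T.P) (M := B.MP)
  let g : G × CurveLike.ιP (T := T) → B.MP := fun a => CurveLike.basisP (T := T) (a.2, 0) • a.1.1
  choose N w hN using fun a => B.exists_ypow_smul_eq_iq (B.ip (g a))
  let M := Finset.univ.sup N
  let s : Finset B.ML := (Finset.univ (α := G × CurveLike.ιP (T := T)) ×ˢ Finset.range M).image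
    fun a => algebraMap T.Q T.L (y (T := T)) ^ a.2 • B.ip (g a.1)
  refine ⟨s, eq_top_iff.2 fun z _ => ?_⟩
  set S := Submodule.span R (s : Set B.ML) ⊔ LinearMap.range B.d
  -- every `y^j • ip (g a)` lies in `S`
  have key : ∀ (a) (j : ℕ), algebraMap T.Q T.L (y (T := T)) ^ j • B.ip (g a) ∈ S := fun a j => by
    rcases lt_or_ge j M with hj | hj
    · exact Submodule.mem_sup_left (Submodule.subset_span (Finset.mem_image.2 ⟨(a, j), by simp [hj], rfl⟩))
    · refine Submodule.mem_sup_right ?_
      have hNa : N a ≤ j := (Finset.le_sup (Finset.mem_univ a)).trans hj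
      have : algebraMap T.Q T.L (y (T := T)) ^ j • B.ip (g a) =
          B.iq (y (T := T) ^ (j - N a) • w a) := by
        rw [map_smul B.iq, ← hN, ← algebraMap_smul T.L (y (T := T) ^ (j - N a)), smul_smul, map_pow,
          ← pow_add, Nat.sub_add_cancel hNa]
      rw [this]
      exact B.iq_mem_range _
  have hspan : Submodule.span R
      (Set.range (CurveLike.basisP (T := T)) • (G : Set B.MP)) = ⊤ := by
    rw [Submodule.span_smul_of_span_eq_top (Module.Basis.span_eq _), hG,
      Submodule.restrictScalars_top]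
  have key' : ∀ (m : B.MP) (n : ℕ), algebraMap T.Q T.L (y (T := T)) ^ n • B.ip m ∈ S := by
    intro m n
    have hm : m ∈ Submodule.span R
        (Set.range (CurveLike.basisP (T := T)) • (G : Set B.MP)) := hspan ▸ Submodule.mem_top
    induction hm using Submodule.span_induction with
    | zero => simp
    | add a b _ _ ha hb => simpa [smul_add] using S.add_mem ha hb
    | smul r a _ ha =>
      rw [LinearMap.map_smul_of_tower, smul_comm]
      exact S.smul_mem r ha
    | mem m hm =>
      obtain ⟨_, ⟨⟨i, l⟩, rfl⟩, b, hb, rfl⟩ := hm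
      change _ • B.ip (CurveLike.basisP (T := T) (i, l) • b) ∈ S
      rw [CurveLike.basisP_eq, mul_smul, map_smul, ← algebraMap_smul T.L (x (T := T) ^ l), map_pow]
      change _ • _ • B.ip (g (⟨b, hb⟩, i)) ∈ S
      rcases le_total l n with h | h
      · obtain ⟨j, rfl⟩ := Nat.exists_eq_add_of_le' h
        rw [pow_add, mul_smul, cancel_x_pow]
        exact key _ j
      · obtain ⟨j, rfl⟩ := Nat.exists_eq_add_of_le h
        rw [pow_add, mul_smul, cancel_x_pow, ← map_pow, algebraMap_smul, ← map_smul]
        exact Submodule.mem_sup_right (B.ip_mem_range _)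
  obtain ⟨n, m, hm⟩ := B.exists_xpow_smul_eq_ip z
  have := key' m n
  rwa [← hm, cancel_x_pow] at this

/-- The first cohomology is finite. -/
instance finite_H1 : Module.Finite R B.H1 := by
  classical
  obtain ⟨s, hs⟩ := B.exists_finite_span
  refine ⟨⟨s.image (LinearMap.range B.d).mkQ, ?_⟩⟩
  rw [Finset.coe_image, Submodule.span_image, eq_top_iff]
  intro z _
  obtain ⟨z, rfl⟩ := Submodule.mkQ_surjective _ z
  obtain ⟨a, ha, b, hb, rfl⟩ := Submodule.mem_sup.1 (hs ▸ Submodule.mem_top (x := z))
  exact ⟨a, ha, by rw [map_add, Submodule.mkQ_apply, Submodule.mkQ_apply,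
    (Submodule.Quotient.mk_eq_zero _).2 hb, add_zero]⟩

/-- Restriction from the first chart is injective. -/
theorem ip_injective : Function.Injective B.ip := by
  obtain ⟨a, π, hπ⟩ := Module.Finite.exists_fin' T.P B.MP
  obtain ⟨s, hs⟩ := Module.projective_lifting_property π LinearMap.id hπ
  refine (injective_iff_map_eq_zero B.ip).2 fun m hm => ?_
  suffices s m = 0 by
    simpa [this] using (LinearMap.congr_fun hs m).symm
  funext l
  have h := IsBaseChange.lift_eq B.baseP
    ((Algebra.linearMap T.P T.L).comp ((LinearMap.proj l).comp s)) m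
  rw [hm, map_zero] at h
  exact CurveLike.algebraMapP_injective T (h.symm.trans (map_zero _).symm)

/-- Restriction from the second chart is injective. -/
theorem iq_injective : Function.Injective B.iq := by
  obtain ⟨a, π, hπ⟩ := Module.Finite.exists_fin' T.Q B.MQ
  obtain ⟨s, hs⟩ := Module.projective_lifting_property π LinearMap.id hπ
  refine (injective_iff_map_eq_zero B.iq).2 fun m hm => ?_
  suffices s m = 0 by
    simpa [this] using (LinearMap.congr_fun hs m).symm
  funext l
  have h := IsBaseChange.lift_eq B.baseQ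
    ((Algebra.linearMap T.Q T.L).comp ((LinearMap.proj l).comp s)) m
  rw [hm, map_zero] at h
  exact CurveLike.algebraMapQ_injective T (h.symm.trans (map_zero _).symm)

/-- A global section is determined by its part on the first chart. -/
theorem H0_ext {m m' : B.MP × B.MQ} (hm : m ∈ B.H0) (hm' : m' ∈ B.H0) (h : m.1 = m'.1) :
    m = m' :=
  Prod.ext h (B.iq_injective ((B.mem_H0.1 hm).symm.trans (by rw [h, B.mem_H0.1 hm'])))

/-- The first components of global sections factor through a finite free module. -/
theorem exists_truncation_fst : ∃ (F : Type u) (_ : AddCommGroup F) (_ : Module R F)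
    (_ : Module.Finite R F) (f : B.MP →ₗ[R] F) (g : F →ₗ[R] B.MP),
    ∀ m ∈ B.H0, g (f m.1) = m.1 := by
  classical
  obtain ⟨a, π, hπ⟩ := Module.Finite.exists_fin' T.P B.MP
  obtain ⟨φ, hφ⟩ := Module.projective_lifting_property π LinearMap.id hπ
  obtain ⟨G, hG⟩ := Module.Finite.fg_top (R := T.Q) (M := B.MQ)
  let g₀ : G × CurveLike.ιQ (T := T) → B.MQ :=
    fun b => CurveLike.basisQ (T := T) (b.2, 0) • b.1.1
  choose N e he using fun b => B.exists_xpow_smul_eq_ip (B.iq (g₀ b))
  let D : ℕ := Finset.univ.sup fun b : (G × CurveLike.ιQ (T := T)) × Fin a =>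
    ((CurveLike.basisP (T := T)).repr (φ (e b.1) b.2)).support.sup Prod.snd
  have hD : ∀ b l i n, D < n → (CurveLike.basisP (T := T)).repr (φ (e b) l) (i, n) = 0 := by
    intro b l i n hn
    by_contra h
    have h₁ : n ≤ ((CurveLike.basisP (T := T)).repr (φ (e b) l)).support.sup Prod.snd :=
      Finset.le_sup (f := Prod.snd) (Finsupp.mem_support_iff.2 h)
    have h₂ := Finset.le_sup (Finset.mem_univ (b, l))
      (f := fun b : (G × CurveLike.ιQ (T := T)) × Fin a =>
        ((CurveLike.basisP (T := T)).repr (φ (e b.1) b.2)).support.sup Prod.snd)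
    exact absurd (h₁.trans h₂) (not_le.2 hn)
  -- `z` has a pole of bounded order
  let Bdd : B.ML → Prop := fun z => ∃ (K : ℕ) (m : B.MP),
    algebraMap T.P T.L (x (T := T)) ^ K • z = B.ip m ∧
      ∀ l i n, K + D < n → (CurveLike.basisP (T := T)).repr (φ m l) (i, n) = 0
  have shift : ∀ (z : B.ML) (K : ℕ) (m : B.MP),
      algebraMap T.P T.L (x (T := T)) ^ K • z = B.ip m →
      (∀ l i n, K + D < n → (CurveLike.basisP (T := T)).repr (φ m l) (i, n) = 0) →
      ∀ j, algebraMap T.P T.L (x (T := T)) ^ (j + K) • z = B.ip (x (T := T) ^ j • m) ∧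
      ∀ l i n, j + K + D < n →
        (CurveLike.basisP (T := T)).repr (φ (x (T := T) ^ j • m) l) (i, n) = 0 := by
    intro z K m h₁ h₂ j
    refine ⟨by rw [pow_add, mul_smul, h₁, map_smul, ← map_pow, algebraMap_smul], fun l i n hn => ?_⟩
    obtain ⟨n', rfl⟩ := Nat.exists_eq_add_of_le' (show j ≤ n by lia)
    rw [map_smul, Pi.smul_apply, smul_eq_mul]
    exact ((CurveLike.shiftP T).repr_x_pow_mul _ i n' j).trans (h₂ l i n' (by lia))
  have key : ∀ q : B.MQ, Bdd (B.iq q) := by
    intro q
    have hspan : Submodule.span R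
        (Set.range (CurveLike.basisQ (T := T)) • (G : Set B.MQ)) = ⊤ := by
      rw [Submodule.span_smul_of_span_eq_top (Module.Basis.span_eq _), hG,
        Submodule.restrictScalars_top]
    have hq : q ∈ Submodule.span R
        (Set.range (CurveLike.basisQ (T := T)) • (G : Set B.MQ)) := hspan ▸ Submodule.mem_top
    induction hq using Submodule.span_induction with
    | zero => exact ⟨0, 0, by simp, by simp⟩
    | add u v _ _ hu hv =>
      obtain ⟨K, m, h₁, h₂⟩ := hu
      obtain ⟨K', m', h₁', h₂'⟩ := hv
      obtain ⟨s₁, s₂⟩ := shift _ _ _ h₁ h₂ K'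
      obtain ⟨s₁', s₂'⟩ := shift _ _ _ h₁' h₂' K
      refine ⟨K' + K, x (T := T) ^ K' • m + x (T := T) ^ K • m',
        by rw [map_add, map_add, smul_add, s₁, add_comm K' K, s₁'], fun l i n hn => ?_⟩
      simp only [map_add, Pi.add_apply, Finsupp.add_apply]
      rw [s₂ l i n hn, s₂' l i n (by lia), add_zero]
    | smul r u _ hu =>
      obtain ⟨K, m, h₁, h₂⟩ := hu
      refine ⟨K, r • m, by rw [LinearMap.map_smul_of_tower, smul_comm, h₁,
        LinearMap.map_smul_of_tower], fun l i n hn => ?_⟩
      simp [LinearMap.map_smul_of_tower, h₂ l i n hn]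
    | mem u hu =>
      obtain ⟨_, ⟨⟨i, j⟩, rfl⟩, b, hb, rfl⟩ := hu
      refine ⟨j + N (⟨b, hb⟩, i), e (⟨b, hb⟩, i), ?_, fun l i' n hn => hD _ l i' n (by lia)⟩
      rw [← he]
      change _ • B.iq (CurveLike.basisQ (T := T) (i, j) • b) = _
      rw [CurveLike.basisQ_eq, mul_smul, map_smul, ← algebraMap_smul T.L (y (T := T) ^ j), map_pow,
        add_comm, pow_add, mul_smul, cancel_y_pow]
  -- the truncation
  let trunc : T.P →ₗ[R] (CurveLike.ιP (T := T) × Fin (D + 1) → R) :=
    LinearMap.pi fun b => (Finsupp.lapply (b.1, (b.2 : ℕ))).comp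
      (CurveLike.basisP (T := T)).repr.toLinearMap
  let back : (CurveLike.ιP (T := T) × Fin (D + 1) → R) →ₗ[R] T.P :=
    Fintype.linearCombination R fun b : CurveLike.ιP (T := T) × Fin (D + 1) =>
      CurveLike.basisP (T := T) (b.1, (b.2 : ℕ))
  refine ⟨Fin a → CurveLike.ιP (T := T) × Fin (D + 1) → R, inferInstance, inferInstance,
    inferInstance, LinearMap.pi fun l => trunc.comp ((LinearMap.proj l).comp (φ.restrictScalars R)),
    (π.restrictScalars R).comp (LinearMap.pi fun l => back.comp (LinearMap.proj l)), ?_⟩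
  intro m hm
  obtain ⟨K, w, h₁, h₂⟩ := key m.2
  rw [← B.mem_H0.1 hm, ← map_pow, algebraMap_smul, ← map_smul] at h₁
  obtain rfl := B.ip_injective h₁
  have hbd : ∀ l i n, D < n → (CurveLike.basisP (T := T)).repr (φ m.1 l) (i, n) = 0 := by
    intro l i n hn
    have := h₂ l i (n + K) (by lia)
    rw [map_smul, Pi.smul_apply, smul_eq_mul] at this
    exact ((CurveLike.shiftP T).repr_x_pow_mul _ i n K).symm.trans this
  have hback : ∀ l, back (trunc (φ m.1 l)) = φ m.1 l := by
    intro l
    refine (CurveLike.basisP (T := T)).repr.injective (Finsupp.ext fun ⟨i, n⟩ => ?_)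
    simp only [back, trunc, LinearMap.pi_apply, LinearMap.comp_apply, LinearEquiv.coe_coe,
      Fintype.linearCombination_apply, map_sum, map_smul, Module.Basis.repr_self, Finsupp.lapply_apply,
      Finsupp.coe_finsetSum, Finset.sum_apply, Finsupp.smul_apply, smul_eq_mul]
    by_cases hn : n ≤ D
    · rw [Finset.sum_eq_single (i, (⟨n, by lia⟩ : Fin (D + 1)))]
      · simp
      · intro b _ hb
        rw [Finsupp.single_eq_of_ne, mul_zero]
        rintro h
        exact hb (Prod.ext (congrArg Prod.fst h).symm (Fin.ext (congrArg Prod.snd h).symm))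
      · exact fun h => absurd (Finset.mem_univ _) h
    · rw [hbd l i n (not_le.1 hn)]
      refine Finset.sum_eq_zero fun b _ => ?_
      rw [Finsupp.single_eq_of_ne, mul_zero]
      rintro h
      have h' : n = (b.2 : ℕ) := congrArg Prod.snd h
      exact hn (h' ▸ Nat.lt_succ_iff.1 b.2.2)
  calc _ = π (fun l => back (trunc (φ m.1 l))) := rfl
    _ = π (φ m.1) := by simp only [hback]
    _ = m.1 := LinearMap.congr_fun hφ m.1

end Bundle

end Fermat.Agent.RelJac
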