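import Mathlib.RingTheory.Finiteness.Prod
import Fermat.Agent.RelJac.Cohomology
import Fermat.Agent.RelJac.BaseChange

/-!
Swap, global sections of finite type, and base change of the two-term complex of a bundle.
-/

open scoped TensorProduct

namespace Fermat.Agent.RelJac

universe u

variable {R : Type u} [CommRing R] {T : TwoChart R}

noncomputable instance CurveLike.swap [CurveLike T] : CurveLike T.swap where
  x := CurveLike.y (T := T)
  y := CurveLike.x (T := T)
  x_mul_y := by rw [mul_comm]; exact CurveLike.x_mul_y (T := T)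
  awayP := CurveLike.awayQ (T := T)
  awayQ := CurveLike.awayP (T := T)
  freeL := CurveLike.freeL (T := T)
  ιP := CurveLike.ιQ (T := T)
  finP := CurveLike.finQ (T := T)
  basisP := CurveLike.basisQ (T := T)
  basisP_succ := CurveLike.basisQ_succ (T := T)
  ιQ := CurveLike.ιP (T := T)
  finQ := CurveLike.finP (T := T)
  basisQ := CurveLike.basisP (T := T)
  basisQ_succ := CurveLike.basisP_succ (T := T)

namespace Bundle

variable (B : Bundle T)

/-- The bundle with the two charts exchanged. -/
noncomputable abbrev swap : Bundle T.swap where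
  MP := B.MQ
  MQ := B.MP
  ML := B.ML
  modP := B.modQ
  modQ := B.modP
  modL := B.modL
  modPL := B.modQL
  modQL := B.modPL
  modRP := B.modRQ
  modRQ := B.modRP
  modRL := B.modRL
  towerRP := B.towerRQ
  towerRQ := B.towerRP
  towerRL := B.towerRL
  towerPL := B.towerQL
  towerQL := B.towerPL
  invP := B.invQ
  invQ := B.invP
  ip := B.iq
  iq := B.ip
  baseP := B.baseQ
  baseQ := B.baseP

variable [CurveLike T]

/-- Global sections factor through a finite module. -/
theorem exists_truncation : ∃ (F : Type u) (_ : AddCommGroup F) (_ : Module R F)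
    (_ : Module.Finite R F) (f : B.H0 →ₗ[R] F) (g : F →ₗ[R] B.MP × B.MQ),
    ∀ m, g (f m) = (m : B.MP × B.MQ) := by
  obtain ⟨F, _, _, _, f, g, h⟩ := B.exists_truncation_fst
  obtain ⟨F', _, _, _, f', g', h'⟩ := B.swap.exists_truncation_fst
  refine ⟨F × F', inferInstance, inferInstance, inferInstance,
    ((f.comp (LinearMap.fst R B.MP B.MQ)).prod (f'.comp (LinearMap.snd R B.MP B.MQ))).comp
      B.H0.subtype, g.prodMap g', fun m => Prod.ext (h m.1 m.2) ?_⟩
  exact h' (m.1.2, m.1.1) (B.swap.mem_H0.2 (B.mem_H0.1 m.2).symm)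

/-- If `H¹ = 0` then `H⁰` is finite. -/
theorem finite_H0 (h : B.Nonspecial) : Module.Finite R B.H0 := by
  obtain ⟨F, _, _, _, f, g, hfg⟩ := B.exists_truncation
  exact TwoTerm.finite_ker_of_factor h f g hfg

/-- If `H¹ = 0` then `H⁰` is projective. -/
theorem projective_H0 (h : B.Nonspecial) : Module.Projective R B.H0 :=
  TwoTerm.projective_ker h

/-- Over a noetherian base, global sections are always finite. -/
theorem finite_H0_of_noetherian [IsNoetherianRing R] : Module.Finite R B.H0 := by
  obtain ⟨F, _, _, _, f, g, hfg⟩ := B.exists_truncation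
  exact Module.Finite.of_injective f fun a b hab => Subtype.ext (by rw [← hfg a, ← hfg b, hab])

end Bundle

section BaseChange

variable {R' : Type u} [CommRing R'] {T' : TwoChart R'} [T.Over T'] [Algebra R R']
  [Algebra R T'.P] [Algebra R T'.Q] [Algebra R T'.L]
  [IsScalarTower R R' T'.P] [IsScalarTower R R' T'.Q] [IsScalarTower R R' T'.L]
  [IsScalarTower R T.P T'.P] [IsScalarTower R T.Q T'.Q] [IsScalarTower R T.L T'.L]
  [Algebra.IsPushout R R' T.P T'.P] [Algebra.IsPushout R R' T.Q T'.Q]
  [Algebra.IsPushout R R' T.L T'.L]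
  (B : Bundle T)

namespace Bundle

/-- The terms of degree zero of a pulled back complex. -/
noncomputable def eC0 : R' ⊗[R] (B.MP × B.MQ) ≃ₗ[R'] (B.pullback T').MP × (B.pullback T').MQ :=
  (TensorProduct.prodRight R R' R' B.MP B.MQ).trans
    ((Algebra.IsPushout.cancelBaseChange R R' T.P T'.P B.MP).symm.prodCongr
      (Algebra.IsPushout.cancelBaseChange R R' T.Q T'.Q B.MQ).symm)

/-- The term of degree one of a pulled back complex. -/
noncomputable def eC1 : R' ⊗[R] B.ML ≃ₗ[R'] (B.pullback T').ML :=
  (Algebra.IsPushout.cancelBaseChange R R' T.L T'.L B.ML).symm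

omit [Algebra R T'.L] [IsScalarTower R R' T'.L] [IsScalarTower R T.L T'.L]
    [Algebra.IsPushout R R' T.L T'.L] in
theorem eC0_tmul (r : R') (m : B.MP × B.MQ) :
    B.eC0 (T' := T') (r ⊗ₜ m) = (algebraMap R' T'.P r ⊗ₜ m.1, algebraMap R' T'.Q r ⊗ₜ m.2) := by
  simp [eC0]

omit [Algebra R T'.P] [Algebra R T'.Q] [IsScalarTower R R' T'.P] [IsScalarTower R R' T'.Q]
    [IsScalarTower R T.P T'.P] [IsScalarTower R T.Q T'.Q] [Algebra.IsPushout R R' T.P T'.P]
    [Algebra.IsPushout R R' T.Q T'.Q] in
theorem eC1_tmul (r : R') (z : B.ML) :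
    B.eC1 (T' := T') (r ⊗ₜ z) = algebraMap R' T'.L r ⊗ₜ z :=
  Algebra.IsPushout.cancelBaseChange_symm_tmul _ _ _ _ _ _ _

theorem d_pullback (z : R' ⊗[R] (B.MP × B.MQ)) :
    (B.pullback T').d (B.eC0 z) = B.eC1 (B.d.baseChange R' z) := by
  induction z using TensorProduct.induction_on with
  | zero => simp
  | tmul r m =>
    rw [LinearMap.baseChange_tmul, eC0_tmul, eC1_tmul, d_apply, d_apply, TensorProduct.tmul_sub]
    simp [← IsScalarTower.algebraMap_apply]
  | add a b ha hb => simp [ha, hb]

/-- `H¹` vanishes after base change exactly when the base changed differential is surjective. -/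
theorem nonspecial_pullback_iff :
    (B.pullback T').Nonspecial ↔ Function.Surjective (B.d.baseChange R') := by
  constructor
  · intro h z
    obtain ⟨w, hw⟩ := h (B.eC1 (T' := T') z)
    refine ⟨(B.eC0 (T' := T')).symm w, (B.eC1 (T' := T')).injective ?_⟩
    rw [← d_pullback, LinearEquiv.apply_symm_apply, hw]
  · intro h z
    obtain ⟨w, hw⟩ := h ((B.eC1 (T' := T')).symm z)
    exact ⟨B.eC0 (T' := T') w, by rw [d_pullback, hw, LinearEquiv.apply_symm_apply]⟩

/-- Vanishing of `H¹` is stable under base change. -/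
theorem Nonspecial.pullback (h : B.Nonspecial) : (B.pullback T').Nonspecial :=
  (nonspecial_pullback_iff B).2 (LinearMap.lTensor_surjective R' h)

variable [Module.Projective R B.ML]

/-- Formation of global sections commutes with base change when `H¹ = 0`. -/
noncomputable def H0BaseChange (h : B.Nonspecial) : R' ⊗[R] B.H0 ≃ₗ[R'] (B.pullback T').H0 :=
  (TwoTerm.kerBaseChangeEquiv R' h).trans <|
    (B.eC0 (T' := T')).ofSubmodules _ _ <| by
      refine Submodule.ext fun z => ?_
      rw [Submodule.mem_map_equiv, LinearMap.mem_ker, LinearMap.mem_ker]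
      constructor
      · intro hz
        rw [← (B.eC0 (T' := T')).apply_symm_apply z, d_pullback, hz, map_zero]
      · intro hz
        rw [← (B.eC0 (T' := T')).apply_symm_apply z, d_pullback] at hz
        exact (B.eC1 (T' := T')).injective (by rw [hz, map_zero])

/-- Base change of global sections on pure tensors. -/
theorem coe_H0BaseChange_tmul (h : B.Nonspecial) (r : R') (m : B.H0) :
    ((B.H0BaseChange (T' := T') h (r ⊗ₜ m)) : (B.pullback T').MP × (B.pullback T').MQ) =
      (algebraMap R' T'.P r ⊗ₜ m.1.1, algebraMap R' T'.Q r ⊗ₜ m.1.2) :=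
  B.eC0_tmul r m.1

end Bundle

end BaseChange

end Fermat.Agent.RelJac
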