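import Mathlib.RingTheory.Flat.Basic
import Mathlib.FieldTheory.IsAlgClosed.Basic
import Fermat.Agent.RelJac.ComplexBaseChange

/-!
The global functions of a complete connected two-chart curve are the constants, after any base
change.
-/

open scoped TensorProduct

namespace Fermat.Agent.RelJac

universe u

namespace TwoChart

variable {k : Type u} [CommRing k] (T : TwoChart k)

/-- Compatible pairs of functions on the two charts are constants. -/
def HasConstantSections : Prop :=
  ∀ (p : T.P) (q : T.Q), algebraMap T.P T.L p = algebraMap T.Q T.L q →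
    ∃ a : k, p = algebraMap k T.P a ∧ q = algebraMap k T.Q a

end TwoChart

/-- Global functions are pairs of functions agreeing on the overlap. -/
theorem mem_H0_trivial {R : Type u} [CommRing R] {T : TwoChart R} {p : T.P} {q : T.Q} :
    ((p, q) : (Bundle.trivial T).MP × (Bundle.trivial T).MQ) ∈ (Bundle.trivial T).H0 ↔
      algebraMap T.P T.L p = algebraMap T.Q T.L q := by
  rw [Bundle.mem_H0, Bundle.glue_ip, Bundle.glue_iq, Units.val_one, one_mul]

variable {k : Type u} [Field k] {T : TwoChart k}

/-- Over an algebraically closed field the global functions of a complete curve are constants. -/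
theorem hasConstantSections [IsAlgClosed k] [CurveLike T] [IsDomain T.P] :
    T.HasConstantSections := by
  intro p q h
  have : Module.Finite k (Bundle.trivial T).H0 := Bundle.finite_H0_of_noetherian _
  let S : Subalgebra k T.P :=
    (IsScalarTower.toAlgHom k T.Q T.L).range.comap (IsScalarTower.toAlgHom k T.P T.L)
  have hS : Subalgebra.toSubmodule S =
      (Bundle.trivial T).H0.map (LinearMap.fst k T.P T.Q) := by
    refine Submodule.ext fun p' => ⟨?_, ?_⟩
    · rintro ⟨q', hq⟩
      exact ⟨(p', q'), mem_H0_trivial.2 hq.symm, rfl⟩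
    · rintro ⟨⟨p'', q'⟩, hm, rfl⟩
      exact ⟨q', (mem_H0_trivial.1 hm).symm⟩
  have hfin : Module.Finite k (Subalgebra.toSubmodule S) := by rw [hS]; infer_instance
  have : Module.Finite k S := hfin
  obtain ⟨a, ha⟩ := (IsAlgClosed.algebraMap_bijective_of_isIntegral (k := k) (K := S)).2
    ⟨p, q, h.symm⟩
  have hp : p = algebraMap k T.P a := (congrArg Subtype.val ha).symm
  refine ⟨a, hp, CurveLike.algebraMapQ_injective T ?_⟩
  rw [← h, hp, ← IsScalarTower.algebraMap_apply, ← IsScalarTower.algebraMap_apply]

variable {R : Type u} [CommRing R] [Algebra k R]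

/-- Constancy of global functions survives every base change from a field. -/
theorem TwoChart.HasConstantSections.baseChange (hT : T.HasConstantSections) :
    (T.baseChange R).HasConstantSections := by
  intro p q h
  let ψ : k →ₗ[k] T.P × T.Q := (Algebra.linearMap k T.P).prod (Algebra.linearMap k T.Q)
  let δ : T.P × T.Q →ₗ[k] T.L :=
    (IsScalarTower.toAlgHom k T.P T.L).toLinearMap.comp (LinearMap.fst k T.P T.Q) -
      (IsScalarTower.toAlgHom k T.Q T.L).toLinearMap.comp (LinearMap.snd k T.P T.Q)
  have hex : Function.Exact ψ δ := by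
    rintro ⟨a, b⟩
    constructor
    · intro hab
      obtain ⟨c, rfl, rfl⟩ := hT a b (by simpa [δ, sub_eq_zero] using hab)
      exact ⟨c, rfl⟩
    · rintro ⟨c, hc⟩
      obtain ⟨rfl, rfl⟩ := Prod.ext_iff.1 hc
      simp [δ, ψ, ← IsScalarTower.algebraMap_apply]
  let e := TensorProduct.prodRight k R R T.P T.Q
  have hδ : ∀ z : R ⊗[k] (T.P × T.Q), δ.baseChange R z =
      algebraMap (R ⊗[k] T.P) (R ⊗[k] T.L) (e z).1 -
        algebraMap (R ⊗[k] T.Q) (R ⊗[k] T.L) (e z).2 := by
    intro z
    induction z using TensorProduct.induction_on with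
    | zero => simp
    | tmul r m =>
      simp [e, δ, TwoChart.baseChange_algebraMapP_tmul, TwoChart.baseChange_algebraMapQ_tmul]
    | add a b ha hb => simp only [map_add, ha, hb, Prod.fst_add, Prod.snd_add]; abel
  obtain ⟨w, hw⟩ := ((Module.Flat.lTensor_exact R hex) (e.symm (p, q))).1 <| by
    change δ.baseChange R (e.symm (p, q)) = 0
    rw [hδ, LinearEquiv.apply_symm_apply, h, sub_self]
  obtain ⟨r, rfl⟩ : ∃ r : R, w = r ⊗ₜ (1 : k) :=
    ⟨TensorProduct.rid k R w, by
      rw [← TensorProduct.rid_symm_apply, LinearEquiv.symm_apply_apply]⟩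
  have := congrArg e hw
  rw [LinearEquiv.apply_symm_apply] at this
  simp [e, ψ] at this
  exact ⟨r, by simp [← this.1, Algebra.TensorProduct.algebraMap_apply],
    by simp [← this.2, Algebra.TensorProduct.algebraMap_apply]⟩

end Fermat.Agent.RelJac
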