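import Fermat.Agent.RelJac.SheafSect

/-!
Gluing of sheaves of modules along an open cover.
-/

noncomputable section

universe u

open CategoryTheory AlgebraicGeometry TopologicalSpace Opposite

namespace Fermat.Agent.RelJac.Sheaf

variable (X : Scheme.{u})

/-- Gluing data: modules on the members of an open cover, with transition isomorphisms. -/
structure GlueData where
  ι : Type u
  U : ι → X.Opens
  F : ι → X.Modules
  θ : ∀ i j, SectHom (F i) (F j) (U i ⊓ U j)
  θ_self : ∀ i W hW (s : Γ(F i, W)), (θ i i).app W hW s = s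
  θ_θ : ∀ i j k W hij hjk hik (s : Γ(F i, W)),
    (θ j k).app W hjk ((θ i j).app W hij s) = (θ i k).app W hik s
  cover : ⨆ i, U i = ⊤

namespace GlueData

variable {X} (D : GlueData X)

/-- Compatible families of local sections. -/
def Sec (W : X.Opens) : AddSubgroup (∀ i, Γ(D.F i, W ⊓ D.U i)) where
  carrier := {s | ∀ i j (V : X.Opens) (hi : V ≤ W ⊓ D.U i) (hj : V ≤ W ⊓ D.U j),
    (D.θ i j).app V (le_inf (hi.trans inf_le_right) (hj.trans inf_le_right)) (res (D.F i) hi (s i)) =
      res (D.F j) hj (s j)}
  zero_mem' := fun i j V hi hj => by simp [res]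
  add_mem' := fun {a b} ha hb i j V hi hj => by
    simp only [res, Pi.add_apply, map_add]
    exact congr_arg₂ (· + ·) (ha i j V hi hj) (hb i j V hi hj)
  neg_mem' := fun {a} ha i j V hi hj => by
    simp only [res, Pi.neg_apply, map_neg]
    exact congr_arg Neg.neg (ha i j V hi hj)

variable {D}

theorem sec_ext {W : X.Opens} {s t : D.Sec W} (h : ∀ i, s.1 i = t.1 i) : s = t :=
  Subtype.ext (funext h)

/-- The components of a glued section agree on overlaps. -/
theorem compat {W : X.Opens} (s : D.Sec W) (i j : D.ι) {V : X.Opens} (hi : V ≤ W ⊓ D.U i)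
    (hj : V ≤ W ⊓ D.U j) :
    (D.θ i j).app V (le_inf (hi.trans inf_le_right) (hj.trans inf_le_right))
      (res (D.F i) hi (s.1 i)) = res (D.F j) hj (s.1 j) :=
  s.2 i j V hi hj

variable (D)

instance (W : X.Opens) : SMul Γ(X, W) (D.Sec W) :=
  ⟨fun r s => ⟨fun i => resO inf_le_left r • s.1 i, fun i j V hi hj => by
    dsimp only
    rw [res_smul, res_smul, map_smul, compat s i j hi hj, resO_resO, resO_resO]⟩⟩

theorem smul_val {W : X.Opens} (r : Γ(X, W)) (s : D.Sec W) (i : D.ι) :
    (r • s).1 i = resO (inf_le_left : W ⊓ D.U i ≤ W) r • s.1 i := rfl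

instance (W : X.Opens) : Module Γ(X, W) (D.Sec W) where
  one_smul s := sec_ext fun i => by simp [smul_val, resO]
  mul_smul a b s := sec_ext fun i => by simp [smul_val, resO, mul_smul]
  smul_zero a := sec_ext fun i => by simp [smul_val]
  smul_add a s t := sec_ext fun i => by simp [smul_val]
  add_smul a b s := sec_ext fun i => by simp [smul_val, resO, add_smul]
  zero_smul s := sec_ext fun i => by simp [smul_val, resO]

/-- Restriction of compatible families. -/
def secRes {V W : X.Opens} (h : V ≤ W) : D.Sec W →+ D.Sec V where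
  toFun s := ⟨fun i => res (D.F i) (inf_le_inf_right _ h) (s.1 i), fun i j V' hi hj => by
    rw [res_res, res_res]
    exact compat s i j _ _⟩
  map_zero' := sec_ext fun i => by simp [res]
  map_add' s t := sec_ext fun i => by simp [res]

@[simp] theorem secRes_val {V W : X.Opens} (h : V ≤ W) (s : D.Sec W) (i : D.ι) :
    (D.secRes h s).1 i = res (D.F i) (inf_le_inf_right _ h) (s.1 i) := rfl

/-- The presheaf of compatible families. -/
def presheaf : TopCat.Presheaf Ab X where
  obj W := AddCommGrpCat.of (D.Sec W.unop)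
  map g := AddCommGrpCat.ofHom (D.secRes (leOfHom g.unop))
  map_id _ := AddCommGrpCat.ext fun _ => sec_ext fun _ => res_self _ _ _
  map_comp _ _ := AddCommGrpCat.ext fun _ => sec_ext fun _ => (res_res _ _ _ _).symm

instance (W : (TopologicalSpace.Opens X)ᵒᵖ) :
    Module (X.ringCatSheaf.obj.obj W) (D.presheaf.obj W) :=
  inferInstanceAs (Module Γ(X, W.unop) (D.Sec W.unop))

/-- The glued presheaf is a sheaf. -/
theorem presheaf_isSheaf : D.presheaf.IsSheaf := by
  rw [TopCat.Presheaf.isSheaf_iff_isSheafUniqueGluing]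
  intro κ V sf hsf
  have hcov : ∀ i, iSup V ⊓ D.U i ≤ ⨆ a, V a ⊓ D.U i := fun i => by
    rw [← iSup_inf_eq]
  have hcomp : ∀ a b i, res (D.F i) (inf_le_inf_right _ inf_le_left :
      V a ⊓ V b ⊓ D.U i ≤ V a ⊓ D.U i) ((sf a : D.Sec (V a)).1 i) =
      res (D.F i) (inf_le_inf_right _ inf_le_right :
      V a ⊓ V b ⊓ D.U i ≤ V b ⊓ D.U i) ((sf b : D.Sec (V b)).1 i) := fun a b i =>
    congr($(hsf a b).1 i)
  have key : ∀ i, ∃ t : Γ(D.F i, iSup V ⊓ D.U i), ∀ a,
      res (D.F i) (inf_le_inf_right _ (le_iSup V a)) t = (sf a : D.Sec (V a)).1 i := fun i => by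
    refine exists_res_eq (D.F i) (fun a => V a ⊓ D.U i) _ (hcov i) _ fun a b => ?_
    have h := congr(res (D.F i) (le_inf (inf_le_inf inf_le_left inf_le_left)
      (inf_le_left.trans inf_le_right) :
        (V a ⊓ D.U i) ⊓ (V b ⊓ D.U i) ≤ V a ⊓ V b ⊓ D.U i) $(hcomp a b i))
    simpa [res_res] using h
  choose t ht using key
  have hmem : t ∈ D.Sec (iSup V) := fun i j W hi hj => by
    refine eq_of_res_eq (D.F j) (fun a => W ⊓ V a) (fun a => inf_le_left) ?_ fun a => ?_
    · rw [← inf_iSup_eq]
      exact le_inf le_rfl (hi.trans inf_le_left)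
    · have hia : W ⊓ V a ≤ V a ⊓ D.U i :=
        le_inf inf_le_right (inf_le_left.trans (hi.trans inf_le_right))
      have hja : W ⊓ V a ≤ V a ⊓ D.U j :=
        le_inf inf_le_right (inf_le_left.trans (hj.trans inf_le_right))
      rw [← (D.θ i j).natural, res_res, res_res,
        ← res_res _ hia (inf_le_inf_right _ (le_iSup V a)), ht,
        ← res_res _ hja (inf_le_inf_right _ (le_iSup V a)), ht]
      exact compat _ i j hia hja
  refine ⟨(⟨t, hmem⟩ : D.Sec (iSup V)), fun a => sec_ext fun i => ht i a, fun s hs => ?_⟩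
  refine sec_ext fun i => eq_of_res_eq (D.F i) (fun a => V a ⊓ D.U i)
    (fun a => inf_le_inf_right _ (le_iSup V a)) (hcov i) fun a => ?_
  dsimp only
  rw [ht]
  exact congr($(hs a).1 i)

/-- The glued module. -/
def glue : X.Modules where
  val := PresheafOfModules.ofPresheaf D.presheaf fun {V W} g r s =>
    sec_ext fun i => by
      change res (D.F i) _ (resO _ r • (s : D.Sec V.unop).1 i) =
        resO _ (X.presheaf.map g r) • res (D.F i) _ ((s : D.Sec V.unop).1 i)
      have key : ∀ {V W : X.Opens} (h : W ≤ V) (r : Γ(X, V)) (x : Γ(D.F i, V ⊓ D.U i)),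
          res (D.F i) (inf_le_inf_right _ h) (resO (inf_le_left : V ⊓ D.U i ≤ V) r • x) =
            resO (inf_le_left : W ⊓ D.U i ≤ W) (resO h r) • res (D.F i) (inf_le_inf_right _ h) x := by
        intro V W h r x
        rw [res_smul, resO_resO, resO_resO]
      exact key (leOfHom g.unop) r _
  isSheaf := D.presheaf_isSheaf

/-- The sections of the glued module are compatible families. -/
def glueEquiv (W : X.Opens) : Γ(D.glue, W) ≃ₗ[Γ(X, W)] D.Sec W where
  toFun s := s
  invFun s := s
  map_add' _ _ := rfl
  map_smul' _ _ := rfl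

theorem glueEquiv_res {V W : X.Opens} (h : V ≤ W) (s : Γ(D.glue, W)) :
    D.glueEquiv V (res D.glue h s) = D.secRes h (D.glueEquiv W s) := rfl

/-- The family of sections determined by a section of one of the given modules. -/
def ofLocal (k : D.ι) {W : X.Opens} (hW : W ≤ D.U k) (t : Γ(D.F k, W)) : D.Sec W :=
  ⟨fun i => (D.θ k i).app _ (le_inf (inf_le_left.trans hW) inf_le_right)
    (res (D.F k) inf_le_left t), fun i j V hi hj => by
      rw [← (D.θ k i).natural, ← (D.θ k j).natural, res_res, res_res]
      exact D.θ_θ k i j V _ _ _ _⟩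

theorem ofLocal_val (k : D.ι) {W : X.Opens} (hW : W ≤ D.U k) (t : Γ(D.F k, W)) (i : D.ι) :
    (D.ofLocal k hW t).1 i = (D.θ k i).app _ (le_inf (inf_le_left.trans hW) inf_le_right)
      (res (D.F k) inf_le_left t) := rfl

theorem secRes_ofLocal (k : D.ι) {V W : X.Opens} (h : V ≤ W) (hW : W ≤ D.U k) (t : Γ(D.F k, W)) :
    D.secRes h (D.ofLocal k hW t) = D.ofLocal k (h.trans hW) (res (D.F k) h t) :=
  sec_ext fun i => by
    rw [secRes_val, ofLocal_val, ofLocal_val, ← (D.θ k i).natural, res_res, res_res]

/-- The glued module is isomorphic to the given one on each member of the cover. -/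
def glueIso (k : D.ι) : SectIso D.glue (D.F k) (D.U k) where
  hom :=
    { app := fun W hW =>
        { toFun := fun s => res (D.F k) (le_inf le_rfl hW) ((D.glueEquiv W s).1 k)
          map_add' := fun s t => by simp [res]
          map_smul' := fun r s => by
            rw [map_smul, smul_val, res_smul, resO_resO, RingHom.id_apply, resO_self] }
      natural := fun {V W} h hW s => by
        change res _ _ ((D.glueEquiv V (res D.glue h s)).1 k) = res _ _ (res _ _ _)
        rw [glueEquiv_res, secRes_val, res_res, res_res] }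
  inv :=
    { app := fun W hW =>
        { toFun := fun t => (D.glueEquiv W).symm (D.ofLocal k hW t)
          map_add' := fun s t => by
            rw [← map_add]
            exact congr_arg (D.glueEquiv W).symm (sec_ext fun i => by simp [res, ofLocal_val])
          map_smul' := fun r s => by
            rw [RingHom.id_apply, ← map_smul]
            exact congr_arg (D.glueEquiv W).symm (sec_ext fun i => by
              rw [smul_val, ofLocal_val, ofLocal_val, res_smul, map_smul]) }
      natural := fun {V W} h hW s =>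
        (congr_arg (D.glueEquiv V).symm (D.secRes_ofLocal k h hW s)).symm }
  hom_inv W hW s := by
    change (D.glueEquiv W).symm (D.ofLocal k hW (res _ _ ((D.glueEquiv W s).1 k))) = s
    rw [LinearEquiv.symm_apply_eq]
    refine sec_ext fun i => ?_
    rw [ofLocal_val, res_res]
    exact (compat (D.glueEquiv W s) k i _ le_rfl).trans (res_self _ _ _)
  inv_hom W hW t := by
    change res _ _ ((D.glueEquiv W ((D.glueEquiv W).symm (D.ofLocal k hW t))).1 k) = t
    rw [LinearEquiv.apply_symm_apply, ofLocal_val, D.θ_self, res_res, res_self]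

/-- The comparison maps of the glued module are the transition maps. -/
theorem glueIso_θ (i j : D.ι) (W : X.Opens) (hi : W ≤ D.U i) (hj : W ≤ D.U j)
    (s : Γ(D.glue, W)) :
    (D.θ i j).app W (le_inf hi hj) ((D.glueIso i).hom.app W hi s) = (D.glueIso j).hom.app W hj s :=
  compat (D.glueEquiv W s) i j _ _

end GlueData

end Fermat.Agent.RelJac.Sheaf
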