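import Mathlib.AlgebraicGeometry.Modules.Sheaf
import Mathlib.Topology.Sheaves.SheafCondition.UniqueGluing

/-!
Morphisms of sheaves of modules over a subset of a scheme, described on sections, and gluing of
such morphisms along open covers.
-/

noncomputable section

universe u

open CategoryTheory AlgebraicGeometry TopologicalSpace

namespace Fermat.Agent.RelJac.Sheaf

variable {X : Scheme.{u}} {M N K : X.Modules}

/-- Restriction of sections of a module. -/
abbrev res (M : X.Modules) {V W : X.Opens} (h : V ≤ W) (s : Γ(M, W)) : Γ(M, V) :=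
  M.presheaf.map (homOfLE h).op s

/-- Restriction of functions. -/
abbrev resO {V W : X.Opens} (h : V ≤ W) (r : Γ(X, W)) : Γ(X, V) :=
  X.presheaf.map (homOfLE h).op r

/-- Restriction is transitive. -/
theorem res_res (M : X.Modules) {U V W : X.Opens} (h : U ≤ V) (h' : V ≤ W) (s : Γ(M, W)) :
    res M h (res M h' s) = res M (h.trans h') s := by
  rw [res, res, ← ConcreteCategory.comp_apply, ← Functor.map_comp, ← op_comp, homOfLE_comp]

/-- Restriction to the same open subset is the identity. -/
theorem res_self (M : X.Modules) {W : X.Opens} (h : W ≤ W) (s : Γ(M, W)) : res M h s = s := by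
  rw [res, show homOfLE h = 𝟙 W from rfl, op_id, CategoryTheory.Functor.map_id,
    ConcreteCategory.id_apply]

/-- Restriction is semilinear. -/
theorem res_smul (M : X.Modules) {V W : X.Opens} (h : V ≤ W) (r : Γ(X, W)) (s : Γ(M, W)) :
    res M h (r • s) = resO h r • res M h s :=
  M.map_smul _ r s

/-- Restriction of functions is transitive. -/
theorem resO_resO {U V W : X.Opens} (h : U ≤ V) (h' : V ≤ W) (r : Γ(X, W)) :
    resO h (resO h' r) = resO (h.trans h') r := by
  rw [resO, resO, ← ConcreteCategory.comp_apply, ← Functor.map_comp, ← op_comp, homOfLE_comp]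

/-- Restriction of functions to the same open subset is the identity. -/
theorem resO_self {W : X.Opens} (h : W ≤ W) (r : Γ(X, W)) : resO h r = r := by
  rw [resO, show homOfLE h = 𝟙 W from rfl, op_id, CategoryTheory.Functor.map_id,
    ConcreteCategory.id_apply]

/-- Two sections that agree on an open cover are equal. -/
theorem eq_of_res_eq (M : X.Modules) {ι : Type*} (V : ι → X.Opens) {W : X.Opens}
    (hV : ∀ i, V i ≤ W) (hcov : W ≤ ⨆ i, V i) {s t : Γ(M, W)}
    (h : ∀ i, res M (hV i) s = res M (hV i) t) : s = t :=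
  TopCat.Sheaf.eq_of_locally_eq' ⟨M.presheaf, M.isSheaf⟩ V W (fun i => homOfLE (hV i)) hcov s t h

/-- Compatible sections on an open cover glue. -/
theorem exists_res_eq (M : X.Modules) {ι : Type*} (V : ι → X.Opens) {W : X.Opens}
    (hV : ∀ i, V i ≤ W) (hcov : W ≤ ⨆ i, V i) (sf : ∀ i, Γ(M, V i))
    (h : ∀ i j, res M (inf_le_left : V i ⊓ V j ≤ V i) (sf i) =
      res M (inf_le_right : V i ⊓ V j ≤ V j) (sf j)) :
    ∃ s : Γ(M, W), ∀ i, res M (hV i) s = sf i :=
  (TopCat.Sheaf.existsUnique_gluing' ⟨M.presheaf, M.isSheaf⟩ V W (fun i => homOfLE (hV i)) hcov sf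
    h).exists

variable (M N) in
/-- A morphism from `M` to `N` over the open subset `U`, given on sections. -/
@[ext]
structure SectHom (U : X.Opens) where
  /-- The map on sections. -/
  app : ∀ W : X.Opens, W ≤ U → Γ(M, W) →ₗ[Γ(X, W)] Γ(N, W)
  natural : ∀ {V W : X.Opens} (h : V ≤ W) (hW : W ≤ U) (s : Γ(M, W)),
    app V (h.trans hW) (res M h s) = res N h (app W hW s)

namespace SectHom

variable {U U' : X.Opens}

/-- The identity. -/
def id (M : X.Modules) (U : X.Opens) : SectHom M M U :=
  ⟨fun _ _ => LinearMap.id, fun _ _ _ => rfl⟩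

/-- Composition. -/
def comp (f : SectHom M N U) (g : SectHom N K U) : SectHom M K U :=
  ⟨fun W hW => (g.app W hW).comp (f.app W hW), fun h hW s => by
    simp [f.natural h hW, g.natural h hW]⟩

/-- Restriction to a smaller open subset. -/
def restrict (f : SectHom M N U) (h : U' ≤ U) : SectHom M N U' :=
  ⟨fun W hW => f.app W (hW.trans h), fun h' hW s => f.natural h' (hW.trans h) s⟩

/-- The identity evaluated on a section. -/
@[simp] theorem id_app (M : X.Modules) (U W : X.Opens) (hW : W ≤ U) (s : Γ(M, W)) :
    (SectHom.id M U).app W hW s = s := rfl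

/-- A composite evaluated on a section. -/
@[simp] theorem comp_app (f : SectHom M N U) (g : SectHom N K U) (W : X.Opens) (hW : W ≤ U)
    (s : Γ(M, W)) : (f.comp g).app W hW s = g.app W hW (f.app W hW s) := rfl

/-- A restricted morphism evaluated on a section. -/
@[simp] theorem restrict_app (f : SectHom M N U) (h : U' ≤ U) (W : X.Opens) (hW : W ≤ U')
    (s : Γ(M, W)) : (f.restrict h).app W hW s = f.app W (hW.trans h) s := rfl

/-- Morphisms over an open subset are determined by their values on sections. -/
theorem hext {f g : SectHom M N U} (h : ∀ W hW s, f.app W hW s = g.app W hW s) : f = g := by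
  ext W hW s
  exact h W hW s

/-- The morphism on sections induced by a morphism of modules. -/
def ofHom (φ : M ⟶ N) (U : X.Opens) : SectHom M N U where
  app W _ :=
    { toFun := φ.app W
      map_add' := map_add _
      map_smul' := fun r s => φ.app_smul r s }
  natural h _ s := congr($(φ.val.naturality (homOfLE h).op).hom s)

@[simp] theorem ofHom_app (φ : M ⟶ N) (U W : X.Opens) (hW : W ≤ U) (s : Γ(M, W)) :
    (ofHom φ U).app W hW s = φ.app W s := rfl

/-- A morphism over the whole space is a morphism of modules. -/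
def toHom (f : SectHom M N ⊤) : M ⟶ N :=
  ⟨PresheafOfModules.homMk
    { app := fun W => AddCommGrpCat.ofHom (f.app W.unop le_top).toAddMonoidHom
      naturality := fun {V W} g => by
        refine AddCommGrpCat.ext fun s => ?_
        exact f.natural (leOfHom g.unop) le_top s }
    fun W r s => (f.app W.unop le_top).map_smul r s⟩

@[simp] theorem toHom_app (f : SectHom M N ⊤) (W : X.Opens) (s : Γ(M, W)) :
    (toHom f).app W s = f.app W le_top s := rfl

/-- Agreement on the members of a cover implies equality. -/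
theorem eq_of_restrict_eq {ι : Type*} {V : ι → X.Opens} (hV : ∀ i, V i ≤ U)
    (hcov : U ≤ ⨆ i, V i) {f g : SectHom M N U}
    (h : ∀ i, f.restrict (hV i) = g.restrict (hV i)) : f = g := by
  refine hext fun W hW s => ?_
  refine eq_of_res_eq N (fun i => W ⊓ V i) (fun i => inf_le_left) ?_ fun i => ?_
  · rw [← inf_iSup_eq]
    exact le_inf le_rfl (hW.trans hcov)
  · rw [← f.natural, ← g.natural]
    exact congr(($(h i)).app (W ⊓ V i) inf_le_right (res M inf_le_left s))

/-- Compatible morphisms over the members of a cover glue. -/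
theorem exists_glue {ι : Type*} {V : ι → X.Opens} (hcov : U ≤ ⨆ i, V i)
    (f : ∀ i, SectHom M N (V i))
    (h : ∀ i j (W : X.Opens) (hi : W ≤ V i) (hj : W ≤ V j) (s : Γ(M, W)),
      (f i).app W hi s = (f j).app W hj s) :
    ∃ g : SectHom M N U, ∀ i (W : X.Opens) (hW : W ≤ U) (hi : W ≤ V i) (s : Γ(M, W)),
      g.app W hW s = (f i).app W hi s := by
  have key : ∀ (W : X.Opens) (_ : W ≤ U) (s : Γ(M, W)), ∃ t : Γ(N, W), ∀ i,
      res N (inf_le_left : W ⊓ V i ≤ W) t =
        (f i).app (W ⊓ V i) inf_le_right (res M inf_le_left s) := fun W hW s => by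
    refine exists_res_eq N (fun i => W ⊓ V i) (fun i => inf_le_left) ?_ _ fun i j => ?_
    · rw [← inf_iSup_eq]
      exact le_inf le_rfl (hW.trans hcov)
    · rw [← (f i).natural, ← (f j).natural, res_res, res_res]
      exact h i j _ _ _ _
  choose t ht using key
  have uniq : ∀ (W : X.Opens) (hW : W ≤ U) (s : Γ(M, W)) (x : Γ(N, W)),
      (∀ i, res N (inf_le_left : W ⊓ V i ≤ W) x =
        (f i).app (W ⊓ V i) inf_le_right (res M inf_le_left s)) → t W hW s = x := by
    intro W hW s x hx
    refine eq_of_res_eq N (fun i => W ⊓ V i) (fun i => inf_le_left) ?_ fun i => ?_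
    · rw [← inf_iSup_eq]
      exact le_inf le_rfl (hW.trans hcov)
    · rw [ht, hx]
  refine ⟨{
    app := fun W hW =>
      { toFun := t W hW
        map_add' := fun s s' => uniq _ _ _ _ fun i => by
          simp only [res, map_add]
          exact congr_arg₂ (· + ·) (ht W hW s i) (ht W hW s' i)
        map_smul' := fun r s => uniq _ _ _ _ fun i => by
          rw [RingHom.id_apply, res_smul, res_smul, map_smul, ht] }
    natural := fun {V' W} hle hW s => uniq _ _ _ _ fun i => ?_ }, fun i W hW hi s => ?_⟩
  · change res N _ (res N hle (t W hW s)) = _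
    rw [res_res, ← res_res N (inf_le_inf_right _ hle : V' ⊓ V i ≤ W ⊓ V i) inf_le_left, ht,
      ← (f i).natural, res_res, res_res]
  · refine uniq _ hW s _ fun j => ?_
    rw [← (f i).natural]
    exact h i j _ _ _ _

end SectHom

variable (M N) in
/-- An isomorphism from `M` to `N` over the open subset `U`, given on sections. -/
structure SectIso (U : X.Opens) where
  /-- The forward map. -/
  hom : SectHom M N U
  /-- The backward map. -/
  inv : SectHom N M U
  hom_inv : ∀ W hW s, inv.app W hW (hom.app W hW s) = s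
  inv_hom : ∀ W hW s, hom.app W hW (inv.app W hW s) = s

namespace SectIso

variable {U U' : X.Opens}

/-- The identity. -/
def refl (M : X.Modules) (U : X.Opens) : SectIso M M U :=
  ⟨.id M U, .id M U, fun _ _ _ => rfl, fun _ _ _ => rfl⟩

/-- The inverse. -/
def symm (e : SectIso M N U) : SectIso N M U := ⟨e.inv, e.hom, e.inv_hom, e.hom_inv⟩

/-- Composition. -/
def trans (e : SectIso M N U) (e' : SectIso N K U) : SectIso M K U :=
  ⟨e.hom.comp e'.hom, e'.inv.comp e.inv,
    fun W hW s => by simp [e.hom_inv, e'.hom_inv], fun W hW s => by simp [e.inv_hom, e'.inv_hom]⟩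

/-- Restriction. -/
def restrict (e : SectIso M N U) (h : U' ≤ U) : SectIso M N U' :=
  ⟨e.hom.restrict h, e.inv.restrict h, fun W hW s => e.hom_inv W (hW.trans h) s,
    fun W hW s => e.inv_hom W (hW.trans h) s⟩

/-- The isomorphism on sections induced by an isomorphism of modules. -/
def ofIso (e : M ≅ N) (U : X.Opens) : SectIso M N U :=
  ⟨.ofHom e.hom U, .ofHom e.inv U,
    fun W _ s => by
      simp [← ConcreteCategory.comp_apply, ← Scheme.Modules.Hom.comp_app],
    fun W _ s => by
      simp [← ConcreteCategory.comp_apply, ← Scheme.Modules.Hom.comp_app]⟩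

/-- An isomorphism over the whole space is an isomorphism of modules. -/
def toIso (e : SectIso M N ⊤) : M ≅ N where
  hom := e.hom.toHom
  inv := e.inv.toHom
  hom_inv_id := Scheme.Modules.hom_ext _ _ fun W => AddCommGrpCat.ext fun s => e.hom_inv W _ s
  inv_hom_id := Scheme.Modules.hom_ext _ _ fun W => AddCommGrpCat.ext fun s => e.inv_hom W _ s

/-- The induced linear equivalence on sections. -/
def linearEquiv (e : SectIso M N U) (W : X.Opens) (hW : W ≤ U) : Γ(M, W) ≃ₗ[Γ(X, W)] Γ(N, W) :=
  LinearEquiv.ofLinearMap (e.hom.app W hW) (e.inv.app W hW) (LinearMap.ext (e.inv_hom W hW))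
    (LinearMap.ext (e.hom_inv W hW))

/-- The equivalence on sections of an isomorphism. -/
@[simp] theorem linearEquiv_apply (e : SectIso M N U) (W : X.Opens) (hW : W ≤ U) (s : Γ(M, W)) :
    e.linearEquiv W hW s = e.hom.app W hW s := rfl

/-- Compatible morphisms over the members of a cover glue. -/
theorem exists_glue {ι : Type*} {V : ι → X.Opens} (hV : ∀ i, V i ≤ U) (hcov : U ≤ ⨆ i, V i)
    (e : ∀ i, SectIso M N (V i))
    (h : ∀ i j (W : X.Opens) (hi : W ≤ V i) (hj : W ≤ V j) (s : Γ(M, W)),
      (e i).hom.app W hi s = (e j).hom.app W hj s) :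
    ∃ g : SectIso M N U, ∀ i, g.hom.restrict (hV i) = (e i).hom := by
  have h' : ∀ i j (W : X.Opens) (hi : W ≤ V i) (hj : W ≤ V j) (s : Γ(N, W)),
      (e i).inv.app W hi s = (e j).inv.app W hj s := fun i j W hi hj s => by
    apply ((e i).linearEquiv W hi).injective
    rw [linearEquiv_apply, linearEquiv_apply]
    rw [(e i).inv_hom, h i j W hi hj, (e j).inv_hom]
  obtain ⟨g, hg⟩ := SectHom.exists_glue hcov (fun i => (e i).hom) h
  obtain ⟨g', hg'⟩ := SectHom.exists_glue hcov (fun i => (e i).inv) h'
  have h₁ : g.comp g' = SectHom.id M U := SectHom.eq_of_restrict_eq hV hcov fun i =>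
    SectHom.hext fun W hW s => by
      simp [hg i W _ hW, hg' i W _ hW, (e i).hom_inv]
  have h₂ : g'.comp g = SectHom.id N U := SectHom.eq_of_restrict_eq hV hcov fun i =>
    SectHom.hext fun W hW s => by
      simp [hg i W _ hW, hg' i W _ hW, (e i).inv_hom]
  exact ⟨⟨g, g', fun W hW s => congr(($h₁).app W hW s), fun W hW s => congr(($h₂).app W hW s)⟩,
    fun i => SectHom.hext fun W hW s => hg i W _ hW s⟩

end SectIso

end Fermat.Agent.RelJac.Sheaf
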