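import Mathlib.RingTheory.PicardGroup
import Mathlib.RingTheory.IsTensorProduct
import Fermat.Agent.RelJac.Chart

/-!
Line bundles on a two-chart space: invertible modules on the two charts, glued over the overlap.
-/

open scoped TensorProduct

namespace Fermat.Agent.RelJac

universe u

variable {R : Type u} [CommRing R]

/-- A line bundle on the space glued from the two charts of `T`. -/
structure Bundle (T : TwoChart R) where
  MP : Type u
  MQ : Type u
  ML : Type u
  [addMP : AddCommGroup MP]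
  [addMQ : AddCommGroup MQ]
  [addML : AddCommGroup ML]
  [modP : Module T.P MP]
  [modQ : Module T.Q MQ]
  [modL : Module T.L ML]
  [modPL : Module T.P ML]
  [modQL : Module T.Q ML]
  [modRP : Module R MP]
  [modRQ : Module R MQ]
  [modRL : Module R ML]
  [towerRP : IsScalarTower R T.P MP]
  [towerRQ : IsScalarTower R T.Q MQ]
  [towerRL : IsScalarTower R T.L ML]
  [towerPL : IsScalarTower T.P T.L ML]
  [towerQL : IsScalarTower T.Q T.L ML]
  [invP : Module.Invertible T.P MP]
  [invQ : Module.Invertible T.Q MQ]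
  ip : MP →ₗ[T.P] ML
  iq : MQ →ₗ[T.Q] ML
  baseP : IsBaseChange T.L ip
  baseQ : IsBaseChange T.L iq

attribute [instance] Bundle.addMP Bundle.addMQ Bundle.addML Bundle.modP Bundle.modQ Bundle.modL
  Bundle.modPL Bundle.modQL Bundle.modRP Bundle.modRQ Bundle.modRL Bundle.towerRP Bundle.towerRQ
  Bundle.towerRL Bundle.towerPL Bundle.towerQL Bundle.invP Bundle.invQ

namespace Bundle

variable {T : TwoChart R}

instance towerRPL (B : Bundle T) : IsScalarTower R T.P B.ML :=
  IsScalarTower.to₁₂₄ R T.P T.L B.ML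

instance towerRQL (B : Bundle T) : IsScalarTower R T.Q B.ML :=
  IsScalarTower.to₁₂₄ R T.Q T.L B.ML

instance invL (B : Bundle T) : Module.Invertible T.L B.ML :=
  .congr B.baseP.equiv

/-- An isomorphism of line bundles. -/
structure Iso (B B' : Bundle T) where
  eP : B.MP ≃ₗ[T.P] B'.MP
  eQ : B.MQ ≃ₗ[T.Q] B'.MQ
  eL : B.ML ≃ₗ[T.L] B'.ML
  commP : ∀ m, eL (B.ip m) = B'.ip (eP m)
  commQ : ∀ m, eL (B.iq m) = B'.iq (eQ m)

/-- The identity isomorphism. -/
def Iso.refl (B : Bundle T) : Iso B B := ⟨.refl _ _, .refl _ _, .refl _ _, fun _ => rfl, fun _ => rfl⟩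

/-- The inverse of an isomorphism. -/
def Iso.symm {B B' : Bundle T} (e : Iso B B') : Iso B' B where
  eP := e.eP.symm
  eQ := e.eQ.symm
  eL := e.eL.symm
  commP m := by rw [LinearEquiv.symm_apply_eq, e.commP, LinearEquiv.apply_symm_apply]
  commQ m := by rw [LinearEquiv.symm_apply_eq, e.commQ, LinearEquiv.apply_symm_apply]

/-- Composition of isomorphisms. -/
def Iso.trans {B B' B'' : Bundle T} (e : Iso B B') (f : Iso B' B'') : Iso B B'' where
  eP := e.eP.trans f.eP
  eQ := e.eQ.trans f.eQ
  eL := e.eL.trans f.eL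
  commP m := by simp [e.commP, f.commP]
  commQ m := by simp [e.commQ, f.commQ]

/-- Isomorphism classes of bundles. -/
instance setoid : Setoid (Bundle T) where
  r B B' := Nonempty (Iso B B')
  iseqv := ⟨fun B => ⟨Iso.refl B⟩, fun ⟨e⟩ => ⟨e.symm⟩, fun ⟨e⟩ ⟨f⟩ => ⟨e.trans f⟩⟩

/-- The bundle glued from the trivial bundles by a unit on the overlap. -/
noncomputable abbrev glue (u : T.Lˣ) : Bundle T where
  MP := T.P
  MQ := T.Q
  ML := T.L
  ip := Algebra.linearMap T.P T.L
  iq := (DistribMulAction.toLinearEquiv T.Q T.L u).toLinearMap.comp (Algebra.linearMap T.Q T.L)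
  baseP := IsBaseChange.linearMap T.P T.L
  baseQ := (IsBaseChange.iff_of_equiv_comm (LinearEquiv.refl T.Q T.Q)
    (DistribMulAction.toLinearEquiv T.L T.L u) rfl).1 (IsBaseChange.linearMap T.Q T.L)

/-- The first gluing map of a glued bundle is restriction. -/
theorem glue_ip (u : T.Lˣ) (p : T.P) : (glue u).ip p = algebraMap T.P T.L p := rfl

/-- The second gluing map of a glued bundle is restriction times the transition unit. -/
theorem glue_iq (u : T.Lˣ) (q : T.Q) : (glue u).iq q = (u : T.L) * algebraMap T.Q T.L q := rfl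

/-- The trivial bundle. -/
noncomputable abbrev trivial (T : TwoChart R) : Bundle T := glue 1

/-- A bundle with both chart modules free is isomorphic to a glued one. -/
theorem exists_iso_glue (B : Bundle T) (eP : T.P ≃ₗ[T.P] B.MP) (eQ : T.Q ≃ₗ[T.Q] B.MQ) :
    ∃ u : T.Lˣ, Nonempty (Iso (glue u) B) := by
  let aP : T.L ≃ₗ[T.L] B.ML := (TensorProduct.AlgebraTensorModule.rid T.P T.L T.L).symm.trans
    (B.baseP.comp_equiv eP).equiv
  let aQ : T.L ≃ₗ[T.L] B.ML := (TensorProduct.AlgebraTensorModule.rid T.Q T.L T.L).symm.trans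
    (B.baseQ.comp_equiv eQ).equiv
  have haP : ∀ p, aP (algebraMap T.P T.L p) = B.ip (eP p) := fun p => by
    simp [aP, IsBaseChange.equiv_tmul, ← map_smul, algebraMap_smul]
  have haQ : ∀ q, aQ (algebraMap T.Q T.L q) = B.iq (eQ q) := fun q => by
    simp [aQ, IsBaseChange.equiv_tmul, ← map_smul, algebraMap_smul]
  let c : T.L ≃ₗ[T.L] T.L := aQ.trans aP.symm
  have hc : ∀ x, c x = c 1 * x := fun x => by
    rw [mul_comm, ← smul_eq_mul, ← map_smul]; simp
  have hu : IsUnit (c 1) := by
    refine IsUnit.of_mul_eq_one (b := c.symm 1) ?_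
    rw [← hc, LinearEquiv.apply_symm_apply]
  refine ⟨hu.unit, ⟨{ eP := eP, eQ := eQ, eL := aP, commP := haP, commQ := fun q => ?_ }⟩⟩
  change aP (c 1 * algebraMap T.Q T.L q) = _
  rw [← hc]
  exact (aP.apply_symm_apply _).trans (haQ q)

section Tensor

variable (B B' : Bundle T)

noncomputable def tensorI {A : Type u} [CommRing A] [Algebra A T.L]
    {M M' N N' : Type u} [AddCommGroup M] [AddCommGroup M'] [AddCommGroup N] [AddCommGroup N']
    [Module A M] [Module A M'] [Module A N] [Module A N'] [Module T.L N] [Module T.L N']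
    [IsScalarTower A T.L N] [IsScalarTower A T.L N']
    (f : M →ₗ[A] N) (f' : M' →ₗ[A] N') : M ⊗[A] M' →ₗ[A] N ⊗[T.L] N' :=
  TensorProduct.lift <| LinearMap.mk₂ A (fun m m' => f m ⊗ₜ f' m')
    (fun a b c => by simp [TensorProduct.add_tmul])
    (fun a m m' => by simp [TensorProduct.smul_tmul'])
    (fun m a b => by simp [TensorProduct.tmul_add])
    (fun a m m' => by simp)

@[simp]
theorem tensorI_tmul {A : Type u} [CommRing A] [Algebra A T.L]
    {M M' N N' : Type u} [AddCommGroup M] [AddCommGroup M'] [AddCommGroup N] [AddCommGroup N']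
    [Module A M] [Module A M'] [Module A N] [Module A N'] [Module T.L N] [Module T.L N']
    [IsScalarTower A T.L N] [IsScalarTower A T.L N']
    (f : M →ₗ[A] N) (f' : M' →ₗ[A] N') (m : M) (m' : M') :
    tensorI (T := T) f f' (m ⊗ₜ m') = f m ⊗ₜ f' m' :=
  TensorProduct.lift.tmul _ _

/-- The tensor product of two base changes is a base change. -/
theorem tensorI_isBaseChange {A : Type u} [CommRing A] [Algebra A T.L]
    {M M' N N' : Type u} [AddCommGroup M] [AddCommGroup M'] [AddCommGroup N] [AddCommGroup N']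
    [Module A M] [Module A M'] [Module A N] [Module A N'] [Module T.L N] [Module T.L N']
    [IsScalarTower A T.L N] [IsScalarTower A T.L N']
    {f : M →ₗ[A] N} {f' : M' →ₗ[A] N'} (hf : IsBaseChange T.L f) (hf' : IsBaseChange T.L f') :
    IsBaseChange T.L (tensorI (T := T) f f') :=
  IsBaseChange.of_equiv
    ((TensorProduct.AlgebraTensorModule.distribBaseChange A T.L M M').trans
      (TensorProduct.congr hf.equiv hf'.equiv)) fun x => by
    induction x with
    | zero => simp
    | tmul m m' => simp [IsBaseChange.equiv_tmul]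
    | add x y hx hy => simp only [TensorProduct.tmul_add, map_add, hx, hy]

/-- The tensor product of two bundles. -/
noncomputable abbrev tensor : Bundle T where
  MP := B.MP ⊗[T.P] B'.MP
  MQ := B.MQ ⊗[T.Q] B'.MQ
  ML := B.ML ⊗[T.L] B'.ML
  ip := tensorI B.ip B'.ip
  iq := tensorI B.iq B'.iq
  baseP := tensorI_isBaseChange B.baseP B'.baseP
  baseQ := tensorI_isBaseChange B.baseQ B'.baseQ

/-- The first gluing map of a tensor product on pure tensors. -/
theorem tensor_ip_tmul (m : B.MP) (m' : B'.MP) :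
    (B.tensor B').ip (m ⊗ₜ m') = B.ip m ⊗ₜ B'.ip m' :=
  TensorProduct.lift.tmul _ _

/-- The second gluing map of a tensor product on pure tensors. -/
theorem tensor_iq_tmul (m : B.MQ) (m' : B'.MQ) :
    (B.tensor B').iq (m ⊗ₜ m') = B.iq m ⊗ₜ B'.iq m' :=
  TensorProduct.lift.tmul _ _

end Tensor

/-- Builds an isomorphism out of a tensor product from checks on pure tensors. -/
noncomputable def Iso.ofTensor {B B' C : Bundle T}
    (eP : B.MP ⊗[T.P] B'.MP ≃ₗ[T.P] C.MP) (eQ : B.MQ ⊗[T.Q] B'.MQ ≃ₗ[T.Q] C.MQ)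
    (eL : B.ML ⊗[T.L] B'.ML ≃ₗ[T.L] C.ML)
    (hP : ∀ m m', eL (B.ip m ⊗ₜ B'.ip m') = C.ip (eP (m ⊗ₜ m')))
    (hQ : ∀ m m', eL (B.iq m ⊗ₜ B'.iq m') = C.iq (eQ (m ⊗ₜ m'))) : Iso (B.tensor B') C where
  eP := eP
  eQ := eQ
  eL := eL
  commP x := by
    refine TensorProduct.induction_on x ?_ ?_ ?_
    · simp
    · exact fun m m' => by rw [tensor_ip_tmul]; exact hP m m'
    · intro x y hx hy
      rw [map_add, map_add, hx, hy]
      exact ((map_add eP x y).symm ▸ (map_add C.ip _ _).symm)
  commQ x := by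
    refine TensorProduct.induction_on x ?_ ?_ ?_
    · simp
    · exact fun m m' => by rw [tensor_iq_tmul]; exact hQ m m'
    · intro x y hx hy
      rw [map_add, map_add, hx, hy]
      exact ((map_add eQ x y).symm ▸ (map_add C.iq _ _).symm)

/-- Functoriality of the tensor product. -/
noncomputable def tensorCongr {A A' B B' : Bundle T} (e : Iso A A') (f : Iso B B') :
    Iso (A.tensor B) (A'.tensor B') :=
  Iso.ofTensor (C := A'.tensor B') (TensorProduct.congr e.eP f.eP) (TensorProduct.congr e.eQ f.eQ)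
    (TensorProduct.congr e.eL f.eL)
    (fun m m' => by simp [e.commP, f.commP])
    (fun m m' => by simp [e.commQ, f.commQ])

/-- Commutativity of the tensor product. -/
noncomputable def tensorComm (B B' : Bundle T) : Iso (B.tensor B') (B'.tensor B) :=
  Iso.ofTensor (C := B'.tensor B) (TensorProduct.comm _ _ _) (TensorProduct.comm _ _ _)
    (TensorProduct.comm _ _ _)
    (fun m m' => by simp) (fun m m' => by simp)

/-- Associativity of the tensor product. -/
noncomputable def tensorAssoc (A B C : Bundle T) :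
    Iso ((A.tensor B).tensor C) (A.tensor (B.tensor C)) :=
  Iso.ofTensor (C := A.tensor (B.tensor C)) (TensorProduct.assoc T.P _ _ _)
    (TensorProduct.assoc T.Q _ _ _) (TensorProduct.assoc T.L _ _ _)
    (fun x c => by
      refine TensorProduct.induction_on x ?_ ?_ ?_
      · simp
      · intro a b
        rw [tensor_ip_tmul]
        change _ = (A.tensor (B.tensor C)).ip (a ⊗ₜ (b ⊗ₜ c))
        rw [tensor_ip_tmul, tensor_ip_tmul]
        rfl
      · intro x y hx hy
        simp only [map_add, TensorProduct.add_tmul, hx, hy])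
    (fun x c => by
      refine TensorProduct.induction_on x ?_ ?_ ?_
      · simp
      · intro a b
        rw [tensor_iq_tmul]
        change _ = (A.tensor (B.tensor C)).iq (a ⊗ₜ (b ⊗ₜ c))
        rw [tensor_iq_tmul, tensor_iq_tmul]
        rfl
      · intro x y hx hy
        simp only [map_add, TensorProduct.add_tmul, hx, hy])

/-- Tensoring with a glued bundle. -/
noncomputable def glueTensorGlue (u v : T.Lˣ) :
    Iso ((glue u).tensor (glue v)) (glue (u * v)) :=
  Iso.ofTensor (C := glue (u * v)) (TensorProduct.lid _ _) (TensorProduct.lid _ _)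
    (TensorProduct.lid _ _)
    (fun m m' => by simp [glue])
    (fun m m' => by simp [glue, Units.smul_def]; ring)

/-- The trivial bundle is neutral. -/
noncomputable def trivialTensor (B : Bundle T) : Iso ((trivial T).tensor B) B :=
  Iso.ofTensor (TensorProduct.lid _ _) (TensorProduct.lid _ _) (TensorProduct.lid _ _)
    (fun m m' => by simp)
    (fun m m' => by simp)

open CommRing in
/-- Every bundle has an inverse. -/
theorem exists_tensor_iso_trivial (B : Bundle T) :
    ∃ B' : Bundle T, Nonempty (Iso (B.tensor B') (trivial T)) := by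
  have hP : Pic.mk T.L (T.L ⊗[T.P] Module.Dual T.P B.MP) = (Pic.mk T.L B.ML)⁻¹ := by
    rw [show Pic.mk T.L B.ML = Pic.mapAlgebra T.P T.L (Pic.mk T.P B.MP) from
      Pic.mk_eq_mk_iff.2 ⟨B.baseP.equiv.symm.trans (TensorProduct.AlgebraTensorModule.congr (.refl _ _)
        (Pic.mk.linearEquiv _ _).symm)⟩, ← map_inv, ← Pic.mk_dual]
    exact Pic.mk_eq_mk_iff.2 ⟨TensorProduct.AlgebraTensorModule.congr (.refl _ _)
        (Pic.mk.linearEquiv _ _).symm⟩
  have hQ : Pic.mk T.L (T.L ⊗[T.Q] Module.Dual T.Q B.MQ) = (Pic.mk T.L B.ML)⁻¹ := by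
    rw [show Pic.mk T.L B.ML = Pic.mapAlgebra T.Q T.L (Pic.mk T.Q B.MQ) from
      Pic.mk_eq_mk_iff.2 ⟨B.baseQ.equiv.symm.trans (TensorProduct.AlgebraTensorModule.congr (.refl _ _)
        (Pic.mk.linearEquiv _ _).symm)⟩, ← map_inv, ← Pic.mk_dual]
    exact Pic.mk_eq_mk_iff.2 ⟨TensorProduct.AlgebraTensorModule.congr (.refl _ _)
        (Pic.mk.linearEquiv _ _).symm⟩
  obtain ⟨e⟩ := Pic.mk_eq_mk_iff.1 (hQ.trans hP.symm)
  have hiq : IsBaseChange T.L
      ((e.restrictScalars T.Q).toLinearMap.comp
        (TensorProduct.mk T.Q T.L (Module.Dual T.Q B.MQ) 1)) :=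
    IsBaseChange.of_equiv e fun _ => rfl
  let B' : Bundle T :=
    { MP := Module.Dual T.P B.MP
      MQ := Module.Dual T.Q B.MQ
      ML := T.L ⊗[T.P] Module.Dual T.P B.MP
      ip := TensorProduct.mk T.P T.L _ 1
      iq := (e.restrictScalars T.Q).toLinearMap.comp (TensorProduct.mk T.Q T.L _ 1)
      baseP := TensorProduct.isBaseChange _ _ _
      baseQ := hiq }
  obtain ⟨B', ⟨eP'⟩, ⟨eQ'⟩⟩ : ∃ B' : Bundle T,
      Nonempty (B'.MP ≃ₗ[T.P] Module.Dual T.P B.MP) ∧
        Nonempty (B'.MQ ≃ₗ[T.Q] Module.Dual T.Q B.MQ) :=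
    ⟨B', ⟨LinearEquiv.refl _ _⟩, ⟨LinearEquiv.refl _ _⟩⟩
  obtain ⟨u, ⟨i⟩⟩ := exists_iso_glue (B.tensor B')
    (((TensorProduct.congr (LinearEquiv.refl T.P B.MP) eP').trans
      (TensorProduct.comm T.P B.MP (Module.Dual T.P B.MP))).trans
      (Module.Invertible.linearEquiv T.P B.MP)).symm
    (((TensorProduct.congr (LinearEquiv.refl T.Q B.MQ) eQ').trans
      (TensorProduct.comm T.Q B.MQ (Module.Dual T.Q B.MQ))).trans
      (Module.Invertible.linearEquiv T.Q B.MQ)).symm
  refine ⟨B'.tensor (glue u⁻¹), ⟨(tensorAssoc _ _ _).symm.trans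
    ((tensorCongr i.symm (Iso.refl _)).trans ?_)⟩⟩
  have h := glueTensorGlue u u⁻¹
  rw [mul_inv_cancel] at h
  exact h

/-- Isomorphism classes of bundles. -/
def Cls (T : TwoChart R) : Type (u + 1) := Quotient (Bundle.setoid (T := T))

/-- The class of a bundle. -/
def cls (B : Bundle T) : Cls T := Quotient.mk _ B

/-- Two bundles have the same class exactly when they are isomorphic. -/
theorem cls_eq_iff {B B' : Bundle T} : B.cls = B'.cls ↔ Nonempty (Iso B B') :=
  Quotient.eq

/-- Every class is the class of a bundle. -/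
theorem exists_cls_eq (c : Cls T) : ∃ B : Bundle T, B.cls = c :=
  Quotient.exists_rep c

noncomputable instance clsMonoid : CommMonoid (Cls T) where
  mul := Quotient.map₂ tensor fun _ _ ⟨e⟩ _ _ ⟨f⟩ => ⟨tensorCongr e f⟩
  one := (trivial T).cls
  mul_assoc a b c := Quotient.inductionOn₃ a b c fun A B C => Quotient.sound ⟨tensorAssoc A B C⟩
  mul_comm a b := Quotient.inductionOn₂ a b fun A B => Quotient.sound ⟨tensorComm A B⟩
  one_mul a := Quotient.inductionOn a fun A => Quotient.sound ⟨trivialTensor A⟩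
  mul_one a := Quotient.inductionOn a fun A =>
    Quotient.sound ⟨(tensorComm A (trivial T)).trans (trivialTensor A)⟩

/-- The class of a tensor product is the product of the classes. -/
theorem cls_tensor (B B' : Bundle T) : (B.tensor B').cls = B.cls * B'.cls := rfl

/-- The trivial bundle has the trivial class. -/
theorem cls_trivial : (trivial T).cls = 1 := rfl

/-- Every class of a bundle is invertible. -/
theorem isUnit_cls (c : Cls T) : IsUnit c := by
  obtain ⟨B, rfl⟩ := exists_cls_eq c
  obtain ⟨B', h⟩ := exists_tensor_iso_trivial B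
  exact IsUnit.of_mul_eq_one B'.cls (cls_eq_iff.2 h)

noncomputable instance clsGroup : CommGroup (Cls T) :=
  { (clsMonoid : CommMonoid (Cls T)), (groupOfIsUnit isUnit_cls : Group (Cls T)) with }

end Bundle

end Fermat.Agent.RelJac
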