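import Fermat.Agent.RelJac.Bundle
import Mathlib.Logic.Small.Basic

/-!
Classes of bundles form a small type.
-/

open scoped TensorProduct

namespace Fermat.Agent.RelJac.Bundle

universe u

variable {R : Type u} [CommRing R] {U : TwoChart R}

open CommRing (Pic)

/-- Bundles with isomorphic chart modules differ by a unit on the overlap. -/
theorem exists_cls_eq_mul_glue {B B' : Bundle U} (eP : B.MP ≃ₗ[U.P] B'.MP)
    (eQ : B.MQ ≃ₗ[U.Q] B'.MQ) : ∃ u : U.Lˣ, B.cls = B'.cls * (glue u).cls := by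
  obtain ⟨K, ⟨ε⟩⟩ := exists_tensor_iso_trivial B'
  obtain ⟨u, hu⟩ := exists_iso_glue (B.tensor K)
    ((TensorProduct.congr eP (LinearEquiv.refl U.P K.MP)).trans ε.eP).symm
    ((TensorProduct.congr eQ (LinearEquiv.refl U.Q K.MQ)).trans ε.eQ).symm
  refine ⟨u, ?_⟩
  have h1 : B'.cls * K.cls = 1 := cls_eq_iff.2 ⟨ε⟩
  rw [cls_eq_iff.2 hu, cls_tensor, mul_left_comm, h1, mul_one]

/-- Bundle classes form a small type. -/
theorem small_cls (U : TwoChart R) : Small.{u} (Cls U) := by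
  classical
  let pr : Bundle U → Pic U.P × Pic U.Q := fun B => (Pic.mk U.P B.MP, Pic.mk U.Q B.MQ)
  let f : (Pic U.P × Pic U.Q) × U.Lˣ → Cls U := fun z =>
    if h : ∃ B : Bundle U, pr B = z.1 then h.choose.cls * (glue z.2).cls else 1
  refine small_of_surjective (f := f) fun c => ?_
  obtain ⟨B, rfl⟩ := exists_cls_eq c
  have h : ∃ B' : Bundle U, pr B' = pr B := ⟨B, rfl⟩
  obtain ⟨eP⟩ := Pic.mk_eq_mk_iff.1 (congrArg Prod.fst h.choose_spec.symm)
  obtain ⟨eQ⟩ := Pic.mk_eq_mk_iff.1 (congrArg Prod.snd h.choose_spec.symm)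
  obtain ⟨u, hu⟩ := exists_cls_eq_mul_glue eP eQ
  exact ⟨(pr B, u), (dif_pos h).trans hu.symm⟩

end Fermat.Agent.RelJac.Bundle
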