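import Fermat.Agent.RelJac.GoodLocus

/-!
Evaluation functionals and normalisation, and bundles good on all fibres.
-/

open scoped TensorProduct

namespace Fermat.Agent.RelJac

universe u

open CurveLike (x y)
open Bundle

section Eval

variable {k : Type u} [CommRing k] {T : TwoChart k} {e : T.P →ₐ[k] k}
  {R : Type u} [CommRing R] [Algebra k R]

/-- Bundles with evaluation functionals are normalised. -/
theorem rig_eq_one_of_evalFun {B : Bundle (T.baseChange R)} (v : EvalFun e B) :
    rig e B.cls = 1 := by
  let a : Algebra (R ⊗[k] T.P) R := (pointP e).toRingHom.toAlgebra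
  let f : B.MP →ₗ[R ⊗[k] T.P] R :=
    { toFun := v.val
      map_add' := fun a b => map_add v.val a b
      map_smul' := fun p m => by rw [v.val_smul, RingHom.id_apply, Algebra.smul_def]; rfl }
  have hs : Function.Surjective (f.liftBaseChange R) := fun r => by
    obtain ⟨m, hm⟩ := v.exists_one
    exact ⟨r ⊗ₜ m, by rw [LinearMap.liftBaseChange_tmul]; change r • v.val m = r; rw [hm,
        smul_eq_mul, mul_one]⟩
  let θ := LinearEquiv.ofBijective (f.liftBaseChange R) (Module.Invertible.bijective_of_surjective hs)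
  have h1 : CommRing.Pic.mk R (R ⊗[R ⊗[k] T.P] B.MP) = 1 := CommRing.Pic.mk_eq_one_iff.2 ⟨θ⟩
  rw [← h1]
  exact CommRing.Pic.mk_eq_mk_iff.2 ⟨TensorProduct.AlgebraTensorModule.congr (LinearEquiv.refl R R)
    (CommRing.Pic.mk.linearEquiv (R ⊗[k] T.P) B.MP)⟩

end Eval

variable {k : Type u} [Field k] [IsAlgClosed k] {T : TwoChart k} [CurveLike T] [IsDedekindDomain T.P]
  [IsDedekindDomain T.Q] [Algebra.FiniteType k T.P] [Algebra.FiniteType k T.Q] {g : ℕ}
  {b : Fin g → T.L} {e : T.P →ₐ[k] k} {R : Type u} [CommRing R] [Algebra k R]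

/-- The point of the residue field at a prime. -/
noncomputable abbrev primePoint (p : PrimeSpectrum R) : R →ₐ[k] p.asIdeal.ResidueField :=
  IsScalarTower.toAlgHom k R p.asIdeal.ResidueField

omit [IsAlgClosed k] in
/-- An element is nonzero at the point of a prime exactly when it is outside the prime. -/
theorem primePoint_ne_zero_iff {p : PrimeSpectrum R} {r : R} :
    primePoint (k := k) p r ≠ 0 ↔ r ∉ p.asIdeal := by
  change algebraMap R p.asIdeal.ResidueField r ≠ 0 ↔ _
  rw [ne_eq, Ideal.algebraMap_residueField_eq_zero]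

omit [IsAlgClosed k] in
/-- A set of elements meeting the complement of every prime generates the unit ideal. -/
theorem one_mem_of_forall_point (I : Ideal R)
    (h : ∀ p : PrimeSpectrum R, ∃ r ∈ I, primePoint (k := k) p r ≠ 0) : (1 : R) ∈ I :=
  one_mem_of_forall_maximal I fun m hm => by
    obtain ⟨r, hr, hr'⟩ := h ⟨m, hm.isPrime⟩
    exact ⟨r, hr, primePoint_ne_zero_iff.1 hr'⟩

/-- On a good fibre the coefficients along `b` and a multiple of the section are independent. -/
theorem injective_baseChange_sect_coprod {B K : Bundle (T.baseChange R)}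
    (ε : Iso (K.tensor B) (trivial (T.baseChange R))) (s : B.H0) (p : PrimeSpectrum R)
    (h : IsGoodSection b (B.bcSection (primePoint (k := k) p) s)) :
    Function.Injective (((Hilb.sect b).coprod
      (-((pairHom ε s).fL.restrictScalars R))).baseChange p.asIdeal.ResidueField) := by
  let fL := (pairHom ε s).fL
  let F : (Fin g → R) × K.ML →ₗ[R] R ⊗[k] T.L :=
    (Hilb.sect b).coprod (-(fL.restrictScalars R))
  change Function.Injective (F.baseChange p.asIdeal.ResidueField)
  refine (injective_iff_map_eq_zero _).2 fun z hz => ?_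
  obtain ⟨_, _, _⟩ := isDomain_baseChange (T := T) p.asIdeal.ResidueField
  set ψ := primePoint (k := k) p
  let i := T.overBC ψ
  let aP : Algebra (R ⊗[k] T.P) (p.asIdeal.ResidueField ⊗[k] T.P) := (T.bcP ψ).toAlgebra
  let aQ : Algebra (R ⊗[k] T.Q) (p.asIdeal.ResidueField ⊗[k] T.Q) := (T.bcQ ψ).toAlgebra
  let aL : Algebra (R ⊗[k] T.L) (p.asIdeal.ResidueField ⊗[k] T.L) := (T.bcL ψ).toAlgebra
  have tL : IsScalarTower R (R ⊗[k] T.L) (p.asIdeal.ResidueField ⊗[k] T.L) :=
    IsScalarTower.of_algebraMap_eq fun r => by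
      change _ = T.bcL ψ _
      rw [Algebra.TensorProduct.algebraMap_apply, Algebra.TensorProduct.algebraMap_apply,
        Algebra.TensorProduct.map_tmul]
      simp [ψ, primePoint]
  have := isPushout_map (k := k) (A := T.L) (R := R) (R' := p.asIdeal.ResidueField) fun _ => rfl
  let eC : p.asIdeal.ResidueField ⊗[R] K.ML ≃ₗ[p.asIdeal.ResidueField]
      (p.asIdeal.ResidueField ⊗[k] T.L) ⊗[R ⊗[k] T.L] K.ML :=
    (Algebra.IsPushout.cancelBaseChange R p.asIdeal.ResidueField (R ⊗[k] T.L)
      (p.asIdeal.ResidueField ⊗[k] T.L) K.ML).symm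
  have : Module.Invertible (R ⊗[k] T.L) K.ML := Bundle.invL K
  let f' : (p.asIdeal.ResidueField ⊗[k] T.L) ⊗[R ⊗[k] T.L] K.ML
      →ₗ[p.asIdeal.ResidueField ⊗[k] T.L] p.asIdeal.ResidueField ⊗[k] T.L :=
    LinearMap.liftBaseChange _
      ((Algebra.linearMap (R ⊗[k] T.L) (p.asIdeal.ResidueField ⊗[k] T.L)).comp fL)
  have hrange : LinearMap.range f' = (sectIdeal s).map (mapBase T.L ψ) := by
    refine le_antisymm ?_ (Ideal.map_le_iff_le_comap.2 fun a ha => ?_)
    · rintro _ ⟨w, rfl⟩
      induction w using TensorProduct.induction_on with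
      | zero => simp
      | tmul a m =>
        rw [LinearMap.liftBaseChange_tmul, smul_eq_mul]
        refine Ideal.mul_mem_left _ _ (Ideal.mem_map_of_mem _ ?_)
        exact (sectIdeal_eq_range ε s).ge ⟨m, rfl⟩
      | add a c ha hc => rw [map_add]; exact add_mem ha hc
    · obtain ⟨m, rfl⟩ := (sectIdeal_eq_range ε s).le ha
      exact ⟨1 ⊗ₜ m, by rw [LinearMap.liftBaseChange_tmul, one_smul]; rfl⟩
  have hgood := (sectIdeals_bcSection ψ B s).2.2 ▸ h.basis
  have hf' : Function.Injective f' := by
    refine FibreTools.functional_injective _ fun h0 => ?_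
    rw [h0, LinearMap.range_zero] at hrange
    -- the zero ideal has no finite quotient basis
    have hb := hgood.finite_quotient
    rw [← hrange] at hb
    have hfin : Module.Finite p.asIdeal.ResidueField (p.asIdeal.ResidueField ⊗[k] T.L) :=
      Module.Finite.equiv ((AlgEquiv.quotientBot p.asIdeal.ResidueField _).toLinearEquiv)
    have hP' : Module.Finite p.asIdeal.ResidueField (p.asIdeal.ResidueField ⊗[k] T.P) :=
      Module.Finite.of_injective
        ((IsScalarTower.toAlgHom p.asIdeal.ResidueField (p.asIdeal.ResidueField ⊗[k] T.P)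
          (p.asIdeal.ResidueField ⊗[k] T.L)).toLinearMap)
        (CurveLike.algebraMapP_injective (T.baseChange p.asIdeal.ResidueField))
    have := Module.Finite.finite_basis
      (CurveLike.basisP (T := T.baseChange p.asIdeal.ResidueField))
    rcases isEmpty_or_nonempty (CurveLike.ιP (T := T.baseChange p.asIdeal.ResidueField)) with h' | h'
    · exact not_subsingleton (p.asIdeal.ResidueField ⊗[k] T.P)
        (CurveLike.basisP (T := T.baseChange p.asIdeal.ResidueField)).repr.toEquiv.subsingleton
    · exact not_finite (CurveLike.ιP (T := T.baseChange p.asIdeal.ResidueField) × ℕ)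
  let z1 := (LinearMap.fst R (Fin g → R) K.ML).baseChange p.asIdeal.ResidueField z
  let z2 := (LinearMap.snd R (Fin g → R) K.ML).baseChange p.asIdeal.ResidueField z
  let c₁ := TensorProduct.piScalarRight R p.asIdeal.ResidueField p.asIdeal.ResidueField (Fin g) z1
  let G : p.asIdeal.ResidueField ⊗[R] (R ⊗[k] T.L) →ₗ[R] p.asIdeal.ResidueField ⊗[k] T.L :=
    TensorProduct.lift (LinearMap.mk₂ R (fun a w => (a ⊗ₜ[k] (1 : T.L)) * mapBase T.L ψ w)
      (fun a a' w => by rw [TensorProduct.add_tmul, add_mul])
      (fun r a w => by rw [← TensorProduct.smul_tmul', smul_mul_assoc])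
      (fun a w w' => by rw [map_add, mul_add])
      (fun r a w => by
        rw [← algebraMap_smul (R ⊗[k] T.L) r w, smul_eq_mul, map_mul]
        rw [Algebra.smul_def r, IsScalarTower.algebraMap_apply R (R ⊗[k] T.L)
          (p.asIdeal.ResidueField ⊗[k] T.L)]
        change _ = T.bcL ψ _ * _
        ring))
  have key : G (F.baseChange p.asIdeal.ResidueField z) =
      ∑ i, c₁ i ⊗ₜ[k] b i - f' (eC z2) := by
    simp only [z1, z2, c₁]
    clear hz z1 z2 c₁
    induction z using TensorProduct.induction_on with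
    | zero => simp
    | tmul a w =>
      obtain ⟨v, m⟩ := w
      simp only [LinearMap.baseChange_tmul, LinearMap.fst_apply, LinearMap.snd_apply,
        TensorProduct.piScalarRight_apply, TensorProduct.piScalarRightHom_tmul, eC,
        Algebra.IsPushout.cancelBaseChange_symm_tmul, f', LinearMap.liftBaseChange_tmul, F,
        LinearMap.coprod_apply, LinearMap.neg_apply, LinearMap.coe_restrictScalars, G,
        TensorProduct.lift.tmul, LinearMap.mk₂_apply, Hilb.sect_apply,
        LinearMap.comp_apply, Algebra.linearMap_apply, smul_eq_mul, ← sub_eq_add_neg]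
      rw [map_sub, mul_sub, map_sum, Finset.mul_sum]
      congr 1
      · refine Finset.sum_congr rfl fun i _ => ?_
        rw [Algebra.TensorProduct.map_tmul, Algebra.TensorProduct.tmul_mul_tmul, one_mul,
          AlgHom.id_apply, Algebra.smul_def, mul_comm]
        rfl
    | add u w hu hw =>
      simp only [map_add, hu, hw, Pi.add_apply, TensorProduct.add_tmul, Finset.sum_add_distrib]
      abel
  rw [hz, map_zero, eq_comm, sub_eq_zero] at key
  have hc1 : c₁ = 0 := hgood.1 (by
    refine Ideal.Quotient.eq.2 ?_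
    simp only [Pi.zero_apply, TensorProduct.zero_tmul, Finset.sum_const_zero, sub_zero]
    rw [key, ← hrange]
    exact ⟨_, rfl⟩)
  have hz2 : z2 = 0 := by
    rw [hc1] at key
    simp only [Pi.zero_apply, TensorProduct.zero_tmul, Finset.sum_const_zero] at key
    exact eC.injective ((hf' (key.symm.trans (map_zero f').symm)).trans (map_zero eC).symm)
  have hz1 : z1 = 0 := (TensorProduct.piScalarRight R p.asIdeal.ResidueField
    p.asIdeal.ResidueField (Fin g)).injective (hc1.trans (map_zero _).symm)
  apply (TensorProduct.prodRight R p.asIdeal.ResidueField p.asIdeal.ResidueField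
    (Fin g → R) K.ML).injective
  rw [map_zero]
  have hpr : ∀ w : p.asIdeal.ResidueField ⊗[R] ((Fin g → R) × K.ML),
      TensorProduct.prodRight R p.asIdeal.ResidueField p.asIdeal.ResidueField (Fin g → R) K.ML w =
        ((LinearMap.fst R (Fin g → R) K.ML).baseChange p.asIdeal.ResidueField w,
          (LinearMap.snd R (Fin g → R) K.ML).baseChange p.asIdeal.ResidueField w) := fun w => by
    induction w using TensorProduct.induction_on with
    | zero => simp only [map_zero]; rfl
    | tmul a w => simp
    | add u w hu hw => simp only [map_add, hu, hw, Prod.mk_add_mk]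
  rw [hpr]
  exact Prod.ext hz1 hz2

/-- A section good on every fibre is good. -/
theorem isGoodSection_of_forall_fibre {B : Bundle (T.baseChange R)} (s : B.H0)
    (h : ∀ p : PrimeSpectrum R, B.bcSection (primePoint (k := k) p) s ≠ 0 ∧
      IsGoodSection b (B.bcSection (primePoint (k := k) p) s)) : IsGoodSection b s := by
  classical
  have hP : sectIdealP s ⊔ Ideal.span {x (T := T.baseChange R)} = ⊤ := by
    rw [Ideal.eq_top_iff_one]
    have h1 := one_mem_of_forall_point (k := k) ((sectIdealP s ⊔ Ideal.span {x (T := T.baseChange R)}).comap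
      (algebraMap R (R ⊗[k] T.P))) fun p => by
        obtain ⟨r, hr, hr'⟩ := exists_coprimeP_nhd s _ (h p).2.coprimeP
        exact ⟨r, hr', hr⟩
    rwa [Ideal.mem_comap, map_one] at h1
  have hQ : sectIdealQ s ⊔ Ideal.span {y (T := T.baseChange R)} = ⊤ := by
    rw [Ideal.eq_top_iff_one]
    have h1 := one_mem_of_forall_point (k := k) ((sectIdealQ s ⊔ Ideal.span {y (T := T.baseChange R)}).comap
      (algebraMap R (R ⊗[k] T.Q))) fun p => by
        obtain ⟨r, hr, hr'⟩ := exists_coprimeQ_nhd s _ (h p).2.coprimeQ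
        exact ⟨r, hr', hr⟩
    rwa [Ideal.mem_comap, map_one] at h1
  refine ⟨hP, hQ, ?_⟩
  obtain ⟨K, -, ⟨ε⟩⟩ := B.exists_inverse
  have := finite_quotient_of_coprime (U := T.baseChange R) (J := sectIdeal s)
    (sectIdealP_eq_comap s hP ε ▸ hP) (sectIdealQ_eq_comap s hQ ε ▸ hQ)
  let I : Ideal R :=
    { carrier := {r | ∀ z : R ⊗[k] T.L, ∃ c : Fin g → R,
        r • z - ∑ i, c i ⊗ₜ[k] b i ∈ sectIdeal s}
      add_mem' := fun {r r'} hr hr' z => by
        obtain ⟨c, hc⟩ := hr z
        obtain ⟨c', hc'⟩ := hr' z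
        refine ⟨c + c', ?_⟩
        have := add_mem hc hc'
        simpa [add_smul, TensorProduct.add_tmul, Finset.sum_add_distrib, add_sub_add_comm] using this
      zero_mem' := fun z => ⟨0, by simp⟩
      smul_mem' := fun a r hr z => by
        obtain ⟨c, hc⟩ := hr (a • z)
        refine ⟨c, ?_⟩
        rwa [smul_eq_mul, mul_comm, mul_smul] }
  have hspan : (1 : R) ∈ I := one_mem_of_forall_point (k := k) I fun p => by
    obtain ⟨r, hr, hr'⟩ := exists_span_nhd b (sectIdeal s) (primePoint (k := k) p) fun z => by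
      obtain ⟨c, hc⟩ := (h p).2.basis.2 (Ideal.Quotient.mk _ z)
      refine ⟨c, ?_⟩
      rw [← (sectIdeals_bcSection (primePoint (k := k) p) B s).2.2]
      exact Ideal.Quotient.eq.1 hc.symm
    exact ⟨r, hr', hr⟩
  refine ⟨fun c c' hcc => ?_, fun w => ?_⟩
  swap
  · obtain ⟨z, rfl⟩ := Ideal.Quotient.mk_surjective w
    obtain ⟨c, hc⟩ := hspan z
    rw [one_smul] at hc
    exact ⟨c, (Ideal.Quotient.eq.2 hc).symm⟩
  -- independence of `b`
  let fL := (pairHom ε s).fL
  let F : (Fin g → R) × K.ML →ₗ[R] R ⊗[k] T.L :=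
    (Hilb.sect b).coprod (-(fL.restrictScalars R))
  have hF : Function.Injective F := injective_of_forall_fibre F fun p =>
    injective_baseChange_sect_coprod ε s p (h p).2
  obtain ⟨m, hm⟩ := (sectIdeal_eq_range ε s).le (Ideal.Quotient.eq.1 hcc)
  have h0 : F (c - c', m) = 0 := by
    simp only [F, LinearMap.coprod_apply, LinearMap.neg_apply, LinearMap.coe_restrictScalars, fL, hm,
      Hilb.sect_apply, Pi.sub_apply, TensorProduct.sub_tmul, Finset.sum_sub_distrib, add_neg_cancel]
  exact sub_eq_zero.1 (congrArg Prod.fst (hF (h0.trans (map_zero F).symm)))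

/-- A normalised bundle good on every fibre is good. -/
theorem IsGood.of_forall_fibre (he : e (x (T := T)) = 0) {B : Bundle (T.baseChange R)}
    (v : EvalFun e B)
    (h : ∀ p : PrimeSpectrum R, IsGood b (B.bc (primePoint (k := k) p))) : IsGood b B := by
  have hn : B.Nonspecial := by
    have h1 := one_mem_of_forall_point (k := k) (Module.annihilator R B.H1) fun p => by
      obtain ⟨r, hr, hr'⟩ := exists_nonspecial_nhd _ (h p).nonspecial
      exact ⟨r, Module.mem_annihilator.2 hr', hr⟩
    intro z
    have := Module.mem_annihilator.1 h1 (Submodule.Quotient.mk z)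
    rwa [one_smul, Submodule.Quotient.mk_eq_zero] at this
  let val : B.H0 →ₗ[R] R := v.val ∘ₗ (LinearMap.fst R B.MP B.MQ) ∘ₗ B.H0.subtype
  have hval : ∀ s, val s = v.val s.1.1 := fun s => rfl
  have hsurj : Function.Surjective val := by
    rw [← LinearMap.range_eq_top]
    refine (Ideal.eq_top_iff_one _).2 (one_mem_of_forall_point (k := k) (LinearMap.range val) fun p => ?_)
    obtain ⟨s, hs⟩ := exists_val_ne_zero he v hn _ (h p)
    exact ⟨val s, ⟨s, rfl⟩, hs⟩
  have := B.finite_H0 hn
  have := B.projective_H0 hn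
  have hinj : Function.Injective val := injective_of_forall_fibre val fun p => by
    obtain ⟨s, hs⟩ := hsurj 1
    have hone := (good_fibre_section v _ (h p) s (by rw [← hval, hs, map_one]; exact one_ne_zero)).2.2
    have hr : Module.finrank p.asIdeal.ResidueField (p.asIdeal.ResidueField ⊗[R] B.H0) =
        Module.finrank p.asIdeal.ResidueField (p.asIdeal.ResidueField ⊗[R] R) := by
      rw [(TensorProduct.AlgebraTensorModule.rid R p.asIdeal.ResidueField
        p.asIdeal.ResidueField).finrank_eq, Module.finrank_self, finrank_tensor_field,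
        ← hone, finrank_H0_bc _ hn]
      rfl
    exact (LinearMap.injective_iff_surjective_of_finrank_eq_finrank hr).2
      (LinearMap.lTensor_surjective _ hsurj)
  obtain ⟨s, hs⟩ := hsurj 1
  refine ⟨hn, s, eq_top_iff.2 fun w _ => Submodule.mem_span_singleton.2
    ⟨val w, hinj (by rw [map_smul, hs, smul_eq_mul, mul_one])⟩, ?_⟩
  refine isGoodSection_of_forall_fibre s fun p => ?_
  obtain ⟨h1, h2, -⟩ := good_fibre_section v _ (h p) s (by rw [← hval, hs, map_one]; exact one_ne_zero)
  exact ⟨h1, h2⟩

end Fermat.Agent.RelJac
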