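import Fermat.Agent.RelJac.DegreeFamily
import Mathlib.RingTheory.PicardGroup

/-!
Classes pulled back from the base, and normalisation of classes along a point of the first chart.
-/

open scoped TensorProduct

namespace Fermat.Agent.RelJac

universe u

namespace TwoChart

/-- The base itself, as a two-chart space. -/
abbrev pt (R : Type u) [CommRing R] : TwoChart R where
  P := R
  Q := R
  L := R

/-- Base points along a ring map. -/
@[reducible] def overPt {R R' : Type u} [CommRing R] [CommRing R'] (φ : R →+* R') :
    (pt R).Over (pt R') where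
  algP := φ.toAlgebra
  algQ := φ.toAlgebra
  algL := φ.toAlgebra
  commP _ := rfl
  commQ _ := rfl

/-- A two-chart space lies over its base. -/
@[reducible] def overBase {R : Type u} [CommRing R] (U : TwoChart R) : (pt R).Over U where
  algP := U.algRP
  algQ := U.algRQ
  algL := U.algRL
  commP r := IsScalarTower.algebraMap_apply R U.P U.L r
  commQ r := IsScalarTower.algebraMap_apply R U.Q U.L r

end TwoChart

namespace Bundle

section Pt

variable {R : Type u} [CommRing R]

/-- An invertible module as a bundle on the base. -/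
noncomputable abbrev ptBundle (N : Type u) [AddCommGroup N] [Module R N] [Module.Invertible R N] :
    Bundle (TwoChart.pt R) where
  MP := N
  MQ := N
  ML := N
  ip := LinearMap.id
  iq := LinearMap.id
  baseP := IsBaseChange.of_equiv (TensorProduct.lid R N) fun n => TensorProduct.lid_tmul n 1
      |>.trans (one_smul R n)
  baseQ := IsBaseChange.of_equiv (TensorProduct.lid R N) fun n => TensorProduct.lid_tmul n 1
      |>.trans (one_smul R n)

/-- The Picard group of the base, as classes on the base. -/
noncomputable def toPt : CommRing.Pic R →* Cls (TwoChart.pt R) where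
  toFun N := (ptBundle (N : Type u)).cls
  map_one' := by
    obtain ⟨e⟩ := CommRing.Pic.mk_eq_one_iff.1 (CommRing.Pic.mk_eq_self (M := (1 : CommRing.Pic R)))
    refine (cls_eq_iff.2 ⟨?_⟩).trans cls_trivial
    exact { eP := e, eQ := e, eL := e, commP := fun m => rfl
            commQ := fun m => by simp }
  map_mul' M N := by
    obtain ⟨e⟩ := CommRing.Pic.mk_eq_iff.1 (CommRing.Pic.mul_eq_tensor M N).symm
    rw [← cls_tensor]
    exact (cls_eq_iff.2 ⟨Iso.ofTensor (C := ptBundle ((M * N : CommRing.Pic R) : Type u)) e e e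
      (fun _ _ => rfl) (fun _ _ => rfl)⟩).symm

theorem picP_clsMap {R' : Type u} [CommRing R'] {U : TwoChart R} {U' : TwoChart R'} [U.Over U']
    (c : Cls U) : picP (clsMap (T' := U') c) = CommRing.Pic.mapAlgebra U.P U'.P (picP c) := by
  obtain ⟨B, rfl⟩ := exists_cls_eq c
  rw [clsMap_cls, picP_cls, picP_cls]
  exact CommRing.Pic.mk_eq_mk_iff.2 ⟨TensorProduct.AlgebraTensorModule.congr
    (.refl U'.P U'.P) (CommRing.Pic.mk.linearEquiv U.P B.MP).symm⟩

theorem picP_toPt (N : CommRing.Pic R) : picP (toPt N) = N :=
  CommRing.Pic.mk_eq_self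

end Pt

variable {k : Type u} [CommRing k] {T : TwoChart k}
  {R R' : Type u} [CommRing R] [Algebra k R] [CommRing R'] [Algebra k R']

variable (T R) in
/-- Classes pulled back from the base. -/
noncomputable def fromBase : CommRing.Pic R →* Cls (T.baseChange R) :=
  letI := TwoChart.overBase (T.baseChange R)
  clsMap.comp toPt

theorem picP_fromBase (N : CommRing.Pic R) :
    picP (fromBase T R N) = CommRing.Pic.mapRingHom (algebraMap R (R ⊗[k] T.P)) N := by
  rw [CommRing.Pic.mapRingHom_algebraMap]
  let i := TwoChart.overBase (T.baseChange R)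
  exact (picP_clsMap (toPt N)).trans (congrArg _ (picP_toPt N))

theorem picP_bcCls (φ : R →ₐ[k] R') (c : Cls (T.baseChange R)) :
    picP (bcCls φ c) = CommRing.Pic.mapRingHom (T.bcP φ).toRingHom (picP c) :=
  letI := T.overBC φ
  picP_clsMap c

theorem rig_apply (e : T.P →ₐ[k] k) (c : Cls (T.baseChange R)) :
    rig e c = CommRing.Pic.mapRingHom (pointP (R := R) e).toRingHom (picP c) := rfl

theorem pointP_comp_bcP (e : T.P →ₐ[k] k) (φ : R →ₐ[k] R') :
    (pointP (R := R') e).toRingHom.comp (T.bcP φ).toRingHom =
      φ.toRingHom.comp (pointP (R := R) e).toRingHom := by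
  refine RingHom.ext fun z => ?_
  change pointP e (T.bcP φ z) = φ (pointP e z)
  induction z using TensorProduct.induction_on with
  | zero => simp
  | tmul r p => simp [pointP_tmul]
  | add a b ha hb => simp only [map_add, ha, hb]

/-- The rigidifying map is natural. -/
theorem rig_bcCls (e : T.P →ₐ[k] k) (φ : R →ₐ[k] R') (c : Cls (T.baseChange R)) :
    rig e (bcCls φ c) = CommRing.Pic.mapRingHom φ.toRingHom (rig e c) := by
  rw [rig_apply, rig_apply, picP_bcCls, CommRing.Pic.mapRingHom_mapRingHom,
    CommRing.Pic.mapRingHom_mapRingHom, pointP_comp_bcP]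

theorem rig_fromBase (e : T.P →ₐ[k] k) (N : CommRing.Pic R) : rig e (fromBase T R N) = N := by
  rw [rig_apply, picP_fromBase, CommRing.Pic.mapRingHom_mapRingHom,
    show (pointP (R := R) e).toRingHom.comp (algebraMap R (R ⊗[k] T.P)) = RingHom.id R from
      RingHom.ext fun r => (pointP (R := R) e).commutes r,
    CommRing.Pic.mapRingHom_id_apply]

theorem bcCls_fromBase (φ : R →ₐ[k] R') (N : CommRing.Pic R) :
    bcCls φ (fromBase T R N) = fromBase T R' (CommRing.Pic.mapRingHom φ.toRingHom N) := by
  let i₁ := TwoChart.overBase (T.baseChange R)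
  let i₂ := T.overBC φ
  let i₃ := TwoChart.overTrans (TwoChart.pt R) (T.baseChange R) (T.baseChange R')
  let j₁ := TwoChart.overPt φ.toRingHom
  let j₂ := TwoChart.overBase (T.baseChange R')
  let aR : Algebra R R' := φ.toRingHom.toAlgebra
  let aP : Algebra (R ⊗[k] T.P) (R' ⊗[k] T.P) := (T.bcP φ).toAlgebra
  let aQ : Algebra (R ⊗[k] T.Q) (R' ⊗[k] T.Q) := (T.bcQ φ).toAlgebra
  let aL : Algebra (R ⊗[k] T.L) (R' ⊗[k] T.L) := (T.bcL φ).toAlgebra
  let aRP : Algebra R (R' ⊗[k] T.P) := i₃.algP
  let aRQ : Algebra R (R' ⊗[k] T.Q) := i₃.algQ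
  let aRL : Algebra R (R' ⊗[k] T.L) := i₃.algL
  have t₁ := TwoChart.overTower_overTrans (TwoChart.pt R) (T.baseChange R) (T.baseChange R')
  have key : ∀ (A : Type u) [CommRing A] [Algebra k A] (r : R),
      Algebra.TensorProduct.map φ (AlgHom.id k A) (algebraMap R (R ⊗[k] A) r) =
        algebraMap R' (R' ⊗[k] A) (φ r) := fun A _ _ r => by
    simp [Algebra.TensorProduct.algebraMap_apply]
  have t₂ : TwoChart.OverTower (TwoChart.pt R) (TwoChart.pt R') (T.baseChange R') :=
    { towerP := IsScalarTower.of_algebraMap_eq fun r => key T.P r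
      towerQ := IsScalarTower.of_algebraMap_eq fun r => key T.Q r
      towerL := IsScalarTower.of_algebraMap_eq fun r => key T.L r }
  have h : toPt (CommRing.Pic.mapRingHom φ.toRingHom N) =
      clsMap (T' := TwoChart.pt R') (toPt N) := by
    obtain ⟨e⟩ : Nonempty ((R' ⊗[R] (N : Type u)) ≃ₗ[R']
        ((CommRing.Pic.mapRingHom φ.toRingHom N : CommRing.Pic R') : Type u)) :=
      CommRing.Pic.mk_eq_iff.1 rfl
    exact (cls_eq_iff.2 ⟨Iso.ofPullback (C := ptBundle _) e e e (fun _ => rfl) fun _ => rfl⟩).symm
  exact (clsMap_clsMap (T' := T.baseChange R) (T'' := T.baseChange R') (toPt N)).trans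
    ((clsMap_clsMap (T' := TwoChart.pt R') (T'' := T.baseChange R') (toPt N)).symm.trans
      (congrArg (clsMap (T' := T.baseChange R')) h.symm))

/-- Normalisation along the point `e`. -/
noncomputable def normalise (e : T.P →ₐ[k] k) : Cls (T.baseChange R) →* Cls (T.baseChange R) :=
  MonoidHom.id _ / (fromBase T R).comp (rig e)

theorem normalise_apply (e : T.P →ₐ[k] k) (c : Cls (T.baseChange R)) :
    normalise e c = c / fromBase T R (rig e c) := rfl

/-- A normalised class is trivial along the marked point. -/
theorem rig_normalise (e : T.P →ₐ[k] k) (c : Cls (T.baseChange R)) : rig e (normalise e c) = 1 := by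
  rw [normalise_apply, map_div, rig_fromBase, div_self']

/-- Normalisation fixes normalised classes. -/
theorem normalise_eq_self (e : T.P →ₐ[k] k) {c : Cls (T.baseChange R)} (h : rig e c = 1) :
    normalise e c = c := by
  rw [normalise_apply, h, map_one, div_one]

/-- Normalisation commutes with base change. -/
theorem bcCls_normalise (e : T.P →ₐ[k] k) (φ : R →ₐ[k] R') (c : Cls (T.baseChange R)) :
    bcCls φ (normalise e c) = normalise e (bcCls φ c) := by
  rw [normalise_apply, normalise_apply, map_div, bcCls_fromBase, rig_bcCls]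

section Field

variable {k : Type u} [Field k] {T : TwoChart k}
  {R : Type u} [CommRing R] [Algebra k R]

theorem fromBase_field {L : Type u} [Field L] [Algebra k L] (N : CommRing.Pic L) :
    fromBase T L N = 1 := by
  rw [Subsingleton.elim N 1, map_one]

theorem normalise_field (e : T.P →ₐ[k] k) {L : Type u} [Field L] [Algebra k L]
    (c : Cls (T.baseChange L)) : normalise e c = c := by
  rw [normalise_apply, fromBase_field, div_one]

/-- Normalisation does not change the fibres. -/
theorem bcCls_normalise_field (e : T.P →ₐ[k] k) {L : Type u} [Field L] [Algebra k L]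
    (ψ : R →ₐ[k] L) (c : Cls (T.baseChange R)) : bcCls ψ (normalise e c) = bcCls ψ c := by
  rw [bcCls_normalise, normalise_field]

/-- Normalisation preserves degree zero. -/
theorem IsDegZero.normalise [CurveLike T] (e : T.P →ₐ[k] k) {c : Cls (T.baseChange R)}
    (h : IsDegZero c) : IsDegZero (Bundle.normalise e c) := fun L _ _ ψ => by
  rw [bcCls_normalise_field]; exact h L ψ

end Field

end Bundle

end Fermat.Agent.RelJac
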