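import Fermat.Agent.RelJac.BasisExists
import Fermat.Agent.RelJac.ClsSmall
import Fermat.Agent.RelJac.GoodGlobal
import Fermat.Agent.RelJac.Normalise

/-!
The atlas of the Jacobian: for integers `g`, families `b` of `g` elements of the overlap, classes `θ`
of degree `g` over the base field and suitable `f` in the Hilbert algebra of `b`, the normalised class
`O(D) - θ` on the basic affine piece `f ≠ 0` has unique lifts, an open lifting locus, and these
charts cover all field valued points of degree zero.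
-/

open scoped TensorProduct

namespace Fermat.Agent.RelJac

universe u

open CurveLike (x y)
open Bundle
open IsBasisIdeal (univIdeal univIdeal_isBasisIdeal existsUnique_map_univIdeal)

variable {k : Type u} [Field k] [IsAlgClosed k] {T : TwoChart k} [CurveLike T] [IsDedekindDomain T.P]
  [IsDedekindDomain T.Q] [Algebra.FiniteType k T.P] [Algebra.FiniteType k T.Q] {g : ℕ}
  (b : Fin g → T.L) {R R' : Type u} [CommRing R] [Algebra k R] [CommRing R'] [Algebra k R']

/-- The classes `O(D)` of the universal subscheme. -/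
noncomputable def univCls : Cls (T.baseChange (Hilb.HilbAlg k b)) :=
  ((univIdeal_isBasisIdeal k b).bundle.cls)⁻¹

variable {b}

theorem bcCls_univCls (ψ : Hilb.HilbAlg k b →ₐ[k] R) :
    bcCls ψ (univCls b) = (((univIdeal_isBasisIdeal k b).map ψ).bundle.cls)⁻¹ := by
  rw [univCls, map_inv, IsBasisIdeal.bcCls_bundle]

/-- A good bundle is `O(D)` for exactly one point of the Hilbert algebra. -/
theorem IsGood.existsUnique_hom {B : Bundle (T.baseChange R)} (h : IsGood b B) :
    ∃! ψ : Hilb.HilbAlg k b →ₐ[k] R, bcCls ψ (univCls b) = B.cls := by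
  obtain ⟨I, ⟨hI, hIc⟩, huniq⟩ := h.existsUnique_ideal
  obtain ⟨ψ, hψ, hψu⟩ := existsUnique_map_univIdeal hI
  refine ⟨ψ, ?_, fun ψ' hψ' => hψu ψ' ?_⟩
  · beta_reduce
    rw [bcCls_univCls, bundle_cls_congr ((univIdeal_isBasisIdeal k b).map ψ) hI hψ.symm, hIc, inv_inv]
  · refine (huniq _ ⟨(univIdeal_isBasisIdeal k b).map ψ', ?_⟩).symm
    beta_reduce at hψ'
    rw [← hψ', bcCls_univCls, inv_inv]

variable (e : T.P →ₐ[k] k)

theorem rig_bundle (he : e (x (T := T)) = 0) {I : Ideal (R ⊗[k] T.L)} (h : IsBasisIdeal b I) :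
    rig e h.bundle.cls = 1 := by
  obtain ⟨p, hp⟩ := h.exists_algebraMapP_sub_mem
    ((1 : R) ⊗ₜ[k] algebraMap T.Q T.L (y (T := T)))
  have hmem : 1 - p * ((1 : R) ⊗ₜ[k] x (T := T)) ∈ comapP (T.baseChange R) I := by
    change algebraMap (R ⊗[k] T.P) (R ⊗[k] T.L) _ ∈ I
    rw [map_sub, map_one, map_mul, TwoChart.baseChange_algebraMapP_tmul]
    have h1 := tmul_x_pow_mul_y_pow (R := R) (T := T) 1
    rw [pow_one, pow_one] at h1
    rw [← h1, ← neg_sub, mul_comm ((1 : R) ⊗ₜ[k] algebraMap T.P T.L (x (T := T))), ← sub_mul]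
    exact neg_mem (I.mul_mem_right _ hp)
  refine rig_eq_one_of_evalFun (B := h.bundle) (e := e)
    { val := (pointP e).toLinearMap.comp
        ((comapP (T.baseChange R) I).subtype.restrictScalars R)
      val_smul := fun p m => by
        change pointP e (p * m.1) = pointP e p * pointP e m.1
        exact map_mul _ _ _
      exists_one := ⟨⟨_, hmem⟩, by
        change pointP e (1 - p * ((1 : R) ⊗ₜ[k] x (T := T))) = 1
        rw [map_sub, map_one, map_mul, pointP_tmul, he, map_zero, mul_zero, mul_zero, sub_zero]⟩ }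

theorem rig_univCls (he : e (x (T := T)) = 0) : rig e (univCls b) = 1 := by
  rw [univCls, map_inv, rig_bundle e he, inv_one]

omit [IsAlgClosed k] [CurveLike T] [IsDedekindDomain T.P] [IsDedekindDomain T.Q]
    [Algebra.FiniteType k T.P] [Algebra.FiniteType k T.Q] in
theorem rig_bcCls_ofId (θ : Cls (T.baseChange k)) :
    rig e (bcCls (Algebra.ofId k R) θ) = 1 := by
  rw [rig_bcCls, Subsingleton.elim (rig e θ) 1, map_one]

omit [IsAlgClosed k] [CurveLike T] [IsDedekindDomain T.P] [IsDedekindDomain T.Q]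
    [Algebra.FiniteType k T.P] [Algebra.FiniteType k T.Q] in
theorem bcCls_bcCls_ofId (φ : R →ₐ[k] R') (θ : Cls (T.baseChange k)) :
    bcCls φ (bcCls (Algebra.ofId k R) θ) = bcCls (Algebra.ofId k R') θ := by
  rw [bcCls_comp, Subsingleton.elim (φ.comp (Algebra.ofId k R)) (Algebra.ofId k R')]

variable (b) in
/-- The condition for `f ≠ 0` to be a chart: the universal bundle is good there. -/
def IsChartFun (f : Hilb.HilbAlg k b) : Prop :=
  ∀ B : Bundle (T.baseChange (Localization.Away f)),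
    B.cls = bcCls (IsScalarTower.toAlgHom k (Hilb.HilbAlg k b) (Localization.Away f)) (univCls b) →
      IsGood b B

variable (b) in
/-- The class `O(D) - θ` on the piece `f ≠ 0`. -/
noncomputable def chartCls (f : Hilb.HilbAlg k b) (θ : Cls (T.baseChange k)) :
    Cls (T.baseChange (Localization.Away f)) :=
  bcCls (IsScalarTower.toAlgHom k (Hilb.HilbAlg k b) (Localization.Away f)) (univCls b) /
    bcCls (Algebra.ofId k (Localization.Away f)) θ

variable {f : Hilb.HilbAlg k b} {θ : Cls (T.baseChange k)}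

theorem bcCls_chartCls (a : Localization.Away f →ₐ[k] R) :
    bcCls a (chartCls b f θ) =
      bcCls (a.comp (IsScalarTower.toAlgHom k (Hilb.HilbAlg k b) (Localization.Away f))) (univCls b) /
        bcCls (Algebra.ofId k R) θ := by
  rw [chartCls, map_div, bcCls_comp, bcCls_bcCls_ofId]

theorem rig_chartCls (he : e (x (T := T)) = 0) : rig e (chartCls b f θ) = 1 := by
  rw [chartCls, map_div, rig_bcCls_ofId, rig_bcCls, rig_univCls e he, map_one, div_one]

theorem isDegZero_chartCls (hθ : degCls θ = g) : IsDegZero (chartCls b f θ) := by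
  intro L _ _ ψ
  obtain ⟨_, _, _⟩ := isDomain_baseChange (T := T) L
  rw [bcCls_chartCls, bcCls_univCls, div_eq_mul_inv, degCls_mul, degCls_inv, degCls_inv, degCls_cls,
    deg_bundle, degCls_bc_field, hθ]
  ring

/-- Lifts to a chart are points of the Hilbert algebra at which `f` is a unit. -/
theorem exists_lift_iff {c : Cls (T.baseChange R)} :
    (∃ a : Localization.Away f →ₐ[k] R, bcCls a (chartCls b f θ) = c) ↔
      ∃ ψ : Hilb.HilbAlg k b →ₐ[k] R,
        bcCls ψ (univCls b) = c * bcCls (Algebra.ofId k R) θ ∧ IsUnit (ψ f) := by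
  constructor
  · rintro ⟨a, rfl⟩
    refine ⟨a.comp (IsScalarTower.toAlgHom k _ _), ?_,
      (IsLocalization.Away.algebraMap_isUnit f).map a⟩
    rw [bcCls_chartCls, div_mul_cancel]
  · rintro ⟨ψ, hψ, hu⟩
    refine ⟨IsLocalization.liftAlgHom (M := Submonoid.powers f) (f := ψ) ?_, ?_⟩
    · rintro ⟨_, m, rfl⟩
      change IsUnit (ψ (f ^ m))
      rw [map_pow]
      exact hu.pow m
    · rw [bcCls_chartCls, show AlgHom.comp _ _ = ψ from AlgHom.ext fun a => IsLocalization.lift_eq _ a,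
        hψ, mul_div_cancel_right]

/-- A bundle with the universal class where the chart function is a unit is good. -/
theorem IsChartFun.isGood (hf : IsChartFun b f) {ψ : Hilb.HilbAlg k b →ₐ[k] R} (hu : IsUnit (ψ f))
    {B : Bundle (T.baseChange R)} (hB : B.cls = bcCls ψ (univCls b)) : IsGood b B := by
  obtain ⟨B₀, hB₀⟩ := exists_cls_eq
    (bcCls (IsScalarTower.toAlgHom k (Hilb.HilbAlg k b) (Localization.Away f)) (univCls b))
  let a : Localization.Away f →ₐ[k] R :=
    IsLocalization.liftAlgHom (M := Submonoid.powers f) (f := ψ) (by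
      rintro ⟨_, m, rfl⟩
      change IsUnit (ψ (f ^ m))
      rw [map_pow]
      exact hu.pow m)
  refine (isGood_iff_of_cls ?_).1 ((hf B₀ hB₀).bc a)
  rw [← bcCls_cls, hB₀, bcCls_comp, hB]
  congr 1
  exact congrArg bcCls (AlgHom.ext fun z => IsLocalization.lift_eq _ z)

/-- Lifts to a chart are unique. -/
theorem chartCls_mono (hf : IsChartFun b f) (a a' : Localization.Away f →ₐ[k] R)
    (h : bcCls a (chartCls b f θ) = bcCls a' (chartCls b f θ)) : a = a' := by
  set loc := IsScalarTower.toAlgHom k (Hilb.HilbAlg k b) (Localization.Away f)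
  obtain ⟨B, hB⟩ := exists_cls_eq (bcCls (a.comp loc) (univCls b))
  have hg := hf.isGood (ψ := a.comp loc) ((IsLocalization.Away.algebraMap_isUnit f).map a) hB
  rw [bcCls_chartCls, bcCls_chartCls, div_left_inj] at h
  have := hg.existsUnique_hom.unique (y₁ := a.comp loc) (y₂ := a'.comp loc) hB.symm (h.symm.trans hB.symm)
  exact IsLocalization.algHom_ext (Submonoid.powers f) (AlgHom.ext fun z => DFunLike.congr_fun this z)

variable {e}

omit [IsAlgClosed k] in
theorem pointOf_comp (φ : R →ₐ[k] R') {L : Type u} [Field L] [Algebra k L] (ψ : R' →ₐ[k] L) :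
    pointOf (ψ.comp φ) = PrimeSpectrum.comap φ.toRingHom (pointOf ψ) :=
  rfl

omit [IsAlgClosed k] in
theorem pointOf_primePoint (p : PrimeSpectrum R) : pointOf (primePoint (k := k) p) = p :=
  PrimeSpectrum.ext (Ideal.ext fun r => by
    change primePoint (k := k) p r = 0 ↔ r ∈ p.asIdeal
    exact Ideal.algebraMap_residueField_eq_zero)

omit [IsAlgClosed k] in
theorem exists_factor_primePoint {L : Type u} [Field L] [Algebra k L] (ψ : R →ₐ[k] L) :
    ∃ j : (pointOf ψ).asIdeal.ResidueField →ₐ[k] L, j.comp (primePoint (pointOf ψ)) = ψ := by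
  have h₁ : (pointOf ψ).asIdeal ≤ RingHom.ker ψ.toRingHom := le_rfl
  have h₂ : (pointOf ψ).asIdeal.primeCompl ≤ (IsUnit.submonoid L).comap ψ.toRingHom :=
    fun r hr => isUnit_iff_ne_zero.2 hr
  exact ⟨Ideal.ResidueField.liftₐ _ ψ h₁ h₂,
    AlgHom.ext fun r => Ideal.ResidueField.liftₐ_algebraMap (hf₁ := h₁) (hf₂ := h₂) ..⟩

/-- The locus where a normalised class lifts to a chart is open, and lifts exist where they exist
at every point. -/
theorem exists_liftOpen (he : e (x (T := T)) = 0) (hf : IsChartFun b f) (c : Cls (T.baseChange R))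
    (hc : rig e c = 1) : ∃ U : TopologicalSpace.Opens (PrimeSpectrum R),
      ∀ (R' : Type u) [CommRing R'] [Algebra k R'] (φ : R →ₐ[k] R'),
        Set.range (PrimeSpectrum.comap φ.toRingHom) ⊆ (U : Set (PrimeSpectrum R)) ↔
          ∃ a : Localization.Away f →ₐ[k] R', bcCls a (chartCls b f θ) = bcCls φ c := by
  obtain ⟨B, hB⟩ := exists_cls_eq (c * bcCls (Algebra.ofId k R) θ)
  obtain ⟨v⟩ := nonempty_evalFun (e := e) (B := B) (by rw [hB, map_mul, hc, rig_bcCls_ofId, one_mul])
  let P : ∀ (R' : Type u) [CommRing R'] [Algebra k R'], (R →ₐ[k] R') → Prop := fun R' _ _ φ =>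
    ∃ ψ : Hilb.HilbAlg k b →ₐ[k] R', bcCls ψ (univCls b) = (B.bc φ).cls ∧ IsUnit (ψ f)
  have hP : ∀ (R' : Type u) [CommRing R'] [Algebra k R'] (φ : R →ₐ[k] R'),
      (∃ a : Localization.Away f →ₐ[k] R', bcCls a (chartCls b f θ) = bcCls φ c) ↔ P R' φ := by
    intro R' _ _ φ
    rw [exists_lift_iff, show bcCls φ c * bcCls (Algebra.ofId k R') θ = (B.bc φ).cls by
      rw [← bcCls_cls, hB, map_mul, bcCls_bcCls_ofId]]
  have hcomp : ∀ (R' : Type u) [CommRing R'] [Algebra k R'] (R'' : Type u) [CommRing R'']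
      [Algebra k R''] (φ : R →ₐ[k] R') (φ' : R' →ₐ[k] R''), P R' φ → P R'' (φ'.comp φ) := by
    rintro R' _ _ R'' _ _ φ φ' ⟨ψ, hψ, hu⟩
    refine ⟨φ'.comp ψ, ?_, hu.map φ'⟩
    rw [← bcCls_comp, hψ, bcCls_cls, ← bcCls_cls, ← bcCls_cls, bcCls_comp, bcCls_cls]
  have hgood : ∀ (R' : Type u) [CommRing R'] [Algebra k R'] (φ : R →ₐ[k] R'),
      P R' φ → IsGood b (B.bc φ) := fun R' _ _ φ ⟨ψ, hψ, hu⟩ => hf.isGood hu hψ.symm
  let G : Set (PrimeSpectrum R) := {p | P p.asIdeal.ResidueField (primePoint p)}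
  -- field valued points
  have hfield : ∀ (L : Type u) [Field L] [Algebra k L] (ψ : R →ₐ[k] L),
      P L ψ ↔ pointOf ψ ∈ G := by
    intro L _ _ ψ
    obtain ⟨j, hj⟩ := exists_factor_primePoint ψ
    refine ⟨fun h => ?_, fun h => hj ▸ hcomp _ L _ j h⟩
    set π := primePoint (k := k) (pointOf ψ)
    obtain ⟨v', -⟩ := v.exists_bc e π
    have hg : IsGood b (B.bc π) := isGood_of_field_extension he v' j
      (by rw [isGood_bc_bc, hj]; exact hgood L ψ h)
    obtain ⟨ψ₀, hψ₀, -⟩ := hg.existsUnique_hom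
    obtain ⟨ψ₁, hψ₁, hu⟩ := h
    have : j.comp ψ₀ = ψ₁ := (hgood L ψ ⟨ψ₁, hψ₁, hu⟩).existsUnique_hom.unique (by
      rw [← bcCls_comp, hψ₀, bcCls_cls, ← bcCls_cls, ← bcCls_cls, bcCls_comp, hj, bcCls_cls]) hψ₁
    refine ⟨ψ₀, hψ₀, isUnit_iff_ne_zero.2 fun h0 => ?_⟩
    apply hu.ne_zero
    rw [← this, AlgHom.comp_apply, h0, map_zero]
  -- gluing of lifts
  have hglobal : ∀ (R' : Type u) [CommRing R'] [Algebra k R'] (φ : R →ₐ[k] R'),
      (∀ q : PrimeSpectrum R', P _ ((primePoint q).comp φ)) → P R' φ := by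
    intro R' _ _ φ h
    obtain ⟨v', -⟩ := v.exists_bc e φ
    have hg : IsGood b (B.bc φ) := IsGood.of_forall_fibre he v' fun q => by
      rw [isGood_bc_bc]; exact hgood _ _ (h q)
    obtain ⟨ψ₀, hψ₀, -⟩ := hg.existsUnique_hom
    refine ⟨ψ₀, hψ₀, by_contra fun hu => ?_⟩
    obtain ⟨m, hm, hmem⟩ := exists_max_ideal_of_mem_nonunits (mem_nonunits_iff.2 hu)
    let q : PrimeSpectrum R' := ⟨m, hm.isPrime⟩
    obtain ⟨ψ₁, hψ₁, hu₁⟩ := h q
    have : (primePoint q).comp ψ₀ = ψ₁ := (hgood _ _ (h q)).existsUnique_hom.unique (by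
      rw [← bcCls_comp, hψ₀, bcCls_cls, ← bcCls_cls, ← bcCls_cls, bcCls_comp, bcCls_cls]) hψ₁
    apply hu₁.ne_zero
    rw [← this, AlgHom.comp_apply]
    exact Ideal.algebraMap_residueField_eq_zero.2 hmem
  -- openness
  have hopen : IsOpen G := by
    refine isOpen_iff_forall_mem_open.2 fun p hp => ?_
    obtain ⟨r, hr, hr'⟩ := goodNhd he v (primePoint p) (hgood _ _ hp)
    let φ := IsScalarTower.toAlgHom k R (Localization.Away r)
    obtain ⟨v', -⟩ := v.exists_bc e φ
    have hg : IsGood b (B.bc φ) := IsGood.of_forall_fibre he v' fun q => by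
      rw [isGood_bc_bc]
      exact hr' _ _ (((IsLocalization.Away.algebraMap_isUnit (R := R) (S := Localization.Away r)
          r).map (primePoint (k := k) q)).ne_zero)
    obtain ⟨ψ₀, hψ₀, -⟩ := hg.existsUnique_hom
    obtain ⟨⟨t, ⟨_, n, rfl⟩⟩, ht⟩ := IsLocalization.surj (Submonoid.powers r) (ψ₀ f)
    have key : ∀ (L : Type u) [Field L] [Algebra k L] (ψ : R →ₐ[k] L), ψ r ≠ 0 →
        (P L ψ ↔ ψ t ≠ 0) := by
      intro L _ _ ψ hψ
      let a : Localization.Away r →ₐ[k] L :=
        IsLocalization.liftAlgHom (M := Submonoid.powers r) (f := ψ) (by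
          rintro ⟨_, m, rfl⟩
          change IsUnit (ψ (r ^ m))
          rw [map_pow]
          exact (isUnit_iff_ne_zero.2 hψ).pow m)
      have ha : ∀ z, a (algebraMap R _ z) = ψ z := fun z => IsLocalization.lift_eq _ z
      have ha' : a.comp φ = ψ := AlgHom.ext ha
      have hcls : bcCls (a.comp ψ₀) (univCls b) = (B.bc ψ).cls := by
        rw [← bcCls_comp, hψ₀, bcCls_cls, ← bcCls_cls, ← bcCls_cls, bcCls_comp, ha', bcCls_cls]
      have ht' : a (ψ₀ f) * ψ r ^ n = ψ t := by
        have := congrArg a ht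
        rwa [map_mul, ha, ha, map_pow] at this
      refine ⟨fun h => ?_, fun h => ⟨a.comp ψ₀, hcls, isUnit_iff_ne_zero.2 fun h0 => h ?_⟩⟩
      · obtain ⟨ψ₁, hψ₁, hu⟩ := h
        have : a.comp ψ₀ = ψ₁ :=
          (hgood L ψ ⟨ψ₁, hψ₁, hu⟩).existsUnique_hom.unique hcls hψ₁
        rw [← ht']
        refine mul_ne_zero ?_ (pow_ne_zero n hψ)
        rw [← AlgHom.comp_apply, this]
        exact hu.ne_zero
      · rw [← ht', show a (ψ₀ f) = 0 from h0, zero_mul]
    refine ⟨PrimeSpectrum.basicOpen (r * t), fun q hq => ?_, PrimeSpectrum.isOpen_basicOpen, ?_⟩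
    · rw [SetLike.mem_coe, PrimeSpectrum.mem_basicOpen, ← primePoint_ne_zero_iff (k := k), map_mul,
        mul_ne_zero_iff] at hq
      exact (key _ _ hq.1).2 hq.2
    · rw [SetLike.mem_coe, PrimeSpectrum.mem_basicOpen, ← primePoint_ne_zero_iff (k := k), map_mul,
        mul_ne_zero_iff]
      exact ⟨hr, (key _ _ hr).1 hp⟩
  refine ⟨⟨G, hopen⟩, fun R' _ _ φ => ?_⟩
  rw [hP]
  refine ⟨fun h => hglobal R' φ fun q => (hfield _ _).2 ?_, ?_⟩
  · rw [pointOf_comp, pointOf_primePoint]
    exact h ⟨q, rfl⟩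
  · rintro h _ ⟨q, rfl⟩
    have := (hfield _ _).1 (hcomp R' q.asIdeal.ResidueField φ (primePoint q) h)
    rwa [pointOf_comp, pointOf_primePoint] at this

/-- Every field valued point of degree zero lies in a chart. -/
theorem exists_chart_covering (he : e (x (T := T)) = 0) {K : Type u} [Field K] [Algebra k K]
    (c : Cls (T.baseChange K)) (hc : degCls c = 0) :
    ∃ (g : ℕ) (b : Fin g → T.L) (f : Hilb.HilbAlg k b) (θ : Cls (T.baseChange k)),
      IsChartFun b f ∧ degCls θ = g ∧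
        ∃ a : Localization.Away f →ₐ[k] K, bcCls a (chartCls b f θ) = c := by
  obtain ⟨θ, g, b, B, hB, hg, hθ⟩ := exists_isGood c hc
  obtain ⟨ψ₀, hψ₀, -⟩ := hg.existsUnique_hom
  obtain ⟨Bu, hBu⟩ := exists_cls_eq (univCls b)
  obtain ⟨v⟩ := nonempty_evalFun (e := e) (B := Bu) (by rw [hBu, rig_univCls e he])
  have hu : (Bu.bc ψ₀).cls = B.cls := by
    rw [← bcCls_cls, hBu]; exact hψ₀
  obtain ⟨f, hf, hf'⟩ := goodNhd he v ψ₀ ((isGood_iff_of_cls hu).2 hg)
  refine ⟨g, b, f, θ, fun B' hB' => ?_, hθ,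
    exists_lift_iff.2 ⟨ψ₀, hψ₀.trans hB, isUnit_iff_ne_zero.2 hf⟩⟩
  let loc := IsScalarTower.toAlgHom k (Hilb.HilbAlg k b) (Localization.Away f)
  obtain ⟨v', -⟩ := v.exists_bc e loc
  refine (isGood_iff_of_cls (?_ : (Bu.bc loc).cls = B'.cls)).1
    (IsGood.of_forall_fibre he v' fun q => ?_)
  · rw [← bcCls_cls, hBu, hB']
  · rw [isGood_bc_bc]
    exact hf' _ _ (((IsLocalization.Away.algebraMap_isUnit (R := Hilb.HilbAlg k b) (S :=
        Localization.Away f) f).map (primePoint (k := k) q)).ne_zero)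

/-- Affine charts with unique lifts, open lifting loci, covering all field valued points. -/
theorem exists_chart_atlas (he : e (x (T := T)) = 0) :
    ∃ (ι : Type u) (A : ι → Type u) (_ : ∀ i, CommRing (A i)) (_ : ∀ i, Algebra k (A i))
      (ξ : ∀ i, Cls (T.baseChange (A i))),
      (∀ i, Algebra.FiniteType k (A i)) ∧
      (∀ i, rig e (ξ i) = 1 ∧ IsDegZero (ξ i)) ∧
      (∀ (i : ι) (R : Type u) [CommRing R] [Algebra k R] (a a' : A i →ₐ[k] R),
        bcCls a (ξ i) = bcCls a' (ξ i) → a = a') ∧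
      (∀ (i : ι) (R : Type u) [CommRing R] [Algebra k R] (c : Cls (T.baseChange R)), rig e c = 1 →
        ∃ U : TopologicalSpace.Opens (PrimeSpectrum R),
          ∀ (R' : Type u) [CommRing R'] [Algebra k R'] (φ : R →ₐ[k] R'),
            Set.range (PrimeSpectrum.comap φ.toRingHom) ⊆ (U : Set (PrimeSpectrum R)) ↔
              ∃ a : A i →ₐ[k] R', bcCls a (ξ i) = bcCls φ c) ∧
      (∀ (K : Type u) [Field K] [Algebra k K] (c : Cls (T.baseChange K)), degCls c = 0 →
        ∃ i, ∃ a : A i →ₐ[k] K, bcCls a (ξ i) = c) := by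
  have := small_cls (T.baseChange k)
  let eθ := (equivShrink (Cls (T.baseChange k))).symm
  let ι : Type u := {i : Σ (g : ℕ) (b : Fin g → T.L),
    Hilb.HilbAlg k b × Shrink.{u} (Cls (T.baseChange k)) //
      IsChartFun i.2.1 i.2.2.1 ∧ degCls (eθ i.2.2.2) = i.1}
  have : Algebra.FiniteType T.P T.L :=
    IsLocalization.finiteType_of_monoid_fg (Submonoid.powers (x (T := T))) T.L
  have : Algebra.FiniteType k T.L := Algebra.FiniteType.trans (S := T.P) inferInstance inferInstance
  refine ⟨ι, fun i => Localization.Away i.1.2.2.1, fun i => inferInstance, fun i => inferInstance,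
    fun i => chartCls i.1.2.1 i.1.2.2.1 (eθ i.1.2.2.2), fun i => ?_, fun i => ?_,
    fun i R _ _ a a' h => chartCls_mono i.2.1 a a' h,
    fun i R _ _ c hc => exists_liftOpen he i.2.1 c hc, fun K _ _ c hc => ?_⟩
  · have : Algebra.FiniteType (Hilb.HilbAlg k i.1.2.1) (Localization.Away i.1.2.2.1) :=
      IsLocalization.finiteType_of_monoid_fg (Submonoid.powers i.1.2.2.1) _
    exact Algebra.FiniteType.trans (S := Hilb.HilbAlg k i.1.2.1) inferInstance inferInstance
  · exact ⟨rig_chartCls e he, isDegZero_chartCls i.2.2⟩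
  · obtain ⟨g, b, f, θ, hf, hθ, a, ha⟩ := exists_chart_covering he c hc
    refine ⟨⟨⟨g, b, f, equivShrink _ θ⟩, hf, ?_⟩, a, ?_⟩
    · simpa [eθ] using hθ
    · simpa [eθ] using ha

end Fermat.Agent.RelJac
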