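import Fermat.Agent.RelJac.Representing
import Fermat.Agent.RelJac.ChartAtlas

/-!
The chart data of the functor of normalised classes of degree zero.
-/

noncomputable section

universe u

open CategoryTheory AlgebraicGeometry NeronModelInfra

namespace Fermat.Agent.RelJac

namespace CurveModel

variable {k : Type u} [Field k] [IsAlgClosed k] {C : Scheme.{u}}
  {c : C ⟶ Spec (CommRingCat.of k)} {ε : SchemeHomOver (𝟙 (Spec (CommRingCat.of k))) c}

/-- The functor of normalised classes of degree zero of a curve model has an atlas. -/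
theorem exists_pic0Charts (D : CurveModel c ε) : Nonempty (Pic0Charts D) := by
  obtain ⟨ι, A, _, _, ξ, hft, hξ, mono, opn, cov⟩ := exists_chart_atlas (T := D.T) (e := D.e) D.e_x
  exact ⟨{
    ι := ι
    H := A
    finiteType := hft
    cls := fun i => ⟨ξ i, hξ i⟩
    mono := fun i R _ _ ψ ψ' h => mono i R ψ ψ' (congrArg Subtype.val h)
    locus := fun i R _ _ x => by
      obtain ⟨U, hU⟩ := opn i R x.1 x.2.1
      exact ⟨U, fun R' _ _ φ => (hU R' φ).trans
        ⟨fun ⟨a, ha⟩ => ⟨a, Subtype.ext ha⟩, fun ⟨a, ha⟩ => ⟨a, congrArg Subtype.val ha⟩⟩⟩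
    cover := fun K _ _ x => by
      obtain ⟨i, a, ha⟩ := cov K x.1 ((Bundle.isDegZero_field_iff x.1).1 x.2.2)
      exact ⟨i, a, Subtype.ext ha⟩ }⟩

end CurveModel

end Fermat.Agent.RelJac
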