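import Fermat.Agent.RelJac.HilbInvertible
import Fermat.Agent.RelJac.BaseChange
import Fermat.Agent.RelJac.ComplexBaseChange
import Mathlib.RingTheory.IntegralClosure.IsIntegralClosure.Basic

/-!
The bundle of functions vanishing on a finite subscheme of the overlap of a curve-like two-chart
space, and its behaviour under base change.
-/

open scoped TensorProduct

namespace Fermat.Agent.RelJac

universe u

open CurveLike (x y)

section Generic

variable {S : Type u} [CommRing S] (U : TwoChart S)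

/-- Preimage in the first chart of an ideal of the overlap. -/
noncomputable abbrev comapP (I : Ideal U.L) : Ideal U.P := I.comap (algebraMap U.P U.L)

/-- Preimage in the second chart of an ideal of the overlap. -/
noncomputable abbrev comapQ (I : Ideal U.L) : Ideal U.Q := I.comap (algebraMap U.Q U.L)

/-- The inclusion of a preimage. -/
noncomputable def comapPMap (I : Ideal U.L) : comapP U I →ₗ[U.P] I :=
  LinearMap.codRestrict (I.restrictScalars U.P)
    ((Algebra.linearMap U.P U.L).comp (comapP U I).subtype) fun p => p.2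

/-- The inclusion of a preimage. -/
noncomputable def comapQMap (I : Ideal U.L) : comapQ U I →ₗ[U.Q] I :=
  LinearMap.codRestrict (I.restrictScalars U.Q)
    ((Algebra.linearMap U.Q U.L).comp (comapQ U I).subtype) fun p => p.2

@[simp]
theorem coe_comapPMap (I : Ideal U.L) (p : comapP U I) :
    (comapPMap U I p : U.L) = algebraMap U.P U.L p := rfl

@[simp]
theorem coe_comapQMap (I : Ideal U.L) (p : comapQ U I) :
    (comapQMap U I p : U.L) = algebraMap U.Q U.L p := rfl

/-- An ideal of a localisation is the base change of its contraction. -/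
theorem isBaseChange_comap {A B : Type u} [CommRing A] [CommRing B] [Algebra A B] (x : A)
    [IsLocalization.Away x B] (hinj : Function.Injective (algebraMap A B)) (I : Ideal B)
    (f : I.comap (algebraMap A B) →ₗ[A] I) (hf : ∀ p, (f p : B) = algebraMap A B p) :
    IsBaseChange B f := by
  refine (isLocalizedModule_iff_isBaseChange (Submonoid.powers x) B f).1 ⟨fun s => ?_, fun z => ?_,
    fun {p q} h => ⟨1, ?_⟩⟩
  · obtain ⟨u, hu⟩ := IsLocalization.map_units B s
    refine (Module.End.isUnit_iff _).2 ⟨fun a c h => Subtype.ext ?_, fun a => ?_⟩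
    · have h' := congrArg Subtype.val h
      simp only [Module.algebraMap_end_apply, SetLike.val_smul_of_tower, Algebra.smul_def,
        ← hu] at h'
      exact u.mul_right_inj.1 h'
    · refine ⟨⟨↑u⁻¹ * a.1, I.mul_mem_left _ a.2⟩, Subtype.ext ?_⟩
      simp only [Module.algebraMap_end_apply, SetLike.val_smul_of_tower, Algebra.smul_def, ← hu]
      rw [← mul_assoc, Units.mul_inv, one_mul]
  · obtain ⟨⟨a, s⟩, h⟩ := IsLocalization.surj (Submonoid.powers x) z.1
    refine ⟨⟨⟨a, ?_⟩, s⟩, Subtype.ext ?_⟩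
    · have := I.mul_mem_right (algebraMap A B s) z.2
      rw [h] at this
      exact this
    · rw [hf, Submonoid.smul_def, SetLike.val_smul_of_tower, Algebra.smul_def]
      exact (mul_comm _ _).trans h
  · have h' := congrArg Subtype.val h
    rw [hf, hf] at h'
    rw [show p = q from Subtype.ext (hinj h')]

variable [CurveLike U]

/-- The bundle of functions vanishing on the subscheme cut out by an overlap ideal. -/
noncomputable abbrev idealBundle (I : Ideal U.L) (hP : Module.Invertible U.P (comapP U I))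
    (hQ : Module.Invertible U.Q (comapQ U I)) : Bundle U where
  MP := comapP U I
  MQ := comapQ U I
  ML := I
  invP := hP
  invQ := hQ
  ip := comapPMap U I
  iq := comapQMap U I
  baseP := isBaseChange_comap (x (T := U)) (CurveLike.algebraMapP_injective U) I _ fun _ => rfl
  baseQ := isBaseChange_comap (y (T := U)) (CurveLike.algebraMapQ_injective U) I _ fun _ => rfl

end Generic

section BasisIdeal

variable {k : Type u} [CommRing k] {T : TwoChart k} [CurveLike T] {g : ℕ} {b : Fin g → T.L}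
  {R R' : Type u} [CommRing R] [CommRing R'] [Algebra k R] [Algebra k R']

/-- Comparable ideals with the same quotient basis are equal. -/
theorem IsBasisIdeal.eq_of_le {A : Type u} [CommRing A] [Algebra k A] {b : Fin g → A}
    {I J : Ideal (R ⊗[k] A)} (hI : IsBasisIdeal b I) (hJ : IsBasisIdeal b J) (h : I ≤ J) :
    I = J := by
  refine le_antisymm h fun z hz => ?_
  obtain ⟨r, hr⟩ := hI.2 (Ideal.Quotient.mk I z)
  have hr' : z - ∑ i, r i ⊗ₜ[k] b i ∈ I := (Ideal.Quotient.eq).1 hr.symm
  have h0 : r = 0 := hJ.1 (by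
    refine (Ideal.Quotient.eq).2 ?_
    simpa using sub_mem hz (h hr'))
  simpa [h0] using hr'

/-- Powers of `x` and `y` are inverse on the overlap of a base change. -/
theorem tmul_x_pow_mul_y_pow (m : ℕ) :
    ((1 : R) ⊗ₜ[k] algebraMap T.P T.L (x (T := T))) ^ m *
      ((1 : R) ⊗ₜ[k] algebraMap T.Q T.L (y (T := T))) ^ m = 1 := by
  rw [← mul_pow, Algebra.TensorProduct.tmul_mul_tmul, one_mul, CurveLike.x_mul_y,
    ← Algebra.TensorProduct.one_def, one_pow]

/-- The quotient by an ideal with a finite quotient basis is finite. -/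
theorem IsBasisIdeal.finite_quotient {A : Type u} [CommRing A] [Algebra k A] {b : Fin g → A}
    {I : Ideal (R ⊗[k] A)} (h : IsBasisIdeal b I) : Module.Finite R ((R ⊗[k] A) ⧸ I) := by
  let l : (Fin g → R) →ₗ[R] (R ⊗[k] A) ⧸ I :=
    (Ideal.Quotient.mkₐ R I).toLinearMap ∘ₗ Hilb.sect b
  refine Module.Finite.of_surjective l fun z => ?_
  obtain ⟨r, hr⟩ := h.2 z
  exact ⟨r, by rw [← hr]; simp [l, Hilb.sect_apply]⟩

/-- A subscheme of the overlap finite over the base does not need the inverse of `x`. -/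
theorem IsBasisIdeal.exists_algebraMapP_sub_mem {I : Ideal (R ⊗[k] T.L)} (h : IsBasisIdeal b I)
    (z : R ⊗[k] T.L) :
    ∃ p : R ⊗[k] T.P, algebraMap (R ⊗[k] T.P) (R ⊗[k] T.L) p - z ∈ I := by
  have := h.finite_quotient
  set ι := algebraMap (R ⊗[k] T.P) (R ⊗[k] T.L)
  set X := (1 : R) ⊗ₜ[k] algebraMap T.P T.L (x (T := T))
  set Y := (1 : R) ⊗ₜ[k] algebraMap T.Q T.L (y (T := T))
  have hX : ι ((1 : R) ⊗ₜ x (T := T)) = X := TwoChart.baseChange_algebraMapP_tmul T 1 _
  have hXY : X * Y = 1 := by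
    have h1 := tmul_x_pow_mul_y_pow (R := R) (T := T) 1
    rwa [pow_one, pow_one] at h1
  have hr : ∀ r : R, ι (algebraMap R (R ⊗[k] T.P) r) = algebraMap R (R ⊗[k] T.L) r := fun r =>
    (IsScalarTower.algebraMap_apply R (R ⊗[k] T.P) (R ⊗[k] T.L) r).symm
  -- `y` is a polynomial in `x` modulo `I`
  obtain ⟨f, hfm, hf0⟩ : IsIntegral R (Ideal.Quotient.mk I Y) := IsIntegral.of_finite R _
  have hfI : Polynomial.aeval Y f ∈ I := by
    rw [← Ideal.Quotient.eq_zero_iff_mem]
    have : Ideal.Quotient.mkₐ R I (Polynomial.aeval Y f) = 0 := by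
      rw [← Polynomial.aeval_algHom_apply]
      exact hf0
    exact this
  obtain ⟨p₁, hp₁⟩ : ∃ p₁, ι p₁ - Y ∈ I := by
    rcases Nat.eq_zero_or_pos f.natDegree with hd | hd
    · refine ⟨0, ?_⟩
      have h1 : f = 1 := (Polynomial.Monic.natDegree_eq_zero hfm).1 hd
      rw [h1, map_one] at hfI
      rw [(Ideal.eq_top_iff_one I).2 hfI]
      trivial
    · obtain ⟨d, hd'⟩ := Nat.exists_eq_add_of_le' hd
      refine ⟨-∑ i ∈ Finset.range (d + 1), algebraMap R _ (f.coeff i) *
        ((1 : R) ⊗ₜ x (T := T)) ^ (d - i), ?_⟩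
      have key : X ^ d * Polynomial.aeval Y f = Y + ∑ i ∈ Finset.range (d + 1),
          algebraMap R _ (f.coeff i) * X ^ (d - i) := by
        rw [Polynomial.aeval_eq_sum_range, hd', Finset.sum_range_succ, mul_add, Finset.mul_sum,
          ← hd', hfm.coeff_natDegree, one_smul, add_comm, hd', pow_succ, ← mul_assoc, ← mul_pow,
          hXY, one_pow, one_mul]
        congr 1
        refine Finset.sum_congr rfl fun i hi => ?_
        obtain ⟨j, rfl⟩ := Nat.exists_eq_add_of_le (Nat.lt_succ_iff.1 (Finset.mem_range.1 hi))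
        rw [Algebra.smul_def, Nat.add_sub_cancel_left, pow_add,
          show X ^ i * X ^ j * (algebraMap R _ (f.coeff i) * Y ^ i) =
            algebraMap R _ (f.coeff i) * X ^ j * (X * Y) ^ i by ring, hXY, one_pow, mul_one]
      have := I.mul_mem_left (X ^ d) hfI
      rw [key] at this
      have := I.neg_mem this
      convert this using 1
      simp only [map_neg, map_sum, map_mul, map_pow, hX, hr]
      ring
  have : IsLocalization.Away ((1 : R) ⊗ₜ[k] x (T := T)) (R ⊗[k] T.L) :=
    CurveLike.awayP (T := T.baseChange R)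
  obtain ⟨⟨q, ⟨_, m, rfl⟩⟩, hq⟩ :=
    IsLocalization.surj (Submonoid.powers ((1 : R) ⊗ₜ[k] x (T := T))) z
  refine ⟨p₁ ^ m * q, ?_⟩
  have hz : z = Y ^ m * ι q := by
    change z * ι (((1 : R) ⊗ₜ x (T := T)) ^ m) = ι q at hq
    rw [← hq, map_pow, hX, mul_comm z, ← mul_assoc, ← mul_pow, mul_comm Y, hXY, one_pow, one_mul]
  rw [map_mul, map_pow, hz, ← sub_mul]
  exact I.mul_mem_right _ (Ideal.mem_of_dvd I (sub_dvd_pow_sub_pow (ι p₁) Y m) hp₁)

/-- The preimage in the first chart of a basis ideal of the overlap is a basis ideal. -/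
theorem IsBasisIdeal.comapP_isBasisIdeal {I : Ideal (R ⊗[k] T.L)} (h : IsBasisIdeal b I)
    {n : ℕ} {b' : Fin g → T.P}
    (hb' : ∀ i, algebraMap T.P T.L (b' i) = algebraMap T.P T.L (x (T := T)) ^ n * b i) :
    IsBasisIdeal b' (comapP (T.baseChange R) I) := by
  set ι := algebraMap (R ⊗[k] T.P) (R ⊗[k] T.L)
  set X := (1 : R) ⊗ₜ[k] algebraMap T.P T.L (x (T := T))
  set Y := (1 : R) ⊗ₜ[k] algebraMap T.Q T.L (y (T := T))
  have hι : ∀ r : Fin g → R,
      ι (∑ i, r i ⊗ₜ[k] b' i) = X ^ n * ∑ i, r i ⊗ₜ[k] b i := fun r => by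
    rw [map_sum, Finset.mul_sum]
    refine Finset.sum_congr rfl fun i _ => ?_
    rw [Algebra.TensorProduct.tmul_pow, one_pow, Algebra.TensorProduct.tmul_mul_tmul, one_mul,
      ← hb' i]
    exact TwoChart.baseChange_algebraMapP_tmul T _ _
  have hXY : Y ^ n * X ^ n = 1 := by rw [mul_comm]; exact tmul_x_pow_mul_y_pow n
  refine ⟨fun r s hrs => ?_, fun z => ?_⟩
  · have hrs' : ι (∑ i, r i ⊗ₜ[k] b' i) - ι (∑ i, s i ⊗ₜ[k] b' i) ∈ I := by
      rw [← map_sub]
      exact (Ideal.Quotient.eq.1 hrs : _ ∈ comapP (T.baseChange R) I)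
    rw [hι, hι, ← mul_sub] at hrs'
    have := I.mul_mem_left (Y ^ n) hrs'
    rw [← mul_assoc, hXY, one_mul] at this
    exact h.1 (Ideal.Quotient.eq.2 this)
  · obtain ⟨p, rfl⟩ := Ideal.Quotient.mk_surjective z
    obtain ⟨r, hr⟩ := h.2 (Ideal.Quotient.mk I (Y ^ n * ι p))
    refine ⟨r, Ideal.Quotient.eq.2 ?_⟩
    change ι (_ - p) ∈ I
    have := I.mul_mem_left (X ^ n) (Ideal.Quotient.eq.1 hr)
    have e : X ^ n * (Y ^ n * ι p) = ι p := by
      rw [← mul_assoc, mul_comm (X ^ n), hXY, one_mul]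
    rw [mul_sub, e] at this
    rwa [map_sub, hι]

variable (b) in
/-- Scaled lifts of `b` to the first chart. -/
theorem exists_scaled_basis :
    ∃ (n : ℕ) (b' : Fin g → T.P),
      ∀ i, algebraMap T.P T.L (b' i) = algebraMap T.P T.L (x (T := T)) ^ n * b i := by
  classical
  obtain ⟨⟨_, n, rfl⟩, hn⟩ :=
    IsLocalization.exist_integer_multiples_of_finite (Submonoid.powers (x (T := T))) b
  choose b' hb' using hn
  exact ⟨n, b', fun i => by rw [hb', Algebra.smul_def, map_pow]⟩

/-- Taking preimages commutes with base change. -/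
theorem IsBasisIdeal.map_comapP {I : Ideal (R ⊗[k] T.L)} (h : IsBasisIdeal b I)
    (φ : R →ₐ[k] R') :
    (comapP (T.baseChange R) I).map (mapBase T.P φ) =
      comapP (T.baseChange R') (I.map (mapBase T.L φ)) := by
  obtain ⟨n, b', hb'⟩ := exists_scaled_basis b
  refine ((h.comapP_isBasisIdeal hb').map φ).eq_of_le ((h.map φ).comapP_isBasisIdeal hb') ?_
  refine Ideal.map_le_iff_le_comap.2 fun p hp => ?_
  change algebraMap (R' ⊗[k] T.P) (R' ⊗[k] T.L) (T.bcP φ p) ∈ I.map (mapBase T.L φ)
  rw [← TwoChart.bcL_algebraMapP]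
  have hp' : algebraMap (R ⊗[k] T.P) (R ⊗[k] T.L) p ∈ I := hp
  exact Ideal.mem_map_of_mem (mapBase T.L φ) hp'

theorem IsBasisIdeal.map_comapQ {I : Ideal (R ⊗[k] T.L)} (h : IsBasisIdeal b I)
    (φ : R →ₐ[k] R') :
    (comapQ (T.baseChange R) I).map (mapBase T.Q φ) =
      comapQ (T.baseChange R') (I.map (mapBase T.L φ)) :=
  IsBasisIdeal.map_comapP (T := T.swap) h φ

end BasisIdeal

namespace ShiftBasis

variable {R A : Type u} [CommRing R] [CommRing A] [Algebra R A] {t : A} {ι : Type}
  (β : ShiftBasis R A t ι)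

theorem repr_x_mul_zero (a : A) (i : ι) : β.basis.repr (t * a) (i, 0) = 0 := by
  classical
  suffices (Finsupp.lapply (i, 0)).comp (β.basis.repr.toLinearMap.comp (LinearMap.mulLeft R t)) =
      0 from LinearMap.congr_fun this a
  refine β.basis.ext fun ⟨j, l⟩ => ?_
  simp [← β.basis_succ]

theorem repr_x_pow_mul_eq_zero (a : A) (i : ι) (m n : ℕ) (h : m < n) :
    β.basis.repr (t ^ n * a) (i, m) = 0 := by
  obtain ⟨j, rfl⟩ := Nat.exists_eq_add_of_lt h
  rw [show t ^ (m + j + 1) * a = t ^ m * (t * (t ^ j * a)) by ring]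
  exact ((congrArg (fun l => β.basis.repr (t ^ m * (t * (t ^ j * a))) (i, l))
    (Nat.zero_add m).symm).trans (β.repr_x_pow_mul _ i 0 m)).trans (β.repr_x_mul_zero _ i)

end ShiftBasis

section Field

variable {k : Type u} [Field k] [IsAlgClosed k] {T : TwoChart k} [CurveLike T] {g : ℕ}
  {b : Fin g → T.L} {R R' : Type u} [CommRing R] [CommRing R'] [Algebra k R] [Algebra k R']
  [IsDedekindDomain T.P] [IsDedekindDomain T.Q] [Algebra.FiniteType k T.P]
  [Algebra.FiniteType k T.Q]

omit [IsAlgClosed k] [IsDedekindDomain T.P] [IsDedekindDomain T.Q] [Algebra.FiniteType k T.P]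
  [Algebra.FiniteType k T.Q] in
/-- The first chart is not a field. -/
theorem not_isField_P [IsDomain T.P] : ¬ IsField T.P := by
  intro hF
  have hx : x (T := T) ≠ 0 := by
    intro h
    exact one_ne_zero ((CurveLike.shiftP T).isRegular.left
      (show x (T := T) * 1 = x (T := T) * 0 by simp [h]))
  obtain ⟨a, ha⟩ := hF.mul_inv_cancel hx
  refine one_ne_zero (α := T.P) ((CurveLike.basisP (T := T)).repr.injective ?_)
  ext ⟨i, m⟩
  rw [map_zero, Finsupp.coe_zero, Pi.zero_apply, show (1 : T.P) = x ^ (m + 1) * a ^ (m + 1) by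
    rw [← mul_pow, ha, one_pow]]
  obtain ⟨c, hc⟩ : ∃ c, x (T := T) ^ (m + 1) * a ^ (m + 1) = x ^ (m + 1) * c := ⟨_, rfl⟩
  rw [hc]
  clear hc
  exact (CurveLike.shiftP T).repr_x_pow_mul_eq_zero c i m (m + 1) m.lt_succ_self

omit [IsDedekindDomain T.Q] [Algebra.FiniteType k T.Q] in
/-- The contraction of a basis ideal to the first chart is invertible. -/
theorem IsBasisIdeal.invertible_comapP {I : Ideal (R ⊗[k] T.L)} (h : IsBasisIdeal b I) :
    Module.Invertible (R ⊗[k] T.P) (comapP (T.baseChange R) I) := by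
  obtain ⟨n, b', hb'⟩ := exists_scaled_basis b
  exact IsBasisIdeal.invertible not_isField_P (h.comapP_isBasisIdeal hb')

omit [IsDedekindDomain T.P] [Algebra.FiniteType k T.P] in
/-- The contraction of a basis ideal to the second chart is invertible. -/
theorem IsBasisIdeal.invertible_comapQ {I : Ideal (R ⊗[k] T.L)} (h : IsBasisIdeal b I) :
    Module.Invertible (R ⊗[k] T.Q) (comapQ (T.baseChange R) I) :=
  IsBasisIdeal.invertible_comapP (T := T.swap) h

/-- The bundle `O(-D)` of a basis ideal of the overlap. -/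
noncomputable abbrev IsBasisIdeal.bundle {I : Ideal (R ⊗[k] T.L)} (h : IsBasisIdeal b I) :
    Bundle (T.baseChange R) :=
  idealBundle (T.baseChange R) I h.invertible_comapP h.invertible_comapQ

/-- Base change of the bundle `O(-D)`. -/
theorem IsBasisIdeal.bcCls_bundle {I : Ideal (R ⊗[k] T.L)} (h : IsBasisIdeal b I)
    (φ : R →ₐ[k] R') : Bundle.bcCls φ h.bundle.cls = (h.map φ).bundle.cls := by
  let i := T.overBC φ
  let aP := (T.bcP φ).toAlgebra
  let aQ := (T.bcQ φ).toAlgebra
  let aL := (T.bcL φ).toAlgebra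
  let eP := ((h.comapP_isBasisIdeal (exists_scaled_basis b).choose_spec.choose_spec).baseChangeEquiv φ).trans
    (LinearEquiv.ofEq _ _ (h.map_comapP φ))
  let eQ := ((IsBasisIdeal.comapP_isBasisIdeal (T := T.swap) h
    (exists_scaled_basis (T := T.swap) b).choose_spec.choose_spec).baseChangeEquiv φ).trans
      (LinearEquiv.ofEq _ _ (h.map_comapQ φ))
  let eL := h.baseChangeEquiv φ
  rw [Bundle.bcCls_cls, Bundle.cls_eq_iff]
  refine ⟨Bundle.Iso.ofPullback (C := (h.map φ).bundle) eP eQ eL (fun m => ?_) fun m => ?_⟩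
  · apply Subtype.ext
    change baseChangeMap I φ (1 ⊗ₜ comapPMap (T.baseChange R) I m) =
      algebraMap (R' ⊗[k] T.P) (R' ⊗[k] T.L) (baseChangeMap _ φ (1 ⊗ₜ m))
    rw [baseChangeMap_tmul, baseChangeMap_tmul, one_mul, one_mul]
    exact T.bcL_algebraMapP φ m.1
  · apply Subtype.ext
    change baseChangeMap I φ (1 ⊗ₜ comapQMap (T.baseChange R) I m) =
      algebraMap (R' ⊗[k] T.Q) (R' ⊗[k] T.L) (baseChangeMap _ φ (1 ⊗ₜ m))
    rw [baseChangeMap_tmul, baseChangeMap_tmul, one_mul, one_mul]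
    exact T.bcL_algebraMapQ φ m.1

end Field

end Fermat.Agent.RelJac
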