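import Fermat.Agent.RelJac.Evaluation
import Fermat.Agent.RelJac.IdealBundle
import Mathlib.RingTheory.Localization.InvSubmonoid
import Mathlib.RingTheory.Ideal.Colon
import Mathlib.LinearAlgebra.FreeModule.Finite.Matrix

/-!
Every class of degree zero over a field becomes, after multiplication by a class from the base
field, a nonspecial class with one section, nonvanishing over `x = 0` and `x = ∞`.
-/

open scoped TensorProduct

namespace Fermat.Agent.RelJac

universe u

open CurveLike (x y)

variable {k : Type u} [Field k] [IsAlgClosed k]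

section Fibre

variable {A : Type u} [CommRing A] [Algebra k A] {K : Type u} [Field K] [Algebra k K]

/-- The `S`-point of `S ⊗ A` over a rational point of `A`. -/
noncomputable def ratPoint (S : Type u) [CommRing S] [Algebra k S] (φ : A →ₐ[k] k) :
    S ⊗[k] A →ₐ[S] S :=
  Algebra.TensorProduct.lift (AlgHom.id S S) ((Algebra.ofId k S).comp φ) fun _ _ => .all _ _

omit [IsAlgClosed k] in
/-- The value of a rational point on a pure tensor. -/
theorem ratPoint_tmul (S : Type u) [CommRing S] [Algebra k S] (φ : A →ₐ[k] k) (r : S) (a : A) :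
    ratPoint S φ (r ⊗ₜ a) = φ a • r := by
  simp [ratPoint, Algebra.smul_def, mul_comm]

/-- A maximal ideal of `K ⊗ A` over a finite fibre is, up to inclusion, a rational point. -/
theorem exists_point_ker_le (x₀ : A) [Module.Finite k (A ⧸ Ideal.span {x₀})]
    (m : Ideal (K ⊗[k] A)) [m.IsMaximal] (hx : (1 : K) ⊗ₜ x₀ ∈ m) :
    ∃ φ : A →ₐ[k] k, φ x₀ = 0 ∧ RingHom.ker (ratPoint K φ).toRingHom ≤ m := by
  let mk : K ⊗[k] A →ₐ[K] (K ⊗[k] A) ⧸ m := Ideal.Quotient.mkₐ K m
  let f : A →ₐ[k] (K ⊗[k] A) ⧸ m :=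
    (mk.restrictScalars k).comp Algebra.TensorProduct.includeRight
  let f' : A ⧸ Ideal.span {x₀} →ₐ[k] (K ⊗[k] A) ⧸ m := Ideal.Quotient.liftₐ _ f fun a ha => by
    obtain ⟨r, rfl⟩ := Ideal.mem_span_singleton'.1 ha
    rw [map_mul, show f x₀ = 0 from Ideal.Quotient.eq_zero_iff_mem.2 hx, mul_zero]
  have : Module.Finite k f'.range :=
    Module.Finite.of_surjective f'.rangeRestrict.toLinearMap f'.rangeRestrict_surjective
  have hb := IsAlgClosed.algebraMap_bijective_of_isIntegral (k := k) (K := f'.range)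
  let e := AlgEquiv.ofBijective (Algebra.ofId k f'.range) hb
  let φ : A →ₐ[k] k := e.symm.toAlgHom.comp
    (f'.rangeRestrict.comp (Ideal.Quotient.mkₐ k (Ideal.span {x₀})))
  have hφ : ∀ a, f a = algebraMap k ((K ⊗[k] A) ⧸ m) (φ a) := fun a => by
    have h : e (φ a) = f'.rangeRestrict (Ideal.Quotient.mk _ a) := e.apply_symm_apply _
    exact (congrArg Subtype.val h).symm
  have key : mk = (Algebra.ofId K ((K ⊗[k] A) ⧸ m)).comp (ratPoint K φ) := by
    apply Algebra.TensorProduct.ext
    · exact Subsingleton.elim _ _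
    · refine AlgHom.ext fun a => ?_
      refine (hφ a).trans ?_
      simp [ratPoint_tmul, Algebra.smul_def]
  refine ⟨φ, (algebraMap k ((K ⊗[k] A) ⧸ m)).injective ?_, fun z hz => ?_⟩
  · rw [← hφ, map_zero]
    exact Ideal.Quotient.eq_zero_iff_mem.2 hx
  · refine Ideal.Quotient.eq_zero_iff_mem.1 ((DFunLike.congr_fun key z).trans ?_)
    have hz' : ratPoint K φ z = 0 := hz
    simp [hz']

/-- An element which vanishes at no point over `x₀ = 0` generates an invertible module there. -/
theorem span_sup_smul_eq_top (x₀ : A) [Module.Finite k (A ⧸ Ideal.span {x₀})] {M : Type u}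
    [AddCommGroup M] [Module (K ⊗[k] A) M] [Module.Invertible (K ⊗[k] A) M] (s : M)
    (h : ∀ φ : A →ₐ[k] k, φ x₀ = 0 →
      s ∉ RingHom.ker (ratPoint K φ).toRingHom • (⊤ : Submodule (K ⊗[k] A) M)) :
    Submodule.span (K ⊗[k] A) {s} ⊔
      Ideal.span {(1 : K) ⊗ₜ[k] x₀} • (⊤ : Submodule (K ⊗[k] A) M) = ⊤ := by
  let : Module K M := Module.compHom M (algebraMap K (K ⊗[k] A))
  have : IsScalarTower K (K ⊗[k] A) M := IsScalarTower.of_algebraMap_smul fun _ _ => rfl
  set N := Submodule.span (K ⊗[k] A) {s} ⊔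
      Ideal.span {(1 : K) ⊗ₜ[k] x₀} • (⊤ : Submodule (K ⊗[k] A) M)
  by_contra hN
  obtain ⟨m, hm, hle⟩ := Ideal.exists_le_maximal (N.colon (⊤ : Submodule (K ⊗[k] A) M)) (by
    intro htop
    exact hN (eq_top_iff.2 fun z _ => by
      simpa using Submodule.mem_colon.1 ((Ideal.eq_top_iff_one _).1 htop) z trivial))
  have hx : (1 : K) ⊗ₜ[k] x₀ ∈ m := hle (Submodule.mem_colon.2 fun z _ =>
    Submodule.mem_sup_right (Submodule.smul_mem_smul (Ideal.mem_span_singleton_self _) trivial))
  obtain ⟨φ, hφ, hker⟩ := exists_point_ker_le x₀ m hx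
  have hsup : N ⊔ m • (⊤ : Submodule (K ⊗[k] A) M) = ⊤ := by
    refine eq_top_iff.2 fun z _ => ?_
    let F := fibreEquiv (M := M) (ratPoint K φ)
    have hs : F (Submodule.Quotient.mk s) ≠ 0 := fun h0 => h φ hφ
      ((Submodule.Quotient.mk_eq_zero _).1 ((map_eq_zero_iff _ F.injective).1 h0))
    let c := F (Submodule.Quotient.mk z) / F (Submodule.Quotient.mk s)
    have hz : z - c • s ∈ RingHom.ker (ratPoint K φ).toRingHom • (⊤ : Submodule (K ⊗[k] A) M) := by
      rw [← Submodule.Quotient.mk_eq_zero, Submodule.Quotient.mk_sub, Submodule.Quotient.mk_smul,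
        ← map_eq_zero_iff _ F.injective, map_sub, map_smul, smul_eq_mul, div_mul_cancel₀ _ hs,
        sub_self]
    have hz' : z - c • s ∈ m • (⊤ : Submodule (K ⊗[k] A) M) := Submodule.smul_mono hker le_rfl hz
    have hs' : c • s ∈ N := Submodule.mem_sup_left
      (Submodule.smul_of_tower_mem _ c (Submodule.mem_span_singleton_self s))
    simpa using Submodule.add_mem_sup hs' hz'
  have hW : (⊤ : Submodule (K ⊗[k] A) (M ⧸ N)) ≤ m • ⊤ := by
    rintro w -
    obtain ⟨z, rfl⟩ := Submodule.Quotient.mk_surjective _ w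
    obtain ⟨a, ha, b, hb, rfl⟩ := Submodule.mem_sup.1 (hsup ▸ Submodule.mem_top (x := z))
    rw [Submodule.Quotient.mk_add, (Submodule.Quotient.mk_eq_zero N).2 ha, zero_add]
    have h' := Submodule.mem_map_of_mem (f := N.mkQ) hb
    rw [Submodule.map_smul''] at h'
    exact Submodule.smul_mono le_rfl le_top h'
  obtain ⟨r, hr, hr0⟩ :=
    Submodule.exists_sub_one_mem_and_smul_eq_zero_of_fg_of_le_smul m ⊤ Module.Finite.fg_top hW
  have hrm : r ∈ m := hle (Submodule.mem_colon.2 fun z _ => by
    have := hr0 (Submodule.Quotient.mk z) trivial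
    rwa [← Submodule.Quotient.mk_smul, Submodule.Quotient.mk_eq_zero] at this)
  exact hm.ne_top ((Ideal.eq_top_iff_one _).2 (by simpa using m.sub_mem hrm hr))

theorem exists_ratPoint_ne_zero [Algebra.FiniteType k A] [IsDomain A] {z : K ⊗[k] A}
    (hz : z ≠ 0) : ∃ φ : A →ₐ[k] k, ratPoint K φ z ≠ 0 := by
  classical
  let b := Module.Free.chooseBasis k K
  let c := Algebra.TensorProduct.basis (R := k) A b
  have key : ∀ φ : A →ₐ[k] k, b.repr (ratPoint K φ z) =
      (c.repr (Algebra.TensorProduct.comm k K A z)).mapRange φ (map_zero φ) := by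
    intro φ
    clear hz
    induction z using TensorProduct.induction_on with
    | zero => simp
    | tmul t a =>
      ext i
      simp [c, ratPoint_tmul]
    | add t t' ht ht' => simp [ht, ht', Finsupp.mapRange_add']
  by_contra h
  push Not at h
  apply hz
  apply (Algebra.TensorProduct.comm k K A).injective
  apply c.repr.injective
  ext i
  rw [map_zero, map_zero, Finsupp.coe_zero, Pi.zero_apply]
  refine eq_zero_of_forall_point (k := k) fun φ => ?_
  have := congrArg (fun f => f i) (key φ)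
  simpa [h φ] using this.symm

end Fibre

variable {T : TwoChart k} [CurveLike T] [IsDedekindDomain T.P]
  [IsDedekindDomain T.Q] [Algebra.FiniteType k T.P] [Algebra.FiniteType k T.Q]
  {R R' : Type u} [CommRing R] [Algebra k R] [CommRing R'] [Algebra k R']

section PointBundle

/-- Equal ideals give bundles of the same class. -/
theorem bundle_cls_congr {g : ℕ} {b : Fin g → T.L} {I J : Ideal (R ⊗[k] T.L)}
    (hI : IsBasisIdeal b I) (hJ : IsBasisIdeal b J) (h : I = J) :
    hI.bundle.cls = hJ.bundle.cls := by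
  subst h
  rfl

variable (R) in
/-- The ideal of a rational point of the overlap. -/
noncomputable def pointIdeal (ψ : T.L →ₐ[k] k) : Ideal (R ⊗[k] T.L) :=
  RingHom.ker (ratPoint R ψ).toRingHom

omit [IsAlgClosed k] [CurveLike T] [IsDedekindDomain T.P] [IsDedekindDomain T.Q]
    [Algebra.FiniteType k T.P] [Algebra.FiniteType k T.Q] in
/-- The ideal of a rational point has quotient basis `1`. -/
theorem pointIdeal_isBasisIdeal (ψ : T.L →ₐ[k] k) :
    IsBasisIdeal (fun _ : Fin 1 => (1 : T.L)) (pointIdeal R ψ) :=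
  .of_retraction (ratPoint R ψ)

variable (R) in
/-- The bundle `O(-q)` of a rational point of the overlap. -/
noncomputable def pointBundle (ψ : T.L →ₐ[k] k) : Bundle (T.baseChange R) :=
  (pointIdeal_isBasisIdeal (R := R) ψ).bundle

theorem bcCls_pointBundle (φ : R →ₐ[k] R') (ψ : T.L →ₐ[k] k) :
    Bundle.bcCls φ (pointBundle R ψ).cls = (pointBundle R' ψ).cls := by
  rw [pointBundle, IsBasisIdeal.bcCls_bundle]
  refine bundle_cls_congr _ (pointIdeal_isBasisIdeal (R := R') ψ)
    (((pointIdeal_isBasisIdeal ψ).map φ).eq_of_le (pointIdeal_isBasisIdeal ψ) ?_)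
  refine Ideal.map_le_iff_le_comap.2 fun z hz => ?_
  have h : ∀ w, ratPoint R' ψ (mapBase T.L φ w) = φ (ratPoint R ψ w) := fun w => by
    induction w using TensorProduct.induction_on with
    | zero => simp
    | tmul r a => simp [ratPoint_tmul]
    | add a b ha hb => simp only [map_add, ha, hb]
  have hz' : ratPoint R ψ z = 0 := hz
  exact RingHom.mem_ker.2 ((h z).trans (by rw [hz', map_zero]))

/-- The inclusion of `O(-D)` into the trivial bundle. -/
noncomputable def idealInclusion {g : ℕ} {b : Fin g → T.L} {I : Ideal (R ⊗[k] T.L)}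
    (h : IsBasisIdeal b I) : Bundle.Hom h.bundle (Bundle.trivial (T.baseChange R)) where
  fP := (comapP (T.baseChange R) I).subtype
  fQ := (comapQ (T.baseChange R) I).subtype
  fL := I.subtype
  commP _ := rfl
  commQ _ := (one_mul _).symm

variable {K : Type u} [Field K] [Algebra k K]

omit [IsAlgClosed k] in
theorem finrank_quotient_of_isBasisIdeal {A : Type u} [CommRing A] [Algebra k A] {g : ℕ}
    {b : Fin g → A} {I : Ideal (K ⊗[k] A)} (h : IsBasisIdeal b I) :
    Module.finrank K ((K ⊗[k] A) ⧸ I) = g := by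
  let l : (Fin g → K) →ₗ[K] (K ⊗[k] A) ⧸ I :=
    (Ideal.Quotient.mkₐ K I).toLinearMap ∘ₗ Hilb.sect b
  have hl : Function.Bijective l := by
    have e : ⇑l = fun r : Fin g → K => Ideal.Quotient.mk I (∑ i, r i ⊗ₜ[k] b i) := by
      funext r
      simp [l, Hilb.sect_apply]
    rw [e]
    exact h
  rw [← (LinearEquiv.ofBijective l hl).finrank_eq, Module.finrank_fin_fun]

/-- The degree of `O(-D)`. -/
theorem deg_bundle {g : ℕ} {b : Fin g → T.L} {I : Ideal (K ⊗[k] T.L)} (h : IsBasisIdeal b I) :
    h.bundle.deg = -(g : ℤ) := by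
  obtain ⟨_, _, _⟩ := Bundle.isDomain_baseChange (T := T) K
  obtain ⟨n, b', hb'⟩ := exists_scaled_basis (T := T) b
  obtain ⟨n', c', hc'⟩ := exists_scaled_basis (T := T.swap) b
  let f := idealInclusion h
  let eP : ((Bundle.trivial (T.baseChange K)).MP ⧸ LinearMap.range (f.fP.restrictScalars K)) ≃ₗ[K]
      (K ⊗[k] T.P) ⧸ comapP (T.baseChange K) I :=
    (Submodule.quotEquivOfEq _ ((comapP (T.baseChange K) I).restrictScalars K) (by
      ext z; simp [f, idealInclusion])).trans (Submodule.Quotient.restrictScalarsEquiv K _)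
  let eQ : ((Bundle.trivial (T.baseChange K)).MQ ⧸ LinearMap.range (f.fQ.restrictScalars K)) ≃ₗ[K]
      (K ⊗[k] T.Q) ⧸ comapQ (T.baseChange K) I :=
    (Submodule.quotEquivOfEq _ ((comapQ (T.baseChange K) I).restrictScalars K) (by
      ext z; simp [f, idealInclusion])).trans (Submodule.Quotient.restrictScalarsEquiv K _)
  let eL : ((Bundle.trivial (T.baseChange K)).ML ⧸ LinearMap.range (f.fL.restrictScalars K)) ≃ₗ[K]
      (K ⊗[k] T.L) ⧸ I :=
    (Submodule.quotEquivOfEq _ (I.restrictScalars K) (by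
      ext z; simp [f, idealInclusion])).trans (Submodule.Quotient.restrictScalarsEquiv K _)
  have := (h.comapP_isBasisIdeal hb').finite_quotient
  have := (IsBasisIdeal.comapP_isBasisIdeal (T := T.swap) h hc').finite_quotient
  have := h.finite_quotient
  have := Module.Finite.equiv eP.symm
  have : Module.Finite K
      ((Bundle.trivial (T.baseChange K)).MQ ⧸ LinearMap.range (f.fQ.restrictScalars K)) :=
    Module.Finite.equiv eQ.symm
  have := Module.Finite.equiv eL.symm
  have hchi := f.chi_eq Subtype.val_injective Subtype.val_injective Subtype.val_injective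
  rw [eP.finrank_eq, eQ.finrank_eq, eL.finrank_eq,
    finrank_quotient_of_isBasisIdeal (h.comapP_isBasisIdeal hb'),
    finrank_quotient_of_isBasisIdeal (IsBasisIdeal.comapP_isBasisIdeal (T := T.swap) h hc'),
    finrank_quotient_of_isBasisIdeal h] at hchi
  rw [Bundle.deg]
  linarith

end PointBundle

namespace Bundle

variable {K : Type u} [Field K] [Algebra k K]

/-- The descending induction. -/
theorem exists_points {ι ι' : Type*} [Finite ι] [Finite ι']
    (φP : ι → ((T.baseChange K).P →ₐ[K] K)) (φQ : ι' → ((T.baseChange K).Q →ₐ[K] K)) :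
    ∀ (m : ℕ) (B : Bundle (T.baseChange K)), B.Nonspecial → B.chi = m + 1 →
      B.HasNonvanishing φP φQ →
      ∃ (l : List (T.L →ₐ[k] k)) (B' : Bundle (T.baseChange K)),
        B'.cls = B.cls * (l.map fun ψ => (pointBundle K ψ).cls).prod ∧ B'.Nonspecial ∧
          B'.chi = 1 ∧ B'.HasNonvanishing φP φQ := by
  classical
  obtain ⟨_, _, _⟩ := isDomain_baseChange (T := T) K
  have : IsDomain T.L := CurveLike.isDomain_L T
  have : Algebra.FiniteType T.P T.L :=
    IsLocalization.finiteType_of_monoid_fg (Submonoid.powers (x (T := T))) T.L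
  have : Algebra.FiniteType k T.L := Algebra.FiniteType.trans (S := T.P) inferInstance inferInstance
  have := Fintype.ofFinite ι
  have := Fintype.ofFinite ι'
  intro m
  induction m with
  | zero => exact fun B hB hchi hnv => ⟨[], B, by simp, hB, by simpa using hchi, hnv⟩
  | succ m ih =>
    intro B hB hchi hnv
    have h0 : Module.finrank K B.H0 = m + 2 := by
      have := B.chi_of_nonspecial hB
      omega
    have hvP : ∀ i, ∃ v : B.H0, v ∈ B.vanP (φP i) ∧ v ≠ 0 := fun i => by
      have h := finrank_H0_le_vanP (B := B) (φP i)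
      refine Submodule.exists_mem_ne_zero_of_ne_bot fun hbot => ?_
      rw [hbot, finrank_bot] at h
      omega
    have hvQ : ∀ i, ∃ v : B.H0, v ∈ B.vanQ (φQ i) ∧ v ≠ 0 := fun i => by
      have h := finrank_H0_le_vanQ (B := B) (φQ i)
      refine Submodule.exists_mem_ne_zero_of_ne_bot fun hbot => ?_
      rw [hbot, finrank_bot] at h
      omega
    choose vP hvP hvP0 using hvP
    choose vQ hvQ hvQ0 using hvQ
    obtain ⟨s₀, hs₀⟩ := (Module.finrank_pos_iff_exists_ne_zero (R := K)).1
      (show 0 < Module.finrank K B.H0 by omega)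
    obtain ⟨a₀, ha₀, hsep₀⟩ := exists_separating s₀ hs₀
    choose aP haP hsepP using fun i => exists_separating (vP i) (hvP0 i)
    choose aQ haQ hsepQ using fun i => exists_separating (vQ i) (hvQ0 i)
    obtain ⟨ψ, hψ⟩ := exists_ratPoint_ne_zero (K := K) (A := T.L)
      (z := a₀ * (∏ i, aP i) * ∏ i, aQ i) (mul_ne_zero (mul_ne_zero ha₀
        (Finset.prod_ne_zero_iff.2 fun i _ => haP i)) (Finset.prod_ne_zero_iff.2 fun i _ => haQ i))
    simp only [map_mul, map_prod, mul_ne_zero_iff, Finset.prod_ne_zero_iff] at hψ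
    obtain ⟨⟨hψ₀, hψP⟩, hψQ⟩ := hψ
    obtain ⟨hns, hc, hnv'⟩ := hB.sub_step (J := pointBundle K ψ)
      (idealInclusion (pointIdeal_isBasisIdeal ψ)) (m := m + 1) hchi Subtype.val_injective
      ((deg_bundle (pointIdeal_isBasisIdeal ψ)).trans (by norm_num)) (ratPoint K ψ) (fun z =>
          RingHom.mem_ker.1 z.2)
      (fun h => hsep₀ _ hψ₀ (h ▸ Submodule.mem_top)) φP φQ
      (fun i h => hsepP i _ (hψP i (Finset.mem_univ _)) (h (hvP i)))
      (fun i h => hsepQ i _ (hψQ i (Finset.mem_univ _)) (h (hvQ i))) hnv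
    obtain ⟨l, B', hcls, h1, h2, h3⟩ := ih _ hns (by rw [hc]; push_cast; ring) hnv'
    exact ⟨ψ :: l, B', by rw [hcls, cls_tensor, List.map_cons, List.prod_cons, mul_assoc], h1, h2, h3⟩

/-- Twisting respects isomorphisms. -/
noncomputable def twistCongr {S : Type u} [CommRing S] {U : TwoChart S} [CurveLike U]
    {B B' : Bundle U} (e : Iso B B') (n : ℕ) : Iso (B.twist n) (B'.twist n) where
  eP := e.eP
  eQ := e.eQ
  eL := e.eL
  commP := e.commP
  commQ m := by
    change e.eL ((B.twist n).iq m) = (B'.twist n).iq (e.eQ m)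
    rw [twist_iq, twist_iq, map_smul, e.commQ]

omit [IsAlgClosed k] [IsDedekindDomain T.P] [IsDedekindDomain T.Q] [Algebra.FiniteType k T.P]
  [Algebra.FiniteType k T.Q] in
theorem bcCls_trivial_twist (φ : R →ₐ[k] R') (n : ℕ) :
    bcCls φ ((trivial (T.baseChange R)).twist n).cls = ((trivial (T.baseChange R')).twist n).cls := by
  rw [bcCls_cls]
  obtain ⟨e⟩ := (trivial (T.baseChange R)).bc_twist φ n
  obtain ⟨e'⟩ := cls_eq_iff.1
    (show ((trivial (T.baseChange R)).bc φ).cls = (trivial (T.baseChange R')).cls by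
      rw [← bcCls_cls, cls_trivial, map_one, cls_trivial])
  exact cls_eq_iff.2 ⟨e.trans (twistCongr e' n)⟩

/-- Every class of degree zero over a field lies in a chart. -/
theorem exists_covering (c : Cls (T.baseChange K)) (hc : degCls c = 0) :
    ∃ (θ : Cls (T.baseChange k)) (B : Bundle (T.baseChange K)),
      degCls θ = genus T ∧ B.cls = c * bcCls (Algebra.ofId k K) θ ∧ B.Nonspecial ∧ B.chi = 1 ∧
      ∀ s : B.H0, s ≠ 0 →
        (Submodule.span (T.baseChange K).P {s.1.1} ⊔
          Ideal.span {x (T := T.baseChange K)} • (⊤ : Submodule (T.baseChange K).P B.MP) = ⊤) ∧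
        (Submodule.span (T.baseChange K).Q {s.1.2} ⊔
          Ideal.span {y (T := T.baseChange K)} • (⊤ : Submodule (T.baseChange K).Q B.MQ) = ⊤) := by
  classical
  obtain ⟨_, _, _⟩ := isDomain_baseChange (T := T) K
  have : IsDomain T.L := CurveLike.isDomain_L T
  have hx0 : x (T := T) ≠ 0 := (CurveLike.shiftP T).isRegular.ne_zero
  have hy0 : y (T := T) ≠ 0 := (CurveLike.shiftQ T).isRegular.ne_zero
  have := CurveLike.finiteFibresP (T := T) _ hx0
  have := CurveLike.finiteFibresQ (T := T) _ hy0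
  let ι := {φ : T.P →ₐ[k] k // φ (x (T := T)) = 0}
  let ι' := {φ : T.Q →ₐ[k] k // φ (y (T := T)) = 0}
  have : Finite ι := Finite.of_injective
    (fun φ : ι => (Ideal.Quotient.liftₐ (Ideal.span {x (T := T)}) φ.1 fun a ha => by
      obtain ⟨r, rfl⟩ := Ideal.mem_span_singleton'.1 ha
      rw [map_mul, φ.2, mul_zero] : (T.P ⧸ Ideal.span {x (T := T)}) →ₐ[k] k))
    fun a b h => Subtype.ext (AlgHom.ext fun p => DFunLike.congr_fun h (Ideal.Quotient.mk _ p))
  have : Finite ι' := Finite.of_injective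
    (fun φ : ι' => (Ideal.Quotient.liftₐ (Ideal.span {y (T := T)}) φ.1 fun a ha => by
      obtain ⟨r, rfl⟩ := Ideal.mem_span_singleton'.1 ha
      rw [map_mul, φ.2, mul_zero] : (T.Q ⧸ Ideal.span {y (T := T)}) →ₐ[k] k))
    fun a b h => Subtype.ext (AlgHom.ext fun p => DFunLike.congr_fun h (Ideal.Quotient.mk _ p))
  let φP : ι → ((T.baseChange K).P →ₐ[K] K) := fun φ => ratPoint K φ.1
  let φQ : ι' → ((T.baseChange K).Q →ₐ[K] K) := fun φ => ratPoint K φ.1
  obtain ⟨B₀, hB₀⟩ := exists_cls_eq c
  let B₁ := B₀.tensor (trivial (T.baseChange K))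
  have hB₁ : B₁.cls = c := by rw [cls_tensor, hB₀, cls_trivial, mul_one]
  have := Fintype.ofFinite ι
  have := Fintype.ofFinite ι'
  obtain ⟨N, hN⟩ := B₁.exists_twist_nonspecial
  choose NP hNP using fun i => B₁.exists_twist_vanP_ne_top (φP i)
  choose NQ hNQ using fun i => B₁.exists_twist_vanQ_ne_top (φQ i)
  let n := N + Finset.univ.sup NP + Finset.univ.sup NQ + (Int.natAbs B₁.chi + 1)
  have hns : (B₁.twist n).Nonspecial := hN n (by omega)
  have hnv : (B₁.twist n).HasNonvanishing φP φQ :=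
    ⟨fun i => hNP i n (by have := Finset.le_sup (f := NP) (Finset.mem_univ i); omega),
      fun i => hNQ i n (by have := Finset.le_sup (f := NQ) (Finset.mem_univ i); omega)⟩
  have hd : 1 ≤ CurveLike.mapDegree (T.baseChange K) := by
    rw [Nat.one_le_iff_ne_zero]
    intro h0
    have : IsEmpty (CurveLike.ιQ (T := T)) := Fintype.card_eq_zero_iff.1 h0
    exact not_subsingleton T.Q (CurveLike.basisQ (T := T)).repr.toEquiv.subsingleton
  obtain ⟨m, hm⟩ : ∃ m : ℕ, (B₁.twist n).chi = m + 1 := by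
    have hpos : 0 < (B₁.twist n).chi := by
      rw [chi_twist]
      have h1 : (n : ℤ) ≤ n * CurveLike.mapDegree (T.baseChange K) :=
        le_mul_of_one_le_right (Int.natCast_nonneg n) (by exact_mod_cast hd)
      omega
    exact ⟨((B₁.twist n).chi - 1).toNat, by omega⟩
  obtain ⟨l, B, hcls, hBns, hBchi, hBnv⟩ := exists_points φP φQ m _ hns hm hnv
  let θ : Cls (T.baseChange k) := ((trivial (T.baseChange k)).twist n).cls *
    (l.map fun ψ => (pointBundle k ψ).cls).prod
  have hcθ : B.cls = c * bcCls (Algebra.ofId k K) θ := by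
    rw [hcls, ← cls_eq_iff.2 ⟨B₀.tensorTwist (trivial _) n⟩, cls_tensor, hB₀, map_mul,
      bcCls_trivial_twist, map_list_prod, List.map_map, ← mul_assoc]
    congr 2
    exact List.map_congr_left fun ψ _ => (bcCls_pointBundle _ ψ).symm
  refine ⟨θ, B, ?_, hcθ, hBns, hBchi, fun s hs => ?_⟩
  · have h1 : degCls B.cls = degCls c + degCls (bcCls (Algebra.ofId k K) θ) := by
      rw [hcθ, degCls_mul]
    rw [degCls_bc_field, hc, zero_add] at h1
    have h2 := chiCls_eq (hasConstantSections (T := T)) B.cls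
    rw [chiCls_cls, hBchi] at h2
    omega
  · have h1 : Module.finrank K B.H0 = 1 := by
      have := B.chi_of_nonspecial hBns
      omega
    have hspan : ∀ v : B.H0, ∃ a : K, a • s = v :=
      (finrank_eq_one_iff_of_nonzero' s hs).1 h1
    constructor
    · refine span_sup_smul_eq_top (x (T := T)) s.1.1 fun φ hφ hmem => hBnv.1 ⟨φ, hφ⟩ ?_
      refine eq_top_iff.2 fun v _ => ?_
      obtain ⟨a, rfl⟩ := hspan v
      exact Submodule.smul_mem _ a hmem
    · refine span_sup_smul_eq_top (y (T := T)) s.1.2 fun φ hφ hmem => hBnv.2 ⟨φ, hφ⟩ ?_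
      refine eq_top_iff.2 fun v _ => ?_
      obtain ⟨a, rfl⟩ := hspan v
      exact Submodule.smul_mem _ a hmem

end Bundle

end Fermat.Agent.RelJac
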