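import Fermat.Agent.RelJac.PicScheme
import Fermat.Agent.RelJac.Assembly.Separated
import Fermat.Agent.RelJac.Assembly.Power
import Fermat.Agent.RelJac.Assembly.Proper
import Fermat.Agent.RelJac.Assembly.Reduced

/-!
A map of the curve into the model from classes on the two charts; properness and geometric
integrality of the model from generation of its rational points by the image of the curve.
-/

noncomputable section

universe u

open CategoryTheory CategoryTheory.Limits AlgebraicGeometry NeronModelInfra GoodReductionJacobian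
open AlgebraicGeometry.RelPicard
open scoped TensorProduct

namespace Fermat.Agent.RelJac

open Sheaf (specOver)

/-- The open cover given by two open immersions covering the scheme. -/
def twoChartCover {C A B : Scheme.{u}} (jA : A ⟶ C) (jB : B ⟶ C)
    [IsOpenImmersion jA] [IsOpenImmersion jB]
    (hcover : Set.range jA.base ∪ Set.range jB.base = Set.univ) : C.OpenCover where
  I₀ := ULift.{u} Bool
  X i := cond i.down A B
  f i := match i with
    | ⟨true⟩ => jA
    | ⟨false⟩ => jB
  mem₀ := by
    rw [Scheme.presieve₀_mem_precoverage_iff]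
    refine ⟨fun w => ?_, fun i => match i with
      | ⟨true⟩ => inferInstanceAs (IsOpenImmersion jA)
      | ⟨false⟩ => inferInstanceAs (IsOpenImmersion jB)⟩
    rcases hcover.ge (Set.mem_univ w) with ⟨v, hv⟩ | ⟨v, hv⟩
    · exact ⟨⟨true⟩, v, hv⟩
    · exact ⟨⟨false⟩, v, hv⟩

/-- Morphisms agreeing on two covering charts are equal. -/
theorem hom_ext_of_two_charts {C P A B : Scheme.{u}} (jA : A ⟶ C) (jB : B ⟶ C)
    [IsOpenImmersion jA] [IsOpenImmersion jB]
    (hcover : Set.range jA.base ∪ Set.range jB.base = Set.univ) {f g : C ⟶ P}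
    (hA : jA ≫ f = jA ≫ g) (hB : jB ≫ f = jB ≫ g) : f = g :=
  (twoChartCover jA jB hcover).hom_ext f g fun
    | ⟨true⟩ => hA
    | ⟨false⟩ => hB

/-- Morphisms glue along two open immersions covering the scheme. -/
theorem exists_hom_of_two_charts {C P A B W : Scheme.{u}} (jA : A ⟶ C) (jB : B ⟶ C)
    [IsOpenImmersion jA] [IsOpenImmersion jB]
    (hcover : Set.range jA.base ∪ Set.range jB.base = Set.univ) {wA : W ⟶ A} {wB : W ⟶ B}
    (hpb : IsPullback wA wB jA jB) (a : A ⟶ P) (b : B ⟶ P) (h : wA ≫ a = wB ≫ b) :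
    ∃ j : C ⟶ P, jA ≫ j = a ∧ jB ≫ j = b := by
  let 𝒰 := twoChartCover jA jB hcover
  let g : ∀ i : 𝒰.I₀, 𝒰.X i ⟶ P := fun i => match i with
    | ⟨true⟩ => a
    | ⟨false⟩ => b
  have hAB : pullback.fst jA jB ≫ a = pullback.snd jA jB ≫ b := by
    rw [← cancel_epi hpb.isoPullback.hom, hpb.isoPullback_hom_fst_assoc,
      hpb.isoPullback_hom_snd_assoc, h]
  have hg : ∀ i i' : 𝒰.I₀, pullback.fst (𝒰.f i) (𝒰.f i') ≫ g i =
      pullback.snd (𝒰.f i) (𝒰.f i') ≫ g i' := by
    rintro ⟨_ | _⟩ ⟨_ | _⟩
    · exact congrArg (· ≫ b) ((cancel_mono jB).1 pullback.condition)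
    · exact (pullbackSymmetry_hom_comp_snd_assoc jB jA b).symm.trans
        ((congrArg ((pullbackSymmetry jB jA).hom ≫ ·) hAB.symm).trans
          (pullbackSymmetry_hom_comp_fst_assoc jB jA a))
    · exact hAB
    · exact congrArg (· ≫ a) ((cancel_mono jA).1 pullback.condition)
  exact ⟨𝒰.glueMorphisms g hg, 𝒰.ι_glueMorphisms g hg ⟨true⟩, 𝒰.ι_glueMorphisms g hg ⟨false⟩⟩

namespace CurveModel

variable {k : Type u} [Field k] [IsAlgClosed k] {C : Scheme.{u}}
  {c : C ⟶ Spec (CommRingCat.of k)} {ε : SchemeHomOver (𝟙 (Spec (CommRingCat.of k))) c}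
  {D : CurveModel c ε}

namespace Pic0Model

variable (J : Pic0Model D)

/-- Classes on the two charts agreeing on the overlap give a map of the curve into the model. -/
theorem exists_curveMap (uP : D.pic0 D.T.P) (uQ : D.pic0 D.T.Q)
    (h : D.pic0Map (IsScalarTower.toAlgHom k D.T.P D.T.L) uP =
      D.pic0Map (IsScalarTower.toAlgHom k D.T.Q D.T.L) uQ) :
    ∃ j : SchemeHomOver c J.f, ∀ (R : Type u) [CommRing R] [Algebra k R]
      (φ : D.T.P →ₐ[k] R) (x : SchemeHomOver (specOver (k := k) R) c),
      x.1 = Spec.map (CommRingCat.ofHom φ.toRingHom) ≫ D.jP →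
        J.pts R ⟨x.1 ≫ j.1, by rw [Category.assoc, j.2, x.2]⟩ = D.pic0Map φ uP := by
  let a := (J.pts D.T.P).symm uP
  let b := (J.pts D.T.Q).symm uQ
  have hw : Spec.map (CommRingCat.ofHom (algebraMap D.T.P D.T.L)) ≫ a.1 =
      Spec.map (CommRingCat.ofHom (algebraMap D.T.Q D.T.L)) ≫ b.1 := by
    have e₁ := J.symm_natural (IsScalarTower.toAlgHom k D.T.P D.T.L) uP
    have e₂ := J.symm_natural (IsScalarTower.toAlgHom k D.T.Q D.T.L) uQ
    exact congrArg Subtype.val (e₁.trans ((congrArg (J.pts D.T.L).symm h).trans e₂.symm))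
  obtain ⟨j, hjP, hjQ⟩ := exists_hom_of_two_charts D.jP D.jQ D.cover D.isPullback a.1 b.1 hw
  have hj : j ≫ J.f = c := by
    refine hom_ext_of_two_charts D.jP D.jQ D.cover ?_ ?_
    · rw [← Category.assoc, hjP, a.2, D.jP_over]
    · rw [← Category.assoc, hjQ, b.2, D.jQ_over]
  refine ⟨⟨j, hj⟩, fun R _ _ φ x hx => ?_⟩
  have : (⟨x.1 ≫ j, by rw [Category.assoc, hj, x.2]⟩ : SchemeHomOver (specOver (k := k) R) J.f) =
      postComp a (specHom φ) := Subtype.ext
      ((congrArg (· ≫ j) hx).trans ((Category.assoc _ _ _).trans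
        (congrArg (Spec.map (CommRingCat.ofHom φ.toRingHom) ≫ ·) hjP)))
  rw [this, J.natural, Equiv.apply_symm_apply]

/-- Separatedness. -/
theorem isSeparated (G : RelativeGroupLaw k J.f) : IsSeparated J.f := isSeparated_of_relativeGroupLaw G

/-- If every rational point is a product of `n` points of the curve and a fixed point, the model is
proper and geometrically integral. -/
theorem isProper_and_geometricallyIntegral [IsProper c] [IsIntegral C]
    (G : RelativeGroupLaw k J.f) (j : SchemeHomOver c J.f) (n : ℕ) (t₀ : SchemeHomOver (specOver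
        (k := k) k) J.f)
    (hpts : ∀ p : SchemeHomOver (specOver (k := k) k) J.f,
      ∃ x : Fin n → SchemeHomOver (specOver (k := k) k) c,
        p = G.mul _ (mulTuple G fun i => (⟨(x i).1 ≫ j.1, by rw [Category.assoc, j.2, (x i).2]⟩ :
          SchemeHomOver (specOver (k := k) k) J.f)) t₀) :
    IsProper J.f ∧ GeometricallyIntegral J.f ∧ GeometricallyConnected J.f := by
  have := J.isSeparated G
  have := isProper_powMap c n
  have := geometricallyIrreducible_of_isIntegral c
  have := geometricallyIrreducible_powMap c n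
  have hs : specOver (k := k) k = 𝟙 _ := Spec.map_id _
  let y := powMap c n
  let t : SchemeHomOver y J.f :=
    schemeHomOverComp y (by rw [hs, Category.comp_id]) t₀
  let g : SchemeHomOver y J.f := G.mul y (powProd c G j n) t
  have hg : Surjective g.1 := by
    refine surjective_of_points y J.f g fun p => ?_
    obtain ⟨x, hx⟩ := hpts ⟨p.1, p.2.trans hs.symm⟩
    refine ⟨⟨(powLift c x).1, (powLift c x).2.trans hs⟩, ?_⟩
    have h := congrArg Subtype.val
      (G.mul_natural y (specOver (k := k) k) (powLift c x).1 (powLift c x).2 (powProd c G j n) t)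
    rw [schemeHomOverComp_coe] at h
    rw [h]
    have e₁ : schemeHomOverComp (powLift c x).1 (powLift c x).2 (powProd c G j n) =
        mulTuple G fun i => (⟨(x i).1 ≫ j.1, by rw [Category.assoc, j.2, (x i).2]⟩ :
          SchemeHomOver (specOver (k := k) k) J.f) :=
      Subtype.ext (powProd_powLift c G j x)
    have e₂ : schemeHomOverComp (powLift c x).1 (powLift c x).2 t = t₀ := Subtype.ext (by
      simp only [t, y, schemeHomOverComp_coe]
      rw [← Category.assoc, (powLift c x).2]
      exact (congrArg (· ≫ t₀.1) hs).trans (Category.id_comp _))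
    rw [e₁, e₂, ← hx]
  have := isProper_of_surjective y J.f g
  have := geometricallyIrreducible_of_surjective y J.f g
  have := geometricallyConnected_of_irreducible J.f
  have := J.smooth
  exact ⟨inferInstance, geometricallyIntegral_of_smooth J.f, inferInstance⟩

end Pic0Model

end CurveModel

end Fermat.Agent.RelJac
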