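import Fermat.Agent.RelJac.GraphBundle
import Fermat.Agent.RelJac.PicSurjection

/-!
The family of classes `O(q - q₀)` over the curve, and the map of the curve to the model.
-/

noncomputable section

universe u

open CategoryTheory CategoryTheory.Limits AlgebraicGeometry NeronModelInfra
open AlgebraicGeometry.RelPicard
open scoped TensorProduct

namespace Fermat.Agent.RelJac

open Sheaf (specOver)

namespace CurveModel

variable {k : Type u} [Field k] [IsAlgClosed k] {C : Scheme.{u}}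
  {c : C ⟶ Spec (CommRingCat.of k)} {ε : SchemeHomOver (𝟙 (Spec (CommRingCat.of k))) c}
  (D : CurveModel c ε)

/-- The class `O(q - q₀)` for a point `q` of the first chart. -/
theorem exists_curve_classes :
    ∃ (ψ₀ : D.T.L →ₐ[k] k) (uP : D.pic0 D.T.P) (uQ : D.pic0 D.T.Q),
      D.pic0Map (IsScalarTower.toAlgHom k D.T.P D.T.L) uP =
        D.pic0Map (IsScalarTower.toAlgHom k D.T.Q D.T.L) uQ ∧
      ∀ ψ : D.T.L →ₐ[k] k,
        (D.pic0Map (ψ.comp (IsScalarTower.toAlgHom k D.T.P D.T.L)) uP :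
            Bundle.Cls (D.T.baseChange k)) =
          (pointBundle k ψ).cls⁻¹ * (pointBundle k ψ₀).cls := by
  obtain ⟨ψ₀⟩ := exists_point_L (T := D.T)
  let δ : Bundle.Cls (D.T.baseChange k) := (pointBundle k ψ₀).cls
  have hδ : Bundle.degCls δ = -1 := by
    rw [Bundle.degCls_cls, pointBundle, deg_bundle]
    norm_num
  let vP := (graph (AlgHom.id k D.T.P)).cls⁻¹ * Bundle.bcCls (Algebra.ofId k D.T.P) δ
  let vQ := (graphQ (AlgHom.id k D.T.Q)).cls⁻¹ * Bundle.bcCls (Algebra.ofId k D.T.Q) δ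
  have hP : Bundle.IsDegZero vP := fun L _ _ ψ => by
    obtain ⟨_, _, _⟩ := Bundle.isDomain_baseChange (T := D.T) L
    rw [map_mul, map_inv, Bundle.degCls_mul, Bundle.degCls_inv, degCls_bcCls_graph,
      Bundle.bcCls_comp, Bundle.degCls_bc_field, hδ]
    norm_num
  have hQ : Bundle.IsDegZero vQ := fun L _ _ ψ => by
    obtain ⟨_, _, _⟩ := Bundle.isDomain_baseChange (T := D.T) L
    rw [map_mul, map_inv, Bundle.degCls_mul, Bundle.degCls_inv, degCls_bcCls_graphQ,
      Bundle.bcCls_comp, Bundle.degCls_bc_field, hδ]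
    norm_num
  refine ⟨ψ₀, ⟨Bundle.normalise D.e vP, Bundle.rig_normalise _ _, hP.normalise D.e⟩,
    ⟨Bundle.normalise D.e vQ, Bundle.rig_normalise _ _, hQ.normalise D.e⟩, Subtype.ext ?_,
    fun ψ => ?_⟩
  · simp only [coe_pic0Map, Bundle.bcCls_normalise, vP, vQ, map_mul, map_inv, bcCls_graph,
      bcCls_graphQ, Bundle.bcCls_comp, AlgHom.comp_id]
    have h1 := graph_cls_eq_graphQ_cls (AlgHom.id k D.T.L)
    rw [AlgHom.id_comp, AlgHom.id_comp] at h1
    rw [h1, Subsingleton.elim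
      ((IsScalarTower.toAlgHom k D.T.P D.T.L).comp (Algebra.ofId k D.T.P))
      ((IsScalarTower.toAlgHom k D.T.Q D.T.L).comp (Algebra.ofId k D.T.Q))]
  · simp only [coe_pic0Map, Bundle.bcCls_normalise_field, vP, map_mul, map_inv, bcCls_graph,
      Bundle.bcCls_comp, AlgHom.comp_id]
    have h1 := graph_cls_eq_pointBundle (R := k) ψ
    rw [show (Algebra.ofId k k).comp ψ = ψ from AlgHom.ext fun _ => rfl] at h1
    rw [h1, Subsingleton.elim
      ((ψ.comp (IsScalarTower.toAlgHom k D.T.P D.T.L)).comp (Algebra.ofId k D.T.P)) (AlgHom.id k k),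
      Bundle.bcCls_id]

end CurveModel

end Fermat.Agent.RelJac
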