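import Fermat.Agent.RelJac.ComplexBaseChange

/-!
Morphisms of bundles, twisting by multiples of the divisor at infinity, vanishing of `H¹` after
twisting.
-/

open scoped TensorProduct

namespace Fermat.Agent.RelJac

universe u

variable {R : Type u} [CommRing R] {T : TwoChart R}

namespace Bundle

/-- A morphism of bundles. -/
structure Hom (B B' : Bundle T) where
  fP : B.MP →ₗ[T.P] B'.MP
  fQ : B.MQ →ₗ[T.Q] B'.MQ
  fL : B.ML →ₗ[T.L] B'.ML
  commP : ∀ m, fL (B.ip m) = B'.ip (fP m)
  commQ : ∀ m, fL (B.iq m) = B'.iq (fQ m)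

/-- An isomorphism as a morphism. -/
def Iso.toHom {B B' : Bundle T} (e : Iso B B') : Hom B B' :=
  ⟨e.eP, e.eQ, e.eL, e.commP, e.commQ⟩

/-- The map of a morphism on the terms of degree zero. -/
noncomputable def Hom.f0 {B B' : Bundle T} (f : Hom B B') : B.MP × B.MQ →ₗ[R] B'.MP × B'.MQ :=
  (f.fP.restrictScalars R).prodMap (f.fQ.restrictScalars R)

/-- A morphism commutes with the differentials. -/
theorem Hom.d_comm {B B' : Bundle T} (f : Hom B B') :
    B'.d ∘ₗ f.f0 = (f.fL.restrictScalars R) ∘ₗ B.d :=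
  LinearMap.ext fun m => by simp [d_apply, Hom.f0, f.commP, f.commQ]

/-- A morphism maps global sections to global sections. -/
theorem Hom.map_mem_H0 {B B' : Bundle T} (f : Hom B B') {m : B.MP × B.MQ} (hm : m ∈ B.H0) :
    f.f0 m ∈ B'.H0 := by
  rw [LinearMap.mem_ker] at hm ⊢
  simpa [hm] using LinearMap.congr_fun f.d_comm m

/-- A morphism surjective on the overlap transfers the vanishing of `H¹`. -/
theorem Hom.nonspecial {B B' : Bundle T} (f : Hom B B') (h : B.Nonspecial)
    (hL : Function.Surjective f.fL) : B'.Nonspecial := fun z => by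
  obtain ⟨w, rfl⟩ := hL z
  obtain ⟨m, rfl⟩ := h w
  exact ⟨f.f0 m, LinearMap.congr_fun f.d_comm m⟩

/-- Vanishing of `H¹` is invariant under isomorphism. -/
theorem Iso.nonspecial_iff {B B' : Bundle T} (e : Iso B B') : B.Nonspecial ↔ B'.Nonspecial :=
  ⟨fun h => e.toHom.nonspecial h e.eL.surjective,
    fun h => e.symm.toHom.nonspecial h e.symm.eL.surjective⟩

variable [CurveLike T] (B : Bundle T)

open CurveLike (x y)

/-- Multiplication by `xⁿ` on the overlap. -/
noncomputable def xPow (n : ℕ) : B.ML ≃ₗ[T.L] B.ML :=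
  DistribMulAction.toLinearEquiv T.L B.ML (CurveLike.unitX T ^ n)

/-- Multiplication by a power of `x` on the overlap. -/
theorem xPow_apply (n : ℕ) (z : B.ML) :
    B.xPow n z = algebraMap T.P T.L (x (T := T)) ^ n • z := by
  simp [xPow, Units.smul_def, CurveLike.unitX]

/-- The twist of a bundle by `n` times the divisor `x = ∞`. -/
noncomputable abbrev twist (n : ℕ) : Bundle T where
  MP := B.MP
  MQ := B.MQ
  ML := B.ML
  ip := B.ip
  iq := ((B.xPow n).restrictScalars T.Q).toLinearMap.comp B.iq
  baseP := B.baseP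
  baseQ := IsBaseChange.of_equiv (B.baseQ.equiv.trans (B.xPow n)) fun q => by
    simp [IsBaseChange.equiv_tmul]

/-- The second gluing map of a twist. -/
theorem twist_iq (n : ℕ) (m : B.MQ) :
    (B.twist n).iq m = algebraMap T.P T.L (x (T := T)) ^ n • B.iq m :=
  B.xPow_apply n _

/-- The inclusion of a bundle into a larger twist. -/
noncomputable def twistHom {m n : ℕ} (h : m ≤ n) : Hom (B.twist m) (B.twist n) where
  fP := LinearMap.id
  fQ := LinearMap.lsmul T.Q B.MQ (y (T := T) ^ (n - m))
  fL := LinearMap.id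
  commP _ := rfl
  commQ q := by
    simp only [LinearMap.id_apply, LinearMap.lsmul_apply, LinearMap.coe_comp,
        Function.comp_apply, LinearEquiv.coe_coe, LinearEquiv.restrictScalars_apply, xPow_apply]
    rw [map_smul, ← algebraMap_smul T.L (y (T := T) ^ (n - m)), map_pow]
    obtain ⟨j, rfl⟩ := Nat.exists_eq_add_of_le h
    rw [Nat.add_sub_cancel_left, pow_add, mul_smul,
      smul_comm (algebraMap T.P T.L (x (T := T)) ^ j), cancel_x_pow]

/-- The twist by zero. -/
noncomputable def twistZero : Iso (B.twist 0) B where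
  eP := LinearEquiv.refl _ _
  eQ := LinearEquiv.refl _ _
  eL := LinearEquiv.refl _ _
  commP _ := rfl
  commQ q := by simp [xPow_apply]

theorem Nonspecial.twist_of_le {B : Bundle T} {m n : ℕ} (hB : (B.twist m).Nonspecial)
    (h : m ≤ n) : (B.twist n).Nonspecial :=
  (B.twistHom h).nonspecial hB Function.surjective_id

/-- Twisting at infinity preserves the vanishing of `H¹`. -/
theorem Nonspecial.twist {B : Bundle T} (hB : B.Nonspecial) (n : ℕ) : (B.twist n).Nonspecial :=
  ((B.twistZero).nonspecial_iff.2 hB).twist_of_le (Nat.zero_le n)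

/-- A high twist has no `H¹`. -/
theorem exists_twist_nonspecial : ∃ N, ∀ n, N ≤ n → (B.twist n).Nonspecial := by
  classical
  obtain ⟨s, hs⟩ := B.exists_finite_span
  choose N m hN using fun z : B.ML => B.exists_ypow_smul_eq_iq z
  refine ⟨s.sup N, fun n hn => Nonspecial.twist_of_le ?_ hn⟩
  rw [Nonspecial, ← LinearMap.range_eq_top, eq_top_iff, ← hs, sup_le_iff, Submodule.span_le]
  refine ⟨fun z hz => ?_, ?_⟩
  · have h : (B.twist (N z)).iq (m z) = z := by rw [twist_iq, ← hN, cancel_y_pow]
    obtain ⟨w, hw⟩ := (B.twist (N z)).iq_mem_range (m z)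
    refine ⟨(B.twistHom (Finset.le_sup (f := N) hz)).f0 w, ?_⟩
    refine (LinearMap.congr_fun (B.twistHom (Finset.le_sup (f := N) hz)).d_comm w).trans ?_
    exact hw.trans h
  · rintro _ ⟨w, rfl⟩
    exact ⟨(B.twistHom (Nat.zero_le (s.sup N))).f0 (B.twistZero.symm.toHom.f0 w),
      (LinearMap.congr_fun (B.twistHom (Nat.zero_le _)).d_comm _).trans
        (LinearMap.congr_fun B.twistZero.symm.toHom.d_comm w)⟩

section Pullback

variable {R' : Type u} [CommRing R'] {T' : TwoChart R'} [CurveLike T'] [T.Over T']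

/-- Twisting commutes with pullback. -/
noncomputable def pullbackTwist (hx : algebraMap T.P T'.P (x (T := T)) = x (T := T')) (n : ℕ) :
    Iso ((B.twist n).pullback T') ((B.pullback T').twist n) :=
  Iso.ofPullback (C := (B.pullback T').twist n) (LinearEquiv.refl _ _) (LinearEquiv.refl _ _)
    (LinearEquiv.refl _ _) (fun m => by simp) (fun m => by
      simp only [LinearEquiv.refl_apply, LinearMap.coe_comp, Function.comp_apply,
          LinearEquiv.coe_coe, LinearEquiv.restrictScalars_apply, xPow_apply]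
      rw [pullbackIQ_tmul, map_one, ← map_pow, algebraMap_smul, ← algebraMap_smul T.L (_ ^ n),
        ← TensorProduct.smul_tmul, Algebra.smul_def, mul_one, TwoChart.Over.commP, map_pow,
        map_pow, hx, xPow_apply, TensorProduct.smul_tmul', smul_eq_mul, mul_one])

end Pullback

end Bundle

end Fermat.Agent.RelJac
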