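import Mathlib.RingTheory.Spectrum.Prime.FreeLocus
import Fermat.Agent.RelJac.BCPushout
import Fermat.Agent.RelJac.Twist

/-!
Global sections after base change along `φ : R → R'`, and their rank at the points of `Spec R`.
-/

open scoped TensorProduct

namespace Fermat.Agent.RelJac

universe u

variable {k : Type u} [CommRing k] {T : TwoChart k}
  {R R' : Type u} [CommRing R] [Algebra k R] [CommRing R'] [Algebra k R']

/-- The rank of a finite projective module at a point, computed in any field over the point. -/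
theorem finrank_tensor_field {M : Type u} [AddCommGroup M] [Module R M] [Module.Finite R M]
    [Module.Projective R M] {L : Type u} [Field L] [Algebra R L] :
    Module.finrank L (L ⊗[R] M) =
      Module.rankAtStalk M ⟨RingHom.ker (algebraMap R L), RingHom.ker_isPrime _⟩ := by
  set p : Ideal R := RingHom.ker (algebraMap R L)
  have : p.IsPrime := RingHom.ker_isPrime _
  let i : p.ResidueField →+* L :=
    Ideal.ResidueField.lift p (algebraMap R L) le_rfl fun a ha => IsUnit.mk0 _ ha
  let := i.toAlgebra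
  have : IsScalarTower R p.ResidueField L := IsScalarTower.of_algebraMap_eq fun r =>
    (Ideal.ResidueField.lift_algebraMap p (algebraMap R L) le_rfl _ r).symm
  rw [Module.rankAtStalk_eq,
    ← (TensorProduct.AlgebraTensorModule.cancelBaseChange R p.ResidueField L L M).finrank_eq,
    Module.finrank_baseChange]

namespace TwoChart

/-- The algebra instances describing base change along `φ`. -/
theorem bc_instances (φ : R →ₐ[k] R') :
    letI := φ.toRingHom.toAlgebra
    letI := (T.bcP φ).toAlgebra
    letI := (T.bcQ φ).toAlgebra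
    letI := (T.bcL φ).toAlgebra
    ∃ (_ : IsScalarTower k R R') (_ : IsScalarTower R (R ⊗[k] T.P) (R' ⊗[k] T.P))
      (_ : IsScalarTower R (R ⊗[k] T.Q) (R' ⊗[k] T.Q))
      (_ : IsScalarTower R (R ⊗[k] T.L) (R' ⊗[k] T.L)),
      Algebra.IsPushout R R' (R ⊗[k] T.P) (R' ⊗[k] T.P) ∧
      Algebra.IsPushout R R' (R ⊗[k] T.Q) (R' ⊗[k] T.Q) ∧
      Algebra.IsPushout R R' (R ⊗[k] T.L) (R' ⊗[k] T.L) := by
  let a₀ := φ.toRingHom.toAlgebra
  let aP := (T.bcP φ).toAlgebra
  let aQ := (T.bcQ φ).toAlgebra
  let aL := (T.bcL φ).toAlgebra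
  have h0 : IsScalarTower k R R' := IsScalarTower.of_algebraMap_eq fun a => (φ.commutes a).symm
  have tP : IsScalarTower R (R ⊗[k] T.P) (R' ⊗[k] T.P) := IsScalarTower.of_algebraMap_eq fun r => by
    change _ = T.bcP φ _
    simp [Algebra.TensorProduct.algebraMap_apply, RingHom.algebraMap_toAlgebra]
  have tQ : IsScalarTower R (R ⊗[k] T.Q) (R' ⊗[k] T.Q) := IsScalarTower.of_algebraMap_eq fun r => by
    change _ = T.bcQ φ _
    simp [Algebra.TensorProduct.algebraMap_apply, RingHom.algebraMap_toAlgebra]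
  have tL : IsScalarTower R (R ⊗[k] T.L) (R' ⊗[k] T.L) := IsScalarTower.of_algebraMap_eq fun r => by
    change _ = T.bcL φ _
    simp [Algebra.TensorProduct.algebraMap_apply, RingHom.algebraMap_toAlgebra]
  exact ⟨h0, tP, tQ, tL, isPushout_map (k := k) (A := T.P) (R := R) (R' := R') fun _ => rfl,
    isPushout_map (k := k) (A := T.Q) (R := R) (R' := R') fun _ => rfl,
    isPushout_map (k := k) (A := T.L) (R := R) (R' := R') fun _ => rfl⟩

end TwoChart

namespace Bundle

variable [CurveLike T] (φ : R →ₐ[k] R') (B : Bundle (T.baseChange R))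

/-- The twist commutes with base change. -/
theorem bc_twist (n : ℕ) : Nonempty (Iso ((B.twist n).bc φ) ((B.bc φ).twist n)) := by
  let i := T.overBC φ
  refine ⟨pullbackTwist (T' := T.baseChange R') B ?_ n⟩
  change T.bcP φ (1 ⊗ₜ CurveLike.x (T := T)) = 1 ⊗ₜ CurveLike.x (T := T)
  simp

variable {B}

omit [CurveLike T] in
/-- Vanishing of `H¹` is stable under base change of the family. -/
theorem Nonspecial.bc (h : B.Nonspecial) : (B.bc φ).Nonspecial :=
  (nonspecial_bc_iff φ B).2 <| by
    let a₀ := φ.toRingHom.toAlgebra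
    exact LinearMap.lTensor_surjective R' h

variable (B)

/-- Base change of global sections. -/
noncomputable def bcSection (m : B.H0) : (B.bc φ).H0 :=
  letI := T.overBC φ
  letI := (T.bcP φ).toAlgebra
  letI := (T.bcQ φ).toAlgebra
  letI := (T.bcL φ).toAlgebra
  ⟨((1 : R' ⊗[k] T.P) ⊗ₜ m.1.1, (1 : R' ⊗[k] T.Q) ⊗ₜ m.1.2), (Bundle.mem_H0 _).2 (by
    refine (B.pullbackIP_tmul (T' := T.baseChange R') (1 : R' ⊗[k] T.P) m.1.1).trans
      (Eq.trans ?_ (B.pullbackIQ_tmul (T' := T.baseChange R') (1 : R' ⊗[k] T.Q) m.1.2).symm)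
    rw [B.mem_H0.1 m.2, map_one, map_one])⟩

variable {B}

/-- When `H¹ = 0`, global sections of the base change are generated by base changed sections. -/
theorem span_bcSection (h : B.Nonspecial) :
    Submodule.span R' (Set.range (B.bcSection φ)) = ⊤ := by
  let a₀ := φ.toRingHom.toAlgebra
  let i := T.overBC φ
  let aP := (T.bcP φ).toAlgebra
  let aQ := (T.bcQ φ).toAlgebra
  let aL := (T.bcL φ).toAlgebra
  obtain ⟨_, _, _, _, _, _, _⟩ := T.bc_instances φ
  let e := B.H0BaseChange (T' := T.baseChange R') h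
  have he : ∀ m : B.H0, e (1 ⊗ₜ m) = B.bcSection φ m := fun m => Subtype.ext <| by
    rw [B.coe_H0BaseChange_tmul h 1 m, map_one, map_one]
    rfl
  refine eq_top_iff.2 fun z _ => ?_
  obtain ⟨w, rfl⟩ := e.surjective z
  induction w using TensorProduct.induction_on with
  | zero => rw [map_zero]; exact Submodule.zero_mem _
  | tmul r m =>
    rw [show r ⊗ₜ[R] m = r • ((1 : R') ⊗ₜ[R] m) by
      rw [TensorProduct.smul_tmul', smul_eq_mul, mul_one], map_smul, he]
    exact Submodule.smul_mem _ _ (Submodule.subset_span ⟨m, rfl⟩)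
  | add a b ha hb => rw [map_add]; exact Submodule.add_mem _ (ha Submodule.mem_top) (hb Submodule.mem_top)

/-- For a family with `H¹ = 0` the fibres have `H⁰` of the rank at that point. -/
theorem finrank_H0_bc {L : Type u} [Field L] [Algebra k L] (ψ : R →ₐ[k] L) (h : B.Nonspecial) :
    letI := B.finite_H0 h
    Module.finrank L (B.bc ψ).H0 =
      Module.rankAtStalk B.H0 ⟨RingHom.ker ψ.toRingHom, RingHom.ker_isPrime _⟩ := by
  let a₀ := ψ.toRingHom.toAlgebra
  let i := T.overBC ψ
  let aP := (T.bcP ψ).toAlgebra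
  let aQ := (T.bcQ ψ).toAlgebra
  let aL := (T.bcL ψ).toAlgebra
  obtain ⟨_, _, _, _, _, _, _⟩ := T.bc_instances ψ
  have := B.finite_H0 h
  have := B.projective_H0 h
  rw [← (B.H0BaseChange (T' := T.baseChange L) h).finrank_eq, finrank_tensor_field]
  rfl

end Bundle

end Fermat.Agent.RelJac
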