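import Fermat.Agent.RelJac.Euler
import Fermat.Agent.RelJac.SectionsBaseChange
import Fermat.Agent.RelJac.Trivial

/-!
The degree of the fibres of a family of bundles is locally constant, and invariant under field
extensions; the fibrewise degree zero condition.
-/

open scoped TensorProduct

namespace Fermat.Agent.RelJac

universe u

variable {k : Type u} [Field k] {T : TwoChart k} [CurveLike T]
  {R R' : Type u} [CommRing R] [Algebra k R] [CommRing R'] [Algebra k R']
  {L L' : Type u} [Field L] [Algebra k L] [Field L'] [Algebra k L']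

namespace Bundle

/-- The point of `Spec R` under a field valued point. -/
def pointOf (ψ : R →ₐ[k] L) : PrimeSpectrum R :=
  ⟨RingHom.ker ψ.toRingHom, RingHom.ker_isPrime _⟩

theorem mapDegree_baseChange :
    CurveLike.mapDegree (T.baseChange L) = CurveLike.mapDegree T :=
  rfl

/-- The Euler characteristic of the fibres is locally constant. -/
theorem exists_chi_locallyConstant (B : Bundle (T.baseChange R)) :
    ∃ f : PrimeSpectrum R → ℤ, IsLocallyConstant f ∧
      ∀ (L : Type u) [Field L] [Algebra k L] (ψ : R →ₐ[k] L), (B.bc ψ).chi = f (pointOf ψ) := by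
  obtain ⟨N, hN⟩ := B.exists_twist_nonspecial
  have h := hN N le_rfl
  have := (B.twist N).finite_H0 h
  have := (B.twist N).projective_H0 h
  have := Module.finitePresentation_of_projective R (B.twist N).H0
  refine ⟨fun p => (Module.rankAtStalk (B.twist N).H0 p : ℤ) - N * CurveLike.mapDegree T,
    (Module.isLocallyConstant_rankAtStalk (R := R) (M := (B.twist N).H0)).comp
      (fun n : ℕ => (n : ℤ) - N * CurveLike.mapDegree T), ?_⟩
  intro L _ _ ψ
  obtain ⟨e⟩ := B.bc_twist ψ N
  have h₁ : ((B.bc ψ).twist N).chi = ((B.twist N).bc ψ).chi := e.chi_eq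
  have h₂ := (B.bc ψ).chi_twist N
  have h₃ := ((B.twist N).bc ψ).chi_of_nonspecial (Nonspecial.bc ψ h)
  have h₄ : Module.finrank L ((B.twist N).bc ψ).H0 =
      Module.rankAtStalk (B.twist N).H0 (pointOf ψ) := finrank_H0_bc ψ h
  rw [h₁, h₃, h₄, mapDegree_baseChange] at h₂
  linarith

/-- A bundle class has an Euler characteristic. -/
noncomputable def chiCls {K : Type u} [Field K] {S : TwoChart K} [CurveLike S] (c : Cls S) : ℤ :=
  Quotient.lift (fun B => B.chi) (fun _ _ (h : Nonempty (Iso _ _)) => h.elim fun e => (Iso.chi_eq e).symm) c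

/-- The Euler characteristic of the class of a bundle. -/
theorem chiCls_cls {K : Type u} [Field K] {S : TwoChart K} [CurveLike S] (B : Bundle S) :
    chiCls B.cls = B.chi := rfl

/-- A bundle class has a degree. -/
noncomputable def degCls {K : Type u} [Field K] {S : TwoChart K} [CurveLike S] (c : Cls S) : ℤ :=
  chiCls c - chiCls (1 : Cls S)

/-- The degree of the class of a bundle. -/
theorem degCls_cls {K : Type u} [Field K] {S : TwoChart K} [CurveLike S] (B : Bundle S) :
    degCls B.cls = B.deg := rfl

/-- The trivial class has degree zero. -/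
theorem degCls_one {K : Type u} [Field K] {S : TwoChart K} [CurveLike S] :
    degCls (1 : Cls S) = 0 := sub_self _

theorem chiCls_one_bc (ψ : R →ₐ[k] L) :
    chiCls (1 : Cls (T.baseChange L)) = chiCls (bcCls ψ (1 : Cls (T.baseChange R))) := by
  rw [map_one]

/-- The Euler characteristic of the trivial bundle does not depend on the field. -/
theorem chiCls_one_eq :
    chiCls (1 : Cls (T.baseChange L)) = chiCls (1 : Cls (T.baseChange k)) := by
  obtain ⟨f, -, hf⟩ := exists_chi_locallyConstant (trivial (T.baseChange k))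
  rw [chiCls_one_bc (Algebra.ofId k L), chiCls_one_bc (AlgHom.id k k), ← cls_trivial,
    bcCls_cls, bcCls_cls, chiCls_cls, chiCls_cls, hf, hf]
  exact congrArg f (PrimeSpectrum.ext ((Ideal.eq_bot_of_prime _).trans (Ideal.eq_bot_of_prime _).symm))

/-- The degree of the fibres is locally constant. -/
theorem exists_deg_locallyConstant (c : Cls (T.baseChange R)) :
    ∃ f : PrimeSpectrum R → ℤ, IsLocallyConstant f ∧
      ∀ (L : Type u) [Field L] [Algebra k L] (ψ : R →ₐ[k] L),
        degCls (bcCls ψ c) = f (pointOf ψ) := by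
  obtain ⟨B, rfl⟩ := exists_cls_eq c
  obtain ⟨f, hf, hf'⟩ := exists_chi_locallyConstant B
  refine ⟨fun p => f p - chiCls (1 : Cls (T.baseChange k)),
    hf.comp (fun z : ℤ => z - chiCls (1 : Cls (T.baseChange k))), fun L _ _ ψ => ?_⟩
  rw [degCls, chiCls_one_eq, bcCls_cls, chiCls_cls, hf']

/-- The degree only depends on the point. -/
theorem degCls_bc_eq (c : Cls (T.baseChange R)) (ψ : R →ₐ[k] L) (ψ' : R →ₐ[k] L')
    (h : pointOf ψ = pointOf ψ') : degCls (bcCls ψ c) = degCls (bcCls ψ' c) := by
  obtain ⟨f, -, hf⟩ := exists_deg_locallyConstant c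
  rw [hf, hf, h]

/-- The degree is invariant under field extensions. -/
theorem degCls_bc_field (c : Cls (T.baseChange L)) (φ : L →ₐ[k] L') :
    degCls (bcCls φ c) = degCls c := by
  conv_rhs => rw [← bcCls_id c]
  exact degCls_bc_eq c φ (AlgHom.id k L) (PrimeSpectrum.ext
    (((RingHom.ker φ.toRingHom).eq_bot_or_top.resolve_right (RingHom.ker_ne_top _)).trans
      (((RingHom.ker (AlgHom.id k L).toRingHom).eq_bot_or_top.resolve_right
        (RingHom.ker_ne_top _))).symm))

/-- Degree zero on every fibre. -/
def IsDegZero (c : Cls (T.baseChange R)) : Prop :=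
  ∀ (L : Type u) [Field L] [Algebra k L] (ψ : R →ₐ[k] L), degCls (bcCls ψ c) = 0

/-- The trivial family has degree zero. -/
theorem isDegZero_one : IsDegZero (1 : Cls (T.baseChange R)) := fun L _ _ ψ => by
  rw [map_one, degCls_one]

/-- Fibrewise degree zero is stable under base change. -/
theorem IsDegZero.bc {c : Cls (T.baseChange R)} (h : IsDegZero c) (φ : R →ₐ[k] R') :
    IsDegZero (bcCls φ c) := fun L _ _ ψ => by
  rw [bcCls_comp]; exact h L _

/-- Over a field fibrewise degree zero means degree zero. -/
theorem isDegZero_field_iff (c : Cls (T.baseChange L)) : IsDegZero c ↔ degCls c = 0 := by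
  refine ⟨fun h => ?_, fun h L' _ _ ψ => (degCls_bc_field c ψ).trans h⟩
  simpa [bcCls_id] using h L (AlgHom.id k L)

/-- The genus. -/
noncomputable def genus (T : TwoChart k) [CurveLike T] : ℕ :=
  Module.finrank k (trivial (T.baseChange k)).H1

theorem finrank_H0_trivial [Nontrivial T.P] (hT : T.HasConstantSections) :
    Module.finrank L (trivial (T.baseChange L)).H0 = 1 := by
  have hmem : ((1, 1) : (trivial (T.baseChange L)).MP × (trivial (T.baseChange L)).MQ) ∈
      (trivial (T.baseChange L)).H0 := mem_H0_trivial.2 (by rw [map_one, map_one])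
  refine finrank_eq_one ⟨(1, 1), hmem⟩ ?_ ?_
  · intro h
    have := congrArg (fun z : (trivial (T.baseChange L)).H0 => z.1.1) h
    have hP : Nontrivial (L ⊗[k] T.P) := by
      refine ⟨⟨1, 0, fun h10 => ?_⟩⟩
      have := Algebra.TensorProduct.includeRight_injective (R := k) (A := L) (B := T.P)
        (FaithfulSMul.algebraMap_injective k L) (a₁ := 1) (a₂ := 0)
      exact one_ne_zero (this (by rw [map_one, map_zero]; exact h10))
    exact one_ne_zero (α := L ⊗[k] T.P) this
  · rintro ⟨⟨p, q⟩, hpq⟩
    obtain ⟨r, hp, hq⟩ := hT.baseChange (R := L) p q (mem_H0_trivial.1 hpq)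
    refine ⟨r, Subtype.ext ?_⟩
    rw [Submodule.coe_smul]
    exact Prod.ext ((Algebra.algebraMap_eq_smul_one r).symm.trans hp.symm)
      ((Algebra.algebraMap_eq_smul_one r).symm.trans hq.symm)

/-- Riemann's formula for the Euler characteristic in terms of the degree and the genus. -/
theorem chiCls_eq [Nontrivial T.P] (hT : T.HasConstantSections) (c : Cls (T.baseChange L)) :
    chiCls c = degCls c + 1 - genus T := by
  have h : chiCls (1 : Cls (T.baseChange k)) = 1 - genus T := by
    rw [← cls_trivial, chiCls_cls, chi, LinearMap.index_eq_finrank_sub, genus,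
      finrank_H0_trivial hT]
    rfl
  rw [degCls, chiCls_one_eq, h]
  ring

end Bundle

end Fermat.Agent.RelJac
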