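import Fermat.Agent.RelJac.Bridge.Model
import Fermat.Agent.RelJac.DegreeFamily
import Mathlib.AlgebraicGeometry.ResidueField
import Mathlib.Topology.Connected.Clopen

/-!
The degree of an invertible module on a family of curves at the field valued points of the base;
it is constant on connected bases.
-/

noncomputable section

universe u

open CategoryTheory CategoryTheory.Limits AlgebraicGeometry TopologicalSpace NeronModelInfra
open AlgebraicGeometry.RelPicard
open scoped TensorProduct

namespace Fermat.Agent.RelJac

open Sheaf (specOver)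

/-- A morphism of spectra over the base comes from an algebra map. -/
theorem exists_specHom {k R R' : Type u} [CommRing k] [CommRing R] [Algebra k R] [CommRing R']
    [Algebra k R'] (g : SchemeHomOver (specOver (k := k) R') (specOver (k := k) R)) :
    ∃ ψ : R →ₐ[k] R', g = specHom ψ := by
  have hψ : ∀ r, (Spec.preimage g.1).hom (algebraMap k R r) = algebraMap k R' r := fun r => by
    have h : CommRingCat.ofHom (algebraMap k R) ≫ Spec.preimage g.1 =
        CommRingCat.ofHom (algebraMap k R') :=
      Spec.map_injective (by rw [Spec.map_comp, Spec.map_preimage]; exact g.2)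
    exact congrArg (fun φ : CommRingCat.of k ⟶ CommRingCat.of R' => φ.hom r) h
  exact ⟨{ (Spec.preimage g.1).hom with commutes' := hψ }, Subtype.ext (Spec.map_preimage g.1).symm⟩

/-- Every morphism of an affine scheme to the spectrum of the base makes its ring an algebra. -/
theorem exists_algebra_specOver {k R : Type u} [CommRing k] [CommRing R]
    (f : Spec (CommRingCat.of R) ⟶ Spec (CommRingCat.of k)) :
    ∃ a : Algebra k R, @specOver k _ R _ a = f :=
  ⟨(Spec.preimage f).hom.toAlgebra, Spec.map_preimage f⟩

namespace CurveModel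

variable {k : Type u} [Field k] {C : Scheme.{u}} {c : C ⟶ Spec (CommRingCat.of k)}
  {ε : SchemeHomOver (𝟙 (Spec (CommRingCat.of k))) c} (D : CurveModel c ε)
  {T T' : Scheme.{u}} {t : T ⟶ Spec (CommRingCat.of k)} {t' : T' ⟶ Spec (CommRingCat.of k)}

/-- The degree of a module on `C × T` at a field valued point of `T`. -/
def degAt {M : (pullback c t).Modules} (hM : Scheme.Modules.IsInvertible M) {L : Type u} [Field L]
    [Algebra k L] (y : SchemeHomOver (specOver (k := k) L) t) : ℤ :=
  Bundle.degCls (D.clsOf ((Scheme.Modules.pullback (baseChangeSnd c y)).obj M) (hM.pullback _))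

/-- Isomorphic modules have the same degree at every point. -/
theorem degAt_congr {M N : (pullback c t).Modules} (hM : Scheme.Modules.IsInvertible M)
    (hN : Scheme.Modules.IsInvertible N) (e : M ≅ N) {L : Type u} [Field L] [Algebra k L]
    (y : SchemeHomOver (specOver (k := k) L) t) : D.degAt hM y = D.degAt hN y :=
  congrArg Bundle.degCls (D.clsOf_congr _ _ ((Scheme.Modules.pullback _).mapIso e))

/-- The structure sheaf has degree zero. -/
theorem degAt_unit {L : Type u} [Field L] [Algebra k L]
    (y : SchemeHomOver (specOver (k := k) L) t) :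
    D.degAt (Scheme.Modules.isInvertible_unit (pullback c t)) y = 0 := by
  unfold degAt
  rw [D.clsOf_congr _ (Scheme.Modules.isInvertible_unit _)
    (Scheme.Modules.pullbackUnitIso _), D.clsOf_unit, Bundle.degCls_one]

/-- The degree is compatible with base change of the family. -/
theorem degAt_pullback {M : (pullback c t).Modules} (hM : Scheme.Modules.IsInvertible M)
    (g : SchemeHomOver t' t) {L : Type u} [Field L] [Algebra k L]
    (y : SchemeHomOver (specOver (k := k) L) t') :
    D.degAt (hM.pullback (baseChangeSnd c g)) y = D.degAt hM (postComp g y) :=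
  congrArg Bundle.degCls (D.clsOf_congr _ _
    ((Scheme.Modules.pullbackComp _ _).app M ≪≫
      (Scheme.Modules.pullbackCongr (baseChangeSnd_comp c g y)).app M))

theorem degAt_specHom {M : (pullback c t).Modules} (hM : Scheme.Modules.IsInvertible M)
    {R : Type u} [CommRing R] [Algebra k R] (g : SchemeHomOver (specOver (k := k) R) t) {L : Type u}
    [Field L] [Algebra k L] (ψ : R →ₐ[k] L) :
    D.degAt hM (postComp g (specHom ψ)) =
      Bundle.degCls (Bundle.bcCls ψ (D.clsOf _ (hM.pullback (baseChangeSnd c g)))) := by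
  rw [← D.degAt_pullback hM g (specHom ψ)]
  unfold degAt
  rw [D.clsOf_pullback ψ]

/-- The degree is invariant under extensions of the field. -/
theorem degAt_extend {M : (pullback c t).Modules} (hM : Scheme.Modules.IsInvertible M)
    {L L' : Type u} [Field L] [Algebra k L] [Field L'] [Algebra k L'] (ψ : L →ₐ[k] L')
    (y : SchemeHomOver (specOver (k := k) L) t) :
    D.degAt hM (postComp y (specHom ψ)) = D.degAt hM y := by
  rw [degAt_specHom, Bundle.degCls_bc_field]
  rfl

/-- A field valued point through the residue field of its image. -/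
theorem exists_residue_point {L : Type u} [Field L] [Algebra k L]
    (y : SchemeHomOver (specOver (k := k) L) t)
    (a : Algebra k (T.residueField (y.1 (IsLocalRing.closedPoint L))))
    (ha : specOver (k := k) (T.residueField (y.1 (IsLocalRing.closedPoint L))) =
      T.fromSpecResidueField (y.1 (IsLocalRing.closedPoint L)) ≫ t) :
    ∃ ψ, y = postComp (⟨T.fromSpecResidueField _, ha.symm⟩ :
      SchemeHomOver (specOver (k := k) (T.residueField (y.1 (IsLocalRing.closedPoint L)))) t)
        (specHom ψ) := by
  let g : Spec (CommRingCat.of L) ⟶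
      Spec (CommRingCat.of (T.residueField (y.1 (IsLocalRing.closedPoint L)))) :=
    Spec.map (T.descResidueField (Scheme.stalkClosedPointTo y.1))
  have hg : g ≫ T.fromSpecResidueField _ = y.1 :=
    Scheme.descResidueField_stalkClosedPointTo_fromSpecResidueField L T y.1
  have hg' : g ≫ specOver (k := k) (T.residueField (y.1 (IsLocalRing.closedPoint L))) =
      specOver (k := k) L := by
    rw [ha, ← Category.assoc, hg, y.2]
  obtain ⟨ψ, hψ⟩ := exists_specHom (k := k)
    (R := T.residueField (y.1 (IsLocalRing.closedPoint L))) (R' := L) ⟨g, hg'⟩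
  exact ⟨ψ, Subtype.ext (by rw [← hψ]; exact hg.symm)⟩

/-- Over a connected base the degree vanishes everywhere if it vanishes somewhere. -/
theorem degAt_eq_zero_of_connected [PreconnectedSpace T] {M : (pullback c t).Modules}
    (hM : Scheme.Modules.IsInvertible M) {L₀ : Type u} [Field L₀] [Algebra k L₀]
    (y₀ : SchemeHomOver (specOver (k := k) L₀) t) (h₀ : D.degAt hM y₀ = 0) {L : Type u} [Field L]
    [Algebra k L] (y : SchemeHomOver (specOver (k := k) L) t) : D.degAt hM y = 0 := by
  choose aα hα using fun p : T => exists_algebra_specOver (R := T.residueField p)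
    (T.fromSpecResidueField p ≫ t)
  let ρ := fun p : T =>
    (⟨T.fromSpecResidueField p, (hα p).symm⟩ :
      SchemeHomOver (@specOver k _ (T.residueField p) _ (aα p)) t)
  let S : Set T := {p | @degAt k _ C c ε D T t M hM (T.residueField p) _ (aα p) (ρ p) = 0}
  have hres : ∀ {L : Type u} [Field L] [Algebra k L] (y : SchemeHomOver (specOver (k := k) L) t),
      D.degAt hM y = 0 ↔ y.1 (IsLocalRing.closedPoint L) ∈ S := by
    intro L _ _ y
    obtain ⟨ψ, hψ⟩ := exists_residue_point y (aα _) (hα _)
    conv_lhs => rw [hψ]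
    exact iff_of_eq (congrArg (· = 0) (@degAt_extend k _ C c ε D T t M hM
      (T.residueField (y.1 (IsLocalRing.closedPoint L))) L _
      (aα (y.1 (IsLocalRing.closedPoint L))) _ _ ψ _))
  suffices hS : IsClopen S by
    rw [hres]
    rcases isClopen_iff.1 hS with h | h
    · exact absurd ((hres y₀).1 h₀) (by rw [h]; exact id)
    · rw [h]; exact Set.mem_univ _
  suffices H : ∀ p : T, ∃ (V : T.Opens) (f : T → ℤ), p ∈ V ∧ ContinuousOn f V ∧
      ∀ q ∈ V, (q ∈ S ↔ f q = 0) by
    refine ⟨isOpen_compl_iff.1 (isOpen_iff_mem_nhds.2 fun p hp => ?_),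
      isOpen_iff_mem_nhds.2 fun p hp => ?_⟩
    · obtain ⟨V, f, hpV, hf, hVS⟩ := H p
      refine Filter.mem_of_superset ((hf.isOpen_inter_preimage V.2
        (isOpen_discrete {z : ℤ | z ≠ 0})).mem_nhds ⟨hpV, fun h => hp ((hVS p hpV).2 h)⟩) ?_
      exact fun q hq h => hq.2 ((hVS q hq.1).1 h)
    · obtain ⟨V, f, hpV, hf, hVS⟩ := H p
      refine Filter.mem_of_superset ((hf.isOpen_inter_preimage V.2
        (isOpen_discrete {z : ℤ | z = 0})).mem_nhds ⟨hpV, (hVS p hpV).1 hp⟩) ?_
      exact fun q hq => (hVS q hq.1).2 hq.2
  intro p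
  obtain ⟨_, ⟨V, hV, rfl⟩, hpV, -⟩ :=
    T.isBasis_affineOpens.exists_subset_of_mem_open (Set.mem_univ p) isOpen_univ
  obtain ⟨aV, haV⟩ := exists_algebra_specOver (R := Γ(T, V)) (hV.fromSpec ≫ t)
  let g : SchemeHomOver (specOver (k := k) Γ(T, V)) t := ⟨hV.fromSpec, haV.symm⟩
  obtain ⟨f, hf, hf'⟩ := Bundle.exists_deg_locallyConstant
    (D.clsOf _ (hM.pullback (baseChangeSnd c g)))
  classical
  let fT : T → ℤ := fun q => if hq : q ∈ V then f (hV.primeIdealOf ⟨q, hq⟩) else 0
  refine ⟨V, fT, hpV, ?_, fun q hq => ?_⟩
  · rw [continuousOn_iff_continuous_domRestrict]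
    have h : (V : Set T).domRestrict fT = f ∘ fun q => hV.primeIdealOf q := funext fun q => dif_pos q.2
    rw [h]
    exact hf.continuous.comp hV.isoSpec.hom.continuous
  · have hfq : fT q = f (hV.primeIdealOf ⟨q, hq⟩) := dif_pos hq
    let P : PrimeSpectrum Γ(T, V) := hV.primeIdealOf ⟨q, hq⟩
    let ψ : Γ(T, V) →ₐ[k] P.asIdeal.ResidueField :=
      IsScalarTower.toAlgHom k Γ(T, V) P.asIdeal.ResidueField
    have hP : Bundle.pointOf ψ = P := PrimeSpectrum.ext (by
      simp [Bundle.pointOf, ψ, Ideal.ker_algebraMap_residueField])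
    have hpt : (postComp g (specHom ψ)).1 (IsLocalRing.closedPoint P.asIdeal.ResidueField) = q := by
      change hV.fromSpec (PrimeSpectrum.comap ψ.toRingHom (IsLocalRing.closedPoint _)) = q
      have : PrimeSpectrum.comap ψ.toRingHom
          (IsLocalRing.closedPoint P.asIdeal.ResidueField) = P := by
        refine PrimeSpectrum.ext ?_
        change (IsLocalRing.maximalIdeal _).comap ψ.toRingHom = _
        rw [IsLocalRing.maximalIdeal_eq_bot]
        exact congrArg PrimeSpectrum.asIdeal hP
      rw [this]
      exact hV.fromSpec_primeIdealOf ⟨q, hq⟩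
    have h := hres (postComp g (specHom ψ))
    rw [hpt, degAt_specHom, hf', hP] at h
    rw [hfq]
    exact h.symm

end CurveModel

end Fermat.Agent.RelJac
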