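import Fermat.Agent.RelJac.SectionDegree
import Fermat.Agent.RelJac.DegreeFamily
import Fermat.Agent.RelJac.DomainTensor
import Mathlib.RingTheory.Localization.Basic

/-!
Effective bundles of degree zero are trivial, bundles of large degree have no `H¹`, and the degree
is a homomorphism on classes, also in families.
-/

open scoped TensorProduct

namespace Fermat.Agent.RelJac

universe u

open CurveLike (x y)

/-- The overlap ring of a curve-like space is a domain if the first chart ring is one. -/
theorem CurveLike.isDomain_L {R : Type u} [CommRing R] (T : TwoChart R) [CurveLike T]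
    [IsDomain T.P] : IsDomain T.L := by
  refine IsLocalization.isDomain_of_le_nonZeroDivisors (R := T.P)
    (M := Submonoid.powers (x (T := T))) T.L ?_
  rintro _ ⟨n, rfl⟩
  exact ((CurveLike.shiftP T).isRegular.pow n).mem_nonZeroDivisors

namespace Bundle

section Field

variable {K : Type u} [Field K] {T : TwoChart K} [CurveLike T] [IsDomain T.P] [IsDomain T.Q]
  [IsDomain T.L] {B : Bundle T} {s : B.H0}

omit [IsDomain T.P] [IsDomain T.L] in
theorem finrank_cokerL_le_cokerQ (hs : s ≠ 0) :
    Module.finrank K (cokerL B s) ≤ Module.finrank K (cokerQ B s) := by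
  let s' : B.swap.H0 := ⟨(s.1.2, s.1.1), B.swap.mem_H0.2 (B.mem_H0.1 s.2).symm⟩
  have hs' : s' ≠ 0 := fun h =>
    (section_ne_zero hs).2.1 (congrArg (fun z : B.swap.H0 => z.1.1) h)
  have h := finrank_cokerL_le hs'
  have e : Submodule.span T.L {B.iq s.1.2} = Submodule.span T.L {B.ip s.1.1} := by
    rw [B.mem_H0.1 s.2]
  rw [← ((Submodule.quotEquivOfEq _ _ e).restrictScalars K).finrank_eq]
  exact h

/-- A bundle of degree zero with a nonzero section is trivial. -/
theorem cls_eq_one_of_deg_eq_zero (hs : s ≠ 0) (h : B.deg = 0) : B.cls = 1 := by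
  obtain ⟨hP, hQ, hL⟩ := section_ne_zero hs
  have := SectionAlgebra.finite_quotient (A := T.P) (CurveLike.finiteFibresP (T := T)) hP
  have := SectionAlgebra.finite_quotient (A := T.Q) (CurveLike.finiteFibresQ (T := T)) hQ
  have := SectionAlgebra.finite_quotient (A := T.L) (CurveLike.finiteFibresL (T := T)) hL
  have h₁ := finrank_cokerL_le hs
  have h₂ := finrank_cokerL_le_cokerQ hs
  rw [deg_eq_of_section hs] at h
  have h0P : Subsingleton (cokerP B s) := (Module.finrank_zero_iff (R := K)).1 (by omega)
  have h0Q : Subsingleton (cokerQ B s) := (Module.finrank_zero_iff (R := K)).1 (by omega)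
  have h0L : Subsingleton (cokerL B s) := (Module.finrank_zero_iff (R := K)).1 (by omega)
  have bP : Function.Bijective (LinearMap.toSpanSingleton T.P B.MP s.1.1) :=
    Module.Invertible.bijective_of_surjective (LinearMap.range_eq_top.1
      ((LinearMap.range_toSpanSingleton _).trans (Submodule.Quotient.subsingleton_iff.1 h0P)))
  have bQ : Function.Bijective (LinearMap.toSpanSingleton T.Q B.MQ s.1.2) :=
    Module.Invertible.bijective_of_surjective (LinearMap.range_eq_top.1
      ((LinearMap.range_toSpanSingleton _).trans (Submodule.Quotient.subsingleton_iff.1 h0Q)))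
  have bL : Function.Bijective (LinearMap.toSpanSingleton T.L B.ML (B.ip s.1.1)) :=
    Module.Invertible.bijective_of_surjective (LinearMap.range_eq_top.1
      ((LinearMap.range_toSpanSingleton _).trans (Submodule.Quotient.subsingleton_iff.1 h0L)))
  refine (cls_eq_iff.2 ⟨?_⟩).symm.trans cls_trivial
  exact
    ({ eP := LinearEquiv.ofBijective _ bP
       eQ := LinearEquiv.ofBijective _ bQ
       eL := LinearEquiv.ofBijective _ bL
       commP := fun p => by
        simp [algebraMap_smul]
       commQ := fun q => by
        simp [algebraMap_smul, B.mem_H0.1 s.2] } : Iso (trivial T) B)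

omit [IsDomain T.P] [IsDomain T.Q] [IsDomain T.L] in
theorem cls_deg_congr {B B' : Bundle T} (h : B.cls = B'.cls) : B.deg = B'.deg := by
  rw [← degCls_cls, h, degCls_cls]

/-- The degree is additive on classes. -/
theorem degCls_mul (a b : Cls T) : degCls (a * b) = degCls a + degCls b := by
  obtain ⟨A, rfl⟩ := exists_cls_eq a
  obtain ⟨B, rfl⟩ := exists_cls_eq b
  rw [← cls_tensor, degCls_cls, degCls_cls, degCls_cls, deg_tensor]

/-- The degree of an inverse is the negative of the degree. -/
theorem degCls_inv (a : Cls T) : degCls a⁻¹ = -degCls a := by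
  have h := degCls_mul a a⁻¹
  rw [mul_inv_cancel, degCls_one] at h
  linarith

/-- Bundles of large degree have no `H¹`. -/
theorem exists_deg_nonspecial : ∃ d₀ : ℤ, ∀ B : Bundle T, d₀ ≤ B.deg → B.Nonspecial := by
  obtain ⟨N, hN⟩ := (trivial T).exists_twist_nonspecial
  refine ⟨((trivial T).twist N).deg - (trivial T).chi + 1, fun B hB => ?_⟩
  obtain ⟨M, hM⟩ := exists_cls_eq (B.cls * ((trivial T).twist N).cls⁻¹)
  have hcls : (((trivial T).twist N).tensor M).cls = B.cls := by
    rw [cls_tensor, hM, mul_comm B.cls, mul_inv_cancel_left]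
  have hdeg := cls_deg_congr hcls
  rw [deg_tensor] at hdeg
  obtain ⟨t, ht⟩ := exists_section_of_chi_pos (B' := M) (by
    simp only [deg] at hdeg hB
    linarith)
  obtain ⟨e⟩ := cls_eq_iff.1 hcls
  exact e.nonspecial_iff.1 ((hN N le_rfl).tensor_section ht)

end Field

section Family

variable {k : Type u} [Field k] [IsAlgClosed k] {T : TwoChart k} [CurveLike T] [IsDomain T.P]
  [IsDomain T.Q] [Algebra.FiniteType k T.P] [Algebra.FiniteType k T.Q]
  {R : Type u} [CommRing R] [Algebra k R]

/-- The rings of a base change to a domain are domains. -/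
theorem isDomain_baseChange (L : Type u) [CommRing L] [IsDomain L] [Algebra k L] :
    IsDomain (T.baseChange L).P ∧ IsDomain (T.baseChange L).Q ∧ IsDomain (T.baseChange L).L := by
  have hP : IsDomain (T.baseChange L).P := isDomain_tensorProduct (k := k) (A := T.P) L
  exact ⟨hP, isDomain_tensorProduct (k := k) (A := T.Q) L, CurveLike.isDomain_L (T.baseChange L)⟩

theorem degCls_baseChange_mul {L : Type u} [Field L] [Algebra k L]
    (a b : Cls (T.baseChange L)) : degCls (a * b) = degCls a + degCls b := by
  obtain ⟨_, _, _⟩ := isDomain_baseChange (T := T) L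
  exact degCls_mul a b

/-- Products of classes of degree zero have degree zero. -/
theorem IsDegZero.mul {a b : Cls (T.baseChange R)} (ha : IsDegZero a) (hb : IsDegZero b) :
    IsDegZero (a * b) := fun L _ _ ψ => by
  rw [map_mul, degCls_baseChange_mul, ha L ψ, hb L ψ, add_zero]

/-- Inverses of classes of degree zero have degree zero. -/
theorem IsDegZero.inv {a : Cls (T.baseChange R)} (ha : IsDegZero a) : IsDegZero a⁻¹ :=
  fun L _ _ ψ => by
  obtain ⟨_, _, _⟩ := isDomain_baseChange (T := T) L
  rw [map_inv, degCls_inv, ha L ψ, neg_zero]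

end Family

end Bundle

end Fermat.Agent.RelJac
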