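import Mathlib.Algebra.Module.LinearMap.Index
import Mathlib.LinearAlgebra.TensorProduct.Quotient
import Mathlib.RingTheory.Artinian.Ring
import Fermat.Agent.RelJac.Twist

/-!
The Euler characteristic and the degree of a bundle over a field.
-/

open scoped TensorProduct Pointwise

namespace Fermat.Agent.RelJac

universe u

variable {K : Type u} [Field K] {T : TwoChart K} [CurveLike T]

namespace CurveLike

variable (T)

/-- The ring of functions on the fibre `y = 0`. -/
abbrev fibreInf : Type u := T.Q ⧸ Ideal.span {y (T := T)}

/-- Coordinates of level zero. -/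
noncomputable def levelZero : T.Q →ₗ[K] (ιQ (T := T) → K) :=
  LinearMap.pi fun i => (Finsupp.lapply (i, 0)).comp (basisQ (T := T)).repr.toLinearMap

theorem levelZero_surjective : Function.Surjective (levelZero T) := fun c => by
  classical
  refine ⟨∑ i, c i • basisQ (T := T) (i, 0), funext fun j => ?_⟩
  simp [levelZero, Finsupp.single_apply]

theorem ker_levelZero :
    LinearMap.ker (levelZero T) = (Ideal.span {y (T := T)}).restrictScalars K := by
  refine Submodule.ext fun q => ?_
  rw [LinearMap.mem_ker, Submodule.restrictScalars_mem, Ideal.mem_span_singleton]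
  constructor
  · intro hq
    rw [← (basisQ (T := T)).linearCombination_repr q, Finsupp.linearCombination_apply]
    refine Finset.dvd_sum fun a ha => ?_
    obtain ⟨i, m⟩ := a
    rcases m with _ | m
    · exact absurd (congrFun hq i) (Finsupp.mem_support_iff.1 ha)
    · dsimp only
      rw [basisQ_succ, Algebra.smul_def, mul_left_comm]
      exact dvd_mul_right _ _
  · rintro ⟨b, rfl⟩
    classical
    suffices (levelZero T).comp (LinearMap.mulLeft K (y (T := T))) = 0 from LinearMap.congr_fun this b
    refine (basisQ (T := T)).ext fun ⟨j, l⟩ => funext fun i => ?_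
    simp [levelZero, ← basisQ_succ]

/-- The fibre at infinity has dimension the number of basis series. -/
noncomputable def fibreInfEquiv : fibreInf T ≃ₗ[K] (ιQ (T := T) → K) :=
  (Submodule.Quotient.restrictScalarsEquiv K _).symm.trans <|
    (Submodule.quotEquivOfEq _ _ (ker_levelZero T).symm).trans <|
      (levelZero T).quotKerEquivOfSurjective (levelZero_surjective T)

instance finite_fibreInf : Module.Finite K (fibreInf T) :=
  Module.Finite.equiv (fibreInfEquiv T).symm

theorem finrank_fibreInf : Module.finrank K (fibreInf T) = Fintype.card (ιQ (T := T)) := by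
  rw [(fibreInfEquiv T).finrank_eq, Module.finrank_pi]

/-- The degree of the map to the projective line. -/
noncomputable abbrev mapDegree : ℕ := Fintype.card (ιQ (T := T))

end CurveLike

namespace Bundle

open CurveLike (y)

variable (B : Bundle T)

/-- The Euler characteristic. -/
noncomputable def chi : ℤ := B.d.index

/-- The degree. -/
noncomputable def deg : ℤ := B.chi - (trivial T).chi

instance finite_H0' : Module.Finite K B.H0 := B.finite_H0_of_noetherian

omit [CurveLike T] in
/-- If `H¹ = 0` the Euler characteristic is the dimension of `H⁰`. -/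
theorem chi_of_nonspecial (h : B.Nonspecial) : B.chi = Module.finrank K B.H0 :=
  LinearMap.index_of_surjective h

omit [CurveLike T] in
/-- The Euler characteristic is at most the dimension of `H⁰`. -/
theorem chi_le : B.chi ≤ Module.finrank K B.H0 := by
  rw [chi, LinearMap.index_eq_finrank_sub]
  exact Int.sub_le_self _ (Int.natCast_nonneg _)

theorem nonspecial_iff_finrank_H1 : B.Nonspecial ↔ Module.finrank K B.H1 = 0 := by
  rw [Module.finrank_zero_iff, Submodule.Quotient.subsingleton_iff, LinearMap.range_eq_top]
  rfl

/-- The Euler characteristic is the dimension of `H⁰` exactly when `H¹ = 0`. -/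
theorem chi_eq_finrank_H0_iff : B.chi = Module.finrank K B.H0 ↔ B.Nonspecial := by
  rw [nonspecial_iff_finrank_H1, chi, LinearMap.index_eq_finrank_sub, sub_eq_self,
    Int.natCast_eq_zero]

/-- How the Euler characteristic changes along an injective morphism. -/
theorem Hom.chi_eq {B B' : Bundle T} (f : Hom B B') (hP : Function.Injective f.fP)
    (hQ : Function.Injective f.fQ) (hL : Function.Injective f.fL)
    [FiniteDimensional K (B'.MP ⧸ LinearMap.range (f.fP.restrictScalars K))]
    [FiniteDimensional K (B'.MQ ⧸ LinearMap.range (f.fQ.restrictScalars K))]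
    [FiniteDimensional K (B'.ML ⧸ LinearMap.range (f.fL.restrictScalars K))] :
    B'.chi = B.chi + Module.finrank K (B'.MP ⧸ LinearMap.range (f.fP.restrictScalars K)) +
      Module.finrank K (B'.MQ ⧸ LinearMap.range (f.fQ.restrictScalars K)) -
      Module.finrank K (B'.ML ⧸ LinearMap.range (f.fL.restrictScalars K)) := by
  let e : ((B'.MP × B'.MQ) ⧸ LinearMap.range f.f0) ≃ₗ[K]
      (B'.MP ⧸ LinearMap.range (f.fP.restrictScalars K)) ×
        (B'.MQ ⧸ LinearMap.range (f.fQ.restrictScalars K)) :=
    (Submodule.quotEquivOfEq _ _ (LinearMap.range_prodMap _ _)).trans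
      (LinearEquiv.ofBijective
        (Submodule.liftQ ((LinearMap.range (f.fP.restrictScalars K)).prod
          (LinearMap.range (f.fQ.restrictScalars K)))
          ((Submodule.mkQ _).prodMap (Submodule.mkQ _)) (by
            rw [LinearMap.ker_prodMap, Submodule.ker_mkQ, Submodule.ker_mkQ]))
        ⟨by
          rw [← LinearMap.ker_eq_bot]
          refine Submodule.ker_liftQ_eq_bot _ _ _ ?_
          rw [LinearMap.ker_prodMap, Submodule.ker_mkQ, Submodule.ker_mkQ],
        by
          rw [← LinearMap.range_eq_top, Submodule.range_liftQ, LinearMap.range_prodMap,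
            Submodule.range_mkQ, Submodule.range_mkQ, Submodule.prod_top]⟩)
  have h0 : Function.Injective f.f0 := by
    rw [Hom.f0, LinearMap.coe_prodMap]
    exact hP.prodMap hQ
  have : FiniteDimensional K ((B'.MP × B'.MQ) ⧸ LinearMap.range f.f0) :=
    Module.Finite.equiv e.symm
  have : FiniteDimensional K (LinearMap.ker f.f0) := by
    rw [LinearMap.ker_eq_bot.2 h0]; infer_instance
  have hL' : Function.Injective (f.fL.restrictScalars K) := hL
  have : FiniteDimensional K (LinearMap.ker (f.fL.restrictScalars K)) := by
    rw [LinearMap.ker_eq_bot.2 hL']; infer_instance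
  have h₁ := LinearMap.index_comp (f := f.f0) B'.d
  have h₂ := LinearMap.index_comp (f := B.d) (f.fL.restrictScalars K)
  rw [f.d_comm, h₂, LinearMap.index_of_injective h0, LinearMap.index_of_injective hL',
    e.finrank_eq, Module.finrank_prod] at h₁
  rw [chi, chi]
  push_cast at h₁
  linarith

/-- The Euler characteristic is invariant under isomorphism. -/
theorem Iso.chi_eq {B B' : Bundle T} (e : Iso B B') : B'.chi = B.chi := by
  have hP : LinearMap.range (e.toHom.fP.restrictScalars K) = ⊤ :=
    LinearMap.range_eq_top.2 e.eP.surjective
  have hQ : LinearMap.range (e.toHom.fQ.restrictScalars K) = ⊤ :=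
    LinearMap.range_eq_top.2 e.eQ.surjective
  have hL : LinearMap.range (e.toHom.fL.restrictScalars K) = ⊤ :=
    LinearMap.range_eq_top.2 e.eL.surjective
  have := Submodule.Quotient.subsingleton_iff.2 hP
  have := Submodule.Quotient.subsingleton_iff.2 hQ
  have := Submodule.Quotient.subsingleton_iff.2 hL
  rw [e.toHom.chi_eq e.eP.injective e.eQ.injective e.eL.injective]
  simp [Module.finrank_zero_of_subsingleton]

/-- An invertible module restricted to the fibre at infinity is free of rank one. -/
noncomputable def quotientYEquiv :
    (B.MQ ⧸ (Ideal.span {y (T := T)} • (⊤ : Submodule T.Q B.MQ))) ≃ₗ[K] CurveLike.fibreInf T :=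
  haveI : IsArtinianRing (CurveLike.fibreInf T) := IsArtinianRing.of_finite K _
  haveI : Module.Free (CurveLike.fibreInf T) (CurveLike.fibreInf T ⊗[T.Q] B.MQ) := inferInstance
  let e : CurveLike.fibreInf T ≃ₗ[CurveLike.fibreInf T] CurveLike.fibreInf T ⊗[T.Q] B.MQ :=
    (Module.Invertible.free_iff_linearEquiv.1 inferInstance).some.symm
  ((TensorProduct.quotTensorEquivQuotSMul B.MQ (Ideal.span {y (T := T)})).symm.restrictScalars K).trans
    (e.symm.restrictScalars K)

theorem range_twistHom_fQ (n : ℕ) :
    LinearMap.range ((B.twistHom n.le_succ).fQ.restrictScalars K) =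
      (Ideal.span {y (T := T)} • (⊤ : Submodule T.Q B.MQ)).restrictScalars K := by
  refine Submodule.ext fun m => ?_
  rw [Submodule.restrictScalars_mem, Submodule.ideal_span_singleton_smul]
  simp only [twistHom, Nat.succ_sub le_rfl, Nat.sub_self, pow_one, Submodule.mem_smul_pointwise_iff_exists,
    LinearMap.mem_range, LinearMap.coe_restrictScalars, LinearMap.lsmul_apply, Submodule.mem_top,
    true_and]

/-- Twisting adds the degree of the map to the projective line. -/
theorem chi_twist (n : ℕ) : (B.twist n).chi = B.chi + n * CurveLike.mapDegree T := by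
  induction n with
  | zero => rw [B.twistZero.symm.chi_eq]; simp
  | succ n ih =>
    let f := B.twistHom n.le_succ
    have hP : LinearMap.range (f.fP.restrictScalars K) = ⊤ := LinearMap.range_id
    have hL : LinearMap.range (f.fL.restrictScalars K) = ⊤ := LinearMap.range_id
    have := Submodule.Quotient.subsingleton_iff.2 hP
    have := Submodule.Quotient.subsingleton_iff.2 hL
    let e : (B.MQ ⧸ LinearMap.range (f.fQ.restrictScalars K)) ≃ₗ[K] CurveLike.fibreInf T :=
      (Submodule.quotEquivOfEq _ _ (B.range_twistHom_fQ n)).trans
        ((Submodule.Quotient.restrictScalarsEquiv K _).trans B.quotientYEquiv)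
    have : FiniteDimensional K (B.MQ ⧸ LinearMap.range (f.fQ.restrictScalars K)) :=
      Module.Finite.equiv e.symm
    have hinj : Function.Injective f.fQ := by
      intro a b hab
      apply B.iq_injective
      have h := congrArg B.iq hab
      simp only [f, twistHom, LinearMap.lsmul_apply, map_smul] at h
      rw [← algebraMap_smul T.L (_ ^ _) (B.iq a), ← algebraMap_smul T.L (_ ^ _) (B.iq b), map_pow] at h
      rw [← B.cancel_y_pow (n.succ - n) (B.iq a), h, cancel_y_pow]
    rw [f.chi_eq Function.injective_id hinj Function.injective_id, ih, e.finrank_eq,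
      CurveLike.finrank_fibreInf]
    simp [Module.finrank_zero_of_subsingleton, CurveLike.mapDegree]
    ring

end Bundle

end Fermat.Agent.RelJac
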