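import Fermat.Agent.RelJac.EffectiveDegree

/-!
Sections not vanishing at prescribed points: they survive on suitable subbundles, and exist on
high twists.
-/

open scoped TensorProduct

namespace Fermat.Agent.RelJac

universe u

open CurveLike (x y)

section Generic

variable {K : Type u} [Field K] {A : Type u} [CommRing A] [Algebra K A] {M : Type u}
  [AddCommGroup M] [Module A M] [Module.Invertible A M]

/-- An invertible module has one-dimensional fibres at rational points. -/
noncomputable def fibreEquiv (φ : A →ₐ[K] K) [Module K M] [IsScalarTower K A M] :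
    (M ⧸ (RingHom.ker φ.toRingHom • (⊤ : Submodule A M))) ≃ₗ[K] K :=
  have hs : Function.Surjective φ := fun c => ⟨algebraMap K A c, φ.commutes c⟩
  let eA : (A ⧸ RingHom.ker φ.toRingHom) ≃ₐ[K] K := Ideal.quotientKerAlgEquivOfSurjective hs
  haveI : Module.Finite K (A ⧸ RingHom.ker φ.toRingHom) := Module.Finite.equiv eA.symm.toLinearEquiv
  haveI : IsArtinianRing (A ⧸ RingHom.ker φ.toRingHom) := IsArtinianRing.of_finite K _
  haveI : Module.Free (A ⧸ RingHom.ker φ.toRingHom)
      ((A ⧸ RingHom.ker φ.toRingHom) ⊗[A] M) := inferInstance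
  let e := (Module.Invertible.free_iff_linearEquiv.1
    (inferInstance : Module.Free (A ⧸ RingHom.ker φ.toRingHom)
      ((A ⧸ RingHom.ker φ.toRingHom) ⊗[A] M))).some
  (((TensorProduct.quotTensorEquivQuotSMul M (RingHom.ker φ.toRingHom)).symm.restrictScalars K).trans
    (e.restrictScalars K)).trans eA.toLinearEquiv

/-- An invertible module has an element nonzero at a given point. -/
theorem exists_not_mem_fibre (φ : A →ₐ[K] K) [Module K M] [IsScalarTower K A M] :
    ∃ m : M, m ∉ RingHom.ker φ.toRingHom • (⊤ : Submodule A M) := by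
  by_contra h
  push Not at h
  obtain ⟨z, hz⟩ := (fibreEquiv (M := M) φ).surjective 1
  obtain ⟨z, rfl⟩ := Submodule.Quotient.mk_surjective _ z
  rw [(Submodule.Quotient.mk_eq_zero _).2 (h z), map_zero] at hz
  exact zero_ne_one hz

end Generic

namespace Bundle

variable {K : Type u} [Field K] {T : TwoChart K} (B : Bundle T)

/-- The sections vanishing at a point of the first chart. -/
noncomputable def vanP (φ : T.P →ₐ[K] K) : Submodule K B.H0 :=
  ((RingHom.ker φ.toRingHom • (⊤ : Submodule T.P B.MP)).restrictScalars K).comap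
    ((LinearMap.fst K B.MP B.MQ).comp B.H0.subtype)

/-- The sections vanishing at a point of the second chart. -/
noncomputable def vanQ (φ : T.Q →ₐ[K] K) : Submodule K B.H0 :=
  ((RingHom.ker φ.toRingHom • (⊤ : Submodule T.Q B.MQ)).restrictScalars K).comap
    ((LinearMap.snd K B.MP B.MQ).comp B.H0.subtype)

/-- The sections vanishing at a point of the overlap. -/
noncomputable def vanL (φ : T.L →ₐ[K] K) : Submodule K B.H0 :=
  ((RingHom.ker φ.toRingHom • (⊤ : Submodule T.L B.ML)).restrictScalars K).comap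
    ((B.ip.restrictScalars K).comp ((LinearMap.fst K B.MP B.MQ).comp B.H0.subtype))

variable {B}

/-- Vanishing at a point of the first chart. -/
theorem mem_vanP {φ : T.P →ₐ[K] K} {s : B.H0} :
    s ∈ B.vanP φ ↔ s.1.1 ∈ RingHom.ker φ.toRingHom • (⊤ : Submodule T.P B.MP) := Iff.rfl

/-- Vanishing at a point of the second chart. -/
theorem mem_vanQ {φ : T.Q →ₐ[K] K} {s : B.H0} :
    s ∈ B.vanQ φ ↔ s.1.2 ∈ RingHom.ker φ.toRingHom • (⊤ : Submodule T.Q B.MQ) := Iff.rfl

/-- Vanishing at a point of the overlap. -/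
theorem mem_vanL {φ : T.L →ₐ[K] K} {s : B.H0} :
    s ∈ B.vanL φ ↔ B.ip s.1.1 ∈ RingHom.ker φ.toRingHom • (⊤ : Submodule T.L B.ML) := Iff.rfl

/-- The conditions at the marked points: some section does not vanish there. -/
def HasNonvanishing (B : Bundle T) {ι ι' : Type*} (φP : ι → (T.P →ₐ[K] K))
    (φQ : ι' → (T.Q →ₐ[K] K)) : Prop :=
  (∀ i, B.vanP (φP i) ≠ ⊤) ∧ ∀ j, B.vanQ (φQ j) ≠ ⊤

variable [CurveLike T]

/-- Vanishing at a point of the first chart is at most one condition. -/
theorem finrank_H0_le_vanP (φ : T.P →ₐ[K] K) :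
    Module.finrank K B.H0 ≤ Module.finrank K (B.vanP φ) + 1 := by
  let q : B.MP →ₗ[K] K := (fibreEquiv (M := B.MP) φ).toLinearMap.comp
    ((Submodule.mkQ (RingHom.ker φ.toRingHom • (⊤ : Submodule T.P B.MP))).restrictScalars K)
  let f : B.H0 →ₗ[K] K := q.comp ((LinearMap.fst K B.MP B.MQ).comp B.H0.subtype)
  have hker : LinearMap.ker f = B.vanP φ := by
    ext s
    rw [LinearMap.mem_ker, mem_vanP]
    exact (map_eq_zero_iff _ (fibreEquiv (M := B.MP) φ).injective).trans
      (Submodule.Quotient.mk_eq_zero _)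
  have h := f.finrank_range_add_finrank_ker
  have h' : Module.finrank K (LinearMap.range f) ≤ 1 :=
    (Submodule.finrank_le _).trans (Module.finrank_self K).le
  rw [hker] at h
  omega

/-- Vanishing at a point of the second chart is at most one condition. -/
theorem finrank_H0_le_vanQ (φ : T.Q →ₐ[K] K) :
    Module.finrank K B.H0 ≤ Module.finrank K (B.vanQ φ) + 1 := by
  let q : B.MQ →ₗ[K] K := (fibreEquiv (M := B.MQ) φ).toLinearMap.comp
    ((Submodule.mkQ (RingHom.ker φ.toRingHom • (⊤ : Submodule T.Q B.MQ))).restrictScalars K)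
  let f : B.H0 →ₗ[K] K := q.comp ((LinearMap.snd K B.MP B.MQ).comp B.H0.subtype)
  have hker : LinearMap.ker f = B.vanQ φ := by
    ext s
    rw [LinearMap.mem_ker, mem_vanQ]
    exact (map_eq_zero_iff _ (fibreEquiv (M := B.MQ) φ).injective).trans
      (Submodule.Quotient.mk_eq_zero _)
  have h := f.finrank_range_add_finrank_ker
  have h' : Module.finrank K (LinearMap.range f) ≤ 1 :=
    (Submodule.finrank_le _).trans (Module.finrank_self K).le
  rw [hker] at h
  omega

section Sub

variable {J : Bundle T} (i : Hom J (trivial T)) (B)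

/-- The inclusion `B ⊗ J → B` induced by `J → O`. -/
noncomputable def tensorInclusion : Hom (B.tensor J) B where
  fP := (TensorProduct.rid T.P B.MP).toLinearMap.comp (i.fP.lTensor B.MP)
  fQ := (TensorProduct.rid T.Q B.MQ).toLinearMap.comp (i.fQ.lTensor B.MQ)
  fL := (TensorProduct.rid T.L B.ML).toLinearMap.comp (i.fL.lTensor B.ML)
  commP m := by
    induction m using TensorProduct.induction_on with
    | zero => simp
    | tmul a b =>
      simp [i.commP, algebraMap_smul]
    | add a b ha hb => simp only [map_add] at ha hb ⊢; rw [ha, hb]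
  commQ m := by
    induction m using TensorProduct.induction_on with
    | zero => simp
    | tmul a b =>
      simp [i.commQ, algebraMap_smul]
    | add a b ha hb => simp only [map_add] at ha hb ⊢; rw [ha, hb]

/-- The induced map on sections. -/
noncomputable def sectionsInclusion : (B.tensor J).H0 →ₗ[K] B.H0 :=
  (B.tensorInclusion i).f0.restrict fun _ h => (B.tensorInclusion i).map_mem_H0 h

/-- Sections of a subbundle inject into sections of the bundle. -/
theorem sectionsInclusion_injective (hi : Function.Injective i.fP) :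
    Function.Injective (B.sectionsInclusion i) := by
  intro s t h
  refine Subtype.ext ((B.tensor J).H0_ext s.2 t.2 ?_)
  have h' := congrArg (fun z : B.H0 => z.1.1) h
  exact Module.Flat.lTensor_preserves_injective_linearMap (M := B.MP) i.fP hi
    ((TensorProduct.rid T.P B.MP).injective h')

omit [CurveLike T] in
theorem sectionsInclusion_mem_vanL (ψ : T.L →ₐ[K] K) (hψ : ∀ z, ψ (i.fL z) = 0)
    (s : (B.tensor J).H0) : B.sectionsInclusion i s ∈ B.vanL ψ := by
  rw [mem_vanL]
  change B.ip ((B.tensorInclusion i).fP s.1.1) ∈ _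
  rw [← (B.tensorInclusion i).commP]
  generalize (B.tensor J).ip s.1.1 = w
  induction w using TensorProduct.induction_on with
  | zero => rw [map_zero]; exact zero_mem _
  | tmul a b =>
    simp only [tensorInclusion, LinearMap.coe_comp, Function.comp_apply, LinearMap.lTensor_tmul,
      LinearEquiv.coe_coe, TensorProduct.rid_tmul]
    exact Submodule.smul_mem_smul (hψ b) Submodule.mem_top
  | add a b ha hb => rw [map_add]; exact add_mem ha hb

omit [CurveLike T] in
/-- The inclusion preserves vanishing at points of the first chart. -/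
theorem sectionsInclusion_mem_vanP (φ : T.P →ₐ[K] K) {s : (B.tensor J).H0}
    (hs : s ∈ (B.tensor J).vanP φ) : B.sectionsInclusion i s ∈ B.vanP φ := by
  have h := Submodule.mem_map_of_mem (f := (B.tensorInclusion i).fP) (mem_vanP.1 hs)
  rw [Submodule.map_smul''] at h
  exact mem_vanP.2 (Submodule.smul_mono le_rfl le_top h)

omit [CurveLike T] in
/-- The inclusion preserves vanishing at points of the second chart. -/
theorem sectionsInclusion_mem_vanQ (φ : T.Q →ₐ[K] K) {s : (B.tensor J).H0}
    (hs : s ∈ (B.tensor J).vanQ φ) : B.sectionsInclusion i s ∈ B.vanQ φ := by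
  have h := Submodule.mem_map_of_mem (f := (B.tensorInclusion i).fQ) (mem_vanQ.1 hs)
  rw [Submodule.map_smul''] at h
  exact mem_vanQ.2 (Submodule.smul_mono le_rfl le_top h)

variable {B}

/-- Passing from `B` to `B ⊗ O(-q)` for a point `q` at which some sections do not vanish. -/
theorem Nonspecial.sub_step [IsDomain T.P] [IsDomain T.Q] [IsDomain T.L] (hB : B.Nonspecial)
    {m : ℕ} (hm : B.chi = m + 1) (hi : Function.Injective i.fP) (hdeg : J.deg = -1)
    (ψ : T.L →ₐ[K] K) (hψ : ∀ z, ψ (i.fL z) = 0) (hq : B.vanL ψ ≠ ⊤) {ι ι' : Type*}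
    (φP : ι → (T.P →ₐ[K] K)) (φQ : ι' → (T.Q →ₐ[K] K))
    (hP : ∀ j, ¬ B.vanP (φP j) ≤ B.vanL ψ) (hQ : ∀ j, ¬ B.vanQ (φQ j) ≤ B.vanL ψ)
    (hnv : B.HasNonvanishing φP φQ) :
    (B.tensor J).Nonspecial ∧ (B.tensor J).chi = m ∧ (B.tensor J).HasNonvanishing φP φQ := by
  have hchi : (B.tensor J).chi = m := by rw [B.chi_tensor J, hdeg, hm]; ring
  have hB0 : Module.finrank K B.H0 = m + 1 := by
    have := B.chi_of_nonspecial hB
    omega
  have hinj := B.sectionsInclusion_injective i hi
  have hle : LinearMap.range (B.sectionsInclusion i) ≤ B.vanL ψ := by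
    rintro _ ⟨s, rfl⟩
    exact B.sectionsInclusion_mem_vanL i ψ hψ s
  have hlt : Module.finrank K (B.vanL ψ) < m + 1 := hB0 ▸ Submodule.finrank_lt hq
  have hfin : Module.finrank K (B.tensor J).H0 ≤ m := by
    rw [← LinearMap.finrank_range_of_inj hinj]
    exact (Submodule.finrank_mono hle).trans (Nat.lt_succ_iff.1 hlt)
  have hge := (B.tensor J).chi_le
  have h0 : Module.finrank K (B.tensor J).H0 = m := by omega
  refine ⟨(chi_eq_finrank_H0_iff _).1 (by rw [hchi, h0]), hchi, fun j htop => ?_, fun j htop => ?_⟩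
  · have h1 : LinearMap.range (B.sectionsInclusion i) ≤ B.vanP (φP j) ⊓ B.vanL ψ := by
      rintro _ ⟨s, rfl⟩
      exact ⟨B.sectionsInclusion_mem_vanP i _ (htop ▸ Submodule.mem_top), hle ⟨s, rfl⟩⟩
    have h2 : Module.finrank K (B.vanP (φP j)) < m + 1 := hB0 ▸ Submodule.finrank_lt (hnv.1 j)
    have h3 := Submodule.finrank_mono h1
    have h4 : Module.finrank K ↥(B.vanP (φP j) ⊓ B.vanL ψ) < Module.finrank K (B.vanP (φP j)) :=
      Submodule.finrank_lt_finrank_of_lt (inf_lt_left.2 (hP j))
    rw [LinearMap.finrank_range_of_inj hinj, h0] at h3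
    omega
  · have h1 : LinearMap.range (B.sectionsInclusion i) ≤ B.vanQ (φQ j) ⊓ B.vanL ψ := by
      rintro _ ⟨s, rfl⟩
      exact ⟨B.sectionsInclusion_mem_vanQ i _ (htop ▸ Submodule.mem_top), hle ⟨s, rfl⟩⟩
    have h2 : Module.finrank K (B.vanQ (φQ j)) < m + 1 := hB0 ▸ Submodule.finrank_lt (hnv.2 j)
    have h3 := Submodule.finrank_mono h1
    have h4 : Module.finrank K ↥(B.vanQ (φQ j) ⊓ B.vanL ψ) < Module.finrank K (B.vanQ (φQ j)) :=
      Submodule.finrank_lt_finrank_of_lt (inf_lt_left.2 (hQ j))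
    rw [LinearMap.finrank_range_of_inj hinj, h0] at h3
    omega

end Sub

variable (B)

/-- High twists have a section not vanishing at a given point of the first chart. -/
theorem exists_twist_vanP_ne_top (φ : T.P →ₐ[K] K) :
    ∃ N, ∀ n, N ≤ n → (B.twist n).vanP φ ≠ ⊤ := by
  obtain ⟨m, hm⟩ := exists_not_mem_fibre (M := B.MP) φ
  obtain ⟨N, w, hw⟩ := B.exists_ypow_smul_eq_iq (B.ip m)
  refine ⟨N, fun n hn h => hm ?_⟩
  have hmem : (m, y (T := T) ^ (n - N) • w) ∈ (B.twist n).H0 := by
    rw [mem_H0, twist_iq, map_smul, ← algebraMap_smul T.L (y (T := T) ^ (n - N)) (B.iq w), map_pow,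
      ← hw, smul_smul (algebraMap T.Q T.L y ^ (n - N)), ← pow_add, Nat.sub_add_cancel hn]
    exact (B.cancel_y_pow n _).symm
  exact mem_vanP.1 (h ▸ Submodule.mem_top (x := (⟨_, hmem⟩ : (B.twist n).H0)))

/-- High twists have a section not vanishing at a given point of the second chart. -/
theorem exists_twist_vanQ_ne_top (φ : T.Q →ₐ[K] K) :
    ∃ N, ∀ n, N ≤ n → (B.twist n).vanQ φ ≠ ⊤ := by
  obtain ⟨w, hw⟩ := exists_not_mem_fibre (M := B.MQ) φ
  obtain ⟨N, m, hm⟩ := B.exists_xpow_smul_eq_ip (B.iq w)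
  refine ⟨N, fun n hn h => hw ?_⟩
  have hmem : (x (T := T) ^ (n - N) • m, w) ∈ (B.twist n).H0 := by
    rw [mem_H0, twist_iq]
    change B.ip _ = _
    rw [map_smul, ← algebraMap_smul T.L (x (T := T) ^ (n - N)), map_pow, ← hm, smul_smul, ← pow_add,
      Nat.sub_add_cancel hn]
  exact mem_vanQ.1 (h ▸ Submodule.mem_top (x := (⟨_, hmem⟩ : (B.twist n).H0)))

variable {B} [IsDomain T.L]

omit [IsDomain T.L] in
/-- A nonzero section is nonzero at some point of a separating family. -/
theorem exists_separating (s : B.H0) (hs : s ≠ 0) :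
    ∃ a : T.L, a ≠ 0 ∧ ∀ ψ : T.L →ₐ[K] K, ψ a ≠ 0 → s ∉ B.vanL ψ := by
  have hP : s.1.1 ≠ 0 := fun h =>
    hs (Subtype.ext (B.H0_ext s.2 (Submodule.zero_mem _) h))
  have hL : B.ip s.1.1 ≠ 0 := fun h => hP (B.ip_injective (h.trans (map_zero _).symm))
  obtain ⟨θ, hθ⟩ := SectionAlgebra.exists_functional (A := T.L) hL
  refine ⟨θ (B.ip s.1.1), hθ, fun ψ hψ hmem => hψ ?_⟩
  have h := Submodule.mem_map_of_mem (f := θ) (mem_vanL.1 hmem)
  rw [Submodule.map_smul''] at h
  have h' := Submodule.smul_mono le_rfl (le_top (a := Submodule.map θ ⊤)) h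
  rw [smul_eq_mul, Ideal.mul_top] at h'
  exact RingHom.mem_ker.1 h'

end Bundle

end Fermat.Agent.RelJac
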