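import Mathlib.RingTheory.Spectrum.Prime.FreeLocus
import Mathlib.RingTheory.LocalRing.Module
import Mathlib.RingTheory.PicardGroup
import Mathlib.Algebra.Polynomial.Reverse
import Mathlib.RingTheory.Nakayama
import Mathlib.RingTheory.IntegralClosure.IsIntegralClosure.Basic
import Fermat.Agent.RelJac.TwoTermComplex

/-!
Algebraic tools to pass from fibres over field valued points to neighbourhoods and back.
-/

open scoped TensorProduct

namespace Fermat.Agent.RelJac.FibreTools

universe u v

variable {R : Type u} [CommRing R]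

/-- A finite module with zero fibre at a field valued point is killed near that point. -/
theorem exists_annihilator_of_field {C : Type v} [AddCommGroup C] [Module R C] [Module.Finite R C]
    (L : Type u) [Field L] [Algebra R L] (h : Subsingleton (L ⊗[R] C)) :
    ∃ r : R, algebraMap R L r ≠ 0 ∧ ∀ c : C, r • c = 0 := by
  set p : Ideal R := RingHom.ker (algebraMap R L)
  have hp : p.IsPrime := RingHom.ker_isPrime _
  have hns : (⟨p, hp⟩ : PrimeSpectrum R) ∉ Module.support R C := by
    rw [Module.mem_support_iff_nontrivial_residueField_tensorProduct, not_nontrivial_iff_subsingleton]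
    let i : p.ResidueField →+* L :=
      Ideal.ResidueField.lift p (algebraMap R L) le_rfl fun a ha => IsUnit.mk0 _ ha
    let := i.toAlgebra
    have : IsScalarTower R p.ResidueField L := IsScalarTower.of_algebraMap_eq fun r =>
      (Ideal.ResidueField.lift_algebraMap p (algebraMap R L) le_rfl _ r).symm
    have h0 : Module.finrank L (L ⊗[R] C) = 0 := Module.finrank_zero_of_subsingleton
    rw [← (TensorProduct.AlgebraTensorModule.cancelBaseChange R p.ResidueField L L C).finrank_eq,
      Module.finrank_baseChange] at h0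
    exact (Module.finrank_zero_iff (R := p.ResidueField)).1 h0
  rw [Module.support_eq_zeroLocus, PrimeSpectrum.mem_zeroLocus, SetLike.coe_subset_coe,
    SetLike.not_le_iff_exists] at hns
  obtain ⟨r, hr, hrp⟩ := hns
  exact ⟨r, fun h0 => hrp (RingHom.mem_ker.2 h0), Module.mem_annihilator.1 hr⟩

/-- A tensor product with a module killed by a unit of the algebra is zero. -/
theorem subsingleton_tensor_of_annihilated {C : Type v} [AddCommGroup C] [Module R C]
    (S : Type u) [CommRing S] [Algebra R S] {r : R} (hr : IsUnit (algebraMap R S r))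
    (h : ∀ c : C, r • c = 0) : Subsingleton (S ⊗[R] C) := by
  refine subsingleton_of_forall_eq 0 fun t => ?_
  induction t using TensorProduct.induction_on with
  | zero => rfl
  | tmul s c =>
    obtain ⟨u, hu⟩ := hr
    have : s = r • (↑u⁻¹ * s) := by
      rw [Algebra.smul_def, ← hu, ← mul_assoc, Units.mul_inv, one_mul]
    rw [this, TensorProduct.smul_tmul, h, TensorProduct.tmul_zero]
  | add a b ha hb => rw [ha, hb, add_zero]

/-- Locally constant functions on a prime spectrum are constant on a basic open. -/
theorem exists_basic_of_locallyConstant {β : Type*} {f : PrimeSpectrum R → β}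
    (hf : IsLocallyConstant f) (p : PrimeSpectrum R) :
    ∃ r : R, r ∉ p.asIdeal ∧ ∀ q : PrimeSpectrum R, r ∉ q.asIdeal → f q = f p := by
  obtain ⟨_, ⟨r, rfl⟩, hp, hsub⟩ :=
    PrimeSpectrum.isTopologicalBasis_basic_opens.isOpen_iff.1 (hf.isOpen_fiber (f p)) p rfl
  exact ⟨r, hp, fun q hq => hsub hq⟩

/-- A nonzero functional on an invertible module over a domain is injective. -/
theorem functional_injective {A M : Type u} [CommRing A] [IsDomain A] [AddCommGroup M] [Module A M]
    [Module.Invertible A M] (f : M →ₗ[A] A) (hf : f ≠ 0) : Function.Injective f := by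
  obtain ⟨m₀, hm₀⟩ : ∃ m₀, f m₀ ≠ 0 := by
    by_contra h
    push Not at h
    exact hf (LinearMap.ext h)
  refine (injective_iff_map_eq_zero f).2 fun m hm => ?_
  have h := congrArg ((TensorProduct.lid A M).toLinearMap ∘ₗ f.rTensor M)
    (Module.Invertible.tmul_comm (R := A) (m₁ := m₀) (m₂ := m))
  simp only [LinearMap.comp_apply, LinearMap.rTensor_tmul, LinearEquiv.coe_coe,
    TensorProduct.lid_tmul, hm, zero_smul] at h
  obtain ⟨n, π, hπ⟩ := Module.Finite.exists_fin' A M
  obtain ⟨s, hs⟩ := Module.projective_lifting_property π LinearMap.id hπ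
  have : s m = 0 := funext fun i => by
    have h' := congrArg (fun z => s z i) h
    simpa [hm₀] using h'
  have h2 : π (s m) = m := LinearMap.congr_fun hs m
  rw [this, map_zero] at h2
  exact h2.symm

/-- If `I + (y) = (1)` in an algebra which is finite over `R[y]`, a polynomial with constant term
`1` in `y` lies in `I`. -/
theorem exists_poly_mem {A : Type u} [CommRing A] [Algebra R A] (y : A) {ι : Type*} [Fintype ι]
    (e : ι → A) (hspan : ∀ a, a ∈ Submodule.span R (Set.range fun im : ι × ℕ => y ^ im.2 * e im.1))
    (I : Ideal A) (hI : I ⊔ Ideal.span {y} = ⊤) :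
    ∃ h : Polynomial R, 1 + y * Polynomial.aeval y h ∈ I := by
  let := (Polynomial.aeval (R := R) y).toRingHom.toAlgebra
  have hsm : ∀ (p : Polynomial R) (a : A), p • a = Polynomial.aeval y p * a := fun _ _ => rfl
  have : IsScalarTower R (Polynomial R) A := IsScalarTower.of_algebraMap_smul fun r a => by
    rw [hsm, Polynomial.algebraMap_eq, Polynomial.aeval_C, Algebra.smul_def]
  have : Module.Finite (Polynomial R) A := by
    classical
    refine ⟨⟨Finset.univ.image e, eq_top_iff.2 fun a _ => ?_⟩⟩
    refine (Submodule.span_le (R := R)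
      (p := (Submodule.span (Polynomial R) _).restrictScalars R)).2 ?_ (hspan a)
    rintro _ ⟨⟨i, m⟩, rfl⟩
    have hm : y ^ m * e i = (Polynomial.X ^ m : Polynomial R) • e i := by
      rw [hsm, map_pow, Polynomial.aeval_X]
    change y ^ m * e i ∈ _
    rw [hm]
    exact Submodule.smul_mem _ _ (Submodule.subset_span (by simp))
  have : IsScalarTower (Polynomial R) A A := IsScalarTower.right
  let J : Submodule (Polynomial R) (A ⧸ I) := ⊤
  have hJ : J ≤ Ideal.span {(Polynomial.X : Polynomial R)} • J := by
    rintro z -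
    obtain ⟨a, rfl⟩ := Ideal.Quotient.mk_surjective z
    obtain ⟨i, hi, w, hw, hiw⟩ := Submodule.mem_sup.1 ((Ideal.eq_top_iff_one _).1 hI)
    obtain ⟨c, rfl⟩ := Ideal.mem_span_singleton'.1 hw
    have : Ideal.Quotient.mk I a = (Polynomial.X : Polynomial R) • Ideal.Quotient.mk I (c * a) := by
      change _ = Ideal.Quotient.mk I ((Polynomial.X : Polynomial R) • (c * a))
      rw [Ideal.Quotient.eq, hsm, Polynomial.aeval_X]
      rw [show a - y * (c * a) = i * a by linear_combination (-a) * hiw]
      exact I.mul_mem_right _ hi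
    rw [this]
    exact Submodule.smul_mem_smul (Ideal.mem_span_singleton_self _) Submodule.mem_top
  obtain ⟨r, hr1, hr⟩ := Submodule.exists_sub_one_mem_and_smul_eq_zero_of_fg_of_le_smul _ J
    Module.Finite.fg_top hJ
  obtain ⟨h, hh⟩ := Ideal.mem_span_singleton'.1 hr1
  refine ⟨h, ?_⟩
  have h0 := hr (Ideal.Quotient.mk I 1) trivial
  change Ideal.Quotient.mk I (r • (1 : A)) = 0 at h0
  rw [Ideal.Quotient.eq_zero_iff_mem, hsm, mul_one, show r = 1 + Polynomial.X * h by
    linear_combination -hh, map_add, map_one, map_mul, Polynomial.aeval_X] at h0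
  exact h0

/-- An inverse of a root of a polynomial with constant term `1` is integral. -/
theorem isIntegral_of_mul_eq_one {N : Type u} [CommRing N] [Algebra R N] {x y : N}
    (hxy : x * y = 1) (h : Polynomial R) (h0 : 1 + y * Polynomial.aeval y h = 0) :
    IsIntegral R x := by
  refine ⟨Polynomial.X ^ (h.natDegree + 1) +
      ∑ i ∈ Finset.range (h.natDegree + 1), Polynomial.C (h.coeff i) *
        Polynomial.X ^ (h.natDegree - i),
    Polynomial.monic_X_pow_add (lt_of_le_of_lt (Polynomial.degree_sum_le _ _) ?_), ?_⟩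
  · refine (Finset.sup_lt_iff (WithBot.bot_lt_coe _)).2 fun i _ => ?_
    refine lt_of_le_of_lt (Polynomial.degree_C_mul_X_pow_le _ _) ?_
    exact Nat.cast_lt.2 (Nat.lt_succ_of_le (Nat.sub_le _ _))
  · rw [← Polynomial.aeval_def, map_add, map_pow, Polynomial.aeval_X, map_sum,
      ← mul_zero (x ^ (h.natDegree + 1)), ← h0, mul_add, mul_one,
      Polynomial.aeval_eq_sum_range, Finset.mul_sum, Finset.mul_sum]
    congr 1
    refine Finset.sum_congr rfl fun i hi => ?_
    obtain ⟨j, hj⟩ := Nat.exists_eq_add_of_le (Nat.lt_succ_iff.1 (Finset.mem_range.1 hi))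
    rw [map_mul, map_pow, Polynomial.aeval_X, Polynomial.aeval_C, Algebra.smul_def, hj,
      Nat.add_sub_cancel_left,
      show x ^ (i + j + 1) * (y * (algebraMap R N (h.coeff i) * y ^ i)) =
        (x * y) ^ (i + 1) * (algebraMap R N (h.coeff i) * x ^ j) by ring,
      hxy, one_pow, one_mul]

end Fermat.Agent.RelJac.FibreTools
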