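import Fermat.Agent.RelJac.Bridge.Descent
import Fermat.Agent.RelJac.Bridge.Rig
import Fermat.Agent.RelJac.ClsSmall
import Fermat.Agent.RelJac.FinalStep
import Mathlib.AlgebraicGeometry.Sites.BigZariski
import Mathlib.Logic.Small.Basic

/-!
Rigidified line bundles of degree zero, up to isomorphism, form a small Zariski sheaf on schemes
whose values on affine schemes are the normalised classes of degree zero.
-/

noncomputable section

universe u

open CategoryTheory CategoryTheory.Limits AlgebraicGeometry NeronModelInfra GoodReductionJacobian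
  Opposite
open AlgebraicGeometry.RelPicard

namespace Fermat.Agent.RelJac

open Sheaf (specOver)

namespace CurveModel

variable {k : Type u} [Field k] [IsAlgClosed k] {C : Scheme.{u}}
  {c : C ⟶ Spec (CommRingCat.of k)} {ε : SchemeHomOver (𝟙 (Spec (CommRingCat.of k))) c}
  (D : CurveModel c ε)

/-- Degree zero at every field valued point of the base. -/
def DegZero {T : Scheme.{u}} {t : T ⟶ Spec (CommRingCat.of k)} (M : RigidifiedLineBundle c ε t) :
    Prop :=
  ∀ (L : Type u) [Field L] [Algebra k L] (y : SchemeHomOver (specOver (k := k) L) t),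
    D.degAt M.isInvertible y = 0

/-- Isomorphism classes of rigidified bundles of degree zero. -/
abbrev Classes₀ {T : Scheme.{u}} (t : T ⟶ Spec (CommRingCat.of k)) : Type (u + 1) :=
  {x : RigidifiedLineBundle.Classes c ε t // ∃ M, Quotient.mk _ M = x ∧ D.DegZero M}

include D in
omit [IsAlgClosed k] in
theorem small_classes_spec (R : Type u) [CommRing R]
    (t : Spec (CommRingCat.of R) ⟶ Spec (CommRingCat.of k)) :
    Small.{u} (RigidifiedLineBundle.Classes c ε t) := by
  obtain ⟨a, rfl⟩ := exists_algebra_specOver t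
  have := Bundle.small_cls (D.T.baseChange R)
  refine small_of_injective (β := Bundle.Cls (D.T.baseChange R)) (f := Quotient.lift
    (fun M : RigidifiedLineBundle c ε (specOver (k := k) R) => D.clsOf M.L M.isInvertible)
    fun M N h => (D.clsOf_eq_iff _ _).2 h) ?_
  rintro ⟨M⟩ ⟨N⟩ h
  exact Quotient.sound ((D.clsOf_eq_iff M.isInvertible N.isInvertible).1 h)

include D in
/-- The rigidified classes over any scheme form a small type. -/
theorem small_classes {T : Scheme.{u}} (t : T ⟶ Spec (CommRingCat.of k)) :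
    Small.{u} (RigidifiedLineBundle.Classes c ε t) := by
  let 𝒰 := T.affineOpenCover.openCover
  have : ∀ i, Small.{u} (RigidifiedLineBundle.Classes c ε (𝒰.f i ≫ t)) := fun i =>
    D.small_classes_spec (T.affineOpenCover.X i) (𝒰.f i ≫ t)
  refine small_of_injective
    (β := ∀ i, RigidifiedLineBundle.Classes c ε (𝒰.f i ≫ t))
    (f := fun x i => RigidifiedLineBundle.classesMap
      (⟨𝒰.f i, rfl⟩ : SchemeHomOver (𝒰.f i ≫ t) t) x) ?_
  rintro ⟨M⟩ ⟨N⟩ h
  exact Quotient.sound (Fermat.Agent.RelJac.iso_of_cover D M N 𝒰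
    fun i => Quotient.exact (congrFun h i))

instance small_classes₀ {T : Scheme.{u}} (t : T ⟶ Spec (CommRingCat.of k)) :
    Small.{u} (D.Classes₀ t) :=
  have := D.small_classes t
  inferInstance

/-- Values of the functor of rigidified classes of degree zero. -/
def PicObj (T : Scheme.{u}) : Type u :=
  Σ t : T ⟶ Spec (CommRingCat.of k), Shrink.{u} (D.Classes₀ t)

/-- The element given by a rigidified bundle. -/
def picMk {T : Scheme.{u}} (t : T ⟶ Spec (CommRingCat.of k)) (M : RigidifiedLineBundle c ε t)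
    (h : D.DegZero M) : D.PicObj T :=
  ⟨t, equivShrink (D.Classes₀ t) ⟨Quotient.mk _ M, M, rfl, h⟩⟩

theorem picMk_eq_iff {T : Scheme.{u}} (t : T ⟶ Spec (CommRingCat.of k))
    {M N : RigidifiedLineBundle c ε t} (h : D.DegZero M) (h' : D.DegZero N) :
    D.picMk t M h = D.picMk t N h' ↔ Nonempty (M.L ≅ N.L) := by
  constructor
  · intro e
    exact Quotient.exact (congrArg Subtype.val
      ((equivShrink (D.Classes₀ t)).injective (eq_of_heq (Sigma.mk.inj e).2)))
  · intro e
    exact congrArg (Sigma.mk t) (congrArg _ (Subtype.ext (Quotient.sound e)))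

theorem exists_picMk {T : Scheme.{u}} (η : D.PicObj T) :
    ∃ (M : RigidifiedLineBundle c ε η.1) (h : D.DegZero M), D.picMk η.1 M h = η := by
  obtain ⟨t, s⟩ := η
  obtain ⟨M, hM, h⟩ := ((equivShrink (D.Classes₀ t)).symm s).2
  exact ⟨M, h, congrArg (Sigma.mk t)
    ((Equiv.eq_symm_apply _).1 (Subtype.ext hM))⟩

theorem exists_picMk' {T : Scheme.{u}} {t : T ⟶ Spec (CommRingCat.of k)} (η : D.PicObj T)
    (ht : η.1 = t) :
    ∃ (M : RigidifiedLineBundle c ε t) (h : D.DegZero M), D.picMk t M h = η := by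
  subst ht
  exact D.exists_picMk η

omit [IsAlgClosed k] in
/-- Degree zero passes to inverse images. -/
theorem DegZero.along {T T' : Scheme.{u}} {t : T ⟶ Spec (CommRingCat.of k)}
    {t' : T' ⟶ Spec (CommRingCat.of k)} {M : RigidifiedLineBundle c ε t} (h : D.DegZero M)
    (g : SchemeHomOver t' t) : D.DegZero (M.pullbackAlong g) :=
  degAt_pullbackAlong g h

/-- Pullback of classes. -/
def picPull {T T' : Scheme.{u}} (g : T' ⟶ T) (η : D.PicObj T) : D.PicObj T' :=
  D.picMk (g ≫ η.1) ((D.exists_picMk η).choose.pullbackAlong ⟨g, rfl⟩)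
    ((D.exists_picMk η).choose_spec.choose.along D _)

theorem picPull_picMk {T T' : Scheme.{u}} {t : T ⟶ Spec (CommRingCat.of k)}
    {t' : T' ⟶ Spec (CommRingCat.of k)} (g : SchemeHomOver t' t)
    {M : RigidifiedLineBundle c ε t} (h : D.DegZero M) (h' : D.DegZero (M.pullbackAlong g)) :
    D.picPull g.1 (D.picMk t M h) = D.picMk t' (M.pullbackAlong g) h' := by
  obtain ⟨g, rfl⟩ := g
  exact (D.picMk_eq_iff _ _ _).2 (RigidifiedLineBundle.pullbackAlong_congr _
    ((D.picMk_eq_iff _ _ h).1 (D.exists_picMk (D.picMk t M h)).choose_spec.choose_spec))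

theorem picPull_id {T : Scheme.{u}} (η : D.PicObj T) : D.picPull (𝟙 T) η = η := by
  obtain ⟨M, h, hη⟩ := D.exists_picMk η
  rw [← hη, D.picPull_picMk (⟨𝟙 T, Category.id_comp η.1⟩ : SchemeHomOver η.1 η.1) h
    (h.along D _)]
  exact (D.picMk_eq_iff _ _ _).2
    ⟨(Scheme.Modules.pullbackCongr (baseChangeSnd_id c η.1)).app M.L ≪≫
      (Scheme.Modules.pullbackId _).app M.L⟩

theorem picPull_comp {T T' T'' : Scheme.{u}} (g : T' ⟶ T) (g' : T'' ⟶ T') (η : D.PicObj T) :
    D.picPull (g' ≫ g) η = D.picPull g' (D.picPull g η) := by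
  obtain ⟨M, h, hη⟩ := D.exists_picMk η
  let a : SchemeHomOver (g ≫ η.1) η.1 := ⟨g, rfl⟩
  let b : SchemeHomOver (g' ≫ g ≫ η.1) (g ≫ η.1) := ⟨g', rfl⟩
  rw [← hη, D.picPull_picMk a h (h.along D _), D.picPull_picMk b (h.along D _)
    ((h.along D _).along D _), show g' ≫ g = (postComp a b).1 from rfl,
    D.picPull_picMk (postComp a b) h (h.along D _)]
  exact (D.picMk_eq_iff _ _ _).2 ⟨(Scheme.Modules.pullbackCongr
    (baseChangeSnd_comp c a b).symm).app M.L ≪≫ ((Scheme.Modules.pullbackComp _ _).app M.L).symm⟩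

/-- The functor of rigidified classes of degree zero. -/
def picPresheaf : Scheme.{u}ᵒᵖ ⥤ Type u where
  obj := fun T => D.PicObj T.unop
  map g := TypeCat.ofHom (D.picPull g.unop)
  map_id _ := TypeCat.homEquiv.injective (funext fun η => D.picPull_id η)
  map_comp g g' := TypeCat.homEquiv.injective (funext fun η => D.picPull_comp g.unop g'.unop η)

omit [IsAlgClosed k] in
/-- The degree can be computed on an open cover. -/
theorem degZero_of_cover {T : Scheme.{u}} {t : T ⟶ Spec (CommRingCat.of k)}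
    (N : RigidifiedLineBundle c ε t) (𝒰 : T.OpenCover)
    (M : ∀ i, RigidifiedLineBundle c ε (𝒰.f i ≫ t)) (hM : ∀ i, D.DegZero (M i))
    (e : ∀ i, Nonempty ((N.pullbackAlong (t' := 𝒰.f i ≫ t) ⟨𝒰.f i, rfl⟩).L ≅ (M i).L)) :
    D.DegZero N := by
  intro L _ _ y
  obtain ⟨i, x, hx⟩ := 𝒰.exists_eq (y.1 (IsLocalRing.closedPoint L))
  have hr : Set.range y.1 ⊆ Set.range (𝒰.f i) := by
    rintro _ ⟨z, rfl⟩
    exact ⟨x, hx.trans (congrArg _ (Subsingleton.elim (α := PrimeSpectrum L) _ z))⟩
  let z : SchemeHomOver (specOver (k := k) L) (𝒰.f i ≫ t) :=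
    ⟨IsOpenImmersion.lift (𝒰.f i) y.1 hr, by rw [IsOpenImmersion.lift_fac_assoc, y.2]⟩
  have hy : postComp (⟨𝒰.f i, rfl⟩ : SchemeHomOver (𝒰.f i ≫ t) t) z = y :=
    Subtype.ext (IsOpenImmersion.lift_fac _ _ hr)
  rw [← hy, ← D.degAt_pullback N.isInvertible _ z]
  exact (D.degAt_congr _ (M i).isInvertible (e i).some z).trans (hM i L z)

/-- Rigidified classes of degree zero form a Zariski sheaf. -/
theorem isSheaf_picPresheaf : Presieve.IsSheaf Scheme.zariskiTopology D.picPresheaf := by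
  rw [Scheme.zariskiTopology, Scheme.grothendieckTopology,
    Precoverage.isSheaf_toGrothendieck_iff_of_isStableUnderBaseChange_of_small.{u}]
  intro T E
  let 𝒰 : T.OpenCover := E
  refine (Presieve.isSheafFor_arrows_iff _ _).2 fun x hx => ?_
  have hfst : ∀ i j, D.picPull (pullback.fst (𝒰.f i) (𝒰.f j)) (x i) =
      D.picPull (pullback.snd (𝒰.f i) (𝒰.f j)) (x j) := fun i j =>
    hx i j _ _ _ pullback.condition
  have hcompat : ∀ i j, pullback.fst (𝒰.f i) (𝒰.f j) ≫ (x i).1 =
      pullback.snd (𝒰.f i) (𝒰.f j) ≫ (x j).1 := fun i j => congrArg Sigma.fst (hfst i j)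
  obtain ⟨t, ht'⟩ : ∃ t : T ⟶ Spec (CommRingCat.of k), ∀ i, 𝒰.f i ≫ t = (x i).1 :=
    ⟨Scheme.Cover.glueMorphisms 𝒰 (fun i => (x i).1) hcompat,
      fun i => Scheme.Cover.ι_glueMorphisms 𝒰 (fun i => (x i).1) hcompat i⟩
  have ht : ∀ i, (x i).1 = 𝒰.f i ≫ t := fun i => (ht' i).symm
  choose M hM hMx using fun i => D.exists_picMk' (x i) (ht i)
  obtain ⟨N, hN⟩ := Fermat.Agent.RelJac.exists_of_cover D 𝒰 M fun i j => by
    have h := hfst i j
    rw [← hMx i, ← hMx j,
      D.picPull_picMk (⟨pullback.fst (𝒰.f i) (𝒰.f j), rfl⟩ :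
        SchemeHomOver (pullback.fst (𝒰.f i) (𝒰.f j) ≫ 𝒰.f i ≫ t) _) (hM i) ((hM i).along D _),
      D.picPull_picMk (⟨pullback.snd (𝒰.f i) (𝒰.f j), (pullback.condition_assoc t).symm⟩ :
        SchemeHomOver (pullback.fst (𝒰.f i) (𝒰.f j) ≫ 𝒰.f i ≫ t) _) (hM j) ((hM j).along D _)]
      at h
    exact (D.picMk_eq_iff _ _ _).1 h
  have hN0 : D.DegZero N := D.degZero_of_cover N 𝒰 M hM hN
  have hglue : ∀ i, D.picPull (𝒰.f i) (D.picMk t N hN0) = x i := fun i => by
    rw [← hMx i, D.picPull_picMk (⟨𝒰.f i, rfl⟩ : SchemeHomOver (𝒰.f i ≫ t) t) hN0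
      (hN0.along D _)]
    exact (D.picMk_eq_iff _ _ _).2 (hN i)
  refine ⟨D.picMk t N hN0, hglue, fun η hη => ?_⟩
  have hη' : ∀ i, D.picPull (𝒰.f i) η = x i := hη
  have hstr : η.1 = t := 𝒰.hom_ext _ _ fun i =>
    (congrArg Sigma.fst (hη' i)).trans (ht i)
  obtain ⟨M', h', hM'⟩ := D.exists_picMk' η hstr
  rw [← hM']
  refine (D.picMk_eq_iff _ _ _).2 (Fermat.Agent.RelJac.iso_of_cover D M' N 𝒰 fun i => ?_)
  have h := (hη' i).trans (hglue i).symm
  rw [← hM', D.picPull_picMk (⟨𝒰.f i, rfl⟩ : SchemeHomOver (𝒰.f i ≫ t) t) h' (h'.along D _),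
    D.picPull_picMk (⟨𝒰.f i, rfl⟩ : SchemeHomOver (𝒰.f i ≫ t) t) hN0 (hN0.along D _)] at h
  exact (D.picMk_eq_iff _ _ _).1 h

section Affine

variable (R : Type u) [CommRing R] [Algebra k R]

omit [IsAlgClosed k] in
theorem degZero_iff {M : RigidifiedLineBundle c ε (specOver (k := k) R)} :
    D.DegZero M ↔ Bundle.IsDegZero (D.clsOf M.L M.isInvertible) := by
  constructor
  · intro h L _ _ ψ
    rw [← D.clsOf_pullback ψ]
    exact h L (specHom ψ)
  · intro h L _ _ y
    obtain ⟨ψ, rfl⟩ := exists_specHom y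
    exact (congrArg Bundle.degCls (D.clsOf_pullback ψ M.isInvertible)).trans (h L ψ)

/-- A normalised class of degree zero comes from a rigidified bundle of degree zero. -/
theorem exists_rigidified (x : D.pic0 R) :
    ∃ M : RigidifiedLineBundle c ε (specOver (k := k) R),
      D.DegZero M ∧ D.clsOf M.L M.isInvertible = x.1 := by
  obtain ⟨M, hM, hx⟩ := D.exists_clsOf_eq x.1
  refine ⟨⟨M, hM, (D.rig_clsOf hM).1 (hx.symm ▸ x.2.1)⟩, (D.degZero_iff R).2 ?_, hx⟩
  exact hx.symm ▸ x.2.2

/-- The element given by a normalised class of degree zero. -/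
def picEl (x : D.pic0 R) : D.PicObj (Spec (CommRingCat.of R)) :=
  D.picMk _ (D.exists_rigidified R x).choose (D.exists_rigidified R x).choose_spec.1

theorem picEl_eq_iff {x : D.pic0 R} {M : RigidifiedLineBundle c ε (specOver (k := k) R)}
    (h : D.DegZero M) :
    D.picEl R x = D.picMk _ M h ↔ D.clsOf M.L M.isInvertible = x.1 := by
  rw [picEl, D.picMk_eq_iff, ← D.clsOf_eq_iff (RigidifiedLineBundle.isInvertible _) M.isInvertible,
    (D.exists_rigidified R x).choose_spec.2, eq_comm]

end Affine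

/-- The functor of rigidified classes of degree zero, with its values on affine schemes. -/
def picFunctor : PicFunctor D where
  F := D.picPresheaf
  sheaf := D.isSheaf_picPresheaf
  str := fun η => η.1
  str_map := fun _ _ => rfl
  el := fun R _ _ => D.picEl R
  str_el := fun _ _ _ _ => rfl
  el_injective := fun R _ _ x y h => Subtype.ext
    (((D.picEl_eq_iff R _).1 h).symm.trans (D.exists_rigidified R y).choose_spec.2)
  exists_el := fun R _ _ η hη => by
    obtain ⟨M, h, rfl⟩ := D.exists_picMk' η hη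
    exact ⟨⟨D.clsOf M.L M.isInvertible, (D.rig_clsOf M.isInvertible).2 M.rigidified,
      (D.degZero_iff R).1 h⟩, (D.picEl_eq_iff R h).2 rfl⟩
  el_map := fun {R R'} _ _ _ _ φ x => by
    obtain ⟨h0, hx⟩ := (D.exists_rigidified R x).choose_spec
    refine ((D.picEl_eq_iff R' (h0.along D (specHom φ))).2 ?_).trans
      (D.picPull_picMk (specHom φ) h0 (h0.along D _)).symm
    exact (D.clsOf_pullback φ _).trans (congrArg _ hx)

/-- The functor of rigidified classes of degree zero is described by rigidified bundles. -/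
def picClasses : PicClasses D.picFunctor where
  of := fun t M h => D.picMk t M h
  str_of := fun _ _ _ => rfl
  exists_of := fun _ η hη => D.exists_picMk' η hη
  of_eq_iff := fun t _ _ h h' => D.picMk_eq_iff t h h'
  map_of := fun g _ h h' => D.picPull_picMk g h h'
  el_one := (D.picEl_eq_iff k _).2 D.clsOf_unit

/-- A curve model has a functor of rigidified classes of degree zero. -/
theorem exists_picFunctor : ∃ Φ : PicFunctor D, Nonempty (PicClasses Φ) :=
  ⟨D.picFunctor, ⟨D.picClasses⟩⟩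

end CurveModel

end Fermat.Agent.RelJac
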