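import Fermat.Agent.RelJac.Section
import Fermat.Agent.RelJac.SectionsBaseChange

/-!
Bundles with an essentially unique section whose zero locus lies in the overlap and has quotient
basis `b`, and the ideal they determine.
-/

open scoped TensorProduct

namespace Fermat.Agent.RelJac

universe u

open CurveLike (x y)

namespace Pairing

variable {A A' M N : Type u} [CommRing A] [CommRing A'] [Algebra A A'] [AddCommGroup M]
  [Module A M] [AddCommGroup N] [Module A N]

theorem range_pair_baseChange (e : M ⊗[A] N ≃ₗ[A] A)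
    (e' : (A' ⊗[A] M) ⊗[A'] (A' ⊗[A] N) ≃ₗ[A'] A')
    (h : ∀ m n, e' ((1 ⊗ₜ m) ⊗ₜ (1 ⊗ₜ n)) = algebraMap A A' (e (m ⊗ₜ n))) (z : N) :
    LinearMap.range (pair e' (1 ⊗ₜ z)) =
      Ideal.map (algebraMap A A') (LinearMap.range (pair e z)) := by
  refine le_antisymm ?_ ?_
  · rintro _ ⟨w, rfl⟩
    induction w using TensorProduct.induction_on with
    | zero => simp
    | tmul a m =>
      have : a ⊗ₜ[A] m = a • ((1 : A') ⊗ₜ[A] m) := by
        rw [TensorProduct.smul_tmul', smul_eq_mul, mul_one]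
      rw [this, map_smul, smul_eq_mul, pair_apply, h]
      exact Ideal.mul_mem_left _ _ (Ideal.mem_map_of_mem _ ⟨m, rfl⟩)
    | add s t hs ht => rw [map_add]; exact add_mem hs ht
  · rw [Ideal.map_le_iff_le_comap]
    rintro _ ⟨m, rfl⟩
    exact ⟨1 ⊗ₜ m, h m z⟩

theorem divIdeal_map_equiv {N' : Type u} [AddCommGroup N'] [Module A N'] (f : N ≃ₗ[A] N') (z : N) :
    divIdeal (A := A) (f z) = divIdeal (A := A) z := by
  ext a
  simp only [mem_divIdeal]
  refine ⟨fun h n => ?_, fun h n => ?_⟩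
  · obtain ⟨c, hc⟩ := h (f n)
    exact ⟨c, f.injective (by rw [map_smul, map_smul, hc])⟩
  · obtain ⟨c, hc⟩ := h (f.symm n)
    exact ⟨c, by rw [← map_smul, hc, map_smul, LinearEquiv.apply_symm_apply]⟩

end Pairing

namespace Bundle

open Pairing

/-- Every bundle has an inverse. -/
theorem exists_inverse {S : Type u} [CommRing S] {U : TwoChart S} (B : Bundle U) :
    ∃ K : Bundle U, K.cls = B.cls⁻¹ ∧ Nonempty (Iso (K.tensor B) (trivial U)) := by
  obtain ⟨K, ⟨e⟩⟩ := exists_tensor_iso_trivial B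
  refine ⟨K, ?_, ⟨(tensorComm K B).trans e⟩⟩
  exact eq_inv_of_mul_eq_one_left (cls_eq_iff.2 ⟨(tensorComm K B).trans e⟩ : (K.tensor B).cls = _)

section BaseChange

variable {k : Type u} [CommRing k] {T : TwoChart k} [CurveLike T] {R R' : Type u} [CommRing R]
  [CommRing R'] [Algebra k R] [Algebra k R'] {B K : Bundle (T.baseChange R)}

omit [CurveLike T] in
theorem bcSection_smul (φ : R →ₐ[k] R') (B : Bundle (T.baseChange R)) (r : R) (m : B.H0) :
    B.bcSection φ (r • m) = φ r • B.bcSection φ m := by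
  let := T.overBC φ
  let aP : Algebra (R ⊗[k] T.P) (R' ⊗[k] T.P) := (T.bcP φ).toAlgebra
  let aQ : Algebra (R ⊗[k] T.Q) (R' ⊗[k] T.Q) := (T.bcQ φ).toAlgebra
  apply Subtype.ext
  refine Prod.ext ?_ ?_
  · change (1 : R' ⊗[k] T.P) ⊗ₜ[R ⊗[k] T.P] (r • m.1.1) = φ r • ((1 : R' ⊗[k] T.P) ⊗ₜ m.1.1)
    rw [← algebraMap_smul (R ⊗[k] T.P) r m.1.1, ← TensorProduct.smul_tmul, Algebra.smul_def,
      TensorProduct.smul_tmul', Algebra.smul_def (φ r)]
    congr 2
  · change (1 : R' ⊗[k] T.Q) ⊗ₜ[R ⊗[k] T.Q] (r • m.1.2) = φ r • ((1 : R' ⊗[k] T.Q) ⊗ₜ m.1.2)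
    rw [← algebraMap_smul (R ⊗[k] T.Q) r m.1.2, ← TensorProduct.smul_tmul, Algebra.smul_def,
      TensorProduct.smul_tmul', Algebra.smul_def (φ r)]
    congr 2

omit [CurveLike T] in
/-- The ideals of a base changed section are generated by those of the section. -/
theorem sectIdeals_bcSection (φ : R →ₐ[k] R') (B : Bundle (T.baseChange R)) (s : B.H0) :
    sectIdealP (B.bcSection φ s) = (sectIdealP s).map (mapBase T.P φ) ∧
    sectIdealQ (B.bcSection φ s) = (sectIdealQ s).map (mapBase T.Q φ) ∧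
    sectIdeal (B.bcSection φ s) = (sectIdeal s).map (mapBase T.L φ) := by
  obtain ⟨K, -, ⟨ε⟩⟩ := B.exists_inverse
  let i := T.overBC φ
  let aP : Algebra (R ⊗[k] T.P) (R' ⊗[k] T.P) := (T.bcP φ).toAlgebra
  let aQ : Algebra (R ⊗[k] T.Q) (R' ⊗[k] T.Q) := (T.bcQ φ).toAlgebra
  let aL : Algebra (R ⊗[k] T.L) (R' ⊗[k] T.L) := (T.bcL φ).toAlgebra
  let aP' : Algebra (T.baseChange R).P (T.baseChange R').P := i.algP
  let aQ' : Algebra (T.baseChange R).Q (T.baseChange R').Q := i.algQ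
  let aL' : Algebra (T.baseChange R).L (T.baseChange R').L := i.algL
  let ε' : Iso ((K.pullback (T.baseChange R')).tensor (B.pullback (T.baseChange R')))
      (trivial (T.baseChange R')) :=
    (pullbackTensor K B).symm.trans ((pullbackCongr ε).trans pullbackTrivial)
  refine ⟨?_, ?_, ?_⟩
  · rw [sectIdealP_eq_range ε', sectIdealP_eq_range ε]
    refine range_pair_baseChange ε.eP ε'.eP (fun m n => ?_) s.1.1
    simp [ε', Iso.trans, Iso.symm, pullbackTensor, pullbackCongr, pullbackTrivial,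
      Iso.ofPullback, Algebra.smul_def]
  · rw [sectIdealQ_eq_range ε', sectIdealQ_eq_range ε]
    refine range_pair_baseChange ε.eQ ε'.eQ (fun m n => ?_) s.1.2
    simp [ε', Iso.trans, Iso.symm, pullbackTensor, pullbackCongr, pullbackTrivial,
      Iso.ofPullback, Algebra.smul_def]
  · have hs : (B.pullback (T.baseChange R')).ip (1 ⊗ₜ s.1.1) = 1 ⊗ₜ B.ip s.1.1 := by
      change B.pullbackIP _ = _
      rw [pullbackIP_tmul, map_one]
    have h1 : sectIdeal (B.bcSection φ s) =
        divIdeal ((1 : R' ⊗[k] T.L) ⊗ₜ[R ⊗[k] T.L] B.ip s.1.1) :=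
      congrArg divIdeal hs
    rw [h1, divIdeal_eq_range ε'.eL, sectIdeal, divIdeal_eq_range ε.eL]
    refine range_pair_baseChange ε.eL ε'.eL (fun m n => ?_) (B.ip s.1.1)
    simp [ε', Iso.trans, Iso.symm, pullbackTensor, pullbackCongr, pullbackTrivial,
      Iso.ofPullback, Algebra.smul_def]

end BaseChange

end Bundle

section Good

open Bundle

variable {k : Type u} [CommRing k] {T : TwoChart k} [CurveLike T] {g : ℕ} (b : Fin g → T.L)
  {R R' : Type u} [CommRing R] [CommRing R'] [Algebra k R] [Algebra k R']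

/-- A section whose zero locus is in the overlap and has quotient basis `b`. -/
structure IsGoodSection {B : Bundle (T.baseChange R)} (s : B.H0) : Prop where
  coprimeP : sectIdealP s ⊔ Ideal.span {x (T := T.baseChange R)} = ⊤
  coprimeQ : sectIdealQ s ⊔ Ideal.span {y (T := T.baseChange R)} = ⊤
  basis : IsBasisIdeal b (sectIdeal s)

/-- A bundle with `H¹ = 0` and a generating good section. -/
structure IsGood (B : Bundle (T.baseChange R)) : Prop where
  nonspecial : B.Nonspecial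
  exists_section : ∃ s : B.H0, Submodule.span R {s} = ⊤ ∧ IsGoodSection b s

variable {b}

/-- Goodness is invariant under isomorphism. -/
theorem IsGood.of_iso {B B' : Bundle (T.baseChange R)} (h : IsGood b B) (e : Iso B B') :
    IsGood b B' := by
  obtain ⟨hn, s, hs, hP, hQ, hI⟩ := h
  have hm : ∀ m : B.H0, ((e.eP m.1.1, e.eQ m.1.2) : B'.MP × B'.MQ) ∈ B'.H0 := fun m =>
    e.toHom.map_mem_H0 m.2
  refine ⟨e.nonspecial_iff.1 hn, ⟨_, hm s⟩, ?_, ?_, ?_, ?_⟩
  · rw [eq_top_iff]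
    rintro m' -
    have hm' : ((e.eP.symm m'.1.1, e.eQ.symm m'.1.2) : B.MP × B.MQ) ∈ B.H0 :=
      e.symm.toHom.map_mem_H0 m'.2
    have h' : (⟨_, hm'⟩ : B.H0) ∈ Submodule.span R {s} := hs ▸ Submodule.mem_top
    obtain ⟨r, hr⟩ := Submodule.mem_span_singleton.1 h'
    refine Submodule.mem_span_singleton.2 ⟨r, Subtype.ext (Prod.ext ?_ ?_)⟩
    · have h1 : r • s.1.1 = e.eP.symm m'.1.1 := congrArg (fun z : B.H0 => z.1.1) hr
      change r • e.eP s.1.1 = m'.1.1
      rw [← LinearEquiv.coe_coe, ← LinearMap.map_smul_of_tower, LinearEquiv.coe_coe, h1,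
        LinearEquiv.apply_symm_apply]
    · have h1 : r • s.1.2 = e.eQ.symm m'.1.2 := congrArg (fun z : B.H0 => z.1.2) hr
      change r • e.eQ s.1.2 = m'.1.2
      rw [← LinearEquiv.coe_coe, ← LinearMap.map_smul_of_tower, LinearEquiv.coe_coe, h1,
        LinearEquiv.apply_symm_apply]
  · rwa [sectIdealP, Pairing.divIdeal_map_equiv]
  · rwa [sectIdealQ, Pairing.divIdeal_map_equiv]
  · rw [sectIdeal, ← e.commP, Pairing.divIdeal_map_equiv]
    exact hI

/-- Goodness depends only on the class. -/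
theorem isGood_iff_of_cls {B B' : Bundle (T.baseChange R)} (h : B.cls = B'.cls) :
    IsGood b B ↔ IsGood b B' := by
  obtain ⟨e⟩ := cls_eq_iff.1 h
  exact ⟨fun h => h.of_iso e, fun h => h.of_iso e.symm⟩

/-- Good sections are stable under base change. -/
theorem IsGoodSection.bc {B : Bundle (T.baseChange R)} {s : B.H0} (h : IsGoodSection b s)
    (φ : R →ₐ[k] R') : IsGoodSection b (B.bcSection φ s) := by
  obtain ⟨hP, hQ, hI⟩ := sectIdeals_bcSection φ B s
  refine ⟨?_, ?_, hI ▸ h.basis.map φ⟩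
  · have hx : x (T := T.baseChange R') = mapBase T.P φ (x (T := T.baseChange R)) := by
      change (1 : R') ⊗ₜ[k] x (T := T) = mapBase T.P φ (1 ⊗ₜ x (T := T))
      simp
    rw [hP, hx, ← Set.image_singleton (f := mapBase T.P φ), ← Ideal.map_span, ← Ideal.map_sup,
      h.coprimeP, Ideal.map_top]
  · have hy : y (T := T.baseChange R') = mapBase T.Q φ (y (T := T.baseChange R)) := by
      change (1 : R') ⊗ₜ[k] y (T := T) = mapBase T.Q φ (1 ⊗ₜ y (T := T))
      simp
    rw [hQ, hy, ← Set.image_singleton (f := mapBase T.Q φ), ← Ideal.map_span, ← Ideal.map_sup,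
      h.coprimeQ, Ideal.map_top]

/-- Goodness is stable under base change. -/
theorem IsGood.bc {B : Bundle (T.baseChange R)} (h : IsGood b B) (φ : R →ₐ[k] R') :
    IsGood b (B.bc φ) := by
  obtain ⟨hn, s, hs, hg⟩ := h
  refine ⟨Nonspecial.bc φ hn, B.bcSection φ s, ?_, hg.bc φ⟩
  rw [eq_top_iff, ← span_bcSection φ hn, Submodule.span_le]
  rintro _ ⟨m, rfl⟩
  obtain ⟨r, rfl⟩ := Submodule.mem_span_singleton.1 (hs ▸ Submodule.mem_top : m ∈ Submodule.span R {s})
  rw [bcSection_smul]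
  exact Submodule.smul_mem _ _ (Submodule.mem_span_singleton_self _)

end Good

section Classify

open Bundle

variable {k : Type u} [Field k] [IsAlgClosed k] {T : TwoChart k} [CurveLike T] {g : ℕ}
  {b : Fin g → T.L} {R : Type u} [CommRing R] [Algebra k R]
  [IsDedekindDomain T.P] [IsDedekindDomain T.Q] [Algebra.FiniteType k T.P]
  [Algebra.FiniteType k T.Q]

/-- A good bundle is `O(D)` for exactly one `D`. -/
theorem IsGood.existsUnique_ideal {B : Bundle (T.baseChange R)} (h : IsGood b B) :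
    ∃! I : Ideal (R ⊗[k] T.L), ∃ hI : IsBasisIdeal b I, hI.bundle.cls = B.cls⁻¹ := by
  obtain ⟨-, s, hs, hP, hQ, hb⟩ := h
  obtain ⟨K, hK, ⟨ε⟩⟩ := B.exists_inverse
  refine ⟨sectIdeal s, ⟨hb, ?_⟩, ?_⟩
  · obtain ⟨j⟩ := nonempty_iso_idealBundle ε s hP hQ hb.invertible_comapP hb.invertible_comapQ
    rw [← hK]
    exact (cls_eq_iff.2 ⟨j⟩).symm
  · rintro I ⟨hI, hIc⟩
    obtain ⟨j⟩ := cls_eq_iff.1 (hK.trans hIc.symm)
    obtain ⟨s', hs', -, -⟩ := exists_section_of_iso ε j
    obtain ⟨r, hr⟩ := Submodule.mem_span_singleton.1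
      (hs ▸ Submodule.mem_top : s' ∈ Submodule.span R {s})
    refine hI.eq_of_le hb ?_
    rw [← hs', ← hr]
    exact sectIdeal_smul_le s r

end Classify

end Fermat.Agent.RelJac
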