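import Fermat.Agent.RelJac.GoodFibre

/-!
The good locus of a bundle with an evaluation functional is open, and a bundle good on all fibres is
good.
-/

open scoped TensorProduct

namespace Fermat.Agent.RelJac

universe u

open CurveLike (x y)
open Bundle

variable {k : Type u} [Field k] {T : TwoChart k} [CurveLike T] {g : ℕ}
  {b : Fin g → T.L} {e : T.P →ₐ[k] k} {R : Type u} [CommRing R] [Algebra k R]

omit [CurveLike T] in
/-- The chart ideals of a section lie in the pullbacks of its ideal on the overlap. -/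
theorem sectIdeal_compat {B : Bundle (T.baseChange R)} (s : B.H0) :
    sectIdealP s ≤ comapP (T.baseChange R) (sectIdeal s) ∧
      sectIdealQ s ≤ comapQ (T.baseChange R) (sectIdeal s) := by
  obtain ⟨K, -, ⟨ε⟩⟩ := B.exists_inverse
  constructor
  · rw [sectIdealP_eq_range ε, sectIdeal_eq_range ε]
    rintro _ ⟨m, rfl⟩
    exact ⟨K.ip m, ((pairHom ε s).commP m).trans (glue_ip 1 _)⟩
  · rw [sectIdealQ_eq_range ε, sectIdeal_eq_range ε]
    rintro _ ⟨m, rfl⟩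
    exact ⟨K.iq m, ((pairHom ε s).commQ m).trans (by rw [glue_iq, Units.val_one, one_mul])⟩

section FieldPoint

variable (he : e (x (T := T)) = 0) {L : Type u} [Field L] [Algebra k L]

/-- On a good fibre, a section with nonzero value at the marked point is a good generator. -/
theorem good_fibre_section {B : Bundle (T.baseChange R)} (v : EvalFun e B) (ψ : R →ₐ[k] L)
    (h : IsGood b (B.bc ψ)) (s : B.H0) (hs : ψ (v.val s.1.1) ≠ 0) :
    B.bcSection ψ s ≠ 0 ∧ IsGoodSection b (B.bcSection ψ s) ∧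
      Module.finrank L (B.bc ψ).H0 = 1 := by
  obtain ⟨v', hv'⟩ := v.exists_bc e ψ
  have hs0 : B.bcSection ψ s ≠ 0 := fun h0 => hs (by
    rw [← hv', h0]
    exact map_zero _)
  obtain ⟨-, t, ht, -⟩ := id h
  have ht0 : t ≠ 0 := by
    rintro rfl
    obtain ⟨c, hc⟩ := Submodule.mem_span_singleton.1
      (ht ▸ Submodule.mem_top : B.bcSection ψ s ∈ Submodule.span L {(0 : (B.bc ψ).H0)})
    exact hs0 (by rw [← hc, smul_zero])
  have hrank : Module.finrank L (B.bc ψ).H0 = 1 := finrank_eq_one t ht0 fun w =>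
    Submodule.mem_span_singleton.1 (ht ▸ Submodule.mem_top)
  refine ⟨hs0, h.isGoodSection (eq_top_iff.2 fun w _ => Submodule.mem_span_singleton.2 ?_), hrank⟩
  exact exists_smul_eq_of_finrank_eq_one hrank hs0 w

include he in
/-- A bundle good on a fibre has a section with nonzero value at the marked point there. -/
theorem exists_val_ne_zero {B : Bundle (T.baseChange R)} (v : EvalFun e B) (hn : B.Nonspecial)
    (ψ : R →ₐ[k] L) (h : IsGood b (B.bc ψ)) : ∃ s : B.H0, ψ (v.val s.1.1) ≠ 0 := by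
  obtain ⟨v', hv'⟩ := v.exists_bc e ψ
  obtain ⟨-, t, -, hP, -⟩ := id h
  by_contra hc
  push Not at hc
  have hzero : ∀ w : (B.bc ψ).H0, v'.val w.1.1 = 0 := by
    intro w
    have hw : w ∈ Submodule.span L (Set.range (B.bcSection ψ)) := span_bcSection ψ hn ▸ Submodule.mem_top
    refine Submodule.span_induction ?_ (map_zero _) ?_ ?_ hw
    · rintro _ ⟨m, rfl⟩
      rw [hv', hc m]
    · intro a c _ _ ha hb
      exact (map_add v'.val a.1.1 c.1.1).trans (by rw [ha, hb, add_zero])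
    · intro r a _ ha
      exact (map_smul v'.val r a.1.1).trans (by rw [ha, smul_zero])
  exact (v'.isUnit_val he hP).ne_zero (hzero t)

end FieldPoint

omit [CurveLike T] in
/-- An ideal containing the image of an element of the base that becomes a unit is the unit
ideal. -/
theorem eq_top_of_map_le {A : Type u} [CommRing A] [Algebra k A] {R' : Type u} [CommRing R']
    [Algebra k R'] (φ : R →ₐ[k] R') {r : R} (hu : IsUnit (φ r)) {I : Ideal (R ⊗[k] A)}
    (hr : algebraMap R (R ⊗[k] A) r ∈ I) {I' : Ideal (R' ⊗[k] A)}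
    (hle : I.map (mapBase A φ) ≤ I') : I' = ⊤ := by
  refine Ideal.eq_top_of_isUnit_mem _ (hle (Ideal.mem_map_of_mem _ hr)) ?_
  simpa [Algebra.TensorProduct.algebraMap_apply] using
    hu.map (Algebra.TensorProduct.includeLeft : R' →ₐ[k] R' ⊗[k] A)

/-- Spanning by `b` spreads out where the section avoids `x = 0` and `x = ∞`. -/
theorem exists_span_fibres_nhd {J : Ideal (R ⊗[k] T.L)} {r r' : R}
    (hr : algebraMap R (R ⊗[k] T.P) r ∈ comapP (T.baseChange R) J ⊔ Ideal.span {x (T := T.baseChange R)})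
    (hr' : algebraMap R (R ⊗[k] T.Q) r' ∈ comapQ (T.baseChange R) J ⊔ Ideal.span {y (T := T.baseChange R)})
    {L₀ : Type u} [Field L₀] [Algebra k L₀] (ψ₀ : R →ₐ[k] L₀) (h0 : ψ₀ (r * r') ≠ 0)
    (h : ∀ z : L₀ ⊗[k] T.L, ∃ c : Fin g → L₀,
      z - ∑ i, c i ⊗ₜ[k] b i ∈ J.map (mapBase T.L ψ₀)) :
    ∃ t : R, ψ₀ t ≠ 0 ∧ ∀ (L : Type u) [Field L] [Algebra k L] (ψ : R →ₐ[k] L), ψ t ≠ 0 →
      ∀ z : L ⊗[k] T.L, ∃ c : Fin g → L,
        z - ∑ i, c i ⊗ₜ[k] b i ∈ J.map (mapBase T.L ψ) := by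
  let R₂ := Localization.Away (r * r')
  let φ : R →ₐ[k] R₂ := IsScalarTower.toAlgHom k R R₂
  set J₂ := J.map (mapBase T.L φ)
  have hu : IsUnit (φ (r * r')) := IsLocalization.Away.algebraMap_isUnit _
  rw [map_mul, IsUnit.mul_iff] at hu
  have hP : comapP (T.baseChange R₂) J₂ ⊔ Ideal.span {x (T := T.baseChange R₂)} = ⊤ := by
    refine eq_top_of_map_le φ hu.1 hr ?_
    rw [Ideal.map_sup, Ideal.map_span, Set.image_singleton]
    refine sup_le_sup (Ideal.map_le_iff_le_comap.2 fun p hp => ?_) (le_of_eq ?_)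
    · change algebraMap (R₂ ⊗[k] T.P) (R₂ ⊗[k] T.L) (T.bcP φ p) ∈ J₂
      rw [← TwoChart.bcL_algebraMapP]
      have hp' : algebraMap (R ⊗[k] T.P) (R ⊗[k] T.L) p ∈ J := hp
      exact Ideal.mem_map_of_mem (mapBase T.L φ) hp'
    · congr 2
      change mapBase T.P φ (1 ⊗ₜ x (T := T)) = (1 : R₂) ⊗ₜ[k] x (T := T)
      simp
  have hQ : comapQ (T.baseChange R₂) J₂ ⊔ Ideal.span {y (T := T.baseChange R₂)} = ⊤ := by
    refine eq_top_of_map_le φ hu.2 hr' ?_
    rw [Ideal.map_sup, Ideal.map_span, Set.image_singleton]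
    refine sup_le_sup (Ideal.map_le_iff_le_comap.2 fun p hp => ?_) (le_of_eq ?_)
    · change algebraMap (R₂ ⊗[k] T.Q) (R₂ ⊗[k] T.L) (T.bcQ φ p) ∈ J₂
      rw [← TwoChart.bcL_algebraMapQ]
      have hp' : algebraMap (R ⊗[k] T.Q) (R ⊗[k] T.L) p ∈ J := hp
      exact Ideal.mem_map_of_mem (mapBase T.L φ) hp'
    · congr 2
      change mapBase T.Q φ (1 ⊗ₜ y (T := T)) = (1 : R₂) ⊗ₜ[k] y (T := T)
      simp
  have : Module.Finite R₂ ((R₂ ⊗[k] T.L) ⧸ J₂) :=
    finite_quotient_of_coprime (U := T.baseChange R₂) hP hQ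
  have lift : ∀ (L : Type u) [Field L] [Algebra k L] (ψ : R →ₐ[k] L), ψ (r * r') ≠ 0 →
      ∃ ψ' : R₂ →ₐ[k] L, ψ'.comp φ = ψ ∧ J₂.map (mapBase T.L ψ') = J.map (mapBase T.L ψ) := by
    intro L _ _ ψ hψ
    refine ⟨IsLocalization.liftAlgHom (M := Submonoid.powers (r * r')) (f := ψ) ?_, ?_, ?_⟩
    · rintro ⟨_, m, rfl⟩
      exact isUnit_iff_ne_zero.2 (by
        simp only [map_pow]
        exact pow_ne_zero m hψ)
    · exact AlgHom.ext fun a => IsLocalization.lift_eq _ a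
    · rw [show J₂ = J.map (mapBase T.L φ) from rfl, Ideal.map_mapₐ]
      congr 1
      refine Algebra.TensorProduct.ext' fun a c => ?_
      simp only [AlgHom.comp_apply, Algebra.TensorProduct.map_tmul, AlgHom.id_apply]
      congr 1
      exact IsLocalization.lift_eq _ a
  obtain ⟨ψ₂, hψ₂, hJ⟩ := lift L₀ ψ₀ h0
  obtain ⟨t₂, ht₂, ht₂'⟩ := exists_span_nhd b J₂ ψ₂ (by rw [hJ]; exact h)
  obtain ⟨⟨t, ⟨_, m, rfl⟩⟩, ht⟩ := IsLocalization.surj (Submonoid.powers (r * r')) t₂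
  refine ⟨r * r' * t, ?_, fun L _ _ ψ hψ z => ?_⟩
  · rw [map_mul, mul_ne_zero_iff]
    refine ⟨h0, ?_⟩
    rw [← hψ₂]
    change ψ₂ (algebraMap R R₂ t) ≠ 0
    rw [← ht, map_mul]
    refine mul_ne_zero ht₂ ?_
    change (ψ₂.comp φ) ((r * r') ^ m) ≠ 0
    rw [hψ₂, map_pow]
    exact pow_ne_zero m h0
  · rw [map_mul, mul_ne_zero_iff] at hψ
    obtain ⟨ψ', hψ', hJ'⟩ := lift L ψ hψ.1
    have hne : ψ' t₂ ≠ 0 := fun h0' => hψ.2 (by
      rw [← hψ']
      change ψ' (algebraMap R R₂ t) = 0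
      rw [← ht, map_mul, h0', zero_mul])
    induction z using TensorProduct.induction_on with
    | zero => exact ⟨0, by simp⟩
    | add a c ha hb =>
      obtain ⟨ca, ha⟩ := ha
      obtain ⟨cb, hb⟩ := hb
      refine ⟨ca + cb, ?_⟩
      have := add_mem ha hb
      simpa [TensorProduct.add_tmul, Finset.sum_add_distrib, add_sub_add_comm] using this
    | tmul a l =>
      obtain ⟨c, hc⟩ := ht₂' ((1 : R₂) ⊗ₜ l)
      refine ⟨fun i => a * (ψ' t₂)⁻¹ * ψ' (c i), ?_⟩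
      have := Ideal.mul_mem_left (J₂.map (mapBase T.L ψ')) ((a * (ψ' t₂)⁻¹) ⊗ₜ[k] (1 : T.L))
        (Ideal.mem_map_of_mem (mapBase T.L ψ') hc)
      rw [hJ'] at this
      convert this using 1
      rw [map_sub, mul_sub, map_sum, Finset.mul_sum, TensorProduct.smul_tmul', smul_eq_mul, mul_one]
      simp [mul_assoc, inv_mul_cancel₀ hne]

variable [IsAlgClosed k] [IsDedekindDomain T.P] [IsDedekindDomain T.Q] [Algebra.FiniteType k T.P]
  [Algebra.FiniteType k T.Q]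

variable (b) in
/-- The good locus contains a basic neighbourhood of each of its points. -/
def GoodNhd (B : Bundle (T.baseChange R)) {L₀ : Type u} [Field L₀] [Algebra k L₀]
    (ψ₀ : R →ₐ[k] L₀) : Prop :=
  ∃ r : R, ψ₀ r ≠ 0 ∧
    ∀ (L : Type u) [Field L] [Algebra k L] (ψ : R →ₐ[k] L), ψ r ≠ 0 → IsGood b (B.bc ψ)

theorem goodNhd_of_nonspecial (he : e (x (T := T)) = 0) {B : Bundle (T.baseChange R)}
    (v : EvalFun e B) (hn : B.Nonspecial) {L₀ : Type u} [Field L₀] [Algebra k L₀]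
    (ψ₀ : R →ₐ[k] L₀) (h : IsGood b (B.bc ψ₀)) : GoodNhd b B ψ₀ := by
  obtain ⟨s, hs⟩ := exists_val_ne_zero he v hn ψ₀ h
  obtain ⟨hs0, hgood, hrank⟩ := good_fibre_section v ψ₀ h s hs
  have := B.finite_H0 hn
  have := B.projective_H0 hn
  have := Module.finitePresentation_of_projective R B.H0
  obtain ⟨r₃, hr₃, hr₃'⟩ := FibreTools.exists_basic_of_locallyConstant
    (Module.isLocallyConstant_rankAtStalk (R := R) (M := B.H0)) (pointOf ψ₀)
  obtain ⟨r₄, hr₄, hr₄'⟩ := exists_coprimeP_nhd s ψ₀ hgood.coprimeP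
  obtain ⟨r₅, hr₅, hr₅'⟩ := exists_coprimeQ_nhd s ψ₀ hgood.coprimeQ
  have hc4 : algebraMap R (R ⊗[k] T.P) r₄ ∈
      comapP (T.baseChange R) (sectIdeal s) ⊔ Ideal.span {x (T := T.baseChange R)} :=
    sup_le_sup (sectIdeal_compat s).1 le_rfl hr₄'
  have hc5 : algebraMap R (R ⊗[k] T.Q) r₅ ∈
      comapQ (T.baseChange R) (sectIdeal s) ⊔ Ideal.span {y (T := T.baseChange R)} :=
    sup_le_sup (sectIdeal_compat s).2 le_rfl hr₅'
  have hJ₀ := (sectIdeals_bcSection ψ₀ B s).2.2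
  obtain ⟨r₆, hr₆, hr₆'⟩ := exists_span_fibres_nhd (b := b) hc4 hc5 ψ₀
    (by rw [map_mul]; exact mul_ne_zero hr₄ hr₅) fun z => by
      obtain ⟨c, hc⟩ := hgood.basis.2 (Ideal.Quotient.mk _ z)
      refine ⟨c, ?_⟩
      rw [← hJ₀]
      exact Ideal.Quotient.eq.1 hc.symm
  obtain ⟨f, hf, hf'⟩ := exists_deg_locallyConstant B.cls
  obtain ⟨r₇, hr₇, hr₇'⟩ := FibreTools.exists_basic_of_locallyConstant hf (pointOf ψ₀)
  refine ⟨v.val s.1.1 * r₃ * r₄ * r₅ * r₆ * r₇, ?_, fun L _ _ ψ hψ => ?_⟩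
  · simp only [map_mul, mul_ne_zero_iff]
    exact ⟨⟨⟨⟨⟨hs, fun h0 => hr₃ h0⟩, hr₄⟩, hr₅⟩, hr₆⟩, fun h0 => hr₇ h0⟩
  · simp only [map_mul, mul_ne_zero_iff] at hψ
    obtain ⟨⟨⟨⟨⟨hv, h3⟩, h4⟩, h5⟩, h6⟩, h7⟩ := hψ
    obtain ⟨v', hv'⟩ := v.exists_bc e ψ
    have hne : B.bcSection ψ s ≠ 0 := fun h0 => hv (by
      rw [← hv', h0]
      exact map_zero _)
    have hr : Module.finrank L (B.bc ψ).H0 = 1 := by
      rw [finrank_H0_bc ψ hn]
      change Module.rankAtStalk B.H0 (pointOf ψ) = 1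
      rw [hr₃' (pointOf ψ) fun h0 => h3 h0, ← hrank, finrank_H0_bc ψ₀ hn]
      rfl
    refine ⟨Nonspecial.bc ψ hn, B.bcSection ψ s,
      eq_top_iff.2 fun w _ => Submodule.mem_span_singleton.2
        (exists_smul_eq_of_finrank_eq_one hr hne w), ?_⟩
    have hcop : ∀ {A : Type u} [CommRing A] [Algebra k A] (I : Ideal (R ⊗[k] A)) (r : R),
        ψ r ≠ 0 → algebraMap R (R ⊗[k] A) r ∈ I → I.map (mapBase A ψ) = ⊤ := by
      intro A _ _ I r hr hI
      refine Ideal.eq_top_of_isUnit_mem _ (Ideal.mem_map_of_mem _ hI) ?_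
      rw [Algebra.TensorProduct.algebraMap_apply, Algebra.TensorProduct.map_tmul]
      simp only [Algebra.algebraMap_self, RingHom.id_apply, map_one]
      exact (isUnit_iff_ne_zero.2 hr).map
        (Algebra.TensorProduct.includeLeft : L →ₐ[k] L ⊗[k] A)
    obtain ⟨eP, eQ, eL⟩ := sectIdeals_bcSection ψ B s
    have hx : x (T := T.baseChange L) = mapBase T.P ψ (x (T := T.baseChange R)) := by
      change (1 : L) ⊗ₜ[k] x (T := T) = mapBase T.P ψ (1 ⊗ₜ x (T := T))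
      simp
    have hy : y (T := T.baseChange L) = mapBase T.Q ψ (y (T := T.baseChange R)) := by
      change (1 : L) ⊗ₜ[k] y (T := T) = mapBase T.Q ψ (1 ⊗ₜ y (T := T))
      simp
    refine isGoodSection_of_span hne ?_ ?_ ?_ ?_
    · rw [eP, hx, ← Set.image_singleton (f := mapBase T.P ψ), ← Ideal.map_span, ← Ideal.map_sup]
      exact hcop _ r₄ h4 hr₄'
    · rw [eQ, hy, ← Set.image_singleton (f := mapBase T.Q ψ), ← Ideal.map_span, ← Ideal.map_sup]
      exact hcop _ r₅ h5 hr₅'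
    · rw [eL]
      exact hr₆' L ψ h6
    · rw [← degCls_cls, ← bcCls_cls, hf', hr₇' (pointOf ψ) (fun h0 => h7 h0), ← hf', bcCls_cls,
        degCls_cls]
      exact hgood.deg_eq hs0

/-- The good locus is open. -/
theorem goodNhd (he : e (x (T := T)) = 0) {B : Bundle (T.baseChange R)} (v : EvalFun e B)
    {L₀ : Type u} [Field L₀] [Algebra k L₀] (ψ₀ : R →ₐ[k] L₀) (h : IsGood b (B.bc ψ₀)) :
    GoodNhd b B ψ₀ := by
  obtain ⟨r₁, hr₁, hr₁'⟩ := exists_nonspecial_nhd ψ₀ h.nonspecial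
  let R₁ := Localization.Away r₁
  let φ : R →ₐ[k] R₁ := IsScalarTower.toAlgHom k R R₁
  have lift : ∀ (L : Type u) [Field L] [Algebra k L] (ψ : R →ₐ[k] L), ψ r₁ ≠ 0 →
      ∃ ψ' : R₁ →ₐ[k] L, ψ'.comp φ = ψ := by
    intro L _ _ ψ hψ
    refine ⟨IsLocalization.liftAlgHom (M := Submonoid.powers r₁) (f := ψ) ?_,
      AlgHom.ext fun a => IsLocalization.lift_eq _ a⟩
    rintro ⟨_, m, rfl⟩
    exact isUnit_iff_ne_zero.2 (by
      simp only [map_pow]
      exact pow_ne_zero m hψ)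
  obtain ⟨v₁, -⟩ := v.exists_bc e φ
  obtain ⟨ψ₁, hψ₁⟩ := lift L₀ ψ₀ hr₁
  have hn : (B.bc φ).Nonspecial :=
    nonspecial_bc_of_annihilated φ (IsLocalization.Away.algebraMap_isUnit r₁) hr₁'
  obtain ⟨t, ht, ht'⟩ := goodNhd_of_nonspecial (b := b) he v₁ hn ψ₁
    (by rw [isGood_bc_bc, hψ₁]; exact h)
  obtain ⟨⟨a, ⟨_, m, rfl⟩⟩, ha⟩ := IsLocalization.surj (Submonoid.powers r₁) t
  refine ⟨r₁ * a, ?_, fun L _ _ ψ hψ => ?_⟩
  · rw [map_mul, mul_ne_zero_iff]
    refine ⟨hr₁, ?_⟩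
    rw [← hψ₁]
    change ψ₁ (algebraMap R R₁ a) ≠ 0
    rw [← ha, map_mul]
    refine mul_ne_zero ht ?_
    change (ψ₁.comp φ) (r₁ ^ m) ≠ 0
    rw [hψ₁, map_pow]
    exact pow_ne_zero m hr₁
  · rw [map_mul, mul_ne_zero_iff] at hψ
    obtain ⟨ψ', hψ'⟩ := lift L ψ hψ.1
    rw [← hψ', ← isGood_bc_bc]
    refine ht' L ψ' fun h0 => hψ.2 ?_
    rw [← hψ']
    change ψ' (algebraMap R R₁ a) = 0
    rw [← ha, map_mul, h0, zero_mul]

/-- Goodness descends along field extensions. -/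
theorem isGood_of_field_extension (he : e (x (T := T)) = 0) {K L : Type u} [Field K] [Field L]
    [Algebra k K] [Algebra k L] {B : Bundle (T.baseChange K)} (v : EvalFun e B) (ψ : K →ₐ[k] L)
    (h : IsGood b (B.bc ψ)) : IsGood b B := by
  obtain ⟨r, hr, hr'⟩ := goodNhd he v ψ h
  rw [← isGood_bc_id]
  exact hr' K (AlgHom.id k K) fun h0 => hr (by rw [show r = 0 from h0, map_zero])

end Fermat.Agent.RelJac
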