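import Fermat.Agent.RelJac.Good
import Fermat.Agent.RelJac.FibreTools
import Fermat.Agent.RelJac.EffectiveDegree

/-!
Finiteness of the zero scheme of a section lying in the overlap, its length over a field, and
evaluation functionals at the marked point.
-/

open scoped TensorProduct

namespace Fermat.Agent.RelJac

universe u

open CurveLike (x y)

section Finite

variable {S : Type u} [CommRing S] {U : TwoChart S} [CurveLike U] {J : Ideal U.L}

theorem exists_algebraMapP_sub_mem_of_coprime (hP : comapP U J ⊔ Ideal.span {x (T := U)} = ⊤)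
    (z : U.L) : ∃ p : U.P, algebraMap U.P U.L p - z ∈ J := by
  obtain ⟨i, hi, w, hw, hiw⟩ := Submodule.mem_sup.1 ((Ideal.eq_top_iff_one _).1 hP)
  obtain ⟨a, rfl⟩ := Ideal.mem_span_singleton'.1 hw
  obtain ⟨⟨q, ⟨_, m, rfl⟩⟩, hq⟩ := IsLocalization.surj (Submonoid.powers (x (T := U))) z
  refine ⟨a ^ m * q, ?_⟩
  have h1 : algebraMap U.P U.L a ^ m * algebraMap U.P U.L (x (T := U)) ^ m - 1 ∈ J := by
    rw [← mul_pow]
    have hd := sub_dvd_pow_sub_pow (algebraMap U.P U.L a * algebraMap U.P U.L (x (T := U))) 1 m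
    rw [one_pow] at hd
    refine Ideal.mem_of_dvd J hd ?_
    have : algebraMap U.P U.L a * algebraMap U.P U.L (x (T := U)) - 1 = -algebraMap U.P U.L i := by
      rw [← map_mul, ← map_one (algebraMap U.P U.L), ← map_sub, ← map_neg]
      exact congrArg _ (by linear_combination hiw)
    rw [this]
    exact neg_mem hi
  have e : algebraMap U.P U.L (a ^ m * q) - z =
      z * (algebraMap U.P U.L a ^ m * algebraMap U.P U.L (x (T := U)) ^ m - 1) := by
    simp only at hq
    rw [map_mul, map_pow, ← hq, map_pow]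
    ring
  rw [e]
  exact J.mul_mem_left _ h1

/-- A zero scheme contained in the overlap is finite over the base. -/
theorem finite_quotient_of_coprime (hP : comapP U J ⊔ Ideal.span {x (T := U)} = ⊤)
    (hQ : comapQ U J ⊔ Ideal.span {y (T := U)} = ⊤) : Module.Finite S (U.L ⧸ J) := by
  classical
  obtain ⟨h, hh⟩ := FibreTools.exists_poly_mem (R := S) (y (T := U))
    (fun i => CurveLike.basisQ (T := U) (i, 0)) (fun a => by
      refine (Submodule.span_le.2 ?_) ((CurveLike.basisQ (T := U)).mem_span a)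
      rintro _ ⟨⟨i, m⟩, rfl⟩
      exact Submodule.subset_span ⟨(i, m), (CurveLike.basisQ_eq U i m).symm⟩) (comapQ U J) hQ
  let q := Ideal.Quotient.mkₐ S J
  let xN := q (algebraMap U.P U.L (x (T := U)))
  let yN := q (algebraMap U.Q U.L (y (T := U)))
  have hxy : xN * yN = 1 := by rw [← map_mul, CurveLike.x_mul_y, map_one]
  have hint : IsIntegral S xN := by
    refine FibreTools.isIntegral_of_mul_eq_one hxy h ?_
    have : q (algebraMap U.Q U.L (1 + y (T := U) * Polynomial.aeval (y (T := U)) h)) = 0 :=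
      Ideal.Quotient.eq_zero_iff_mem.2 hh
    rw [map_add, map_add, map_one, map_one, map_mul, map_mul] at this
    rw [show Polynomial.aeval yN h = q (algebraMap U.Q U.L (Polynomial.aeval (y (T := U)) h)) from
      (Polynomial.aeval_algHom_apply (q.comp (IsScalarTower.toAlgHom S U.Q U.L)) _ h)]
    exact this
  let A := Algebra.adjoin S {xN}
  have hA : Module.Finite S A := Module.Finite.iff_fg.2 hint.fg_adjoin_singleton
  let G : Finset (U.L ⧸ J) := Finset.univ.image fun i =>
    q (algebraMap U.P U.L (CurveLike.basisP (T := U) (i, 0)))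
  have hgen : Submodule.span A (G : Set (U.L ⧸ J)) = ⊤ := by
    rw [eq_top_iff]
    rintro z -
    obtain ⟨z, rfl⟩ := Ideal.Quotient.mk_surjective z
    obtain ⟨p, hp⟩ := exists_algebraMapP_sub_mem_of_coprime hP z
    rw [← Ideal.Quotient.eq.2 hp]
    let φ : U.P →ₗ[S] U.L ⧸ J := q.toLinearMap ∘ₗ (IsScalarTower.toAlgHom S U.P U.L).toLinearMap
    have hp' : φ p ∈ (Submodule.span A (G : Set (U.L ⧸ J))).restrictScalars S := by
      refine (Submodule.map_span_le φ _ _).2 ?_
        (Submodule.mem_map_of_mem ((CurveLike.basisP (T := U)).mem_span p))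
      rintro _ ⟨⟨i, m⟩, rfl⟩
      rw [CurveLike.basisP_eq]
      have hx : xN ^ m ∈ A := pow_mem (Algebra.self_mem_adjoin_singleton S xN) m
      have he : φ (x (T := U) ^ m * CurveLike.basisP (T := U) (i, 0)) =
          (⟨xN ^ m, hx⟩ : A) • q (algebraMap U.P U.L (CurveLike.basisP (T := U) (i, 0))) := by
        simp only [φ, LinearMap.comp_apply, AlgHom.toLinearMap_apply, IsScalarTower.coe_toAlgHom',
          map_mul, map_pow, xN]
        rfl
      rw [he]
      exact Submodule.smul_mem _ _ (Submodule.subset_span (by simp [G]))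
    exact hp'
  have : Module.Finite A (U.L ⧸ J) := ⟨⟨G, hgen⟩⟩
  exact Module.Finite.trans A (U.L ⧸ J)

end Finite

section Field

open Bundle

variable {L : Type u} [Field L] {U : TwoChart L} [CurveLike U] [IsDomain U.P] [IsDomain U.Q]
  [IsDomain U.L]

/-- Over a field the degree is the length of the zero scheme. -/
theorem finrank_quotient_sectIdeal {B : Bundle U} {s : B.H0} (hs : s ≠ 0)
    (hP : sectIdealP s ⊔ Ideal.span {x (T := U)} = ⊤)
    (hQ : sectIdealQ s ⊔ Ideal.span {y (T := U)} = ⊤) :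
    (Module.finrank L (U.L ⧸ sectIdeal s) : ℤ) = B.deg := by
  obtain ⟨K, hK, ⟨ε⟩⟩ := B.exists_inverse
  set J := sectIdeal s
  have eP : sectIdealP s = comapP U J := sectIdealP_eq_comap s hP ε
  have eQ : sectIdealQ s = comapQ U J := sectIdealQ_eq_comap s hQ ε
  have hP' : comapP U J ⊔ Ideal.span {x (T := U)} = ⊤ := eP ▸ hP
  have hQ' : comapQ U J ⊔ Ideal.span {y (T := U)} = ⊤ := eQ ▸ hQ
  have := finite_quotient_of_coprime hP' hQ'
  obtain ⟨hs1, hs2, hs3⟩ := section_ne_zero hs
  let f := pairHom ε s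
  have iP : Function.Injective f.fP := FibreTools.functional_injective _ fun h0 =>
    hs1 (Pairing.pair_injective ε.eP (h0.trans (by ext; simp)))
  have iQ : Function.Injective f.fQ := FibreTools.functional_injective _ fun h0 =>
    hs2 (Pairing.pair_injective ε.eQ (h0.trans (by ext; simp)))
  have iL : Function.Injective f.fL := FibreTools.functional_injective _ fun h0 =>
    hs3 (Pairing.pair_injective ε.eL (h0.trans (by ext; simp)))
  let mP : (U.P ⧸ comapP U J) →ₐ[L] (U.L ⧸ J) :=
    Ideal.quotientMapₐ J (IsScalarTower.toAlgHom L U.P U.L) le_rfl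
  let mQ : (U.Q ⧸ comapQ U J) →ₐ[L] (U.L ⧸ J) :=
    Ideal.quotientMapₐ J (IsScalarTower.toAlgHom L U.Q U.L) le_rfl
  have hmP : Function.Bijective mP :=
    ⟨Ideal.quotientMap_injective, fun z => by
      obtain ⟨z, rfl⟩ := Ideal.Quotient.mk_surjective z
      obtain ⟨p, hp⟩ := exists_algebraMapP_sub_mem_of_coprime hP' z
      exact ⟨Ideal.Quotient.mk _ p, Ideal.Quotient.eq.2 hp⟩⟩
  have hmQ : Function.Bijective mQ :=
    ⟨Ideal.quotientMap_injective, fun z => by
      obtain ⟨z, rfl⟩ := Ideal.Quotient.mk_surjective z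
      obtain ⟨p, hp⟩ := exists_algebraMapP_sub_mem_of_coprime (U := U.swap) (J := J) hQ' z
      exact ⟨Ideal.Quotient.mk _ p, Ideal.Quotient.eq.2 hp⟩⟩
  let cP : (U.P ⧸ LinearMap.range (f.fP.restrictScalars L)) ≃ₗ[L] U.L ⧸ J :=
    ((Submodule.Quotient.restrictScalarsEquiv L (LinearMap.range f.fP)).trans
      ((Submodule.quotEquivOfEq _ _ ((sectIdealP_eq_range ε s).symm.trans eP)).restrictScalars L)).trans
      (LinearEquiv.ofBijective mP.toLinearMap hmP)
  let cQ : (U.Q ⧸ LinearMap.range (f.fQ.restrictScalars L)) ≃ₗ[L] U.L ⧸ J :=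
    ((Submodule.Quotient.restrictScalarsEquiv L (LinearMap.range f.fQ)).trans
      ((Submodule.quotEquivOfEq _ _ ((sectIdealQ_eq_range ε s).symm.trans eQ)).restrictScalars L)).trans
      (LinearEquiv.ofBijective mQ.toLinearMap hmQ)
  let cL : (U.L ⧸ LinearMap.range (f.fL.restrictScalars L)) ≃ₗ[L] U.L ⧸ J :=
    (Submodule.Quotient.restrictScalarsEquiv L (LinearMap.range f.fL)).trans
      ((Submodule.quotEquivOfEq _ _ (sectIdeal_eq_range ε s).symm).restrictScalars L)
  have := Module.Finite.equiv cP.symm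
  have := Module.Finite.equiv cQ.symm
  have := Module.Finite.equiv cL.symm
  have hchi := f.chi_eq iP iQ iL
  rw [cP.finrank_eq, cQ.finrank_eq, cL.finrank_eq] at hchi
  have hdeg : degCls K.cls = -B.deg := by rw [hK, degCls_inv, degCls_cls]
  rw [degCls_cls, deg, deg] at hdeg
  rw [deg]
  linarith

end Field

section Eval

variable {k : Type u} [CommRing k] {T : TwoChart k} (e : T.P →ₐ[k] k)
  {R R' : Type u} [CommRing R] [CommRing R'] [Algebra k R] [Algebra k R']

namespace Bundle

/-- A functional evaluating at the point given by `e`, with values onto the base. -/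
structure EvalFun (B : Bundle (T.baseChange R)) where
  val : B.MP →ₗ[R] R
  val_smul : ∀ (p : R ⊗[k] T.P) (m : B.MP), val (p • m) = pointP e p * val m
  exists_one : ∃ m, val m = 1

/-- Normalised bundles have evaluation functionals. -/
theorem nonempty_evalFun {B : Bundle (T.baseChange R)} (h : rig e B.cls = 1) :
    Nonempty (EvalFun e B) := by
  let a : Algebra (R ⊗[k] T.P) R := (pointP e).toRingHom.toAlgebra
  have h' : CommRing.Pic.mk R (R ⊗[R ⊗[k] T.P] B.MP) = 1 := by
    rw [← h]
    exact CommRing.Pic.mk_eq_mk_iff.2 ⟨TensorProduct.AlgebraTensorModule.congr (LinearEquiv.refl R R)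
      (CommRing.Pic.mk.linearEquiv (R ⊗[k] T.P) B.MP).symm⟩
  obtain ⟨θ⟩ := CommRing.Pic.mk_eq_one_iff.1 h'
  refine ⟨{
    val :=
      { toFun := fun m => θ (1 ⊗ₜ m)
        map_add' := fun m n => by rw [TensorProduct.tmul_add, map_add]
        map_smul' := fun r m => by
          rw [← algebraMap_smul (R ⊗[k] T.P) r m, ← TensorProduct.smul_tmul, Algebra.smul_def,
            mul_one, RingHom.id_apply]
          have : algebraMap (R ⊗[k] T.P) R (algebraMap R (R ⊗[k] T.P) r) = r :=
            (pointP e).commutes r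
          rw [this, ← map_smul, TensorProduct.smul_tmul', smul_eq_mul, mul_one] }
    val_smul := fun p m => ?_
    exists_one := ?_ }⟩
  · change θ (1 ⊗ₜ (p • m)) = pointP e p * θ (1 ⊗ₜ m)
    rw [← TensorProduct.smul_tmul, Algebra.smul_def, mul_one, ← smul_eq_mul, ← map_smul,
      TensorProduct.smul_tmul', smul_eq_mul, mul_one]
    rfl
  · have key : ∀ t : R ⊗[R ⊗[k] T.P] B.MP, ∃ m, θ (1 ⊗ₜ m) = θ t := by
      intro t
      induction t using TensorProduct.induction_on with
      | zero => exact ⟨0, by simp⟩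
      | tmul r m =>
        refine ⟨algebraMap R (R ⊗[k] T.P) r • m, ?_⟩
        rw [← TensorProduct.smul_tmul, Algebra.smul_def, mul_one]
        exact congrArg (fun z => θ (z ⊗ₜ m)) ((pointP e).commutes r)
      | add s t hs ht =>
        obtain ⟨a, ha⟩ := hs
        obtain ⟨b, hb⟩ := ht
        exact ⟨a + b, by rw [TensorProduct.tmul_add, map_add, map_add, ha, hb]⟩
    obtain ⟨t, ht⟩ := θ.surjective 1
    obtain ⟨m, hm⟩ := key t
    exact ⟨m, hm.trans ht⟩

theorem pointP_bcP (φ : R →ₐ[k] R') (p : R ⊗[k] T.P) :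
    pointP e (T.bcP φ p) = φ (pointP e p) := by
  induction p using TensorProduct.induction_on with
  | zero => simp
  | tmul r a => simp [pointP_tmul]
  | add a b ha hb => simp [ha, hb]

/-- Evaluation functionals base change. -/
theorem EvalFun.exists_bc {B : Bundle (T.baseChange R)} (v : EvalFun e B) (φ : R →ₐ[k] R') :
    ∃ v' : EvalFun e (B.bc φ), ∀ s : B.H0, v'.val (B.bcSection φ s).1.1 = φ (v.val s.1.1) := by
  let i := T.overBC φ
  let aP : Algebra (R ⊗[k] T.P) (R' ⊗[k] T.P) := (T.bcP φ).toAlgebra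
  let F : (R' ⊗[k] T.P) ⊗[R ⊗[k] T.P] B.MP →+ R' :=
    TensorProduct.liftAddHom
      { toFun := fun z => (AddMonoidHom.mulLeft (pointP e z)).comp
          (φ.toRingHom.toAddMonoidHom.comp v.val.toAddMonoidHom)
        map_zero' := by ext m; simp
        map_add' := fun a b => by ext m; simp [add_mul] }
      fun p z m => by
        have h1 : p • z = T.bcP φ p * z := rfl
        simp only [AddMonoidHom.coe_mk, ZeroHom.coe_mk, AddMonoidHom.coe_comp, Function.comp_apply,
          AddMonoidHom.coe_mulLeft, LinearMap.toAddMonoidHom_coe, RingHom.toAddMonoidHom_eq_coe,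
          AddMonoidHom.coe_coe, AlgHom.toRingHom_eq_coe, RingHom.coe_coe]
        rw [h1, map_mul, pointP_bcP, v.val_smul, map_mul]
        ring
  have hF : ∀ z m, F (z ⊗ₜ m) = pointP e z * φ (v.val m) := fun z m => rfl
  have hsmul : ∀ (q : R' ⊗[k] T.P) (t : (R' ⊗[k] T.P) ⊗[R ⊗[k] T.P] B.MP),
      F (q • t) = pointP e q * F t := fun q t => by
    induction t using TensorProduct.induction_on with
    | zero => simp
    | tmul z m => rw [TensorProduct.smul_tmul', hF, hF, smul_eq_mul, map_mul]; ring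
    | add a b ha hb => rw [smul_add, map_add, map_add, ha, hb, mul_add]
  refine ⟨⟨
    { toFun := fun z => F z
      map_add' := fun a b => map_add F a b
      map_smul' := fun r z => by
        rw [← algebraMap_smul (R' ⊗[k] T.P) r z, hsmul, RingHom.id_apply, smul_eq_mul]
        exact congrArg (· * F z) ((pointP e).commutes r) }, hsmul, ?_⟩, fun s => ?_⟩
  · obtain ⟨m, hm⟩ := v.exists_one
    exact ⟨(1 : R' ⊗[k] T.P) ⊗ₜ[R ⊗[k] T.P] m, (hF 1 m).trans (by rw [map_one, one_mul, hm, map_one])⟩
  · change F (1 ⊗ₜ s.1.1) = _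
    rw [hF, map_one, one_mul]

variable {e} [CurveLike T] (he : e (x (T := T)) = 0)

include he in
/-- A section not vanishing over `x = 0` has unit value at the marked point. -/
theorem EvalFun.isUnit_val {B : Bundle (T.baseChange R)} (v : EvalFun e B) {s : B.H0}
    (h : sectIdealP s ⊔ Ideal.span {x (T := T.baseChange R)} = ⊤) :
    IsUnit (v.val s.1.1) := by
  obtain ⟨i, hi, w, hw, hiw⟩ := Submodule.mem_sup.1 ((Ideal.eq_top_iff_one _).1 h)
  obtain ⟨a, rfl⟩ := Ideal.mem_span_singleton'.1 hw
  obtain ⟨m, hm⟩ := v.exists_one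
  obtain ⟨c, hc⟩ := Pairing.mem_divIdeal.1 hi m
  have hx : pointP (R := R) e (x (T := T.baseChange R)) = 0 := by
    change pointP e ((1 : R) ⊗ₜ x (T := T)) = 0
    simp [pointP_tmul, he]
  have hi1 : pointP e i = 1 := by
    have := congrArg (pointP (R := R) e) hiw
    rwa [map_add, map_mul, hx, mul_zero, add_zero, map_one] at this
  have := congrArg v.val hc
  rw [v.val_smul, v.val_smul, hi1, hm, one_mul] at this
  exact IsUnit.of_mul_eq_one (pointP e c) (by rw [mul_comm]; exact this)

end Bundle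

end Eval

end Fermat.Agent.RelJac
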