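import Fermat.Agent.RelJac.Covering
import Mathlib.RingTheory.Localization.Algebra

/-!
The bundle `O(-Γ)` of the graph of a point of either chart, its base change and its degree.
-/

open scoped TensorProduct

namespace Fermat.Agent.RelJac

universe u

open CurveLike (x y)

section Graph

variable {k A : Type u} [CommRing k] [CommRing A] [Algebra k A]
  {R R' : Type u} [CommRing R] [Algebra k R] [CommRing R'] [Algebra k R']

/-- The `R`-point of `R ⊗ A` given by `φ`. -/
noncomputable def graphPoint (φ : A →ₐ[k] R) : R ⊗[k] A →ₐ[R] R :=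
  Algebra.TensorProduct.lift (AlgHom.id R R) φ fun _ _ => .all _ _

/-- The point of a graph on a pure tensor. -/
theorem graphPoint_tmul (φ : A →ₐ[k] R) (r : R) (a : A) : graphPoint φ (r ⊗ₜ a) = r * φ a := by
  simp [graphPoint]

/-- The ideal of the graph. -/
noncomputable def graphIdeal (φ : A →ₐ[k] R) : Ideal (R ⊗[k] A) :=
  RingHom.ker (graphPoint φ).toRingHom

theorem mem_graphIdeal {φ : A →ₐ[k] R} {z : R ⊗[k] A} : z ∈ graphIdeal φ ↔ graphPoint φ z = 0 :=
  Iff.rfl

theorem graphIdeal_isBasisIdeal (φ : A →ₐ[k] R) :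
    IsBasisIdeal (fun _ : Fin 1 => (1 : A)) (graphIdeal φ) :=
  .of_retraction (graphPoint φ)

theorem map_graphIdeal (φ : A →ₐ[k] R) (ψ : R →ₐ[k] R') :
    (graphIdeal φ).map (mapBase A ψ) = graphIdeal (ψ.comp φ) := by
  refine IsBasisIdeal.eq_of_le (b := fun _ : Fin 1 => (1 : A))
    ((graphIdeal_isBasisIdeal φ).map ψ) (graphIdeal_isBasisIdeal (ψ.comp φ)) ?_
  rw [Ideal.map_le_iff_le_comap]
  intro z hz
  have h : ∀ w, graphPoint (ψ.comp φ) (mapBase A ψ w) = ψ (graphPoint φ w) := fun w => by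
    induction w using TensorProduct.induction_on with
    | zero => simp
    | tmul r a => simp [graphPoint_tmul]
    | add a b ha hb => simp only [map_add, ha, hb]
  rw [Ideal.mem_comap, mem_graphIdeal, h, mem_graphIdeal.1 hz, map_zero]

/-- Base change of an invertible ideal onto the invertible ideal it generates. -/
noncomputable def mapEquivOfInvertible {B C : Type u} [CommRing B] [CommRing C] [Algebra B C]
    {I : Ideal B} {J : Ideal C} (hI : Module.Invertible B I) (hJ : Module.Invertible C J)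
    (h : I.map (algebraMap B C) = J) : C ⊗[B] I ≃ₗ[C] J :=
  let g : I →ₗ[B] J := LinearMap.codRestrict (J.restrictScalars B)
    ((Algebra.linearMap B C).comp I.subtype) fun i => h ▸ Ideal.mem_map_of_mem _ i.2
  LinearEquiv.ofBijective (g.liftBaseChange C) <| Module.Invertible.bijective_of_surjective <| by
    intro z
    have hle : I.map (algebraMap B C) ≤
        Submodule.map J.subtype (LinearMap.range (g.liftBaseChange C)) := by
      rw [Ideal.map_le_iff_le_comap]
      intro i hi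
      exact ⟨g ⟨i, hi⟩, ⟨1 ⊗ₜ ⟨i, hi⟩, by simp⟩, rfl⟩
    have hz : (z : C) ∈ I.map (algebraMap B C) := by rw [h]; exact z.2
    obtain ⟨w, hw, hw'⟩ := hle hz
    obtain ⟨v, hv⟩ := hw
    exact ⟨v, hv.trans (Subtype.ext hw')⟩

theorem coe_mapEquivOfInvertible {B C : Type u} [CommRing B] [CommRing C] [Algebra B C]
    {I : Ideal B} {J : Ideal C} (hI : Module.Invertible B I) (hJ : Module.Invertible C J)
    (h : I.map (algebraMap B C) = J) (i : I) :
    (mapEquivOfInvertible hI hJ h (1 ⊗ₜ i) : C) = algebraMap B C i := by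
  exact congrArg Subtype.val ((LinearMap.liftBaseChange_tmul ..).trans (one_smul C _))

end Graph

section Charts

variable {k : Type u} [CommRing k] {T : TwoChart k} [CurveLike T]
  {R R' : Type u} [CommRing R] [Algebra k R] [CommRing R'] [Algebra k R']

/-- The ideal of the graph on the overlap. -/
noncomputable def graphL (φ : T.P →ₐ[k] R) : Ideal (R ⊗[k] T.L) :=
  (graphIdeal φ).map (algebraMap (R ⊗[k] T.P) (R ⊗[k] T.L))

/-- The function `1 - φ(x) y` of the second chart vanishing on the graph. -/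
noncomputable def graphS (φ : T.P →ₐ[k] R) : R ⊗[k] T.Q :=
  1 - φ (x (T := T)) ⊗ₜ[k] y (T := T)

/-- The function `graphS` lies in the ideal of the graph on the second chart. -/
theorem graphS_mem (φ : T.P →ₐ[k] R) : graphS φ ∈ comapQ (T.baseChange R) (graphL φ) := by
  change algebraMap (R ⊗[k] T.Q) (R ⊗[k] T.L) (graphS φ) ∈ graphL φ
  have h : algebraMap (R ⊗[k] T.Q) (R ⊗[k] T.L) (graphS φ) =
      ((1 : R) ⊗ₜ[k] algebraMap T.Q T.L (y (T := T))) *
        algebraMap (R ⊗[k] T.P) (R ⊗[k] T.L) ((1 : R) ⊗ₜ x (T := T) - φ (x (T := T)) ⊗ₜ 1) := by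
    rw [graphS, map_sub, map_one, map_sub, TwoChart.baseChange_algebraMapQ_tmul,
      TwoChart.baseChange_algebraMapP_tmul, TwoChart.baseChange_algebraMapP_tmul, mul_sub,
      Algebra.TensorProduct.tmul_mul_tmul, Algebra.TensorProduct.tmul_mul_tmul, map_one, one_mul,
      one_mul, mul_one, mul_comm (algebraMap T.Q T.L _), CurveLike.x_mul_y,
      ← Algebra.TensorProduct.one_def]
  rw [h]
  exact Ideal.mul_mem_left _ _ (Ideal.mem_map_of_mem _ (mem_graphIdeal.2 (by simp [graphPoint_tmul])))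

theorem mem_of_ypow_mul_mem (φ : T.P →ₐ[k] R) {I : Ideal (R ⊗[k] T.Q)} (hs : graphS φ ∈ I)
    {N : ℕ} {z : R ⊗[k] T.Q} (h : ((1 : R) ⊗ₜ[k] y (T := T)) ^ N * z ∈ I) : z ∈ I := by
  set w := φ (x (T := T)) ⊗ₜ[k] y (T := T)
  have h1 : 1 - w ^ N ∈ I := by
    have := sub_dvd_pow_sub_pow (1 : R ⊗[k] T.Q) w N
    rw [one_pow] at this
    exact Ideal.mem_of_dvd I this hs
  have h2 : w ^ N * z ∈ I := by
    have hw : w = φ (x (T := T)) ⊗ₜ[k] 1 * ((1 : R) ⊗ₜ[k] y (T := T)) := by
      rw [Algebra.TensorProduct.tmul_mul_tmul, mul_one, one_mul]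
    rw [hw, mul_pow, mul_assoc]
    exact I.mul_mem_left _ h
  have := I.add_mem (I.mul_mem_right z h1) h2
  rwa [sub_mul, one_mul, sub_add_cancel] at this

/-- An ideal of the second chart containing the graph. -/
theorem comapQ_graphL_le (φ : T.P →ₐ[k] R) {I : Ideal (R ⊗[k] T.Q)} (hs : graphS φ ∈ I)
    (h : graphL φ ≤ I.map (algebraMap (R ⊗[k] T.Q) (R ⊗[k] T.L))) :
    comapQ (T.baseChange R) (graphL φ) ≤ I := by
  have : IsLocalization.Away ((1 : R) ⊗ₜ[k] y (T := T)) (R ⊗[k] T.L) :=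
    CurveLike.awayQ (T := T.baseChange R)
  intro z hz
  obtain ⟨⟨a, ⟨_, N, rfl⟩⟩, e⟩ := (IsLocalization.mem_map_algebraMap_iff
    (Submonoid.powers ((1 : R) ⊗ₜ[k] y (T := T))) (R ⊗[k] T.L)).1 (h hz)
  rw [← map_mul] at e
  refine mem_of_ypow_mul_mem φ hs (N := N) ?_
  rw [mul_comm]
  exact CurveLike.algebraMapQ_injective (T.baseChange R) e ▸ a.2

omit [CurveLike T] in
theorem comapP_graphIdeal (ψ : T.L →ₐ[k] R) :
    comapP (T.baseChange R) (graphIdeal ψ) =
      graphIdeal (ψ.comp (IsScalarTower.toAlgHom k T.P T.L)) := by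
  ext z
  change graphPoint ψ (algebraMap (R ⊗[k] T.P) (R ⊗[k] T.L) z) = 0 ↔ graphPoint _ z = 0
  suffices h : graphPoint ψ (algebraMap (R ⊗[k] T.P) (R ⊗[k] T.L) z) =
      graphPoint (ψ.comp (IsScalarTower.toAlgHom k T.P T.L)) z by rw [h]
  induction z using TensorProduct.induction_on with
  | zero => simp
  | tmul r p => simp [TwoChart.baseChange_algebraMapP_tmul, graphPoint_tmul]
  | add a b ha hb => simp only [map_add, ha, hb]

/-- The graph of a point of the overlap. -/
theorem graphL_comp_algebraMap (ψ : T.L →ₐ[k] R) :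
    graphL (ψ.comp (IsScalarTower.toAlgHom k T.P T.L)) = graphIdeal ψ := by
  have : IsLocalization.Away ((1 : R) ⊗ₜ[k] x (T := T)) (R ⊗[k] T.L) :=
    CurveLike.awayP (T := T.baseChange R)
  rw [graphL, ← comapP_graphIdeal]
  exact IsLocalization.map_under (Submonoid.powers ((1 : R) ⊗ₜ[k] x (T := T))) _ _

omit [CurveLike T] in
theorem map_graphL (φ : T.P →ₐ[k] R) (ψ : R →ₐ[k] R') :
    (graphL φ).map (mapBase T.L ψ) = graphL (ψ.comp φ) := by
  rw [graphL, graphL, ← map_graphIdeal φ ψ, ← Ideal.map_coe (mapBase T.L ψ),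
    ← Ideal.map_coe (mapBase T.P ψ), Ideal.map_map, Ideal.map_map]
  congr 1
  exact RingHom.ext fun z => T.bcL_algebraMapP ψ z

theorem map_comapQ_graphL (φ : T.P →ₐ[k] R) (ψ : R →ₐ[k] R') :
    (comapQ (T.baseChange R) (graphL φ)).map (mapBase T.Q ψ) =
      comapQ (T.baseChange R') (graphL (ψ.comp φ)) := by
  refine le_antisymm (Ideal.map_le_iff_le_comap.2 fun z hz => ?_)
    (comapQ_graphL_le _ ?_ ?_)
  · change algebraMap (R' ⊗[k] T.Q) (R' ⊗[k] T.L) (T.bcQ ψ z) ∈ graphL (ψ.comp φ)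
    rw [← TwoChart.bcL_algebraMapQ, ← map_graphL]
    have hz' : algebraMap (R ⊗[k] T.Q) (R ⊗[k] T.L) z ∈ graphL φ := hz
    exact Ideal.mem_map_of_mem (mapBase T.L ψ) hz'
  · convert Ideal.mem_map_of_mem (mapBase T.Q ψ) (graphS_mem φ) using 1
    simp [graphS]
  · have : IsLocalization.Away ((1 : R) ⊗ₜ[k] y (T := T)) (R ⊗[k] T.L) :=
      CurveLike.awayQ (T := T.baseChange R)
    refine (map_graphL φ ψ).ge.trans (Ideal.map_le_iff_le_comap.2 ?_)
    refine (IsLocalization.map_under (Submonoid.powers ((1 : R) ⊗ₜ[k] y (T := T))) (R ⊗[k] T.L)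
      (graphL φ)).ge.trans (Ideal.map_le_iff_le_comap.2 ?_)
    intro z hz
    rw [Ideal.mem_comap, Ideal.mem_comap]
    change T.bcL ψ (algebraMap (R ⊗[k] T.Q) (R ⊗[k] T.L) z) ∈ (Ideal.map (mapBase T.Q ψ)
      (comapQ (T.baseChange R) (graphL φ))).map (algebraMap (R' ⊗[k] T.Q) (R' ⊗[k] T.L))
    rw [TwoChart.bcL_algebraMapQ]
    exact Ideal.mem_map_of_mem _ (Ideal.mem_map_of_mem (mapBase T.Q ψ) hz)

end Charts

section Field

variable {k : Type u} [Field k] [IsAlgClosed k] {T : TwoChart k} [CurveLike T]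
  [IsDedekindDomain T.P] [IsDedekindDomain T.Q] [Algebra.FiniteType k T.P]
  [Algebra.FiniteType k T.Q]
  {R R' : Type u} [CommRing R] [Algebra k R] [CommRing R'] [Algebra k R']

omit [IsDedekindDomain T.Q] [Algebra.FiniteType k T.Q] in
theorem invertible_graphIdeal (φ : T.P →ₐ[k] R) :
    Module.Invertible (R ⊗[k] T.P) (graphIdeal φ) :=
  IsBasisIdeal.invertible not_isField_P (graphIdeal_isBasisIdeal φ)

/-- The inclusion of the graph ideal into the one on the overlap. -/
noncomputable def graphIP (φ : T.P →ₐ[k] R) : graphIdeal φ →ₗ[R ⊗[k] T.P] graphL φ :=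
  LinearMap.codRestrict ((graphL φ).restrictScalars (R ⊗[k] T.P))
    ((Algebra.linearMap (R ⊗[k] T.P) (R ⊗[k] T.L)).comp (graphIdeal φ).subtype)
    fun i => Ideal.mem_map_of_mem _ i.2

omit [IsAlgClosed k] [IsDedekindDomain T.P] [IsDedekindDomain T.Q] [Algebra.FiniteType k T.P]
    [Algebra.FiniteType k T.Q] in
theorem isLocalizedModule_graphIP (φ : T.P →ₐ[k] R) :
    IsLocalizedModule (Submonoid.powers ((1 : R) ⊗ₜ[k] x (T := T))) (graphIP φ) :=
  have : IsLocalization.Away ((1 : R) ⊗ₜ[k] x (T := T)) (R ⊗[k] T.L) :=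
    CurveLike.awayP (T := T.baseChange R)
  Algebra.idealMap_isLocalizedModule _ _ (graphIdeal φ)

omit [IsDedekindDomain T.Q] [Algebra.FiniteType k T.Q] in
theorem invertible_graphL (φ : T.P →ₐ[k] R) : Module.Invertible (R ⊗[k] T.L) (graphL φ) := by
  have : IsLocalization.Away ((1 : R) ⊗ₜ[k] x (T := T)) (R ⊗[k] T.L) :=
    CurveLike.awayP (T := T.baseChange R)
  have := invertible_graphIdeal φ
  have := isLocalizedModule_graphIP φ
  exact Module.Invertible.of_isLocalization (Submonoid.powers ((1 : R) ⊗ₜ[k] x (T := T))) (graphIP φ)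

omit [IsDedekindDomain T.Q] [Algebra.FiniteType k T.Q] in
theorem invertible_comapQ_graphL (φ : T.P →ₐ[k] R) :
    Module.Invertible (R ⊗[k] T.Q) (comapQ (T.baseChange R) (graphL φ)) := by
  classical
  have hloc : IsLocalization.Away ((1 : R) ⊗ₜ[k] y (T := T)) (R ⊗[k] T.L) :=
    CurveLike.awayQ (T := T.baseChange R)
  have := invertible_graphL φ
  set Y := (1 : R) ⊗ₜ[k] y (T := T)
  set ι := algebraMap (R ⊗[k] T.Q) (R ⊗[k] T.L)
  have hinj : Function.Injective ι := CurveLike.algebraMapQ_injective (T.baseChange R)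
  set J := comapQ (T.baseChange R) (graphL φ)
  have hJL : J.map ι = graphL φ := IsLocalization.map_under (Submonoid.powers Y) _ _
  -- finitely many generators
  obtain ⟨S, hSJ, hS⟩ : ∃ S : Finset (R ⊗[k] T.Q), (∀ z ∈ S, z ∈ J) ∧
      J ≤ Ideal.span (S : Set (R ⊗[k] T.Q)) := by
    have hfg : (Submodule.span (R ⊗[k] T.L) (ι '' J)).FG := by
      change (J.map ι).FG
      rw [hJL]
      exact (Module.Finite.iff_fg).1 inferInstance
    obtain ⟨G, hG, hGspan⟩ := (Submodule.fg_span_iff_fg_span_finset_subset _).1 hfg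
    obtain ⟨S, hSJ, rfl⟩ := Finset.subset_set_image_iff.1 hG
    refine ⟨insert (graphS φ) S, ?_, comapQ_graphL_le φ (Ideal.subset_span (by simp)) ?_⟩
    · intro z hz
      rcases Finset.mem_insert.1 hz with rfl | hz
      exacts [graphS_mem φ, hSJ (Finset.mem_coe.2 hz)]
    · rw [← hJL, Ideal.map, Ideal.span, hGspan, Submodule.span_le, Finset.coe_image]
      rintro _ ⟨z, hz, rfl⟩
      exact Ideal.mem_map_of_mem _ (Ideal.subset_span (by simp [hz]))
  refine invertible_of_trace J fun M hM => ?_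
  by_contra hcon
  push Not at hcon
  have hs : graphS φ ∈ M := hcon J.subtype ⟨_, graphS_mem φ⟩
  let f : J →ₗ[R ⊗[k] T.Q] graphL φ := comapQMap (T.baseChange R) (graphL φ)
  -- every functional on the overlap takes values in `M`
  have hg : ∀ (g : graphL φ →ₗ[R ⊗[k] T.L] R ⊗[k] T.L) (m : graphL φ),
      g m ∈ M.map ι := by
    intro g m
    let F : J →ₗ[R ⊗[k] T.Q] R ⊗[k] T.L := (g.restrictScalars _).comp f
    obtain ⟨⟨_, N, rfl⟩, hN⟩ := IsLocalization.exist_integer_multiples_of_finset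
      (Submonoid.powers Y) (S.attach.image fun a : S => F ⟨a.1, hSJ _ a.2⟩)
    let F' : J →ₗ[R ⊗[k] T.Q] R ⊗[k] T.L := Y ^ N • F
    have hF' : ∀ j, F' j ∈ LinearMap.range (Algebra.linearMap (R ⊗[k] T.Q) (R ⊗[k] T.L)) := by
      rintro ⟨j, hj⟩
      have : ∀ z ∈ Ideal.span (S : Set (R ⊗[k] T.Q)), ∃ h : z ∈ J,
          F' ⟨z, h⟩ ∈ LinearMap.range (Algebra.linearMap (R ⊗[k] T.Q) (R ⊗[k] T.L)) := by
        intro z hz
        refine Submodule.span_induction ?_ ⟨J.zero_mem, ?_⟩ ?_ ?_ hz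
        · intro a ha
          refine ⟨hSJ _ ha, ?_⟩
          exact hN _ (Finset.mem_image.2 ⟨⟨a, ha⟩, Finset.mem_attach _ _, rfl⟩)
        · rw [show (⟨0, J.zero_mem⟩ : J) = 0 from rfl, map_zero]
          exact zero_mem _
        · rintro a b _ _ ⟨ha, ha'⟩ ⟨hb, hb'⟩
          refine ⟨J.add_mem ha hb, ?_⟩
          rw [show (⟨a + b, J.add_mem ha hb⟩ : J) = ⟨a, ha⟩ + ⟨b, hb⟩ from rfl, map_add]
          exact add_mem ha' hb'
        · rintro c a _ ⟨ha, ha'⟩
          refine ⟨J.smul_mem c ha, ?_⟩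
          rw [show (⟨c • a, J.smul_mem c ha⟩ : J) = c • ⟨a, ha⟩ from rfl, map_smul]
          exact Submodule.smul_mem _ c ha'
      exact (this j (hS hj)).2
    let h : J →ₗ[R ⊗[k] T.Q] R ⊗[k] T.Q :=
      (LinearEquiv.ofInjective (Algebra.linearMap (R ⊗[k] T.Q) (R ⊗[k] T.L)) hinj).symm.toLinearMap
        ∘ₗ F'.codRestrict _ hF'
    have hh : ∀ j, ι (h j) = F' j := fun j => by
      exact congrArg Subtype.val ((LinearEquiv.ofInjective
        (Algebra.linearMap (R ⊗[k] T.Q) (R ⊗[k] T.L)) hinj).apply_symm_apply ⟨F' j, hF' j⟩)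
    obtain ⟨⟨a, ⟨_, n, rfl⟩⟩, e⟩ := IsLocalization.surj (Submonoid.powers Y) (m : R ⊗[k] T.L)
    have haJ : a ∈ J := by
      change ι a ∈ graphL φ
      rw [← e]
      exact Ideal.mul_mem_right _ _ m.2
    have hfa : f ⟨a, haJ⟩ = (ι (Y ^ n)) • m :=
      Subtype.ext ((show ι a = ι (Y ^ n) * (m : R ⊗[k] T.L) by rw [mul_comm]; exact e.symm))
    have key : ι (h ⟨a, haJ⟩) = ι (Y ^ (N + n)) * g m := by
      rw [hh, pow_add, map_mul, mul_assoc]
      change Y ^ N • g (f ⟨a, haJ⟩) = _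
      rw [hfa, map_smul, smul_eq_mul, Algebra.smul_def]
    have hu : IsUnit (ι (Y ^ (N + n))) :=
      IsLocalization.map_units (R ⊗[k] T.L) (⟨_, ⟨N + n, rfl⟩⟩ : Submonoid.powers Y)
    rw [← (M.map ι).unit_mul_mem_iff_mem hu, ← key]
    exact Ideal.mem_map_of_mem _ (hcon h _)
  obtain ⟨t, ht⟩ := (Module.Invertible.bijective (R := R ⊗[k] T.L) (M := graphL φ)).2 1
  have h1 : (1 : R ⊗[k] T.L) ∈ M.map ι := by
    rw [← ht]
    clear ht
    induction t using TensorProduct.induction_on with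
    | zero => simp
    | tmul g m => exact hg g m
    | add a b ha hb => rw [map_add]; exact add_mem ha hb
  obtain ⟨⟨a, ⟨_, N, rfl⟩⟩, e⟩ :=
    (IsLocalization.mem_map_algebraMap_iff (Submonoid.powers Y) (R ⊗[k] T.L)).1 h1
  rw [one_mul] at e
  have hY : Y ^ N ∈ M := by
    have he : Y ^ N = (a : R ⊗[k] T.Q) := hinj e
    rw [he]
    exact a.2
  exact hM.ne_top ((Ideal.eq_top_iff_one M).2
    (mem_of_ypow_mul_mem φ hs (N := N) (by rwa [mul_one])))

/-- The bundle `O(-Γ)` of the graph of a point of the first chart. -/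
noncomputable abbrev graph (φ : T.P →ₐ[k] R) : Bundle (T.baseChange R) where
  MP := graphIdeal φ
  MQ := comapQ (T.baseChange R) (graphL φ)
  ML := graphL φ
  invP := invertible_graphIdeal φ
  invQ := invertible_comapQ_graphL φ
  ip := graphIP φ
  iq := comapQMap (T.baseChange R) (graphL φ)
  baseP := by
    have : IsLocalization.Away ((1 : R) ⊗ₜ[k] x (T := T)) (R ⊗[k] T.L) :=
      CurveLike.awayP (T := T.baseChange R)
    exact (isLocalizedModule_iff_isBaseChange (Submonoid.powers ((1 : R) ⊗ₜ[k] x (T := T)))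
      (R ⊗[k] T.L) (graphIP φ)).1 (isLocalizedModule_graphIP φ)
  baseQ :=
    haveI : IsLocalization.Away ((1 : R) ⊗ₜ[k] y (T := T)) (R ⊗[k] T.L) :=
      CurveLike.awayQ (T := T.baseChange R)
    isBaseChange_comap ((1 : R) ⊗ₜ[k] y (T := T))
      (CurveLike.algebraMapQ_injective (T.baseChange R)) _ _ fun _ => rfl

/-- The bundle `O(-Γ)` of the graph of a point of the second chart. -/
noncomputable abbrev graphQ (φ : T.Q →ₐ[k] R) : Bundle (T.baseChange R) :=
  (graph (T := T.swap) φ).swap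

omit [IsDedekindDomain T.Q] [Algebra.FiniteType k T.Q] in
/-- Base change of the graph bundle. -/
theorem nonempty_bc_graph (φ : T.P →ₐ[k] R) (ψ : R →ₐ[k] R') :
    Nonempty (Bundle.Iso ((graph φ).bc ψ) (graph (ψ.comp φ))) := by
  let i := T.overBC ψ
  let aP := (T.bcP ψ).toAlgebra
  let aQ := (T.bcQ ψ).toAlgebra
  let aL := (T.bcL ψ).toAlgebra
  let eP := mapEquivOfInvertible (invertible_graphIdeal φ) (invertible_graphIdeal (ψ.comp φ))
    (map_graphIdeal φ ψ)
  let eQ := mapEquivOfInvertible (invertible_comapQ_graphL φ)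
    (invertible_comapQ_graphL (ψ.comp φ)) (map_comapQ_graphL φ ψ)
  let eL := mapEquivOfInvertible (invertible_graphL φ) (invertible_graphL (ψ.comp φ))
    (map_graphL φ ψ)
  refine ⟨Bundle.Iso.ofPullback (C := graph (ψ.comp φ)) eP eQ eL (fun m => ?_) fun m => ?_⟩
  · apply Subtype.ext
    refine (coe_mapEquivOfInvertible _ _ _ _).trans ?_
    refine (T.bcL_algebraMapP ψ m.1).trans ?_
    exact congrArg (algebraMap (R' ⊗[k] T.P) (R' ⊗[k] T.L))
      (coe_mapEquivOfInvertible (invertible_graphIdeal φ) (invertible_graphIdeal (ψ.comp φ))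
        (map_graphIdeal φ ψ) m).symm
  · apply Subtype.ext
    refine (coe_mapEquivOfInvertible _ _ _ _).trans ?_
    refine (T.bcL_algebraMapQ ψ m.1).trans ?_
    exact congrArg (algebraMap (R' ⊗[k] T.Q) (R' ⊗[k] T.L))
      (coe_mapEquivOfInvertible (invertible_comapQ_graphL φ)
        (invertible_comapQ_graphL (ψ.comp φ)) (map_comapQ_graphL φ ψ) m).symm

omit [IsDedekindDomain T.Q] [Algebra.FiniteType k T.Q] in
/-- Graphs of points of the first chart are stable under base change. -/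
theorem bcCls_graph (φ : T.P →ₐ[k] R) (ψ : R →ₐ[k] R') :
    Bundle.bcCls ψ (graph φ).cls = (graph (ψ.comp φ)).cls := by
  rw [Bundle.bcCls_cls]
  exact Bundle.cls_eq_iff.2 (nonempty_bc_graph φ ψ)

omit [IsDedekindDomain T.P] [Algebra.FiniteType k T.P] in
/-- Graphs of points of the second chart are stable under base change. -/
theorem bcCls_graphQ (φ : T.Q →ₐ[k] R) (ψ : R →ₐ[k] R') :
    Bundle.bcCls ψ (graphQ φ).cls = (graphQ (ψ.comp φ)).cls := by
  obtain ⟨e⟩ := nonempty_bc_graph (T := T.swap) φ ψ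
  rw [Bundle.bcCls_cls]
  exact Bundle.cls_eq_iff.2 ⟨{
    eP := e.eQ
    eQ := e.eP
    eL := e.eL
    commP := e.commQ
    commQ := e.commP }⟩

/-- The two descriptions of the graph of a point of the overlap agree. -/
theorem graph_cls_eq_graphQ_cls (ψ : T.L →ₐ[k] R) :
    (graph (ψ.comp (IsScalarTower.toAlgHom k T.P T.L))).cls =
      (graphQ (ψ.comp (IsScalarTower.toAlgHom k T.Q T.L))).cls := by
  have hP : graphIdeal (ψ.comp (IsScalarTower.toAlgHom k T.P T.L)) =
      comapQ (T.swap.baseChange R) (graphL (T := T.swap)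
        (ψ.comp (IsScalarTower.toAlgHom k T.Q T.L))) := by
    rw [graphL_comp_algebraMap (T := T.swap) ψ, ← comapP_graphIdeal]
  have hQ : comapQ (T.baseChange R) (graphL (ψ.comp (IsScalarTower.toAlgHom k T.P T.L))) =
      graphIdeal (ψ.comp (IsScalarTower.toAlgHom k T.Q T.L)) := by
    rw [graphL_comp_algebraMap ψ]
    exact comapP_graphIdeal (T := T.swap) ψ
  have hL : graphL (ψ.comp (IsScalarTower.toAlgHom k T.P T.L)) =
      graphL (T := T.swap) (ψ.comp (IsScalarTower.toAlgHom k T.Q T.L)) := by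
    rw [graphL_comp_algebraMap ψ, graphL_comp_algebraMap (T := T.swap) ψ]
  exact Bundle.cls_eq_iff.2 ⟨{
    eP := LinearEquiv.ofEq _ _ hP
    eQ := LinearEquiv.ofEq _ _ hQ
    eL := LinearEquiv.ofEq _ _ hL
    commP := fun _ => Subtype.ext rfl
    commQ := fun _ => Subtype.ext rfl }⟩

/-- The graph of a rational point of the overlap is its point bundle. -/
theorem graph_cls_eq_pointBundle (ψ : T.L →ₐ[k] k) :
    (graph (((Algebra.ofId k R).comp ψ).comp (IsScalarTower.toAlgHom k T.P T.L))).cls =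
      (pointBundle R ψ).cls := by
  have hL : graphL (((Algebra.ofId k R).comp ψ).comp (IsScalarTower.toAlgHom k T.P T.L)) =
      pointIdeal R ψ := graphL_comp_algebraMap _
  have hP : graphIdeal (((Algebra.ofId k R).comp ψ).comp (IsScalarTower.toAlgHom k T.P T.L)) =
      comapP (T.baseChange R) (pointIdeal R ψ) :=
    (comapP_graphIdeal ((Algebra.ofId k R).comp ψ)).symm
  exact Bundle.cls_eq_iff.2 ⟨{
    eP := LinearEquiv.ofEq _ _ hP
    eQ := LinearEquiv.ofEq _ _ (congrArg (comapQ (T.baseChange R)) hL)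
    eL := LinearEquiv.ofEq _ _ hL
    commP := fun _ => Subtype.ext rfl
    commQ := fun _ => Subtype.ext rfl }⟩

theorem graphQ_cls_eq_pointBundle (ψ : T.L →ₐ[k] k) :
    (graphQ (((Algebra.ofId k R).comp ψ).comp (IsScalarTower.toAlgHom k T.Q T.L))).cls =
      (pointBundle R ψ).cls :=
  (graph_cls_eq_graphQ_cls _).symm.trans (graph_cls_eq_pointBundle ψ)

omit [IsDedekindDomain T.Q] [Algebra.FiniteType k T.Q] in
/-- The overlap has a rational point. -/
theorem exists_point_L : Nonempty (T.L →ₐ[k] k) := by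
  by_contra h
  have : IsDomain T.L := CurveLike.isDomain_L T
  have : Algebra.FiniteType T.P T.L :=
    IsLocalization.finiteType_of_monoid_fg (Submonoid.powers (x (T := T))) T.L
  have : Algebra.FiniteType k T.L := Algebra.FiniteType.trans (S := T.P) inferInstance inferInstance
  exact one_ne_zero (α := T.L) (eq_zero_of_forall_point (k := k) fun φ => absurd ⟨φ⟩ h)

variable {K : Type u} [Field K] [Algebra k K]

/-- The degree of the graph bundle. -/
theorem degCls_graph (φ : T.P →ₐ[k] K) : Bundle.degCls (graph φ).cls = -1 := by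
  obtain ⟨ψ⟩ := exists_point_L (T := T)
  let ι := IsScalarTower.toAlgHom k T.P T.L
  obtain ⟨f, hf, hf'⟩ := Bundle.exists_deg_locallyConstant (graph (AlgHom.id k T.P)).cls
  have h₁ := hf' K φ
  have h₂ := hf' k (ψ.comp ι)
  rw [bcCls_graph, AlgHom.comp_id] at h₁ h₂
  rw [h₁, hf.apply_eq_of_preconnectedSpace (Bundle.pointOf φ) (Bundle.pointOf (ψ.comp ι)), ← h₂,
    show ψ.comp ι = ((Algebra.ofId k k).comp ψ).comp ι from AlgHom.ext fun _ => rfl,
    graph_cls_eq_pointBundle, Bundle.degCls_cls]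
  exact deg_bundle (pointIdeal_isBasisIdeal (R := k) ψ)

/-- The bundle of a point of the second chart has degree `-1`. -/
theorem degCls_graphQ (φ : T.Q →ₐ[k] K) : Bundle.degCls (graphQ φ).cls = -1 := by
  obtain ⟨ψ⟩ := exists_point_L (T := T)
  let ι := IsScalarTower.toAlgHom k T.Q T.L
  obtain ⟨f, hf, hf'⟩ := Bundle.exists_deg_locallyConstant (graphQ (AlgHom.id k T.Q)).cls
  have h₁ := hf' K φ
  have h₂ := hf' k (ψ.comp ι)
  rw [bcCls_graphQ, AlgHom.comp_id] at h₁ h₂
  rw [h₁, hf.apply_eq_of_preconnectedSpace (Bundle.pointOf φ) (Bundle.pointOf (ψ.comp ι)), ← h₂,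
    show ψ.comp ι = ((Algebra.ofId k k).comp ψ).comp ι from AlgHom.ext fun _ => rfl,
    graphQ_cls_eq_pointBundle, Bundle.degCls_cls]
  exact deg_bundle (pointIdeal_isBasisIdeal (R := k) ψ)

/-- The fibres of the bundle of a graph in the first chart have degree `-1`. -/
theorem degCls_bcCls_graph (φ : T.P →ₐ[k] R) (ψ : R →ₐ[k] K) :
    Bundle.degCls (Bundle.bcCls ψ (graph φ).cls) = -1 := by
  rw [bcCls_graph]; exact degCls_graph _

/-- The fibres of the bundle of a graph in the second chart have degree `-1`. -/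
theorem degCls_bcCls_graphQ (φ : T.Q →ₐ[k] R) (ψ : R →ₐ[k] K) :
    Bundle.degCls (Bundle.bcCls ψ (graphQ φ).cls) = -1 := by
  rw [bcCls_graphQ]; exact degCls_graphQ _

end Field

end Fermat.Agent.RelJac
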