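import Mathlib.RingTheory.FiniteType
import Mathlib.RingTheory.TensorProduct.Basic
import Mathlib.LinearAlgebra.TensorProduct.Tower
import Mathlib.RingTheory.Ideal.Quotient.Operations
import Mathlib.LinearAlgebra.Pi
import Mathlib.Algebra.MvPolynomial.CommRing

/-!
The affine scheme of ideals of a `k`-algebra whose quotient has a prescribed finite basis.
-/

open scoped TensorProduct

namespace Fermat.Agent.RelJac.Hilb

universe u

variable {k A : Type u} [CommRing k] [CommRing A] [Algebra k A] {g : ℕ} (b : Fin g → A)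
variable {R R' : Type u} [CommRing R] [CommRing R'] [Algebra k R] [Algebra k R']

/-- A linear map to `R ^ g` which is the coordinate map of an ideal with quotient basis `b`. -/
structure IsPoint (π : A →ₗ[k] (Fin g → R)) : Prop where
  basis : ∀ i j, π (b i) j = if i = j then 1 else 0
  mul : ∀ a c j, π (a * c) j = ∑ l, π c l * π (a * b l) j

variable (k) in
/-- The relations defining `HilbAlg`. -/
def rels : Set (MvPolynomial (A × Fin g) k) :=
  open MvPolynomial in
  (Set.range fun p : A × A × Fin g => X (p.1 + p.2.1, p.2.2) - X (p.1, p.2.2) - X (p.2.1, p.2.2)) ∪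
    (Set.range fun p : k × A × Fin g => X (p.1 • p.2.1, p.2.2) - C p.1 * X (p.2.1, p.2.2)) ∪
    (Set.range fun p : Fin g × Fin g => X (b p.1, p.2) - if p.1 = p.2 then 1 else 0) ∪
    Set.range fun p : A × A × Fin g => X (p.1 * p.2.1, p.2.2) -
      ∑ l, X (p.2.1, l) * X (p.1 * b l, p.2.2)

variable (k) in
/-- The coordinate ring of the scheme of ideals whose quotient has basis `b`. -/
abbrev HilbAlg : Type u := MvPolynomial (A × Fin g) k ⧸ Ideal.span (rels k b)

variable (k) in
/-- The quotient map. -/
noncomputable abbrev toHilb : MvPolynomial (A × Fin g) k →ₐ[k] HilbAlg k b :=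
  Ideal.Quotient.mkₐ k _

theorem toHilb_eq_zero {f : MvPolynomial (A × Fin g) k} (hf : f ∈ rels k b) : toHilb k b f = 0 :=
  Ideal.Quotient.eq_zero_iff_mem.2 (Ideal.subset_span hf)

variable (k) in
open MvPolynomial in
/-- The universal coordinate map. -/
noncomputable def univ : A →ₗ[k] (Fin g → HilbAlg k b) where
  toFun a j := toHilb k b (X (a, j))
  map_add' a c := funext fun j => by
    have h := toHilb_eq_zero (k := k) b (.inl (.inl (.inl ⟨(a, c, j), rfl⟩)))
    simpa [sub_eq_zero, sub_sub] using h
  map_smul' r a := funext fun j => by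
    have h := toHilb_eq_zero (k := k) b (.inl (.inl (.inr ⟨(r, a, j), rfl⟩)))
    rw [map_sub, map_mul, sub_eq_zero, MvPolynomial.C_eq_algebraMap, AlgHom.commutes] at h
    change toHilb k b (X (r • a, j)) = r • toHilb k b (X (a, j))
    exact h.trans (Algebra.smul_def r _).symm

theorem univ_apply (a : A) (j : Fin g) : univ k b a j = toHilb k b (MvPolynomial.X (a, j)) := rfl

/-- The universal coordinates form a point. -/
theorem isPoint_univ : IsPoint b (univ k b) where
  basis i j := by
    have h := toHilb_eq_zero (k := k) b (.inl (.inr ⟨(i, j), rfl⟩))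
    simp only [map_sub, sub_eq_zero] at h
    rw [univ_apply, h]
    split <;> simp
  mul a c j := by
    have h := toHilb_eq_zero (k := k) b (.inr ⟨(a, c, j), rfl⟩)
    simp only [map_sub, map_sum, map_mul, sub_eq_zero] at h
    simpa [univ_apply] using h

variable {b}

/-- Points are functorial in the ring. -/
theorem IsPoint.comp {π : A →ₗ[k] (Fin g → R)} (hπ : IsPoint b π) (f : R →ₐ[k] R') :
    IsPoint b ((f.toLinearMap.compLeft (Fin g)).comp π) where
  basis i j := by
    simp only [LinearMap.comp_apply, LinearMap.compLeft_apply, Function.comp_apply,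
      AlgHom.toLinearMap_apply, hπ.basis]
    split <;> simp
  mul a c j := by
    simp [LinearMap.comp_apply, hπ.mul a c j]

open MvPolynomial in
/-- The map out of `HilbAlg` attached to a point. -/
noncomputable def IsPoint.lift {π : A →ₗ[k] (Fin g → R)} (hπ : IsPoint b π) : HilbAlg k b →ₐ[k] R :=
  Ideal.Quotient.liftₐ _ (aeval fun p => π p.1 p.2) fun f hf => by
    have : Ideal.span (rels k b) ≤ RingHom.ker (aeval (R := k) fun p => π p.1 p.2) := by
      rw [Ideal.span_le]
      rintro _ (((⟨⟨a, c, j⟩, rfl⟩ | ⟨⟨r, a, j⟩, rfl⟩) | ⟨⟨i, j⟩, rfl⟩) | ⟨⟨a, c, j⟩, rfl⟩)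
      · simp [RingHom.mem_ker]
      · simp only [SetLike.mem_coe, RingHom.mem_ker, map_sub, map_mul, aeval_X, aeval_C, map_smul,
          Pi.smul_apply]
        rw [Algebra.smul_def, sub_self]
      · simp only [SetLike.mem_coe, RingHom.mem_ker, map_sub, aeval_X, hπ.basis]
        split <;> simp
      · simp only [SetLike.mem_coe, RingHom.mem_ker, map_sub, map_sum, map_mul, aeval_X]
        rw [hπ.mul a c j, sub_self]
    exact this hf

/-- The classifying map sends the universal coordinates to those of the point. -/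
theorem IsPoint.lift_univ {π : A →ₗ[k] (Fin g → R)} (hπ : IsPoint b π) (a : A) (j : Fin g) :
    hπ.lift (univ k b a j) = π a j := by
  simp [IsPoint.lift, univ_apply]

/-- Maps out of the Hilbert algebra are determined by the universal coordinates. -/
theorem hilbAlg_hom_ext {f f' : HilbAlg k b →ₐ[k] R}
    (h : ∀ a j, f (univ k b a j) = f' (univ k b a j)) : f = f' :=
  Ideal.Quotient.algHom_ext _ (MvPolynomial.algHom_ext fun p => h p.1 p.2)

/-- Coordinates of a multiple are computed from the multiplication of the basis. -/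
theorem IsPoint.mul_left {π : A →ₗ[k] (Fin g → R)} (hπ : IsPoint b π) (c : A) (j : Fin g) :
    π c j = ∑ l, π 1 l * π (c * b l) j := by
  simpa using hπ.mul c 1 j

variable (b)

/-- `HilbAlg` is of finite type when `A` is. -/
instance finiteType [Algebra.FiniteType k A] : Algebra.FiniteType k (HilbAlg k b) := by
  classical
  obtain ⟨S, hS⟩ := (inferInstance : Algebra.FiniteType k A).out
  let G : Finset (HilbAlg k b) := (Finset.univ.image fun l => univ k b 1 l) ∪
    (S ×ˢ (Finset.univ : Finset (Fin g × Fin g))).image fun p => univ k b (p.1 * b p.2.1) p.2.2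
  refine ⟨⟨G, ?_⟩⟩
  let U := Algebra.adjoin k (G : Set (HilbAlg k b))
  have hπ := isPoint_univ (k := k) b
  have h1 : ∀ l, univ k b 1 l ∈ U := fun l => Algebra.subset_adjoin (by simp [G])
  have key : ∀ a : A, ∀ i j, univ k b (a * b i) j ∈ U := by
    intro a
    have ha : a ∈ Algebra.adjoin k (S : Set A) := by simp [hS]
    induction ha using Algebra.adjoin_induction with
    | mem s hs =>
      intro i j
      refine Algebra.subset_adjoin (Finset.mem_coe.2 (Finset.mem_union_right _ ?_))
      exact Finset.mem_image.2 ⟨(s, i, j), by simpa using hs, rfl⟩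
    | algebraMap r =>
      intro i j
      rw [← Algebra.smul_def, map_smul, Pi.smul_apply, hπ.basis]
      exact U.smul_mem (by split <;> simp [U.one_mem, U.zero_mem]) r
    | add a c _ _ hx hy =>
      intro i j
      rw [add_mul, map_add, Pi.add_apply]
      exact U.add_mem (hx i j) (hy i j)
    | mul a c _ _ hx hy =>
      intro i j
      rw [mul_assoc, hπ.mul]
      exact U.sum_mem fun l _ => U.mul_mem (hy i l) (hx l j)
  have hall : ∀ a j, univ k b a j ∈ U := fun a j => by
    rw [hπ.mul_left a j]
    exact U.sum_mem fun l _ => U.mul_mem (h1 l) (key a l j)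
  rw [eq_top_iff]
  rintro f -
  obtain ⟨f, rfl⟩ := Ideal.Quotient.mk_surjective f
  induction f using MvPolynomial.induction_on with
  | C r => exact U.algebraMap_mem r
  | add p q hp hq => rw [map_add]; exact U.add_mem hp hq
  | mul_X p n hp => rw [map_mul]; exact U.mul_mem hp (hall n.1 n.2)

variable {b}

/-- The `R`-linear extension of a point. -/
noncomputable def ext (π : A →ₗ[k] (Fin g → R)) : R ⊗[k] A →ₗ[R] (Fin g → R) :=
  π.liftBaseChange R

@[simp]
theorem ext_tmul (π : A →ₗ[k] (Fin g → R)) (r : R) (a : A) : ext π (r ⊗ₜ a) = r • π a := by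
  simp [ext]

/-- The section attached to the basis `b`. -/
noncomputable def sect (b : Fin g → A) : (Fin g → R) →ₗ[R] R ⊗[k] A :=
  Fintype.linearCombination R fun i => (1 : R) ⊗ₜ b i

/-- The combination of the basis with given coefficients. -/
theorem sect_apply (v : Fin g → R) : sect b v = ∑ i, v i ⊗ₜ[k] b i := by
  simp [sect, Fintype.linearCombination_apply, TensorProduct.smul_tmul']

/-- A point gives back the coefficients of a combination of the basis. -/
theorem IsPoint.ext_sect {π : A →ₗ[k] (Fin g → R)} (hπ : IsPoint b π) (v : Fin g → R) :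
    ext π (sect b v) = v := by
  ext j
  simp [sect_apply, hπ.basis]

theorem IsPoint.ext_tmul_one_mul {π : A →ₗ[k] (Fin g → R)} (hπ : IsPoint b π) (a : A)
    (x : R ⊗[k] A) :
    ext π (((1 : R) ⊗ₜ a) * x) = ∑ l, ext π x l • π (a * b l) := by
  induction x using TensorProduct.induction_on with
  | zero => simp
  | tmul r c =>
    ext j
    simp [hπ.mul a c j, Finset.mul_sum, mul_assoc]
  | add x y hx hy => simp [mul_add, hx, hy, add_smul, Finset.sum_add_distrib]

/-- The ideal cut out by a point. -/
noncomputable def IsPoint.ideal {π : A →ₗ[k] (Fin g → R)} (hπ : IsPoint b π) : Ideal (R ⊗[k] A) where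
  toAddSubmonoid := (LinearMap.ker (ext π)).toAddSubmonoid
  smul_mem' y x hx := by
    change ext π x = 0 at hx
    change ext π (y * x) = 0
    induction y using TensorProduct.induction_on with
    | zero => simp
    | tmul r a =>
      have : r ⊗ₜ[k] a * x = r • ((1 : R) ⊗ₜ[k] a * x) := by
        rw [← smul_mul_assoc, TensorProduct.smul_tmul', smul_eq_mul, mul_one]
      rw [this, map_smul, hπ.ext_tmul_one_mul, hx]
      simp
    | add y z hy hz => rw [add_mul, map_add, hy, hz, add_zero]

/-- Membership in the ideal of a point. -/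
theorem IsPoint.mem_ideal {π : A →ₗ[k] (Fin g → R)} (hπ : IsPoint b π) {x : R ⊗[k] A} :
    x ∈ hπ.ideal ↔ ext π x = 0 := Iff.rfl

/-- The quotient by the ideal of a point is free on `b`. -/
noncomputable def IsPoint.quotientEquiv {π : A →ₗ[k] (Fin g → R)} (hπ : IsPoint b π) :
    ((R ⊗[k] A) ⧸ hπ.ideal) ≃ₗ[R] (Fin g → R) :=
  LinearEquiv.ofBijective
    ((hπ.ideal.restrictScalars R).liftQ (ext π) fun _ hx => hx)
    ⟨fun x y h => by
      obtain ⟨x, rfl⟩ := Submodule.Quotient.mk_surjective _ x
      obtain ⟨y, rfl⟩ := Submodule.Quotient.mk_surjective _ y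
      refine (Submodule.Quotient.eq _).2 ?_
      change ext π (x - y) = 0
      rw [map_sub, sub_eq_zero]
      exact h, fun v => ⟨Submodule.Quotient.mk (sect b v), hπ.ext_sect v⟩⟩

/-- A point is determined by its ideal. -/
theorem IsPoint.ext_of_ideal {π π' : A →ₗ[k] (Fin g → R)} (hπ : IsPoint b π) (hπ' : IsPoint b π')
    (h : hπ.ideal = hπ'.ideal) : π = π' := by
  refine LinearMap.ext fun a => ?_
  have hm : ((1 : R) ⊗ₜ[k] a - sect b (π a)) ∈ hπ.ideal := by
    rw [hπ.mem_ideal, map_sub, hπ.ext_sect]
    simp
  rw [h, hπ'.mem_ideal, map_sub, hπ'.ext_sect] at hm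
  simp only [ext_tmul, one_smul, sub_eq_zero] at hm
  exact hm.symm

/-- An ideal with quotient basis `b` is the ideal of a point. -/
theorem exists_point_of_ideal (J : Ideal (R ⊗[k] A))
    (hb : Function.Bijective ((J.restrictScalars R).mkQ ∘ₗ sect (k := k) b)) :
    ∃ (π : A →ₗ[k] (Fin g → R)) (hπ : IsPoint b π), hπ.ideal = J := by
  let e := LinearEquiv.ofBijective _ hb
  let p : R ⊗[k] A →ₗ[R] (Fin g → R) := e.symm.toLinearMap ∘ₗ (J.restrictScalars R).mkQ
  have hp : ∀ x, x - sect b (p x) ∈ J := fun x => by
    have h : e (p x) = (J.restrictScalars R).mkQ x := e.apply_symm_apply _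
    exact (Submodule.Quotient.eq (J.restrictScalars R)).1 h.symm
  have hs : ∀ v, p (sect b v) = v := fun v => e.symm_apply_apply v
  have h0 : ∀ x, p x = 0 ↔ x ∈ J := fun x => by
    simp [p, Submodule.Quotient.mk_eq_zero]
  have hmul : ∀ (a : A) (x : R ⊗[k] A), p ((1 : R) ⊗ₜ a * x) =
      p ((1 : R) ⊗ₜ a * sect b (p x)) := fun a x => by
    rw [← sub_eq_zero, ← map_sub, ← mul_sub, h0]
    exact J.mul_mem_left _ (hp x)
  let π : A →ₗ[k] (Fin g → R) := p.restrictScalars k ∘ₗ TensorProduct.mk k R A 1
  have hext : ext π = p := by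
    apply LinearMap.restrictScalars_injective k
    refine TensorProduct.ext' fun r a => ?_
    simp [π, ← map_smul, TensorProduct.smul_tmul']
  have hπ : IsPoint b π := by
    refine ⟨fun i j => ?_, fun a c j => ?_⟩
    · have := congr_fun (hs (Pi.single i 1)) j
      simpa [sect, Fintype.linearCombination_apply_single, π, Pi.single_apply, eq_comm] using this
    · have := congr_fun (hmul a ((1 : R) ⊗ₜ c)) j
      simp only [sect_apply, Finset.mul_sum, map_sum, Finset.sum_apply,
        Algebra.TensorProduct.tmul_mul_tmul, one_mul] at this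
      simp only [π, LinearMap.comp_apply, TensorProduct.mk_apply, LinearMap.restrictScalars_apply]
      rw [this]
      refine Finset.sum_congr rfl fun l _ => ?_
      rw [← hext]
      simp [π]
  refine ⟨π, hπ, ?_⟩
  ext x
  rw [hπ.mem_ideal, hext, h0]

end Fermat.Agent.RelJac.Hilb
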