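import Fermat.Agent.RelJac.HilbAlg
import Mathlib.RingTheory.TensorProduct.Maps

/-!
Ideals with a prescribed quotient basis: stability under base change and universal property.
-/

open scoped TensorProduct

namespace Fermat.Agent.RelJac

universe u

variable {k A : Type u} [CommRing k] [CommRing A] [Algebra k A] {g : ℕ} (b : Fin g → A)
variable {R R' : Type u} [CommRing R] [CommRing R'] [Algebra k R] [Algebra k R']

/-- `b` is an `R`-basis of the quotient by `I`. -/
def IsBasisIdeal (I : Ideal (R ⊗[k] A)) : Prop :=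
  Function.Bijective fun r : Fin g → R => Ideal.Quotient.mk I (∑ i, r i ⊗ₜ[k] b i)

/-- The map `R ⊗ A → R' ⊗ A` induced by `φ`. -/
noncomputable abbrev mapBase (A : Type u) [CommRing A] [Algebra k A] (φ : R →ₐ[k] R') :
    R ⊗[k] A →ₐ[k] R' ⊗[k] A :=
  Algebra.TensorProduct.map φ (AlgHom.id k A)

namespace IsBasisIdeal

variable {b}

/-- Ideals with quotient basis `b` are exactly the ideals of points. -/
theorem iff_exists_point {I : Ideal (R ⊗[k] A)} :
    IsBasisIdeal b I ↔ ∃ (π : A →ₗ[k] (Fin g → R)) (hπ : Hilb.IsPoint b π), hπ.ideal = I := by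
  constructor
  · intro h
    refine Hilb.exists_point_of_ideal I ?_
    have e : (fun r : Fin g → R => Ideal.Quotient.mk I (∑ i, r i ⊗ₜ[k] b i)) =
        ⇑((I.restrictScalars R).mkQ ∘ₗ Hilb.sect b) := by
      funext r
      simp only [LinearMap.comp_apply, Hilb.sect_apply]
      rfl
    exact e ▸ h
  · rintro ⟨π, hπ, rfl⟩
    have h : Function.Bijective hπ.quotientEquiv.symm := hπ.quotientEquiv.symm.bijective
    unfold IsBasisIdeal
    convert h using 1
    funext r
    rw [eq_comm, LinearEquiv.symm_apply_eq]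
    exact (hπ.ext_sect r).symm.trans (by simp only [Hilb.sect_apply]; rfl)

theorem comm_ext (π : A →ₗ[k] (Fin g → R)) (φ : R →ₐ[k] R') (x : R ⊗[k] A) :
    Hilb.ext ((φ.toLinearMap.compLeft (Fin g)).comp π) (mapBase A φ x) = φ ∘ Hilb.ext π x := by
  induction x using TensorProduct.induction_on with
  | zero => ext; simp
  | tmul r a => ext j; simp
  | add x y hx hy => rw [map_add, map_add, map_add, hx, hy]; ext j; simp

/-- Every element of the larger ideal comes from the smaller one. -/
theorem map_ideal {π : A →ₗ[k] (Fin g → R)} (hπ : Hilb.IsPoint b π) (φ : R →ₐ[k] R') :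
    (hπ.comp φ).ideal = hπ.ideal.map (mapBase A φ) := by
  set π' := (φ.toLinearMap.compLeft (Fin g)).comp π with hπ'def
  refine le_antisymm (fun x hx => ?_) (Ideal.map_le_iff_le_comap.2 fun x hx => ?_)
  · have key : ∀ y, y - Hilb.sect b (Hilb.ext π' y) ∈ hπ.ideal.map (mapBase A φ) := by
      intro y
      induction y using TensorProduct.induction_on with
      | zero => simp
      | tmul r a =>
        have hm : ((1 : R) ⊗ₜ[k] a - Hilb.sect b (π a)) ∈ hπ.ideal := by
          rw [hπ.mem_ideal, map_sub, hπ.ext_sect]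
          simp
        have h := Ideal.mul_mem_left _ (r ⊗ₜ[k] (1 : A)) (Ideal.mem_map_of_mem (mapBase A φ) hm)
        convert h using 1
        simp [mul_sub, Hilb.sect_apply, Finset.mul_sum, π', Finset.smul_sum, TensorProduct.smul_tmul']
      | add y z hy hz =>
        have := add_mem hy hz
        simp only [map_add] at this ⊢
        convert this using 1
        abel
    have := key x
    rwa [(hπ.comp φ).mem_ideal.1 hx, map_zero, sub_zero] at this
  · rw [Ideal.mem_comap, (hπ.comp φ).mem_ideal, comm_ext, hπ.mem_ideal.1 hx]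
    ext
    simp

/-- Stability under base change. -/
theorem map {I : Ideal (R ⊗[k] A)} (h : IsBasisIdeal b I) (φ : R →ₐ[k] R') :
    IsBasisIdeal b (I.map (mapBase A φ)) := by
  obtain ⟨π, hπ, rfl⟩ := iff_exists_point.1 h
  exact iff_exists_point.2 ⟨_, hπ.comp φ, map_ideal hπ φ⟩

variable (k b) in
/-- The universal ideal. -/
noncomputable def univIdeal : Ideal (Hilb.HilbAlg k b ⊗[k] A) :=
  (Hilb.isPoint_univ (k := k) b).ideal

variable (k b) in
/-- The universal ideal has quotient basis `b`. -/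
theorem univIdeal_isBasisIdeal : IsBasisIdeal b (univIdeal k b) :=
  iff_exists_point.2 ⟨_, Hilb.isPoint_univ b, rfl⟩

/-- The universal property of `HilbAlg`. -/
theorem existsUnique_map_univIdeal {I : Ideal (R ⊗[k] A)} (h : IsBasisIdeal b I) :
    ∃! φ : Hilb.HilbAlg k b →ₐ[k] R, I = (univIdeal k b).map (mapBase A φ) := by
  obtain ⟨π, hπ, rfl⟩ := iff_exists_point.1 h
  refine ⟨hπ.lift, ?_, fun ψ hψ => ?_⟩
  · show hπ.ideal = (univIdeal k b).map (mapBase A hπ.lift)
    rw [univIdeal, ← map_ideal]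
    congr
    ext a j
    exact (hπ.lift_univ a j).symm
  · have := hπ.ext_of_ideal ((Hilb.isPoint_univ (k := k) b).comp ψ) (hψ.trans (map_ideal _ ψ).symm)
    refine Hilb.hilbAlg_hom_ext fun a j => ?_
    rw [hπ.lift_univ]
    exact (congr_fun (LinearMap.congr_fun this a) j).symm

/-- The natural map `(R' ⊗ A) ⊗ I → R' ⊗ A`. -/
noncomputable def baseChangeMap (I : Ideal (R ⊗[k] A)) (φ : R →ₐ[k] R') :
    letI := (mapBase A φ).toRingHom.toAlgebra
    (R' ⊗[k] A) ⊗[R ⊗[k] A] I →ₗ[R' ⊗[k] A] R' ⊗[k] A :=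
  letI := (mapBase A φ).toRingHom.toAlgebra
  LinearMap.liftBaseChange (R' ⊗[k] A) ((Algebra.linearMap (R ⊗[k] A) (R' ⊗[k] A)).comp I.subtype)

/-- The base change map of an ideal on pure tensors. -/
theorem baseChangeMap_tmul (I : Ideal (R ⊗[k] A)) (φ : R →ₐ[k] R') (z : R' ⊗[k] A) (i : I) :
    letI := (mapBase A φ).toRingHom.toAlgebra
    baseChangeMap I φ (z ⊗ₜ i) = z * mapBase A φ i := by
  let inst := (mapBase A φ).toRingHom.toAlgebra
  exact LinearMap.liftBaseChange_tmul ..

theorem range_baseChangeMap (I : Ideal (R ⊗[k] A)) (φ : R →ₐ[k] R') :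
    letI := (mapBase A φ).toRingHom.toAlgebra
    LinearMap.range (baseChangeMap I φ) = I.map (mapBase A φ) := by
  let inst := (mapBase A φ).toRingHom.toAlgebra
  refine le_antisymm ?_ (Ideal.map_le_iff_le_comap.2 fun i hi => ?_)
  · rintro _ ⟨t, rfl⟩
    induction t using TensorProduct.induction_on with
    | zero => simp
    | tmul z i =>
      rw [baseChangeMap_tmul]
      exact Ideal.mul_mem_left _ _ (Ideal.mem_map_of_mem _ i.2)
    | add s t hs ht => rw [map_add]; exact add_mem hs ht
  · exact ⟨(1 : R' ⊗[k] A) ⊗ₜ ⟨i, hi⟩, by rw [baseChangeMap_tmul, one_mul]⟩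

/-- Formation of a basis ideal commutes with base change, as modules. -/
theorem baseChangeMap_injective {I : Ideal (R ⊗[k] A)} (h : IsBasisIdeal b I) (φ : R →ₐ[k] R') :
    Function.Injective (baseChangeMap I φ) := by
  let inst := (mapBase A φ).toRingHom.toAlgebra
  obtain ⟨π, hπ, rfl⟩ := iff_exists_point.1 h
  let f : R' →ₗ[k] A →ₗ[k] (R' ⊗[k] A) ⊗[R ⊗[k] A] hπ.ideal :=
    LinearMap.mk₂ k
      (fun r a => (r ⊗ₜ[k] (1 : A)) ⊗ₜ ⟨(1 : R) ⊗ₜ a - Hilb.sect b (π a), by
        rw [hπ.mem_ideal, map_sub, hπ.ext_sect]; simp⟩)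
      (fun r r' a => by simp [TensorProduct.add_tmul])
      (fun c r a => by simp [TensorProduct.smul_tmul'])
      (fun r a a' => by
        rw [← TensorProduct.tmul_add]
        congr 1
        ext
        simp only [TensorProduct.tmul_add, map_add, Submodule.coe_add]
        abel)
      (fun c r a => by
        have hc : algebraMap (R ⊗[k] A) (R' ⊗[k] A) (algebraMap k _ c) = algebraMap k _ c :=
          AlgHom.commutes (mapBase A φ) c
        rw [← algebraMap_smul (R' ⊗[k] A) c
            ((r ⊗ₜ[k] (1 : A)) ⊗ₜ[R ⊗[k] A] (_ : hπ.ideal)), ← hc, algebraMap_smul,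
          ← TensorProduct.tmul_smul]
        congr 1
        ext
        simp [Algebra.algebraMap_eq_smul_one, smul_sub, TensorProduct.tmul_smul, map_smul,
          Hilb.sect_apply, Finset.smul_sum, TensorProduct.smul_tmul'])
  let ψ := TensorProduct.lift f
  have hψ : ∀ r a, ψ (r ⊗ₜ a) = f r a := fun r a => TensorProduct.lift.tmul _ _
  -- `ψ` retracts the map in question on generators
  have hgen : ∀ (r : R') (a : A) (i : R ⊗[k] A) (hi : i ∈ hπ.ideal),
      ψ ((r ⊗ₜ a) * mapBase A φ i) = (r ⊗ₜ[k] a) ⊗ₜ ⟨i, hi⟩ := by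
    intro r a i hi
    have aux : ∀ j : R ⊗[k] A, ∃ h',
        ψ ((r ⊗ₜ a) * mapBase A φ j) = (r ⊗ₜ[k] (1 : A)) ⊗ₜ
          (⟨((1 : R) ⊗ₜ a) * j - Hilb.sect b (Hilb.ext π (((1 : R) ⊗ₜ a) * j)), h'⟩ : hπ.ideal) := by
      intro j
      refine ⟨by rw [hπ.mem_ideal, map_sub, hπ.ext_sect, sub_self], ?_⟩
      induction j using TensorProduct.induction_on with
      | zero =>
        simp only [map_zero, mul_zero]
        rw [eq_comm]
        convert TensorProduct.tmul_zero (hπ.ideal : Ideal (R ⊗[k] A)) (r ⊗ₜ[k] (1 : A)) using 2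
        ext
        simp
      | tmul r' a' =>
        rw [Algebra.TensorProduct.map_tmul, AlgHom.id_apply, Algebra.TensorProduct.tmul_mul_tmul,
          hψ]
        simp only [f, LinearMap.mk₂_apply]
        have hsm : (r * φ r') ⊗ₜ[k] (1 : A) =
            algebraMap (R ⊗[k] A) (R' ⊗[k] A) (r' ⊗ₜ 1) * (r ⊗ₜ 1) := by
          simp [RingHom.algebraMap_toAlgebra, mul_comm]
        rw [hsm, ← Algebra.smul_def, TensorProduct.smul_tmul]
        congr 1
        ext
        simp [mul_sub, Hilb.sect_apply, Finset.mul_sum, Finset.smul_sum, TensorProduct.smul_tmul']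
      | add x y hx hy =>
        simp only [map_add, mul_add]
        rw [hx, hy, ← TensorProduct.tmul_add]
        congr 1
        ext
        simp only [Submodule.coe_add]
        abel
    obtain ⟨h', e⟩ := aux i
    have hai : Hilb.ext π (((1 : R) ⊗ₜ a) * i) = 0 :=
      hπ.mem_ideal.1 (hπ.ideal.mul_mem_left _ hi)
    have hra : r ⊗ₜ[k] a = algebraMap (R ⊗[k] A) (R' ⊗[k] A) (1 ⊗ₜ a) * (r ⊗ₜ 1) := by
      simp [RingHom.algebraMap_toAlgebra]
    rw [e, hra, ← Algebra.smul_def, TensorProduct.smul_tmul]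
    congr 1
    ext
    simp [hai]
  have hinv : ∀ t, ψ (baseChangeMap hπ.ideal φ t) = t := fun t => by
    induction t using TensorProduct.induction_on with
    | zero => simp
    | tmul z i =>
      rw [baseChangeMap_tmul]
      induction z using TensorProduct.induction_on with
      | zero => simp
      | tmul r a => exact hgen r a i i.2
      | add y z hy hz => rw [add_mul, map_add, hy, hz, TensorProduct.add_tmul]
    | add s t hs ht => rw [map_add, map_add, hs, ht]
  exact Function.LeftInverse.injective (g := ψ) hinv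

/-- The kernel of a retraction `R ⊗ A → R` has quotient basis `1`. -/
theorem of_retraction (f : R ⊗[k] A →ₐ[R] R) :
    IsBasisIdeal (fun _ : Fin 1 => (1 : A)) (RingHom.ker f.toRingHom) := by
  have hf : ∀ r : R, f (r ⊗ₜ[k] (1 : A)) = r := fun r => by
    simpa [Algebra.TensorProduct.algebraMap_apply] using f.commutes r
  refine ⟨fun r s h => funext fun i => ?_, fun z => ?_⟩
  · have h' : f (∑ j : Fin 1, r j ⊗ₜ[k] (1 : A) - ∑ j : Fin 1, s j ⊗ₜ[k] (1 : A)) = 0 :=
      RingHom.mem_ker.1 (Ideal.Quotient.eq.1 h)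
    simp [hf, sub_eq_zero] at h'
    rw [Fin.fin_one_eq_zero i]
    exact h'
  · obtain ⟨z, rfl⟩ := Ideal.Quotient.mk_surjective z
    refine ⟨fun _ => f z, Ideal.Quotient.eq.2 (RingHom.mem_ker.2 ?_)⟩
    simp [hf]

/-- The base change of a basis ideal is the ideal it generates. -/
noncomputable def baseChangeEquiv {I : Ideal (R ⊗[k] A)} (h : IsBasisIdeal b I) (φ : R →ₐ[k] R') :
    letI := (mapBase A φ).toRingHom.toAlgebra
    (R' ⊗[k] A) ⊗[R ⊗[k] A] I ≃ₗ[R' ⊗[k] A] I.map (mapBase A φ) :=
  letI := (mapBase A φ).toRingHom.toAlgebra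
  (LinearEquiv.ofInjective _ (baseChangeMap_injective h φ)).trans
    (LinearEquiv.ofEq _ _ (range_baseChangeMap I φ))

end IsBasisIdeal

end Fermat.Agent.RelJac
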