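import Fermat.Agent.RelJac.HilbBasis
import Fermat.Agent.RelJac.DomainTensor
import Mathlib.RingTheory.PicardGroup
import Mathlib.RingTheory.DedekindDomain.Ideal.Lemmas
import Mathlib.RingTheory.Filtration
import Mathlib.RingTheory.Nakayama
import Mathlib.RingTheory.FiniteStability
import Mathlib.RingTheory.Polynomial.Basic
import Mathlib.LinearAlgebra.Dual.Lemmas

/-!
Ideals with a prescribed quotient basis in a family of Dedekind domains are invertible.
-/

open scoped TensorProduct

namespace Fermat.Agent.RelJac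

universe u

/-- An ideal whose trace ideal is everything is invertible. -/
theorem invertible_of_trace {C : Type u} [CommRing C] (I : Ideal C)
    (h : ∀ M : Ideal C, M.IsMaximal → ∃ (φ : I →ₗ[C] C) (m : I), φ m ∉ M) :
    Module.Invertible C I := by
  have hcomm : ∀ (φ : I →ₗ[C] C) (m n : I), φ m • n = φ n • m := fun φ m n => by
    apply Subtype.ext
    simp only [SetLike.val_smul, smul_eq_mul]
    have h1 := φ.map_smul (n : C) m
    have h2 := φ.map_smul (m : C) n
    have h3 : (n : C) • m = (m : C) • n := Subtype.ext (by simp [mul_comm])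
    rw [h3] at h1
    simp only [smul_eq_mul] at h1 h2
    rw [h2] at h1
    linear_combination -h1
  have hcomm' : ∀ (φ ψ : I →ₗ[C] C) (m : I), φ m • ψ = ψ m • φ := fun φ ψ m => by
    refine LinearMap.ext fun n => ?_
    simp only [LinearMap.smul_apply, smul_eq_mul]
    have := congrArg ψ (hcomm φ m n)
    simp only [map_smul, smul_eq_mul] at this
    rw [this, mul_comm]
  let e : Module.Dual C I ⊗[C] I →ₗ[C] C := contractLeft C I
  have hs : Function.Surjective e := by
    rw [← LinearMap.range_eq_top]
    by_contra hne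
    obtain ⟨M, hM, hle⟩ := Ideal.exists_le_maximal (LinearMap.range e) hne
    obtain ⟨φ, m, hm⟩ := h M hM
    exact hm (hle ⟨φ ⊗ₜ m, contractLeft_apply φ m⟩)
  obtain ⟨τ, hτ⟩ := hs 1
  have key : ∀ t : Module.Dual C I ⊗[C] I, t = e t • τ := by
    intro t
    have : ∀ τ : Module.Dual C I ⊗[C] I, e τ • t = e t • τ := by
      intro τ
      induction τ using TensorProduct.induction_on with
      | zero => simp
      | tmul ψ n =>
        induction t using TensorProduct.induction_on with
        | zero => simp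
        | tmul φ m =>
          simp only [e, contractLeft_apply]
          rw [← TensorProduct.tmul_smul, hcomm ψ n m, TensorProduct.tmul_smul,
            TensorProduct.smul_tmul', hcomm' ψ φ m, TensorProduct.smul_tmul']
        | add x y hx hy => rw [smul_add, map_add, add_smul, hx, hy]
      | add x y hx hy => rw [map_add, add_smul, hx, hy, smul_add]
    simpa [hτ] using this τ
  refine Module.Invertible.right (R := C) (M := Module.Dual C I) (N := I)
    (LinearEquiv.ofBijective e ⟨fun t t' htt => ?_, hs⟩)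
  rw [key t, key t', htt]

namespace IsBasisIdeal

variable {k A : Type u} [Field k] [CommRing A] [Algebra k A] {g : ℕ} {b : Fin g → A}
variable {R : Type u} [CommRing R] [Algebra k R]

/-- Evaluation of the first factor at a point. -/
noncomputable def evalLeft (φ : R →ₐ[k] k) : R ⊗[k] A →ₐ[k] A :=
  Algebra.TensorProduct.lift ((Algebra.ofId k A).comp φ) (AlgHom.id k A) fun _ _ => .all _ _

@[simp]
theorem evalLeft_tmul (φ : R →ₐ[k] k) (r : R) (a : A) : evalLeft φ (r ⊗ₜ a) = φ r • a := by
  simp [evalLeft, Algebra.smul_def]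

theorem evalLeft_surjective (φ : R →ₐ[k] k) : Function.Surjective (evalLeft (A := A) φ) :=
  fun a => ⟨1 ⊗ₜ a, by simp⟩

/-- The ideal of `R ⊗ A` generated by an ideal of `R`. -/
noncomputable abbrev extIdeal (J : Ideal R) : Ideal (R ⊗[k] A) :=
  J.map (Algebra.TensorProduct.includeLeftRingHom : R →+* R ⊗[k] A)

theorem ker_evalLeft_le (φ : R →ₐ[k] k) {x : R ⊗[k] A} (hx : evalLeft φ x = 0) :
    x ∈ extIdeal (RingHom.ker φ) := by
  have : ∀ y : R ⊗[k] A, y - 1 ⊗ₜ evalLeft φ y ∈ extIdeal (RingHom.ker φ) := by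
    intro y
    induction y using TensorProduct.induction_on with
    | zero => simp
    | tmul r a =>
      have : r ⊗ₜ[k] a - 1 ⊗ₜ evalLeft φ (r ⊗ₜ a) =
          (r - algebraMap k R (φ r)) ⊗ₜ[k] (1 : A) * (1 ⊗ₜ a) := by
        simp [sub_mul, TensorProduct.sub_tmul, Algebra.algebraMap_eq_smul_one, TensorProduct.smul_tmul,
          Algebra.TensorProduct.tmul_mul_tmul]
      rw [this]
      exact Ideal.mul_mem_right _ _ (Ideal.mem_map_of_mem _ (by simp [RingHom.mem_ker]))
    | add x y hx hy =>
      have := add_mem hx hy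
      simp only [map_add, TensorProduct.tmul_add] at this ⊢
      convert this using 1
      abel
  simpa [hx] using this x

/-- An element of the ideal lying in an extended ideal lies in the product. -/
theorem mem_smul_of_mem_ext {π : A →ₗ[k] (Fin g → R)} (hπ : Hilb.IsPoint b π) (J : Ideal R)
    {x : R ⊗[k] A} (hx : x ∈ extIdeal J) (hxI : x ∈ hπ.ideal) :
    x ∈ extIdeal J * hπ.ideal := by
  have key : ∀ y ∈ extIdeal (A := A) (k := k) J, ∀ z : R ⊗[k] A,
      z * y - Hilb.sect b (Hilb.ext π (z * y)) ∈ extIdeal J * hπ.ideal := by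
    intro y hy
    refine Submodule.span_induction ?_ (fun z => by simp) ?_ ?_ hy
    · rintro _ ⟨r, hr, rfl⟩ z
      have hz : z - Hilb.sect b (Hilb.ext π z) ∈ hπ.ideal := by
        rw [hπ.mem_ideal, map_sub, hπ.ext_sect, sub_self]
      have hsmul : ∀ w : R ⊗[k] A, w * r ⊗ₜ[k] (1 : A) = r • w := fun w => by
        rw [mul_comm, Algebra.smul_def]
        rfl
      change z * r ⊗ₜ[k] (1 : A) - Hilb.sect b (Hilb.ext π (z * r ⊗ₜ[k] (1 : A))) ∈ _
      rw [hsmul, map_smul, map_smul, ← smul_sub, ← hsmul, mul_comm _ (r ⊗ₜ[k] (1 : A))]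
      exact Ideal.mul_mem_mul (Ideal.mem_map_of_mem _ hr) hz
    · intro y y' _ _ hy hy' z
      have := add_mem (hy z) (hy' z)
      simp only [mul_add, map_add] at this ⊢
      convert this using 1
      abel
    · intro w y _ hy z
      simpa [mul_assoc] using hy (z * w)
  have := key x hx 1
  rwa [one_mul, hπ.mem_ideal.1 hxI, map_zero, sub_zero] at this

/-- An element whose value at a point is regular is regular up to all powers of that point. -/
theorem mem_pow_of_mul_eq_zero [IsDomain A] (φ : R →ₐ[k] k) {f : R ⊗[k] A}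
    (hf : evalLeft φ f ≠ 0) {c : R ⊗[k] A} (hc : c * f = 0) :
    ∀ n : ℕ, c ∈ extIdeal (RingHom.ker φ ^ n) := by
  intro n
  induction n with
  | zero => simp [extIdeal, Ideal.map_top]
  | succ n ih =>
    let e := Module.Free.chooseBasis k A
    let B := Algebra.TensorProduct.basis R e
    have hcoord : ∀ i, B.repr c i ∈ RingHom.ker φ ^ (n + 1) := by
      intro i
      by_contra hi
      obtain ⟨l, hl0, hl⟩ := Submodule.exists_dual_map_eq_bot_of_notMem
        (p := (RingHom.ker φ ^ (n + 1)).restrictScalars k) hi inferInstance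
      have hlk : ∀ x ∈ RingHom.ker φ ^ (n + 1), l x = 0 := fun x hx => by
        have : l x ∈ ((RingHom.ker φ ^ (n + 1)).restrictScalars k).map l :=
          Submodule.mem_map_of_mem hx
        rwa [hl, Submodule.mem_bot] at this
      let L : R ⊗[k] A →ₗ[k] A :=
        (TensorProduct.lid k A).toLinearMap ∘ₗ LinearMap.rTensor A l
      have hLt : ∀ r a, L (r ⊗ₜ a) = l r • a := fun r a => by simp [L]
      have hmul : ∀ y ∈ extIdeal (A := A) (k := k) (RingHom.ker φ ^ n), ∀ z : R ⊗[k] A,
          L (y * z) = L y * evalLeft φ z := by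
        intro y hy
        refine Submodule.span_induction ?_ (fun z => by simp) ?_ ?_ hy
        · rintro _ ⟨r, hr, rfl⟩ z
          induction z using TensorProduct.induction_on with
          | zero => simp
          | tmul s a =>
            have hm : l (r * (s - algebraMap k R (φ s))) = 0 :=
              hlk _ (by rw [pow_succ]; exact Ideal.mul_mem_mul hr (by simp [RingHom.mem_ker]))
            have hm' : l (r * s) = φ s * l r := by
              rw [mul_sub, map_sub, sub_eq_zero] at hm
              rw [hm, mul_comm r, ← Algebra.smul_def, map_smul, smul_eq_mul]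
            simp [hLt, hm', smul_smul, mul_comm]
          | add s t hs ht => rw [mul_add, map_add, map_add, hs, ht, mul_add]
        · intro y y' _ _ hy hy' z
          simp [add_mul, hy z, hy' z]
        · intro w y _ hy z
          change L (w * y * z) = L (w * y) * _
          rw [show w * y * z = y * (w * z) by ring, hy, mul_comm w y, hy, map_mul, mul_assoc]
      have h0 : L c = 0 := by
        have := hmul c ih f
        rw [hc, map_zero] at this
        exact (mul_eq_zero.1 this.symm).resolve_right hf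
      have hrepr : ∀ y : R ⊗[k] A, e.repr (L y) i = l (B.repr y i) := by
        intro y
        induction y using TensorProduct.induction_on with
        | zero => simp
        | tmul r a =>
          simp only [B, hLt, Algebra.TensorProduct.basis_repr_tmul, map_smul, Finsupp.smul_apply,
            Finsupp.mapRange_apply, smul_eq_mul]
          rw [mul_comm r, ← Algebra.smul_def, map_smul, smul_eq_mul, mul_comm]
        | add x y hx hy => simp [hx, hy]
      exact hl0 (by rw [← hrepr c, h0]; simp)
    rw [← B.linearCombination_repr c, Finsupp.linearCombination_apply]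
    refine Submodule.sum_mem _ fun i _ => ?_
    change B.repr c i • B i ∈ _
    rw [Algebra.smul_def]
    exact Ideal.mul_mem_right _ _ (Ideal.mem_map_of_mem _ (hcoord i))

variable [IsAlgClosed k] [IsDedekindDomain A] [Algebra.FiniteType k A]

omit [Algebra k R] in
/-- A nonzero ideal of a Dedekind domain is principal away from a closed set avoiding a prime. -/
theorem exists_local_generator (J P : Ideal A) (hJ : J ≠ ⊥) [P.IsPrime] :
    ∃ f ∈ J, ∃ t ∉ P, ∀ x ∈ J, t * x ∈ Ideal.span {f} := by
  have hlt : P * J < J := by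
    refine lt_of_le_of_ne Ideal.mul_le_right fun h => ?_
    have : P * J = (1 : Ideal A) * J := by rw [one_mul]; exact h
    exact Ideal.IsPrime.ne_top ‹_› ((mul_right_cancel₀ hJ this).trans Ideal.one_eq_top)
  obtain ⟨f, hfJ, hfP⟩ := SetLike.exists_of_lt hlt
  obtain ⟨Q, hQ⟩ : J ∣ Ideal.span {f} :=
    Ideal.dvd_iff_le.2 (by rwa [Ideal.span_singleton_le_iff_mem])
  have hQP : ¬ Q ≤ P := fun h => hfP (by
    have : f ∈ J * Q := hQ ▸ Ideal.mem_span_singleton_self f
    exact mul_comm J P ▸ Ideal.mul_mono_right h this)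
  obtain ⟨t, htQ, htP⟩ := SetLike.not_le_iff_exists.1 hQP
  exact ⟨f, hfJ, t, htP, fun x hx => hQ ▸ mul_comm x t ▸ Ideal.mul_mem_mul hx htQ⟩

/-- An ideal with a prescribed quotient basis over a base of finite type is invertible. -/
theorem invertible_of_finiteType [Algebra.FiniteType k R] (hA : ¬ IsField A)
    {I : Ideal (R ⊗[k] A)} (h : IsBasisIdeal b I) : Module.Invertible (R ⊗[k] A) I := by
  classical
  obtain ⟨π, hπ, rfl⟩ := iff_exists_point.1 h
  have hft : Algebra.FiniteType k (R ⊗[k] A) := by
    have : Algebra.FiniteType R (R ⊗[k] A) := inferInstance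
    exact Algebra.FiniteType.trans (S := R) ‹Algebra.FiniteType k R› this
  have : IsNoetherianRing (R ⊗[k] A) := Algebra.FiniteType.isNoetherianRing k _
  refine invertible_of_trace _ fun M hM => ?_
  obtain ⟨ψ, hψ⟩ := exists_point_ker_eq (k := k) M
  let φ : R →ₐ[k] k := ψ.comp Algebra.TensorProduct.includeLeft
  let φA : A →ₐ[k] k := ψ.comp Algebra.TensorProduct.includeRight
  have hψeq : ∀ x, ψ x = φA (evalLeft φ x) := by
    intro x
    induction x using TensorProduct.induction_on with
    | zero => simp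
    | tmul r a => simp [φ, φA, ← map_mul]
    | add x y hx hy => simp [hx, hy]
  let J : Ideal A := hπ.ideal.map (evalLeft φ)
  have hJ : J ≠ ⊥ := by
    intro h0
    have : Module.Finite k A := by
      refine Module.Finite.of_surjective
        (Fintype.linearCombination k b : (Fin g → k) →ₗ[k] A) fun a => ⟨φ ∘ π a, ?_⟩
      have hm : ((1 : R) ⊗ₜ[k] a - Hilb.sect b (π a)) ∈ hπ.ideal := by
        rw [hπ.mem_ideal, map_sub, hπ.ext_sect]; simp
      have := Ideal.mem_map_of_mem (evalLeft φ) hm
      rw [show hπ.ideal.map (evalLeft φ) = ⊥ from h0, Ideal.mem_bot, map_sub, sub_eq_zero] at this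
      simpa [Fintype.linearCombination_apply, Hilb.sect_apply] using this.symm
    exact hA (isField_of_isIntegral_of_isField' (R := k) (Field.toIsField k))
  have : (RingHom.ker φA).IsPrime := RingHom.ker_isPrime _
  obtain ⟨f0, hf0, t0, ht0, hgen⟩ := exists_local_generator J (RingHom.ker φA) hJ
  have hf0ne : f0 ≠ 0 := by
    rintro rfl
    obtain ⟨x, hx, hx0⟩ := Submodule.exists_mem_ne_zero_of_ne_bot hJ
    have := hgen x hx
    simp only [Ideal.span_singleton_eq_bot.2 rfl, Ideal.mem_bot, mul_eq_zero, hx0, or_false] at this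
    exact ht0 (by simp [this])
  obtain ⟨f, hfI, hf⟩ := (Ideal.mem_map_iff_of_surjective _ (evalLeft_surjective φ)).1 hf0
  have hext : extIdeal (A := A) (k := k) (RingHom.ker φ) ≤ M := by
    rw [Ideal.map_le_iff_le_comap]
    intro r hr
    rw [Ideal.mem_comap, ← hψ, RingHom.mem_ker]
    exact (RingHom.mem_ker).1 hr
  -- `f` generates after inverting some element outside `M`
  obtain ⟨t', ht'⟩ : ∃ t' : R ⊗[k] A, t' * (1 ⊗ₜ t0) - 1 ∈ M := by
    have : (1 : R) ⊗ₜ[k] t0 ∉ M := by
      rw [← hψ]
      exact fun h => ht0 h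
    obtain ⟨t', i, hi, e⟩ := hM.exists_inv this
    exact ⟨t', by rw [show t' * (1 ⊗ₜ t0) - 1 = -i by rw [← e]; ring]; exact neg_mem hi⟩
  let F : Ideal (R ⊗[k] A) := Ideal.span {f}
  let N : Submodule (R ⊗[k] A) ((R ⊗[k] A) ⧸ F) := Submodule.map (Submodule.mkQ F) hπ.ideal
  have hN : N ≤ M • N := by
    rintro _ ⟨x, hx, rfl⟩
    obtain ⟨a, ha⟩ := Ideal.mem_span_singleton'.1 (hgen _ (Ideal.mem_map_of_mem (evalLeft φ) hx))
    have h1 : (1 ⊗ₜ t0) * x - (1 ⊗ₜ a) * f ∈ extIdeal (RingHom.ker φ) * hπ.ideal :=
      mem_smul_of_mem_ext hπ _ (ker_evalLeft_le φ (by simp [hf, ha]))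
        (sub_mem (Ideal.mul_mem_left _ _ hx) (Ideal.mul_mem_left _ _ hfI))
    have h2 : x - t' * (1 ⊗ₜ a) * f ∈ M * hπ.ideal := by
      have e : x - t' * (1 ⊗ₜ a) * f = t' * ((1 ⊗ₜ t0) * x - (1 ⊗ₜ a) * f) -
          (t' * (1 ⊗ₜ t0) - 1) * x := by ring
      rw [e]
      exact sub_mem (Ideal.mul_mem_left _ _ (Ideal.mul_mono_left hext h1))
        (Ideal.mul_mem_mul ht' hx)
    have h3 : Submodule.mkQ F x = Submodule.mkQ F (x - t' * (1 ⊗ₜ a) * f) := by
      rw [map_sub, eq_comm, sub_eq_self]
      exact (Submodule.Quotient.mk_eq_zero _).2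
        (Ideal.mem_span_singleton'.2 ⟨_, rfl⟩)
    rw [h3]
    have : Submodule.map (Submodule.mkQ F) (M • hπ.ideal) ≤ M • N := by
      rw [Submodule.map_smul'']
    exact this ⟨_, by rwa [smul_eq_mul], rfl⟩
  obtain ⟨s, hs1, hs⟩ := Submodule.exists_sub_one_mem_and_smul_eq_zero_of_fg_of_le_smul M N
    (Submodule.FG.map _ (IsNoetherian.noetherian _)) hN
  have hsI : ∀ x ∈ hπ.ideal, ∃ a, a * f = s * x := by
    intro x hx
    refine Ideal.mem_span_singleton'.1 ?_
    have := hs _ (Submodule.mem_map_of_mem hx)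
    rwa [← map_smul, Submodule.mkQ_apply, Submodule.Quotient.mk_eq_zero] at this
  -- the annihilator of `f` vanishes near `M`
  obtain ⟨s', hs'M, hs'⟩ : ∃ s' ∉ M, ∀ c, c * f = 0 → s' * c = 0 := by
    obtain ⟨S, hS⟩ := IsNoetherian.noetherian
      (LinearMap.ker (LinearMap.mulRight (R ⊗[k] A) f))
    have hc : ∀ c ∈ S, ∃ s' : R ⊗[k] A, s' ∉ M ∧ s' * c = 0 := by
      intro c hc
      have hcf : c * f = 0 := by
        have : c ∈ LinearMap.ker (LinearMap.mulRight (R ⊗[k] A) f) := hS ▸ Submodule.subset_span hc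
        simpa using this
      have hmem : c ∈ (⨅ n : ℕ, M ^ n • ⊤ : Submodule (R ⊗[k] A) (R ⊗[k] A)) := by
        rw [Submodule.mem_iInf]
        intro n
        rw [smul_eq_mul, Ideal.mul_top]
        have := mem_pow_of_mul_eq_zero φ (by rw [hf]; exact hf0ne) hcf n
        rw [extIdeal, Ideal.map_pow] at this
        exact Ideal.pow_right_mono hext n this
      obtain ⟨r, hr⟩ := (Ideal.mem_iInf_smul_pow_eq_bot_iff M c).1 hmem
      refine ⟨1 - r, fun h => hM.ne_top ?_, ?_⟩
      · rw [Ideal.eq_top_iff_one]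
        simpa using add_mem h r.2
      · simp only [smul_eq_mul] at hr
        rw [sub_mul, one_mul, hr, sub_self]
    choose! σ hσM hσ using hc
    refine ⟨∏ c ∈ S, σ c, fun h => ?_, fun c hc => ?_⟩
    · obtain ⟨c, hc, hcM⟩ := (hM.isPrime.prod_mem_iff).1 h
      exact hσM c hc hcM
    · have hcS : c ∈ Submodule.span (R ⊗[k] A) (S : Set (R ⊗[k] A)) := hS.symm ▸ by simpa using hc
      refine Submodule.span_induction ?_ (mul_zero _) ?_ ?_ hcS
      · intro x hx
        obtain ⟨d, hd⟩ := Finset.dvd_prod_of_mem σ hx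
        rw [hd, mul_comm (σ x) d, mul_assoc, hσ x hx, mul_zero]
      · intro x y _ _ hx hy
        rw [mul_add, hx, hy, add_zero]
      · intro a x _ hx
        rw [smul_eq_mul, mul_left_comm, hx, mul_zero]
  choose a ha using hsI
  have uniq : ∀ x hx a', a' * f = s * x → s' * a' = s' * a x hx := fun x hx a' h' => by
    rw [← sub_eq_zero, ← mul_sub]
    exact hs' _ (by rw [sub_mul, h', ha, sub_self])
  refine ⟨{ toFun := fun x => s' * a x x.2
            map_add' := fun x y => ?_
            map_smul' := fun c x => ?_ }, ⟨f, hfI⟩, ?_⟩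
  · rw [← mul_add]
    exact (uniq _ _ _ (by simp [add_mul, mul_add, ha])).symm
  · simp only [SetLike.val_smul, smul_eq_mul, RingHom.id_apply]
    rw [show c * (s' * a x x.2) = s' * (c * a x x.2) by ring]
    exact (uniq _ _ _ (by rw [mul_assoc, ha]; ring)).symm
  · change s' * a f hfI ∉ M
    rw [← uniq f hfI s rfl]
    intro h
    rcases hM.isPrime.mem_or_mem h with h | h
    · exact hs'M h
    · exact hM.ne_top ((Ideal.eq_top_iff_one _).2 (by simpa using sub_mem h hs1))

/-- Basis ideals are invertible. -/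
theorem invertible (hA : ¬ IsField A) {I : Ideal (R ⊗[k] A)} (h : IsBasisIdeal b I) :
    Module.Invertible (R ⊗[k] A) I := by
  obtain ⟨φ, hφ, -⟩ := existsUnique_map_univIdeal h
  have := invertible_of_finiteType hA (univIdeal_isBasisIdeal k b)
  let := (mapBase A φ).toRingHom.toAlgebra
  exact hφ ▸ Module.Invertible.congr (baseChangeEquiv (univIdeal_isBasisIdeal k b) φ)

end IsBasisIdeal

end Fermat.Agent.RelJac
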