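import Fermat.Agent.RelJac.BaseChange
import Mathlib.RingTheory.Idempotents
import Mathlib.RingTheory.Nakayama
import Mathlib.LinearAlgebra.Matrix.ToLin
import Mathlib.LinearAlgebra.TensorProduct.RightExactness

/-!
Invertible modules and bundles lift along surjections with nil kernel.
-/

open scoped TensorProduct

namespace Fermat.Agent.RelJac

universe u

namespace NilLift

variable {C C' : Type u} [CommRing C] [CommRing C'] [Algebra C C']
  (hs : Function.Surjective (algebraMap C C'))
  (hn : ∀ x ∈ RingHom.ker (algebraMap C C'), IsNilpotent x)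

include hn in
theorem ker_le_jacobson : RingHom.ker (algebraMap C C') ≤ Ideal.jacobson ⊥ :=
  fun x hx => Ideal.radical_le_jacobson (Ideal.mem_radical_iff.2
    (by simpa [IsNilpotent] using hn x hx))

include hs hn in
/-- Finite projective modules lift. -/
theorem exists_projective_lift (M' : Type u) [AddCommGroup M'] [Module C M'] [Module C' M']
    [IsScalarTower C C' M'] [Module.Finite C' M'] [Module.Projective C' M'] :
    ∃ (M : Type u) (_ : AddCommGroup M) (_ : Module C M), Module.Finite C M ∧
      Module.Projective C M ∧ ∃ g : M →ₗ[C] M', IsBaseChange C' g := by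
  classical
  obtain ⟨n, p, hp⟩ := Module.Finite.exists_fin' C' M'
  obtain ⟨s, hs'⟩ := Module.projective_lifting_property p LinearMap.id hp
  have hps : ∀ m, p (s m) = m := fun m => LinearMap.congr_fun hs' m
  let E' : Matrix (Fin n) (Fin n) C' := LinearMap.toMatrix' (s ∘ₗ p)
  have hE' : IsIdempotentElem E' := by
    change E' * E' = E'
    rw [← LinearMap.toMatrix'_comp]
    congr 1
    refine LinearMap.ext fun v => ?_
    simp [hps]
  have hnil : ∀ X ∈ RingHom.ker ((algebraMap C C').mapMatrix (m := Fin n)), IsNilpotent X := by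
    intro X hX
    have hX' : ∀ i j, X i j ∈ RingHom.ker (algebraMap C C') := fun i j =>
      congrArg (fun Y : Matrix (Fin n) (Fin n) C' => Y i j) (RingHom.mem_ker.1 hX)
    let J : Ideal C := Ideal.span (Set.range fun ij : Fin n × Fin n => X ij.1 ij.2)
    have hJfg : J.FG := Submodule.fg_span (Set.finite_range _)
    have hJle : J ≤ nilradical C := Ideal.span_le.2 <| by
      rintro _ ⟨⟨i, j⟩, rfl⟩
      exact hn _ (hX' i j)
    obtain ⟨m, hm'⟩ := Ideal.exists_pow_le_of_le_radical_of_fg hJle hJfg
    have hm : J ^ m = 0 := le_bot_iff.1 hm' 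
    refine ⟨m, Matrix.ext fun i j => ?_⟩
    have key : ∀ l i j, (X ^ l) i j ∈ J ^ l := by
      intro l
      induction l with
      | zero => simp
      | succ l ih =>
        intro i j
        rw [pow_succ, pow_succ, Matrix.mul_apply]
        exact Submodule.sum_mem _ fun x _ =>
          Ideal.mul_mem_mul (ih i x) (Ideal.subset_span ⟨(x, j), rfl⟩)
    have := key m i j
    rw [hm] at this
    simpa using this
  obtain ⟨E, hE, hEE'⟩ := exists_isIdempotentElem_eq_of_ker_isNilpotent _ hnil E'
    ⟨E'.map (Function.surjInv hs), Matrix.ext fun i j => by simp [Function.surjInv_eq hs]⟩ hE'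
  have hcomm : ∀ v : Fin n → C, algebraMap C C' ∘ Matrix.toLin' E v =
      s (p (algebraMap C C' ∘ v)) := by
    intro v
    funext i
    rw [Function.comp_apply, Matrix.toLin'_apply, RingHom.map_mulVec]
    have : E.map (algebraMap C C') = E' := hEE'
    rw [this]
    change (LinearMap.toMatrix' (s ∘ₗ p)).mulVec _ i = _
    rw [← Matrix.toLin'_apply, Matrix.toLin'_toMatrix']
    rfl
  have hfix : ∀ v ∈ LinearMap.range (Matrix.toLin' E), Matrix.toLin' E v = v := by
    rintro _ ⟨w, rfl⟩
    rw [← LinearMap.comp_apply, ← Matrix.toLin'_mul, hE.eq]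
  let M := LinearMap.range (Matrix.toLin' E)
  let g : (LinearMap.range (Matrix.toLin' E)) →ₗ[C] M' :=
    { toFun := fun m => p (algebraMap C C' ∘ m.1)
      map_add' := fun x y => by rw [← map_add]; congr 1; funext i; simp
      map_smul' := fun c x => by
        rw [RingHom.id_apply, ← algebraMap_smul C' c (p _), ← map_smul]
        congr 1
        funext i
        simp }
  refine ⟨M, inferInstance, inferInstance, inferInstance, ?_, g, ?_⟩
  · exact Module.Projective.of_split M.subtype (Matrix.toLin' E).rangeRestrict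
      (LinearMap.ext fun m => Subtype.ext (hfix m.1 m.2))
  · let e : Fin n → M := fun i => (Matrix.toLin' E).rangeRestrict (Pi.single i 1)
    let inv : M' →ₗ[C'] C' ⊗[C] M :=
      (Fintype.linearCombination C' fun i => (1 : C') ⊗ₜ[C] e i) ∘ₗ s
    have hinv : ∀ m', inv m' = ∑ i, s m' i ⊗ₜ[C] e i := fun m' => by
      simp [inv, Fintype.linearCombination_apply, TensorProduct.smul_tmul']
    have hdec : ∀ m : M, ∑ i, m.1 i • e i = m := fun m => Subtype.ext <| by
      simp only [e, Submodule.coe_sum, SetLike.val_smul]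
      change ∑ i, m.1 i • Matrix.toLin' E (Pi.single i 1) = _
      rw [← Finset.sum_congr rfl fun i _ => map_smul (Matrix.toLin' E) (m.1 i) (Pi.single i 1),
        ← map_sum]
      refine (congrArg _ ?_).trans (hfix m.1 m.2)
      exact (pi_eq_sum_univ' m.1).symm
    refine IsBaseChange.of_lift_unique _ ?_
    intro Q _ _ _ _ h
    refine ⟨(h.liftBaseChange C') ∘ₗ inv, LinearMap.ext fun m => ?_, fun h' hh' => ?_⟩
    · simp only [LinearMap.coe_comp, Function.comp_apply, LinearMap.coe_restrictScalars]
      rw [hinv, map_sum]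
      have hsg : ∀ i, s (g m) i = algebraMap C C' (m.1 i) := fun i => by
        have := congr_fun (hcomm m.1) i
        rw [hfix m.1 m.2] at this
        exact this.symm
      simp only [LinearMap.liftBaseChange_tmul, hsg, algebraMap_smul, ← map_smul, ← map_sum, hdec]
    · refine LinearMap.ext fun m' => ?_
      simp only [LinearMap.coe_comp, Function.comp_apply, hinv, map_sum,
        LinearMap.liftBaseChange_tmul, ← hh', LinearMap.coe_restrictScalars]
      rw [← Finset.sum_congr rfl fun i _ => map_smul h' (s m' i) (g (e i)), ← map_sum]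
      congr 1
      have he : ∀ i, g (e i) = p (Pi.single i 1) := fun i => by
        change p (algebraMap C C' ∘ Matrix.toLin' E (Pi.single i 1)) = _
        rw [hcomm, hps]
        congr 1
        funext j
        simp [Pi.single_apply]
      simp only [he, ← map_smul, ← map_sum]
      exact ((congrArg p (pi_eq_sum_univ' (s m'))).symm.trans (hps m')).symm

variable {M N : Type u} [AddCommGroup M] [AddCommGroup N] [Module C M] [Module C N]

include hs in
theorem mem_smul_top_of_tmul_eq_zero {x : M} (hx : (1 : C') ⊗ₜ[C] x = 0) :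
    x ∈ RingHom.ker (algebraMap C C') • (⊤ : Submodule C M) := by
  let J := RingHom.ker (algebraMap C C')
  have hex : Function.Exact J.subtype (Algebra.linearMap C C') := by
    intro y
    simp [J, RingHom.mem_ker]
  obtain ⟨w, hw⟩ := (rTensor_exact M hex hs ((1 : C) ⊗ₜ x)).1 (by simpa using hx)
  have : ∀ w : J ⊗[C] M, TensorProduct.lid C M (J.subtype.rTensor M w) ∈ J • (⊤ : Submodule C M) := by
    intro w
    induction w using TensorProduct.induction_on with
    | zero => simp
    | tmul a m => simpa using Submodule.smul_mem_smul a.2 Submodule.mem_top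
    | add a b ha hb => rw [map_add, map_add]; exact add_mem ha hb
  simpa [hw] using this w

include hs hn in
/-- A map which is surjective modulo a nil ideal is surjective. -/
theorem surjective_of_baseChange [Module.Finite C N] (h : M →ₗ[C] N)
    (hh : Function.Surjective (h.baseChange C')) : Function.Surjective h := by
  rw [← LinearMap.range_eq_top, ← top_le_iff]
  refine Submodule.le_of_le_smul_of_le_jacobson_bot Module.Finite.fg_top
    (ker_le_jacobson hn) fun y _ => ?_
  obtain ⟨z, hz⟩ := hh ((1 : C') ⊗ₜ y)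
  obtain ⟨x, rfl⟩ : ∃ x, (1 : C') ⊗ₜ[C] x = z :=
    TensorProduct.mk_surjective C M C' hs z
  rw [LinearMap.baseChange_tmul, eq_comm, ← sub_eq_zero, ← TensorProduct.tmul_sub] at hz
  rw [Submodule.mem_sup]
  exact ⟨h x, ⟨x, rfl⟩, y - h x, mem_smul_top_of_tmul_eq_zero hs hz, add_sub_cancel _ _⟩

include hs hn in
/-- A map between finite projective modules bijective modulo a nil ideal is bijective. -/
theorem bijective_of_baseChange [Module.Finite C M] [Module.Finite C N] [Module.Projective C N]
    (h : M →ₗ[C] N) (hh : Function.Bijective (h.baseChange C')) : Function.Bijective h := by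
  have hsurj := surjective_of_baseChange hs hn h hh.2
  obtain ⟨σ, hσ⟩ := Module.projective_lifting_property h LinearMap.id hsurj
  let q : M →ₗ[C] M := LinearMap.id - σ ∘ₗ h
  have hq0 : ∀ x, h (q x) = 0 := fun x => by
    have : h (σ (h x)) = h x := LinearMap.congr_fun hσ (h x)
    simp [q, this]
  have hqq : ∀ x, q (q x) = q x := fun x => by
    change q x - σ (h (q x)) = q x
    rw [hq0, map_zero, sub_zero]
  have hle : LinearMap.range q ≤ RingHom.ker (algebraMap C C') • LinearMap.range q := by
    rintro _ ⟨x, rfl⟩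
    have h1 : (1 : C') ⊗ₜ[C] q x = 0 := hh.1 (by
      rw [LinearMap.baseChange_tmul, hq0, TensorProduct.tmul_zero, map_zero])
    have h2 := Submodule.mem_map_of_mem (f := q) (mem_smul_top_of_tmul_eq_zero hs h1)
    rw [Submodule.map_smul'', Submodule.map_top, hqq] at h2
    exact h2
  have hbot : LinearMap.range q = ⊥ := Submodule.eq_bot_of_le_smul_of_le_jacobson_bot _ _
    (Module.Finite.iff_fg.1 (Module.Finite.range q)) hle (ker_le_jacobson hn)
  refine ⟨(injective_iff_map_eq_zero h).2 fun x hx => ?_, hsurj⟩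
  have : q x = 0 := by
    rw [← Submodule.mem_bot C, ← hbot]
    exact ⟨x, rfl⟩
  simpa [q, hx] using this

include hs hn in
/-- Invertible modules lift. -/
theorem exists_invertible_lift (M' : Type u) [AddCommGroup M'] [Module C M'] [Module C' M']
    [IsScalarTower C C' M'] [Module.Invertible C' M'] :
    ∃ (M : Type u) (_ : AddCommGroup M) (_ : Module C M), Module.Invertible C M ∧
      ∃ g : M →ₗ[C] M', IsBaseChange C' g := by
  obtain ⟨M, _, _, hMf, hMp, g, hg⟩ := exists_projective_lift hs hn M'
  obtain ⟨N, _, _, hNf, hNp, g', hg'⟩ := exists_projective_lift hs hn (Module.Dual C' M')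
  let eT : C' ⊗[C] (N ⊗[C] M) ≃ₗ[C'] C' :=
    ((TensorProduct.AlgebraTensorModule.distribBaseChange C C' N M).trans
      (TensorProduct.congr hg'.equiv hg.equiv)).trans (Module.Invertible.linearEquiv C' M')
  obtain ⟨e, he⟩ := Module.projective_lifting_property (Algebra.linearMap C C')
    ((eT.toLinearMap.restrictScalars C) ∘ₗ TensorProduct.mk C C' (N ⊗[C] M) 1) hs
  have hcomp : e.baseChange C' =
      ((TensorProduct.AlgebraTensorModule.rid C C' C').symm.toLinearMap ∘ₗ eT.toLinearMap) := by
    refine TensorProduct.AlgebraTensorModule.ext fun a x => ?_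
    have h1 : algebraMap C C' (e x) = eT (1 ⊗ₜ x) := LinearMap.congr_fun he x
    have h2 : a ⊗ₜ[C] x = a • ((1 : C') ⊗ₜ[C] x) := by
      rw [TensorProduct.smul_tmul', smul_eq_mul, mul_one]
    rw [LinearMap.baseChange_tmul, LinearMap.comp_apply, LinearEquiv.coe_coe, LinearEquiv.coe_coe,
      LinearEquiv.eq_symm_apply, TensorProduct.AlgebraTensorModule.rid_tmul, h2, map_smul, ← h1,
      Algebra.smul_def, smul_eq_mul, mul_comm]
  have hb := bijective_of_baseChange hs hn e (by
    rw [hcomp]
    exact (eT.trans (TensorProduct.AlgebraTensorModule.rid C C' C').symm).bijective)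
  exact ⟨M, inferInstance, inferInstance,
    Module.Invertible.right (LinearEquiv.ofBijective e hb), g, hg⟩

end NilLift

section Bundle

variable {S S' : Type u} [CommRing S] [CommRing S'] (T : TwoChart S) (T' : TwoChart S') [T.Over T']

/-- Bundles lift along maps of two-chart spaces which are surjective with nil kernels. -/
theorem exists_pullback_iso
    (hP : Function.Surjective (algebraMap T.P T'.P))
    (hP' : ∀ x ∈ RingHom.ker (algebraMap T.P T'.P), IsNilpotent x)
    (hQ : Function.Surjective (algebraMap T.Q T'.Q))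
    (hQ' : ∀ x ∈ RingHom.ker (algebraMap T.Q T'.Q), IsNilpotent x)
    (hL : Function.Surjective (algebraMap T.L T'.L))
    (hL' : ∀ x ∈ RingHom.ker (algebraMap T.L T'.L), IsNilpotent x)
    (B' : Bundle T') : ∃ B : Bundle T, Nonempty (Bundle.Iso (B.pullback T') B') := by
  let : Module T.P B'.MP := Module.compHom _ (algebraMap T.P T'.P)
  have : IsScalarTower T.P T'.P B'.MP := IsScalarTower.of_algebraMap_smul fun _ _ => rfl
  let : Module T.Q B'.MQ := Module.compHom _ (algebraMap T.Q T'.Q)
  have : IsScalarTower T.Q T'.Q B'.MQ := IsScalarTower.of_algebraMap_smul fun _ _ => rfl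
  obtain ⟨MP, _, _, hMP, gP, hgP⟩ := NilLift.exists_invertible_lift hP hP' B'.MP
  obtain ⟨MQ, _, _, hMQ, gQ, hgQ⟩ := NilLift.exists_invertible_lift hQ hQ' B'.MQ
  let : Algebra T.P T'.L := ((algebraMap T.L T'.L).comp (algebraMap T.P T.L)).toAlgebra
  have : IsScalarTower T.P T.L T'.L := IsScalarTower.of_algebraMap_eq fun _ => rfl
  have : IsScalarTower T.P T'.P T'.L := IsScalarTower.of_algebraMap_eq fun p =>
    TwoChart.Over.commP p
  let : Algebra T.Q T'.L := ((algebraMap T.L T'.L).comp (algebraMap T.Q T.L)).toAlgebra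
  have : IsScalarTower T.Q T.L T'.L := IsScalarTower.of_algebraMap_eq fun _ => rfl
  have : IsScalarTower T.Q T'.Q T'.L := IsScalarTower.of_algebraMap_eq fun p =>
    TwoChart.Over.commQ p
  let : Module T.P B'.ML := Module.compHom _ (algebraMap T.P T'.L)
  let : Module T.Q B'.ML := Module.compHom _ (algebraMap T.Q T'.L)
  have : IsScalarTower T.P T'.L B'.ML := IsScalarTower.of_algebraMap_smul fun _ _ => rfl
  have : IsScalarTower T.Q T'.L B'.ML := IsScalarTower.of_algebraMap_smul fun _ _ => rfl
  have : IsScalarTower T.P T'.P B'.ML := IsScalarTower.of_algebraMap_smul fun p x => by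
    rw [← algebraMap_smul T'.L (algebraMap T.P T'.P p) x, ← IsScalarTower.algebraMap_apply,
      algebraMap_smul]
  have : IsScalarTower T.Q T'.Q B'.ML := IsScalarTower.of_algebraMap_smul fun p x => by
    rw [← algebraMap_smul T'.L (algebraMap T.Q T'.Q p) x, ← IsScalarTower.algebraMap_apply,
      algebraMap_smul]
  have hipP : IsBaseChange T'.L ((B'.ip.restrictScalars T.P) ∘ₗ gP) :=
    IsBaseChange.comp hgP B'.baseP
  have hiqQ : IsBaseChange T'.L ((B'.iq.restrictScalars T.Q) ∘ₗ gQ) :=
    IsBaseChange.comp hgQ B'.baseQ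
  let eP' : T'.L ⊗[T.L] (T.L ⊗[T.P] MP) ≃ₗ[T'.L] B'.ML :=
    (TensorProduct.AlgebraTensorModule.cancelBaseChange T.P T.L T'.L T'.L MP).trans hipP.equiv
  let eQ' : T'.L ⊗[T.L] (T.L ⊗[T.Q] MQ) ≃ₗ[T'.L] B'.ML :=
    (TensorProduct.AlgebraTensorModule.cancelBaseChange T.Q T.L T'.L T'.L MQ).trans hiqQ.equiv
  obtain ⟨e, he⟩ := Module.projective_lifting_property
    (TensorProduct.mk T.L T'.L (T.L ⊗[T.P] MP) 1)
    (((eQ'.trans eP'.symm).toLinearMap.restrictScalars T.L) ∘ₗ
      TensorProduct.mk T.L T'.L (T.L ⊗[T.Q] MQ) 1)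
    (TensorProduct.mk_surjective T.L _ T'.L hL)
  have hb : Function.Bijective e := by
    refine Module.Invertible.bijective_of_surjective (NilLift.surjective_of_baseChange hL hL' e ?_)
    intro y
    refine ⟨(eQ'.trans eP'.symm).symm y, ?_⟩
    have : e.baseChange T'.L = (eQ'.trans eP'.symm).toLinearMap := by
      refine TensorProduct.AlgebraTensorModule.ext fun a x => ?_
      have h1 : (1 : T'.L) ⊗ₜ[T.L] e x = (eQ'.trans eP'.symm) (1 ⊗ₜ x) := LinearMap.congr_fun he x
      have h2 : ∀ (X : Type u) [AddCommGroup X] [Module T.L X] (z : X),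
          a ⊗ₜ[T.L] z = a • ((1 : T'.L) ⊗ₜ[T.L] z) := fun X _ _ z => by
        rw [TensorProduct.smul_tmul', smul_eq_mul, mul_one]
      rw [LinearMap.baseChange_tmul, LinearEquiv.coe_coe, h2, h1, h2 _ x, map_smul]
    rw [this]
    exact LinearEquiv.apply_symm_apply _ _
  let : Module S MP := Module.compHom _ (algebraMap S T.P)
  let : Module S MQ := Module.compHom _ (algebraMap S T.Q)
  have : IsScalarTower S T.P MP := IsScalarTower.of_algebraMap_smul fun _ _ => rfl
  have : IsScalarTower S T.Q MQ := IsScalarTower.of_algebraMap_smul fun _ _ => rfl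
  have : SMulCommClass T.P T.Q T.L := ⟨fun a b c => by simp only [Algebra.smul_def]; ring⟩
  let B : Bundle T :=
    { MP := MP
      MQ := MQ
      ML := T.L ⊗[T.P] MP
      ip := TensorProduct.mk T.P T.L MP 1
      iq := (e.restrictScalars T.Q) ∘ₗ TensorProduct.mk T.Q T.L MQ 1
      baseP := TensorProduct.isBaseChange _ _ _
      baseQ := IsBaseChange.of_equiv (LinearEquiv.ofBijective e hb) fun _ => rfl }
  refine ⟨B, ⟨Bundle.Iso.ofPullback (C := B') hgP.equiv hgQ.equiv eP' (fun m => ?_) fun m => ?_⟩⟩
  · change eP' (1 ⊗ₜ ((1 : T.L) ⊗ₜ m)) = _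
    simp [eP', IsBaseChange.equiv_tmul]
  · change eP' (1 ⊗ₜ e (1 ⊗ₜ m)) = _
    rw [show eP' (1 ⊗ₜ e (1 ⊗ₜ m)) = eQ' (1 ⊗ₜ (1 ⊗ₜ m)) from
      (congrArg eP' (LinearMap.congr_fun he (1 ⊗ₜ m))).trans
        (eP'.apply_symm_apply (eQ' (1 ⊗ₜ (1 ⊗ₜ m))))]
    simp [eQ', IsBaseChange.equiv_tmul]

end Bundle

section BaseChangeLift

variable {k : Type u} [CommRing k] {R R' : Type u} [CommRing R] [Algebra k R] [CommRing R']
  [Algebra k R']

theorem isNilpotent_of_mem_ker_map {A : Type u} [CommRing A] [Algebra k A] (φ : R →ₐ[k] R')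
    (hs : Function.Surjective φ) (hn : ∀ r, φ r = 0 → IsNilpotent r) (x : R ⊗[k] A)
    (hx : Algebra.TensorProduct.map φ (AlgHom.id k A) x = 0) : IsNilpotent x := by
  have hmem : x ∈ RingHom.ker (Algebra.TensorProduct.map φ (AlgHom.id k A)) := hx
  rw [Algebra.TensorProduct.rTensor_ker _ hs] at hmem
  refine mem_nilradical.1 ((Ideal.map_le_iff_le_comap.2 fun r hr => ?_) hmem)
  exact mem_nilradical.2 ((hn r hr).map _)

/-- Classes lift along surjections with nil kernel. -/
theorem bcCls_surjective {T : TwoChart k} (φ : R →ₐ[k] R') (hs : Function.Surjective φ)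
    (hn : ∀ r, φ r = 0 → IsNilpotent r) :
    Function.Surjective (Bundle.bcCls (T := T) φ) := by
  intro c
  let := T.overBC φ
  obtain ⟨B', rfl⟩ := Bundle.exists_cls_eq c
  have hsurj : ∀ (A : Type u) [CommRing A] [Algebra k A],
      Function.Surjective (Algebra.TensorProduct.map φ (AlgHom.id k A)) := fun A _ _ =>
    TensorProduct.map_surjective hs Function.surjective_id
  obtain ⟨B, ⟨e⟩⟩ := exists_pullback_iso (T.baseChange R) (T.baseChange R') (hsurj T.P)
    (isNilpotent_of_mem_ker_map φ hs hn) (hsurj T.Q) (isNilpotent_of_mem_ker_map φ hs hn)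
    (hsurj T.L) (isNilpotent_of_mem_ker_map φ hs hn) B'
  exact ⟨B.cls, Bundle.cls_eq_iff.2 ⟨e⟩⟩

end BaseChangeLift

end Fermat.Agent.RelJac
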