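import Fermat.Agent.RelJac.CurveModel
import Fermat.Agent.RelJac.EffectiveDegree
import Fermat.Agent.RelJac.Lift
import Fermat.Agent.RelJac.Normalise

/-!
Normalised classes of degree zero over an algebra, as a functor to groups.
-/

open scoped TensorProduct
open AlgebraicGeometry CategoryTheory NeronModelInfra

namespace Fermat.Agent.RelJac

universe u

variable {k : Type u} [Field k]

variable [IsAlgClosed k] {C : Scheme.{u}} {c : C ⟶ Spec (CommRingCat.of k)}
  {ε : SchemeHomOver (𝟙 (Spec (CommRingCat.of k))) c} (D : CurveModel c ε)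

namespace CurveModel

variable (R : Type u) [CommRing R] [Algebra k R] {R' : Type u} [CommRing R'] [Algebra k R']

/-- Normalised classes of degree zero. -/
noncomputable def pic0 : Subgroup (Bundle.Cls (D.T.baseChange R)) where
  carrier := {x | Bundle.rig D.e x = 1 ∧ Bundle.IsDegZero x}
  one_mem' := ⟨map_one _, Bundle.isDegZero_one⟩
  mul_mem' {a b} ha hb := ⟨by rw [map_mul, ha.1, hb.1, mul_one], ha.2.mul hb.2⟩
  inv_mem' {a} ha := ⟨by rw [map_inv, ha.1, inv_one], ha.2.inv⟩

variable {R}

theorem bcCls_mem_pic0 (φ : R →ₐ[k] R') {x : Bundle.Cls (D.T.baseChange R)} (hx : x ∈ D.pic0 R) :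
    Bundle.bcCls φ x ∈ D.pic0 R' :=
  ⟨by rw [Bundle.rig_bcCls, hx.1, map_one], hx.2.bc φ⟩

/-- Pullback of normalised classes of degree zero. -/
noncomputable def pic0Map (φ : R →ₐ[k] R') : D.pic0 R →* D.pic0 R' where
  toFun x := ⟨Bundle.bcCls φ x.1, D.bcCls_mem_pic0 φ x.2⟩
  map_one' := Subtype.ext (map_one _)
  map_mul' _ _ := Subtype.ext (map_mul _ _ _)

/-- The functoriality of normalised degree zero classes is base change. -/
@[simp]
theorem coe_pic0Map (φ : R →ₐ[k] R') (x : D.pic0 R) :
    (D.pic0Map φ x : Bundle.Cls (D.T.baseChange R')) = Bundle.bcCls φ x.1 := rfl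

end CurveModel

end Fermat.Agent.RelJac
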