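import Fermat.Agent.RelJac.Pic0
import Fermat.Agent.RelJac.Bridge.Model
import Fermat.Agent.RelJac.Assembly.Smooth

/-!
A scheme whose affine points are the normalised classes of degree zero: smoothness and the group
operations on affine points.
-/

noncomputable section

universe u

open CategoryTheory CategoryTheory.Limits AlgebraicGeometry NeronModelInfra
open AlgebraicGeometry.RelPicard
open scoped TensorProduct

namespace Fermat.Agent.RelJac

open Sheaf (specOver)

namespace CurveModel

variable {k : Type u} [Field k] [IsAlgClosed k] {C : Scheme.{u}}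
  {c : C ⟶ Spec (CommRingCat.of k)} {ε : SchemeHomOver (𝟙 (Spec (CommRingCat.of k))) c}

/-- A scheme locally of finite type whose affine points are the normalised classes of degree zero. -/
structure Pic0Model (D : CurveModel c ε) where
  P : Scheme.{u}
  f : P ⟶ Spec (CommRingCat.of k)
  [locallyOfFiniteType : LocallyOfFiniteType f]
  pts : ∀ (R : Type u) [CommRing R] [Algebra k R],
    SchemeHomOver (specOver (k := k) R) f ≃ D.pic0 R
  natural : ∀ {R R' : Type u} [CommRing R] [Algebra k R] [CommRing R'] [Algebra k R']
    (φ : R →ₐ[k] R') (x : SchemeHomOver (specOver (k := k) R) f),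
    pts R' (postComp x (specHom φ)) = D.pic0Map φ (pts R x)

attribute [instance] Pic0Model.locallyOfFiniteType

/-- Normalised classes of degree zero lift along nilpotent thickenings. -/
theorem exists_pic0_lift (D : CurveModel c ε) {R : Type u} [CommRing R] [Algebra k R] (I : Ideal R)
    (hI : I ^ 2 = ⊥) (x : D.pic0 (R ⧸ I)) :
    ∃ y : D.pic0 R, D.pic0Map (Ideal.Quotient.mkₐ k I) y = x := by
  have hnil : ∀ r ∈ I, r ^ 2 = 0 := fun r hr =>
    (Ideal.mem_bot (R := R)).1 (hI ▸ Ideal.pow_mem_pow hr 2)
  obtain ⟨z, hz⟩ := bcCls_surjective (T := D.T) (Ideal.Quotient.mkₐ k I)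
    Ideal.Quotient.mk_surjective (fun r hr => ⟨2, hnil r (Ideal.Quotient.eq_zero_iff_mem.1 hr)⟩) x.1
  have hdeg : Bundle.IsDegZero z := by
    intro L _ _ ψ
    have hψ : ∀ r ∈ I, ψ r = 0 := fun r hr =>
      (pow_eq_zero_iff (n := 2) two_ne_zero).1 (by rw [← map_pow, hnil r hr, map_zero])
    rw [← Ideal.Quotient.liftₐ_comp I ψ hψ, ← Bundle.bcCls_comp, hz]
    exact x.2.2 L _
  refine ⟨⟨Bundle.normalise D.e z, Bundle.rig_normalise D.e z, hdeg.normalise D.e⟩,
    Subtype.ext ?_⟩
  rw [coe_pic0Map, Bundle.bcCls_normalise, hz, Bundle.normalise_eq_self D.e x.2.1]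

namespace Pic0Model

variable {D : CurveModel c ε} (J : Pic0Model D)

/-- The points of the model are natural in the algebra. -/
theorem symm_natural {R R' : Type u} [CommRing R] [Algebra k R] [CommRing R'] [Algebra k R']
    (φ : R →ₐ[k] R') (z : D.pic0 R) :
    postComp ((J.pts R).symm z) (specHom φ) = (J.pts R').symm (D.pic0Map φ z) := by
  rw [Equiv.eq_symm_apply, J.natural, Equiv.apply_symm_apply]

/-- The model is smooth. -/
theorem smooth : Smooth J.f := by
  refine smooth_of_lifting J.f fun R _ _ I hI x => ?_
  obtain ⟨z, hz⟩ := D.exists_pic0_lift I hI (J.pts (R ⧸ I) x)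
  refine ⟨(J.pts R).symm z, ?_⟩
  have h := J.symm_natural (Ideal.Quotient.mkₐ k I) z
  rw [hz, Equiv.symm_apply_apply] at h
  exact congrArg Subtype.val h

/-- Multiplication of affine points. -/
def mulPts (R : Type u) [CommRing R] [Algebra k R]
    (x y : SchemeHomOver (specOver (k := k) R) J.f) : SchemeHomOver (specOver (k := k) R) J.f :=
  (J.pts R).symm (J.pts R x * J.pts R y)

/-- The neutral affine point. -/
def onePts (R : Type u) [CommRing R] [Algebra k R] : SchemeHomOver (specOver (k := k) R) J.f :=
  (J.pts R).symm 1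

/-- Inversion of affine points. -/
def invPts (R : Type u) [CommRing R] [Algebra k R]
    (x : SchemeHomOver (specOver (k := k) R) J.f) : SchemeHomOver (specOver (k := k) R) J.f :=
  (J.pts R).symm (J.pts R x)⁻¹

/-- Multiplication of points is natural. -/
theorem mulPts_natural {R R' : Type u} [CommRing R] [Algebra k R] [CommRing R'] [Algebra k R']
    (φ : R →ₐ[k] R') (x y : SchemeHomOver (specOver (k := k) R) J.f) :
    postComp (J.mulPts R x y) (specHom φ) =
      J.mulPts R' (postComp x (specHom φ)) (postComp y (specHom φ)) := by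
  rw [mulPts, mulPts, symm_natural, map_mul, J.natural, J.natural]

/-- Multiplication of points is associative. -/
theorem mulPts_assoc {R : Type u} [CommRing R] [Algebra k R]
    (x y z : SchemeHomOver (specOver (k := k) R) J.f) :
    J.mulPts R (J.mulPts R x y) z = J.mulPts R x (J.mulPts R y z) := by
  simp only [mulPts, Equiv.apply_symm_apply, mul_assoc]

/-- The unit point is neutral. -/
theorem onePts_mul {R : Type u} [CommRing R] [Algebra k R]
    (x : SchemeHomOver (specOver (k := k) R) J.f) : J.mulPts R (J.onePts R) x = x := by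
  simp only [mulPts, onePts, Equiv.apply_symm_apply, one_mul, Equiv.symm_apply_apply]

/-- Inversion of points gives inverses. -/
theorem invPts_mul {R : Type u} [CommRing R] [Algebra k R]
    (x : SchemeHomOver (specOver (k := k) R) J.f) :
    J.mulPts R (J.invPts R x) x = J.onePts R := by
  simp only [mulPts, invPts, onePts, Equiv.apply_symm_apply, inv_mul_cancel]

end Pic0Model

end CurveModel

end Fermat.Agent.RelJac
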