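import Fermat.Agent.RelJac.PicScheme
import Fermat.Agent.RelJac.DegreeOfModules
import Fermat.Agent.RelJac.Assembly.Representable
import Mathlib.AlgebraicGeometry.Morphisms.FiniteType

/-!
The model from a sheaf of normalised classes of degree zero and charts for it.
-/

noncomputable section

universe u

open CategoryTheory CategoryTheory.Limits AlgebraicGeometry NeronModelInfra Opposite
open AlgebraicGeometry.RelPicard

namespace Fermat.Agent.RelJac

open Sheaf (specOver)

namespace CurveModel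

variable {k : Type u} [Field k] [IsAlgClosed k] {C : Scheme.{u}}
  {c : C ⟶ Spec (CommRingCat.of k)} {ε : SchemeHomOver (𝟙 (Spec (CommRingCat.of k))) c}

/-- A small Zariski sheaf extending the normalised classes of degree zero to all schemes. -/
structure PicFunctor (D : CurveModel c ε) where
  F : Scheme.{u}ᵒᵖ ⥤ Type u
  sheaf : Presieve.IsSheaf Scheme.zariskiTopology F
  str : ∀ {T : Scheme.{u}}, F.obj (op T) → (T ⟶ Spec (CommRingCat.of k))
  str_map : ∀ {T T' : Scheme.{u}} (g : T' ⟶ T) (η : F.obj (op T)), str (F.map g.op η) = g ≫ str η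
  el : ∀ (R : Type u) [CommRing R] [Algebra k R], D.pic0 R → F.obj (op (Spec (CommRingCat.of R)))
  str_el : ∀ (R : Type u) [CommRing R] [Algebra k R] (x : D.pic0 R),
    str (el R x) = specOver (k := k) R
  el_injective : ∀ (R : Type u) [CommRing R] [Algebra k R], Function.Injective (el R)
  exists_el : ∀ (R : Type u) [CommRing R] [Algebra k R] (η : F.obj (op (Spec (CommRingCat.of R)))),
    str η = specOver (k := k) R → ∃ x, el R x = η
  el_map : ∀ {R R' : Type u} [CommRing R] [Algebra k R] [CommRing R'] [Algebra k R']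
    (φ : R →ₐ[k] R') (x : D.pic0 R), el R' (D.pic0Map φ x) = F.map (specHom φ).1.op (el R x)

/-- Charts for the functor of normalised classes of degree zero. -/
structure Pic0Charts (D : CurveModel c ε) where
  ι : Type u
  H : ι → Type u
  [commRing : ∀ i, CommRing (H i)]
  [algebra : ∀ i, Algebra k (H i)]
  finiteType : ∀ i, Algebra.FiniteType k (H i)
  cls : ∀ i, D.pic0 (H i)
  mono : ∀ (i : ι) (R : Type u) [CommRing R] [Algebra k R] (ψ ψ' : H i →ₐ[k] R),
    D.pic0Map ψ (cls i) = D.pic0Map ψ' (cls i) → ψ = ψ'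
  locus : ∀ (i : ι) (R : Type u) [CommRing R] [Algebra k R] (x : D.pic0 R),
    ∃ U : TopologicalSpace.Opens (PrimeSpectrum R),
      ∀ (R' : Type u) [CommRing R'] [Algebra k R'] (φ : R →ₐ[k] R'),
        Set.range (PrimeSpectrum.comap φ.toRingHom) ⊆ (U : Set (PrimeSpectrum R)) ↔
          ∃ ψ : H i →ₐ[k] R', D.pic0Map ψ (cls i) = D.pic0Map φ x
  cover : ∀ (K : Type u) [Field K] [Algebra k K] (x : D.pic0 K),
    ∃ (i : ι) (ψ : H i →ₐ[k] K), D.pic0Map ψ (cls i) = x

attribute [instance] Pic0Charts.commRing Pic0Charts.algebra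

variable {D : CurveModel c ε}

namespace PicFunctor

variable (Φ : PicFunctor D)

theorem exists_algHom_of_str {R R' : Type u} [CommRing R] [Algebra k R] [CommRing R'] [Algebra k R']
    {η : Φ.F.obj (op (Spec (CommRingCat.of R)))} (hη : Φ.str η = specOver (k := k) R)
    (g : Spec (CommRingCat.of R') ⟶ Spec (CommRingCat.of R))
    (hg : Φ.str (Φ.F.map g.op η) = specOver (k := k) R') :
    ∃ ψ : R →ₐ[k] R', g = (specHom ψ).1 := by
  obtain ⟨ψ, hψ⟩ := exists_specHom (k := k) (R := R) (R' := R')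
    ⟨g, by rw [← hη, ← Φ.str_map, hg]⟩
  exact ⟨ψ, congrArg Subtype.val hψ⟩

/-- A model with a universal element. -/
structure Representation where
  J : Pic0Model D
  repr : Φ.F.RepresentableBy J.P
  str_univ : Φ.str (repr.homEquiv (𝟙 J.P)) = J.f
  el_pts : ∀ (R : Type u) [CommRing R] [Algebra k R] (x : SchemeHomOver (specOver (k := k) R) J.f),
    Φ.el R (J.pts R x) = repr.homEquiv x.1

/-- A representation is determined by the universal element. -/
theorem homEquiv_eq_map {P : Scheme.{u}} (hP : Φ.F.RepresentableBy P) {T : Scheme.{u}} (g : T ⟶ P) :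
    hP.homEquiv g = Φ.F.map g.op (hP.homEquiv (𝟙 P)) := by
  simpa using hP.homEquiv_comp g (𝟙 P)

/-- Charts give a representation. -/
theorem exists_representation (Ch : Pic0Charts D) : Nonempty (Representation Φ) := by
  let X : Ch.ι → Scheme.{u} := fun i => Spec (CommRingCat.of (Ch.H i))
  let ξ : ∀ i, Φ.F.obj (op (X i)) := fun i => Φ.el (Ch.H i) (Ch.cls i)
  have key : ∀ i (R : Type u) [CommRing R] [Algebra k R] (η : Φ.F.obj (op (Spec (CommRingCat.of R))))
      (a : Spec (CommRingCat.of R) ⟶ X i), Φ.str η = specOver (k := k) R →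
      Φ.F.map a.op (ξ i) = η → ∃ ψ : Ch.H i →ₐ[k] R, a = (specHom ψ).1 ∧
        Φ.el R (D.pic0Map ψ (Ch.cls i)) = η := by
    intro i R _ _ η a hη ha
    obtain ⟨ψ, rfl⟩ := Φ.exists_algHom_of_str (Φ.str_el _ _) a (by rw [ha, hη])
    exact ⟨ψ, rfl, (Φ.el_map ψ _).trans ha⟩
  obtain ⟨P, hP, j, hj, hjξ, hcov⟩ := exists_representableBy_of_affine_data Φ.sheaf X ξ
    (fun i R a b hab => by
      obtain ⟨aR, haR⟩ := exists_algebra_specOver (R := R) (Φ.str (Φ.F.map a.op (ξ i)))
      obtain ⟨ψ, hψ, e⟩ := @key i R _ aR _ a haR.symm rfl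
      obtain ⟨ψ', hψ', e'⟩ := @key i R _ aR _ b haR.symm hab.symm
      rw [hψ, hψ', @Pic0Charts.mono k _ _ C c ε D Ch i R _ aR ψ ψ'
        (@PicFunctor.el_injective k _ _ C c ε D Φ R _ aR _ _ (e.trans e'.symm))])
    (fun i R η => by
      obtain ⟨aR, haR⟩ := exists_algebra_specOver (R := R) (Φ.str η)
      obtain ⟨x, rfl⟩ := @PicFunctor.exists_el k _ _ C c ε D Φ R _ aR η haR.symm
      obtain ⟨U, hU⟩ := @Pic0Charts.locus k _ _ C c ε D Ch i R _ aR x
      refine ⟨U, fun R' φ => ?_⟩
      obtain ⟨aR', haR'⟩ := exists_algebra_specOver (R := R') (φ ≫ Φ.str (@PicFunctor.el k _ _ C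
          c ε D Φ R _ aR x))
      have hstr : Φ.str (Φ.F.map φ.op (@PicFunctor.el k _ _ C c ε D Φ R _ aR x)) =
          @specOver k _ R' _ aR' := by rw [Φ.str_map, haR']
      obtain ⟨f, hf⟩ := @exists_algHom_of_str k _ _ C c ε D Φ R R' _ aR _ aR' _
        (@PicFunctor.str_el k _ _ C c ε D Φ R _ aR x) φ hstr
      subst hf
      refine (hU R' f).trans ⟨fun ⟨ψ, hψ⟩ => ⟨(specHom ψ).1, ?_⟩, fun ⟨a, ha⟩ => ?_⟩
      · rw [← Φ.el_map ψ, hψ, Φ.el_map f]
      · obtain ⟨ψ, -, e⟩ := @key i R' _ aR' _ a hstr ha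
        refine ⟨ψ, @PicFunctor.el_injective k _ _ C c ε D Φ R' _ aR' _ _ ?_⟩
        rw [e, Φ.el_map f])
    (fun K _ η => by
      obtain ⟨aK, haK⟩ := exists_algebra_specOver (R := K) (Φ.str η)
      obtain ⟨x, rfl⟩ := @PicFunctor.exists_el k _ _ C c ε D Φ K _ aK η haK.symm
      obtain ⟨i, ψ, hψ⟩ := @Pic0Charts.cover k _ _ C c ε D Ch K _ aK x
      exact ⟨i, (specHom ψ).1, by rw [← Φ.el_map ψ, hψ]⟩)
  let f : P ⟶ Spec (CommRingCat.of k) := Φ.str (hP.homEquiv (𝟙 P))
  have hjf : ∀ i, j i ≫ f = specOver (k := k) (Ch.H i) := fun i => by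
    rw [← Φ.str_map, hjξ, Φ.str_el]
  have hlft : LocallyOfFiniteType f := by
    let 𝒰 : P.OpenCover :=
      { I₀ := Ch.ι
        X := X
        f := j
        mem₀ := by
          rw [Scheme.presieve₀_mem_precoverage_iff]
          exact ⟨fun p => hcov p, fun i => hj i⟩ }
    have : IsZariskiLocalAtSource @LocallyOfFiniteType.{u} :=
      HasRingHomProperty.instIsZariskiLocalAtSource (Q := RingHom.FiniteType)
    refine (IsZariskiLocalAtSource.iff_of_openCover (P := @LocallyOfFiniteType.{u}) 𝒰).2 fun i => ?_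
    change LocallyOfFiniteType (j i ≫ f)
    rw [hjf]
    exact (HasRingHomProperty.Spec_iff (P := @LocallyOfFiniteType)).2
      (RingHom.finiteType_algebraMap.2 (Ch.finiteType i))
  have hstr : ∀ {T : Scheme.{u}} (g : T ⟶ P), Φ.str (hP.homEquiv g) = g ≫ f := fun g => by
    rw [Φ.homEquiv_eq_map hP g, Φ.str_map]
  let pts : ∀ (R : Type u) [CommRing R] [Algebra k R],
      SchemeHomOver (specOver (k := k) R) f ≃ D.pic0 R := fun R _ _ =>
    Equiv.symm <| Equiv.ofBijective
      (fun x => (⟨hP.homEquiv.symm (Φ.el R x), by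
        rw [← hstr, Equiv.apply_symm_apply, Φ.str_el]⟩ : SchemeHomOver (specOver (k := k) R) f))
      ⟨fun a b h => Φ.el_injective R (hP.homEquiv.symm.injective (congrArg Subtype.val h)),
        fun g => by
          obtain ⟨x, hx⟩ := Φ.exists_el R (hP.homEquiv g.1) ((hstr g.1).trans g.2)
          exact ⟨x, Subtype.ext (by simp [hx])⟩⟩
  have hel : ∀ (R : Type u) [CommRing R] [Algebra k R] (x : SchemeHomOver (specOver (k := k) R) f),
      Φ.el R (pts R x) = hP.homEquiv x.1 := fun R _ _ x => by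
    obtain ⟨z, rfl⟩ := (pts R).symm.surjective x
    rw [Equiv.apply_symm_apply]
    exact (hP.homEquiv.apply_symm_apply _).symm
  exact ⟨{
    J :=
      { P := P
        f := f
        locallyOfFiniteType := hlft
        pts := pts
        natural := fun {R R'} _ _ _ _ φ x => Φ.el_injective R' (by
          rw [Φ.el_map φ, hel, hel, ← hP.homEquiv_comp]
          rfl) }
    repr := hP
    str_univ := rfl
    el_pts := hel }⟩

end PicFunctor

end CurveModel

end Fermat.Agent.RelJac
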