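import Fermat.Agent.RelJac.IdealBundle
import Fermat.Agent.RelJac.Twist
import Mathlib.RingTheory.Ideal.Colon

/-!
A section of a line bundle as a morphism from the inverse bundle to the trivial one, and the ideal
of its zero locus on the overlap.
-/

open scoped TensorProduct

namespace Fermat.Agent.RelJac

universe u

open CurveLike (x y)

namespace Pairing

variable {A M N : Type u} [CommRing A] [AddCommGroup M] [Module A M] [AddCommGroup N] [Module A N]
  (e : M ⊗[A] N ≃ₗ[A] A)

/-- The functional on `M` given by an element of `N`. -/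
noncomputable def pair (z : N) : M →ₗ[A] A :=
  e.toLinearMap ∘ₗ (TensorProduct.mk A M N).flip z

/-- The pairing map on an element. -/
@[simp]
theorem pair_apply (z : N) (m : M) : pair e z m = e (m ⊗ₜ z) := rfl

theorem pair_bijective : Function.Bijective (pair e) := by
  have : Function.Bijective fun z : N => pair e z :=
    (Module.Invertible.linearEquivDual ((TensorProduct.comm A N M).trans e)).bijective
  exact this

/-- Pairing with a generator is injective. -/
theorem pair_injective : Function.Injective (pair e) := (pair_bijective e).1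

/-- The pairing of an invertible module is symmetric up to exchange. -/
theorem pair_comm (z n : N) (m : M) : e (m ⊗ₜ z) • n = e (m ⊗ₜ n) • z := by
  refine pair_injective e (LinearMap.ext fun m' => ?_)
  have : Module.Invertible A M := Module.Invertible.left e
  let β : M ⊗[A] M →ₗ[A] A :=
    (TensorProduct.lid A A).toLinearMap ∘ₗ TensorProduct.map (pair e z) (pair e n)
  have h := congrArg β (Module.Invertible.tmul_comm (R := A) (m₁ := m) (m₂ := m'))
  simp only [β, LinearMap.comp_apply, TensorProduct.map_tmul, pair_apply, LinearEquiv.coe_coe,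
    TensorProduct.lid_tmul, smul_eq_mul] at h
  simp only [pair_apply, TensorProduct.tmul_smul, map_smul, smul_eq_mul]
  rw [h, mul_comm]

/-- The ideal of elements sending everything to multiples of `z`. -/
noncomputable def divIdeal {A N : Type u} [CommRing A] [AddCommGroup N] [Module A N] (z : N) :
    Ideal A :=
  (Submodule.span A {z}).colon (Set.univ : Set N)

/-- Membership in the ideal of multiples of an element. -/
theorem mem_divIdeal {A N : Type u} [CommRing A] [AddCommGroup N] [Module A N] {z : N} {a : A} :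
    a ∈ divIdeal z ↔ ∀ n : N, ∃ c : A, c • z = a • n := by
  simp [divIdeal, Submodule.mem_colon, Submodule.mem_span_singleton]

/-- The ideal of an element is the range of pairing with it. -/
theorem divIdeal_eq_range (z : N) : divIdeal z = LinearMap.range (pair e z) := by
  refine le_antisymm (fun a ha => ?_) ?_
  · obtain ⟨t, ht⟩ := e.surjective 1
    have key : ∀ t : M ⊗[A] N, a * e t ∈ LinearMap.range (pair e z) := by
      intro t
      induction t using TensorProduct.induction_on with
      | zero => simp
      | tmul m n =>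
        obtain ⟨c, hc⟩ := mem_divIdeal.1 ha n
        refine ⟨c • m, ?_⟩
        rw [pair_apply, ← TensorProduct.smul_tmul', ← TensorProduct.tmul_smul, hc,
          TensorProduct.tmul_smul, map_smul, smul_eq_mul]
      | add s t hs ht => rw [map_add, mul_add]; exact add_mem hs ht
    simpa [ht] using key t
  · rintro _ ⟨m, rfl⟩
    exact mem_divIdeal.2 fun n => ⟨e (m ⊗ₜ n), (pair_comm e z n m).symm⟩

end Pairing

namespace Bundle

open Pairing

variable {S : Type u} [CommRing S] {U : TwoChart S} {K B : Bundle U}
  (ε : Iso (K.tensor B) (trivial U))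

theorem pair_commP (k : K.MP) (m : B.MP) :
    algebraMap U.P U.L (ε.eP (k ⊗ₜ m)) = ε.eL (K.ip k ⊗ₜ B.ip m) := by
  rw [← glue_ip (1 : U.Lˣ)]
  exact (ε.commP (k ⊗ₜ m)).symm.trans (congrArg ε.eL (tensor_ip_tmul K B k m))

theorem pair_commQ (k : K.MQ) (m : B.MQ) :
    algebraMap U.Q U.L (ε.eQ (k ⊗ₜ m)) = ε.eL (K.iq k ⊗ₜ B.iq m) := by
  have h : (trivial U).iq (ε.eQ (k ⊗ₜ m)) = algebraMap U.Q U.L (ε.eQ (k ⊗ₜ m)) := by
    rw [glue_iq, Units.val_one, one_mul]
  exact h.symm.trans ((ε.commQ (k ⊗ₜ m)).symm.trans (congrArg ε.eL (tensor_iq_tmul K B k m)))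

/-- The zero locus ideal of a section, on the overlap. -/
noncomputable def sectIdeal (s : B.H0) : Ideal U.L := divIdeal (B.ip s.1.1)

/-- A section of `B` as a morphism from the inverse bundle. -/
noncomputable def pairHom (s : B.H0) : Hom K (trivial U) where
  fP := pair ε.eP s.1.1
  fQ := pair ε.eQ s.1.2
  fL := pair ε.eL (B.ip s.1.1)
  commP k := (pair_commP ε k s.1.1).symm.trans (glue_ip 1 _).symm
  commQ k := by
    rw [glue_iq, Units.val_one, one_mul]
    change ε.eL (K.iq k ⊗ₜ B.ip s.1.1) = algebraMap U.Q U.L (ε.eQ (k ⊗ₜ s.1.2))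
    rw [B.mem_H0.1 s.2, pair_commQ]

/-- The ideal of a section on the overlap is the image of the inverse bundle. -/
theorem sectIdeal_eq_range (s : B.H0) :
    sectIdeal s = LinearMap.range (pairHom ε s).fL :=
  divIdeal_eq_range ε.eL _

/-- Every morphism from the inverse bundle comes from a section. -/
theorem exists_pairHom_eq (σ : Hom K (trivial U)) :
    ∃ s : B.H0, (pairHom ε s).fP = σ.fP ∧ (pairHom ε s).fQ = σ.fQ ∧
      (pairHom ε s).fL = σ.fL := by
  obtain ⟨m, hm⟩ := (pair_bijective ε.eP).2 σ.fP
  obtain ⟨n, hn⟩ := (pair_bijective ε.eQ).2 σ.fQ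
  have hmL : pair ε.eL (B.ip m) = σ.fL := by
    refine K.baseP.algHom_ext _ _ fun k => ?_
    have h := σ.commP k
    rw [glue_ip, ← hm] at h
    exact (pair_commP ε k m).symm.trans h.symm
  have hnL : pair ε.eL (B.iq n) = σ.fL := by
    refine K.baseQ.algHom_ext _ _ fun k => ?_
    have h := σ.commQ k
    rw [glue_iq, Units.val_one, one_mul, ← hn] at h
    exact (pair_commQ ε k n).symm.trans h.symm
  exact ⟨⟨(m, n), B.mem_H0.2 (pair_injective ε.eL (hmL.trans hnL.symm))⟩, hm, hn, hmL⟩

/-- The ideal of a multiple is contained in the ideal of the section. -/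
theorem sectIdeal_smul_le (s : B.H0) (r : S) : sectIdeal (r • s) ≤ sectIdeal s := by
  intro a ha
  rw [sectIdeal, mem_divIdeal] at ha ⊢
  intro n
  obtain ⟨c, hc⟩ := ha n
  refine ⟨r • c, ?_⟩
  rw [← hc, Submodule.coe_smul, Prod.smul_fst, LinearMap.map_smul_of_tower, smul_assoc, smul_comm]

/-- The first chart ideal of a section. -/
noncomputable def sectIdealP (s : B.H0) : Ideal U.P := divIdeal s.1.1

/-- The second chart ideal of a section. -/
noncomputable def sectIdealQ (s : B.H0) : Ideal U.Q := divIdeal s.1.2

/-- The ideal of a section on the first chart is the image of the inverse bundle. -/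
theorem sectIdealP_eq_range (s : B.H0) :
    sectIdealP s = LinearMap.range (pairHom ε s).fP :=
  divIdeal_eq_range ε.eP _

/-- The ideal of a section on the second chart is the image of the inverse bundle. -/
theorem sectIdealQ_eq_range (s : B.H0) :
    sectIdealQ s = LinearMap.range (pairHom ε s).fQ :=
  divIdeal_eq_range ε.eQ _

variable [CurveLike U]

omit [CurveLike U] in
theorem range_eq_comap {A L : Type u} [CommRing A] [CommRing L] [Algebra A L] {t t' : A}
    (ht : algebraMap A L t = algebraMap A L t') {M N : Type u} [AddCommGroup M] [Module A M]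
    [AddCommGroup N] [Module A N] [Module L N] [IsScalarTower A L N] [IsLocalization.Away t L]
    (hinj : Function.Injective (algebraMap A L)) (i : M →ₗ[A] N) (hi : IsBaseChange L i)
    (f : M →ₗ[A] A) (F : N →ₗ[L] L) (hf : ∀ m, F (i m) = algebraMap A L (f m))
    (hcop : LinearMap.range f ⊔ Ideal.span {t'} = ⊤) :
    LinearMap.range f = Ideal.comap (algebraMap A L) (LinearMap.range F) := by
  refine le_antisymm ?_ fun p hp => ?_
  · rintro _ ⟨m, rfl⟩
    exact ⟨i m, hf m⟩
  · obtain ⟨n, hn⟩ := hp
    have hl := (isLocalizedModule_iff_isBaseChange (Submonoid.powers t) L i).2 hi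
    obtain ⟨⟨m, ⟨_, j, rfl⟩⟩, hm⟩ := IsLocalizedModule.surj (Submonoid.powers t) i n
    have h1 : t' ^ j * p ∈ LinearMap.range f := ⟨m, hinj (by
      rw [← hf, map_mul, map_pow, ← ht, ← map_pow, ← hn]
      rw [show i m = t ^ j • n from hm.symm, ← algebraMap_smul L (t ^ j), map_smul, smul_eq_mul])⟩
    have hcop' : LinearMap.range f ⊔ Ideal.span {t' ^ j} = ⊤ := by
      rw [← Ideal.span_singleton_pow]
      exact Ideal.sup_pow_eq_top hcop
    obtain ⟨a, ha, w, hw, e⟩ := Submodule.mem_sup.1 ((Ideal.eq_top_iff_one _).1 hcop')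
    obtain ⟨c, rfl⟩ := Ideal.mem_span_singleton'.1 hw
    rw [← mul_one p, ← e, mul_add, show p * (c * t' ^ j) = c * (t' ^ j * p) by ring]
    exact add_mem (Ideal.mul_mem_left _ p ha) (Ideal.mul_mem_left _ c h1)

/-- A zero locus avoiding `x = 0` is determined on the overlap. -/
theorem sectIdealP_eq_comap (s : B.H0) (h : sectIdealP s ⊔ Ideal.span {x (T := U)} = ⊤)
    (ε : Iso (K.tensor B) (trivial U)) : sectIdealP s = comapP U (sectIdeal s) := by
  rw [sectIdealP_eq_range ε] at h
  rw [sectIdealP_eq_range ε, comapP, sectIdeal_eq_range ε]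
  exact range_eq_comap (t := x (T := U)) rfl (CurveLike.algebraMapP_injective U) K.ip K.baseP
    _ _ (fun k => ((pairHom ε s).commP k).trans (glue_ip 1 _)) h

/-- A zero locus avoiding `x = ∞` is determined on the overlap. -/
theorem sectIdealQ_eq_comap (s : B.H0) (h : sectIdealQ s ⊔ Ideal.span {y (T := U)} = ⊤)
    (ε : Iso (K.tensor B) (trivial U)) : sectIdealQ s = comapQ U (sectIdeal s) := by
  rw [sectIdealQ_eq_range ε] at h
  rw [sectIdealQ_eq_range ε, comapQ, sectIdeal_eq_range ε]
  exact range_eq_comap (t := y (T := U)) rfl (CurveLike.algebraMapQ_injective U) K.iq K.baseQ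
    _ _ (fun k => ((pairHom ε s).commQ k).trans (by rw [glue_iq, Units.val_one, one_mul])) h

/-- A section vanishing only on a subscheme with invertible ideal identifies the inverse bundle. -/
theorem nonempty_iso_idealBundle (ε : Iso (K.tensor B) (trivial U)) (s : B.H0)
    (hP : sectIdealP s ⊔ Ideal.span {x (T := U)} = ⊤)
    (hQ : sectIdealQ s ⊔ Ideal.span {y (T := U)} = ⊤)
    (iP : Module.Invertible U.P (comapP U (sectIdeal s)))
    (iQ : Module.Invertible U.Q (comapQ U (sectIdeal s))) :
    Nonempty (Iso K (idealBundle U (sectIdeal s) iP iQ)) := by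
  have eP := sectIdealP_eq_comap s hP ε
  have eQ := sectIdealQ_eq_comap s hQ ε
  let σ := pairHom ε s
  let fP : K.MP →ₗ[U.P] comapP U (sectIdeal s) := σ.fP.codRestrict _ fun k => by
    rw [← eP, sectIdealP_eq_range ε]; exact ⟨k, rfl⟩
  let fQ : K.MQ →ₗ[U.Q] comapQ U (sectIdeal s) := σ.fQ.codRestrict _ fun k => by
    rw [← eQ, sectIdealQ_eq_range ε]; exact ⟨k, rfl⟩
  let fL : K.ML →ₗ[U.L] sectIdeal s := σ.fL.codRestrict _ fun k => by
    rw [sectIdeal_eq_range ε]; exact ⟨k, rfl⟩
  have hfP : Function.Surjective fP := fun p => by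
    have hp : (p : U.P) ∈ LinearMap.range σ.fP :=
      ((sectIdealP_eq_range ε s).symm.trans eP).ge p.2
    exact ⟨hp.choose, Subtype.ext hp.choose_spec⟩
  have hfQ : Function.Surjective fQ := fun p => by
    have hp : (p : U.Q) ∈ LinearMap.range σ.fQ :=
      ((sectIdealQ_eq_range ε s).symm.trans eQ).ge p.2
    exact ⟨hp.choose, Subtype.ext hp.choose_spec⟩
  have hfL : Function.Surjective fL := fun p => by
    have hp : (p : U.L) ∈ LinearMap.range σ.fL := (sectIdeal_eq_range ε s).le p.2
    exact ⟨hp.choose, Subtype.ext hp.choose_spec⟩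
  have iL : Module.Invertible U.L (sectIdeal s) :=
    invL (idealBundle U (sectIdeal s) iP iQ)
  exact ⟨{
    eP := LinearEquiv.ofBijective fP (Module.Invertible.bijective_of_surjective hfP)
    eQ := LinearEquiv.ofBijective fQ (Module.Invertible.bijective_of_surjective hfQ)
    eL := LinearEquiv.ofBijective fL (Module.Invertible.bijective_of_surjective hfL)
    commP := fun k => Subtype.ext ((σ.commP k).trans (glue_ip 1 _))
    commQ := fun k => Subtype.ext ((σ.commQ k).trans (by
      rw [glue_iq, Units.val_one, one_mul]; rfl)) }⟩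

/-- An identification of the inverse bundle with an ideal gives a section. -/
theorem exists_section_of_iso (ε : Iso (K.tensor B) (trivial U)) {I : Ideal U.L} {iP :
    Module.Invertible U.P (comapP U I)}
    {iQ : Module.Invertible U.Q (comapQ U I)} (j : Iso K (idealBundle U I iP iQ)) :
    ∃ s : B.H0, sectIdeal s = I ∧ sectIdealP s = comapP U I ∧ sectIdealQ s = comapQ U I := by
  let σ : Hom K (trivial U) :=
    { fP := (comapP U I).subtype.comp j.eP.toLinearMap
      fQ := (comapQ U I).subtype.comp j.eQ.toLinearMap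
      fL := I.subtype.comp j.eL.toLinearMap
      commP := fun k => by
        rw [glue_ip]
        exact congrArg Subtype.val (j.commP k)
      commQ := fun k => by
        rw [glue_iq, Units.val_one, one_mul]
        exact congrArg Subtype.val (j.commQ k) }
  obtain ⟨s, h1, h2, h3⟩ := exists_pairHom_eq ε σ
  refine ⟨s, ?_, ?_, ?_⟩
  · rw [sectIdeal_eq_range ε, h3]
    simp [σ, LinearMap.range_comp]
  · rw [sectIdealP_eq_range ε, h1]
    simp [σ, LinearMap.range_comp]
  · rw [sectIdealQ_eq_range ε, h2]
    simp [σ, LinearMap.range_comp]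

end Bundle

end Fermat.Agent.RelJac
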