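import Mathlib.RingTheory.AdjoinRoot
import Mathlib.RingTheory.Algebraic.Integral
import Mathlib.RingTheory.Artinian.Ring
import Mathlib.LinearAlgebra.TensorProduct.Quotient
import Mathlib.RingTheory.PicardGroup
import Fermat.Agent.RelJac.CurveLike

/-!
The cokernel of a nonzero element of an invertible module over a one-dimensional domain: it is
finite dimensional, and tensoring with another invertible module does not change it.
-/

open scoped TensorProduct

namespace Fermat.Agent.RelJac.SectionAlgebra

universe u

variable {K : Type u} [Field K] {A : Type u} [CommRing A] [Algebra K A]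

/-- All quotients by nonzero principal ideals are finite dimensional. -/
def FiniteFibres (K A : Type u) [Field K] [CommRing A] [Algebra K A] : Prop :=
  ∀ a : A, a ≠ 0 → Module.Finite K (A ⧸ Ideal.span {a})

/-- An algebra free over the polynomial ring has finite fibres. -/
theorem finiteFibres_of_shiftBasis [IsDomain A] {x : A} {ι : Type} [Fintype ι]
    (b : ShiftBasis K A x ι) : FiniteFibres K A := by
  classical
  let f : Polynomial K →ₐ[K] A := Polynomial.aeval x
  let algX := f.toRingHom.toAlgebra
  have hpow : ∀ (i : ι) (m : ℕ), b.basis (i, m) = x ^ m * b.basis (i, 0) := fun i m => by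
    induction m with
    | zero => simp
    | succ m ih => rw [b.basis_succ, ih, pow_succ']; ring
  have : Module.Finite (Polynomial K) A := by
    refine ⟨⟨Finset.univ.image fun i => b.basis (i, 0), eq_top_iff.2 fun a _ => ?_⟩⟩
    rw [← b.basis.linearCombination_repr a, Finsupp.linearCombination_apply]
    refine Submodule.sum_mem _ fun z _ => ?_
    obtain ⟨i, m⟩ := z
    dsimp only
    rw [hpow, Algebra.smul_def, ← mul_assoc]
    have h : algebraMap K A (b.basis.repr a (i, m)) * x ^ m * b.basis (i, 0) =
        (Polynomial.C (b.basis.repr a (i, m)) * Polynomial.X ^ m) • b.basis (i, 0) := by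
      rw [Algebra.smul_def]
      simp [algX, f, RingHom.algebraMap_toAlgebra]
    rw [h]
    exact Submodule.smul_mem _ _ (Submodule.subset_span (by simp))
  intro a ha
  obtain ⟨p, hp, c, hc⟩ := (Algebra.IsIntegral.isIntegral (R := Polynomial K) a).isAlgebraic
    |>.exists_nonzero_dvd (mem_nonZeroDivisors_of_ne_zero ha)
  have hroot : Polynomial.aeval (Ideal.Quotient.mk (Ideal.span {a}) x) p = 0 := by
    rw [← Ideal.Quotient.mkₐ_eq_mk K, Polynomial.aeval_algHom_apply, Ideal.Quotient.mkₐ_eq_mk,
      Ideal.Quotient.eq_zero_iff_mem, Ideal.mem_span_singleton]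
    exact ⟨c, hc⟩
  let g : AdjoinRoot p →ₐ[K] A ⧸ Ideal.span {a} :=
    AdjoinRoot.liftAlgHom p (Algebra.ofId K _) (Ideal.Quotient.mk _ x) hroot
  have : Module.Finite K (AdjoinRoot p) := (AdjoinRoot.powerBasis hp).finite
  let G : (ι → AdjoinRoot p) →ₗ[K] A ⧸ Ideal.span {a} :=
    ∑ i, (LinearMap.mulRight K (Ideal.Quotient.mk _ (b.basis (i, 0)))).comp
      (g.toLinearMap.comp (LinearMap.proj i))
  refine Module.Finite.of_surjective G fun z => ?_
  obtain ⟨z, rfl⟩ := Ideal.Quotient.mk_surjective z
  suffices h : LinearMap.range (Ideal.Quotient.mkₐ K (Ideal.span {a})).toLinearMap ≤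
      LinearMap.range G from h ⟨z, rfl⟩
  rw [LinearMap.range_eq_map, ← b.basis.span_eq, Submodule.map_span, Submodule.span_le]
  rintro _ ⟨_, ⟨⟨i, m⟩, rfl⟩, rfl⟩
  refine ⟨Pi.single i (AdjoinRoot.root p ^ m), ?_⟩
  rw [hpow, LinearMap.sum_apply, Finset.sum_eq_single i]
  · simp only [LinearMap.comp_apply, LinearMap.proj_apply, Pi.single_eq_same,
      AlgHom.toLinearMap_apply, map_pow, LinearMap.mulRight_apply, map_mul, g,
      Ideal.Quotient.mkₐ_eq_mk]
    exact congrArg (fun w => w ^ m * _) (AdjoinRoot.liftAlgHom_root p _ _ hroot)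
  · intro j _ hj
    simp [Pi.single_eq_of_ne hj]
  · exact fun h => absurd (Finset.mem_univ _) h

/-- A map to a space on which an automorphism contracts everything into the image is surjective,
if its source is finite dimensional. -/
theorem surjective_of_finite {V W : Type*} [AddCommGroup V] [Module K V] [AddCommGroup W]
    [Module K W] [Module.Finite K V] (f : V →ₗ[K] W) (u : W ≃ₗ[K] W)
    (hu : ∀ w ∈ LinearMap.range f, u w ∈ LinearMap.range f)
    (h : ∀ w, ∃ n : ℕ, (u.toLinearMap ^ n) w ∈ LinearMap.range f) : Function.Surjective f := by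
  have : Function.Surjective (u.toLinearMap.restrict hu) :=
    LinearMap.injective_iff_surjective.1 fun a b hab =>
      Subtype.ext (u.injective (congrArg Subtype.val hab))
  intro w
  obtain ⟨n, hn⟩ := h w
  induction n generalizing w with
  | zero => simpa using hn
  | succ n ih =>
    rw [pow_succ, Module.End.mul_apply] at hn
    obtain ⟨v, hv⟩ := ih (u.toLinearMap w) hn
    obtain ⟨⟨w', hw'⟩, he⟩ := this ⟨f v, ⟨v, rfl⟩⟩
    have h' : u w' = f v := congrArg Subtype.val he
    rw [hv] at h'
    obtain rfl := u.injective h'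
    exact hw'

variable {M M' : Type u} [AddCommGroup M] [Module A M] [AddCommGroup M'] [Module A M']

/-- A nonzero element of a projective module has a nonzero value under some functional. -/
theorem exists_functional [Module.Finite A M'] [Module.Projective A M'] {s : M'} (hs : s ≠ 0) :
    ∃ ψ : M' →ₗ[A] A, ψ s ≠ 0 := by
  obtain ⟨n, π, hπ⟩ := Module.Finite.exists_fin' A M'
  obtain ⟨φ, hφ⟩ := Module.projective_lifting_property π LinearMap.id hπ
  by_contra h
  push Not at h
  have : φ s = 0 := funext fun l => h ((LinearMap.proj l).comp φ)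
  exact hs (by simpa [this] using (LinearMap.congr_fun hφ s).symm)

variable [IsDomain A] [Module.Invertible A M']

/-- The cokernel of a nonzero element is killed by a nonzero function. -/
theorem exists_annihilator {s : M'} (hs : s ≠ 0) :
    ∃ a : A, a ≠ 0 ∧ ∀ m : M', a • m ∈ Submodule.span A {s} := by
  obtain ⟨ψ, hψ⟩ := exists_functional (A := A) hs
  refine ⟨ψ s, hψ, fun m => ?_⟩
  obtain ⟨r, hr⟩ := (Module.Invertible.toModuleEnd_bijective A M').2 (ψ.smulRight s)
  have h : ∀ v, r • v = ψ v • s := fun v => LinearMap.congr_fun hr v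
  have h' := congrArg ψ (h s)
  simp only [map_smul, smul_eq_mul] at h'
  rw [← mul_right_cancel₀ hψ h', h]
  exact Submodule.smul_mem _ _ (Submodule.mem_span_singleton_self s)

/-- Multiples of a nonzero element of an invertible module over a domain. -/
theorem smul_left_injective {s : M'} (hs : s ≠ 0) : Function.Injective fun a : A => a • s := by
  obtain ⟨ψ, hψ⟩ := exists_functional (A := A) hs
  intro a b hab
  exact mul_right_cancel₀ hψ (by simpa using congrArg ψ hab)

variable [Module K M'] [IsScalarTower K A M']

/-- The cokernel of a nonzero element is finite dimensional. -/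
theorem finite_quotient (hA : FiniteFibres K A) {s : M'} (hs : s ≠ 0) :
    Module.Finite K (M' ⧸ Submodule.span A {s}) := by
  obtain ⟨a, ha, hann⟩ := exists_annihilator (A := A) hs
  have := hA a ha
  obtain ⟨n, π, hπ⟩ := Module.Finite.exists_fin' A (M' ⧸ Submodule.span A {s})
  let G : (Fin n → A ⧸ Ideal.span {a}) →ₗ[A] M' ⧸ Submodule.span A {s} :=
    ∑ i, (Submodule.liftQ (Ideal.span {a})
      (LinearMap.toSpanSingleton A _ (π (Pi.single i 1))) (by
        rw [Ideal.span, Submodule.span_le, Set.singleton_subset_iff, SetLike.mem_coe,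
          LinearMap.mem_ker, LinearMap.toSpanSingleton_apply]
        obtain ⟨v, hv⟩ := Submodule.Quotient.mk_surjective _ (π (Pi.single i 1))
        rw [← hv, ← Submodule.Quotient.mk_smul, Submodule.Quotient.mk_eq_zero]
        exact hann v)).comp (LinearMap.proj i)
  refine Module.Finite.of_surjective (G.restrictScalars K) fun z => ?_
  obtain ⟨c, rfl⟩ := hπ z
  refine ⟨fun i => Submodule.Quotient.mk (c i), ?_⟩
  classical
  conv_rhs => rw [← Finset.univ_sum_single c, map_sum]
  rw [LinearMap.coe_restrictScalars, LinearMap.sum_apply]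
  refine Finset.sum_congr rfl fun i _ => ?_
  rw [LinearMap.comp_apply, LinearMap.proj_apply, Submodule.liftQ_apply,
    LinearMap.toSpanSingleton_apply, ← map_smul, ← Pi.single_smul, smul_eq_mul, mul_one]

variable [Module.Invertible A M] [Module K M] [IsScalarTower K A M]

omit [Module.Invertible A M'] [IsDomain A] [Module K M'] [IsScalarTower K A M'] [Module K M]
  [IsScalarTower K A M] in
/-- An invertible module is trivial on the finite scheme cut out by `a`. -/
theorem nonempty_equiv_of_annihilated {a : A} [Module.Finite K (A ⧸ Ideal.span {a})] {V : Type u}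
    [AddCommGroup V] [Module A V] (hV : ∀ v : V, a • v = 0) :
    Nonempty (M ⊗[A] V ≃ₗ[A] V) := by
  let I : Ideal A := Ideal.span {a}
  have : IsArtinianRing (A ⧸ I) := IsArtinianRing.of_finite K _
  obtain ⟨e⟩ : Nonempty ((A ⧸ I) ⊗[A] M ≃ₗ[A ⧸ I] A ⧸ I) :=
    Module.Invertible.free_iff_linearEquiv.1 inferInstance
  have hI : I • (⊤ : Submodule A V) = ⊥ := by
    rw [eq_bot_iff, Submodule.smul_le]
    intro r hr v _
    obtain ⟨c, rfl⟩ := Ideal.mem_span_singleton'.1 hr
    simp [mul_smul, hV]
  let eV : (A ⧸ I) ⊗[A] V ≃ₗ[A] V :=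
    (TensorProduct.quotTensorEquivQuotSMul V I).trans (Submodule.quotEquivOfEqBot _ hI)
  exact ⟨(TensorProduct.congr (LinearEquiv.refl A M) eV.symm).trans <|
    (TensorProduct.assoc A M (A ⧸ I) V).symm.trans <|
      (TensorProduct.congr ((TensorProduct.comm A M (A ⧸ I)).trans (e.restrictScalars A))
        (LinearEquiv.refl A V)).trans eV⟩

/-- Multiplication by a section, in a tensor product. -/
noncomputable def mulSection (s : M') : M →ₗ[A] M ⊗[A] M' := (TensorProduct.mk A M M').flip s

omit [IsDomain A] [Module.Invertible A M'] [Module K M'] [IsScalarTower K A M']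
  [Module.Invertible A M] [Module K M] [IsScalarTower K A M] in
theorem range_mulSection (s : M') : LinearMap.range (mulSection (M := M) (A := A) s) =
    LinearMap.range (LinearMap.lTensor M (Submodule.span A {s}).subtype) := by
  refine le_antisymm ?_ ?_
  · rintro _ ⟨m, rfl⟩
    exact ⟨m ⊗ₜ ⟨s, Submodule.mem_span_singleton_self s⟩, rfl⟩
  · rintro _ ⟨w, rfl⟩
    induction w using TensorProduct.induction_on with
    | zero => simp
    | tmul m v =>
      obtain ⟨c, hc⟩ := Submodule.mem_span_singleton.1 v.2
      exact ⟨c • m, by simp [mulSection, ← hc]⟩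
    | add x y hx hy => rw [map_add]; exact Submodule.add_mem _ hx hy

omit [Module K M] [IsScalarTower K A M] in
/-- Multiplication by a nonzero section is injective. -/
theorem mulSection_injective {s : M'} (hs : s ≠ 0) :
    Function.Injective (mulSection (M := M) (A := A) s) := by
  have h : Function.Injective ((LinearMap.toSpanSingleton A M' s).lTensor M) :=
    Module.Flat.lTensor_preserves_injective_linearMap _ (smul_left_injective hs)
  have : mulSection (M := M) (A := A) s =
      ((LinearMap.toSpanSingleton A M' s).lTensor M).comp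
        (TensorProduct.rid A M).symm.toLinearMap :=
    LinearMap.ext fun m => by simp [mulSection]
  rw [this, LinearMap.coe_comp]
  exact h.comp (LinearEquiv.injective _)

omit [Module K M] [IsScalarTower K A M] [Module K M'] [IsScalarTower K A M'] in
/-- The cokernel of multiplication by a section does not depend on the module multiplied. -/
theorem nonempty_quotient_mulSection (hA : FiniteFibres K A) {s : M'} (hs : s ≠ 0) :
    Nonempty (((M ⊗[A] M') ⧸ LinearMap.range (mulSection (M := M) (A := A) s)) ≃ₗ[A]
      M' ⧸ Submodule.span A {s}) := by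
  obtain ⟨a, ha, hann⟩ := exists_annihilator (A := A) hs
  have := hA a ha
  obtain ⟨e⟩ := nonempty_equiv_of_annihilated (K := K) (M := M) (A := A) (a := a)
    (V := M' ⧸ Submodule.span A {s}) fun v => by
      obtain ⟨v, rfl⟩ := Submodule.Quotient.mk_surjective _ v
      rw [← Submodule.Quotient.mk_smul, Submodule.Quotient.mk_eq_zero]
      exact hann v
  exact ⟨((Submodule.quotEquivOfEq _ _ (range_mulSection s)).trans
    (TensorProduct.tensorQuotientEquiv M (Submodule.span A {s})).symm).trans e⟩

end Fermat.Agent.RelJac.SectionAlgebra
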