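import Fermat.Agent.RelJac.Euler
import Fermat.Agent.RelJac.SectionAlgebra

/-!
Multiplication by a nonzero global section: additivity of the degree, effectivity, and the
characterisation of the trivial bundle.
-/

open scoped TensorProduct

namespace Fermat.Agent.RelJac

universe u

variable {K : Type u} [Field K] {T : TwoChart K} [CurveLike T] [IsDomain T.P] [IsDomain T.Q]
  [IsDomain T.L]

open CurveLike (x y)

namespace CurveLike

omit [IsDomain T.Q] [IsDomain T.L] in
/-- The first chart has finite fibres. -/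
theorem finiteFibresP : SectionAlgebra.FiniteFibres K T.P :=
  SectionAlgebra.finiteFibres_of_shiftBasis (CurveLike.shiftP T)

omit [IsDomain T.P] [IsDomain T.L] in
/-- The second chart has finite fibres. -/
theorem finiteFibresQ : SectionAlgebra.FiniteFibres K T.Q :=
  SectionAlgebra.finiteFibres_of_shiftBasis (CurveLike.shiftQ T)

omit [IsDomain T.Q] [IsDomain T.L] in
/-- The overlap has finite fibres. -/
theorem finiteFibresL : SectionAlgebra.FiniteFibres K T.L := by
  intro a ha
  obtain ⟨n, p, hp⟩ := IsLocalization.Away.surj (x (T := T)) a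
  have hp0 : p ≠ 0 := by
    rintro rfl
    exact ha (((CurveLike.unitX T).isUnit.pow n).mul_left_eq_zero.1 (hp.trans (map_zero _)))
  have := finiteFibresP (T := T) p hp0
  let φ : (T.P ⧸ Ideal.span {p}) →ₐ[K] T.L ⧸ Ideal.span {a} :=
    Ideal.Quotient.liftₐ _ ((Ideal.Quotient.mkₐ K _).comp (IsScalarTower.toAlgHom K T.P T.L))
      fun r hr => by
        obtain ⟨c, rfl⟩ := Ideal.mem_span_singleton'.1 hr
        simp only [AlgHom.coe_comp, Function.comp_apply, IsScalarTower.coe_toAlgHom',
          Ideal.Quotient.mkₐ_eq_mk, map_mul, ← hp]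
        rw [Ideal.Quotient.eq_zero_iff_mem.2 (Ideal.mem_span_singleton_self a)]
        simp
  let xL : (T.L ⧸ Ideal.span {a})ˣ :=
    (CurveLike.unitX T).map (Ideal.Quotient.mk (Ideal.span {a})).toMonoidHom
  let u : (T.L ⧸ Ideal.span {a}) ≃ₗ[K] (T.L ⧸ Ideal.span {a}) :=
    (DistribMulAction.toLinearEquiv (T.L ⧸ Ideal.span {a}) (T.L ⧸ Ideal.span {a}) xL).restrictScalars K
  have hu : ∀ w, u w = Ideal.Quotient.mk _ (algebraMap T.P T.L (x (T := T))) * w := fun w => rfl
  have hun : ∀ (m : ℕ) w, (u.toLinearMap ^ m) w =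
      Ideal.Quotient.mk _ (algebraMap T.P T.L (x (T := T)) ^ m) * w := fun m w => by
    induction m with
    | zero => simp
    | succ m ih =>
      rw [pow_succ', Module.End.mul_apply, ih, LinearEquiv.coe_coe, hu, pow_succ', map_mul, mul_assoc]
  refine Module.Finite.of_surjective φ.toLinearMap
    (SectionAlgebra.surjective_of_finite φ.toLinearMap u ?_ ?_)
  · rintro _ ⟨w, rfl⟩
    obtain ⟨w, rfl⟩ := Ideal.Quotient.mk_surjective w
    exact ⟨Ideal.Quotient.mk _ (x (T := T) * w), by simp only [AlgHom.toLinearMap_apply, hu, map_mul]; rfl⟩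
  · intro w
    obtain ⟨w, rfl⟩ := Ideal.Quotient.mk_surjective w
    obtain ⟨m, q, hq⟩ := IsLocalization.Away.surj (x (T := T)) w
    exact ⟨m, Ideal.Quotient.mk _ q, by
      rw [hun, ← map_mul, mul_comm, hq]; rfl⟩

end CurveLike

namespace Bundle

variable (B B' : Bundle T) (s : B'.H0)

/-- Multiplication by a section. -/
noncomputable def sectionHom : Hom B (B.tensor B') where
  fP := SectionAlgebra.mulSection s.1.1
  fQ := SectionAlgebra.mulSection s.1.2
  fL := SectionAlgebra.mulSection (B'.ip s.1.1)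
  commP m := (B.tensor_ip_tmul B' m s.1.1).symm
  commQ m := (congrArg (fun v => B.iq m ⊗ₜ[T.L] v) (B'.mem_H0.1 s.2)).trans
    (B.tensor_iq_tmul B' m s.1.2).symm

/-- Twisting the second factor of a tensor product. -/
noncomputable def tensorTwist (n : ℕ) : Iso (B.tensor (B'.twist n)) ((B.tensor B').twist n) :=
  Iso.ofTensor (C := (B.tensor B').twist n) (LinearEquiv.refl _ _) (LinearEquiv.refl _ _)
    (LinearEquiv.refl _ _) (fun m m' => by simp) (fun m m' => by
      simp [xPow_apply, TensorProduct.smul_tmul']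
      exact (TensorProduct.smul_tmul' _ _ _).symm.trans ((B.tensor B').xPow_apply n _).symm)

variable {B'} {s}

omit [IsDomain T.P] [IsDomain T.Q] [IsDomain T.L] in
/-- A nonzero section is nonzero on both charts and on the overlap. -/
theorem section_ne_zero (hs : s ≠ 0) : s.1.1 ≠ 0 ∧ s.1.2 ≠ 0 ∧ B'.ip s.1.1 ≠ 0 := by
  have h1 : s.1.1 ≠ 0 := fun h =>
    hs (Subtype.ext (B'.H0_ext s.2 (Submodule.zero_mem _) h))
  refine ⟨h1, fun h => ?_, fun h => h1 (B'.ip_injective (h.trans (map_zero _).symm))⟩
  apply h1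
  apply B'.ip_injective
  rw [B'.mem_H0.1 s.2, h, map_zero, map_zero]

/-- The part of the cokernel of a section on the first chart. -/
abbrev cokerP (B' : Bundle T) (s : B'.H0) : Type u := B'.MP ⧸ Submodule.span T.P {s.1.1}

/-- The part of the cokernel of a section on the second chart. -/
abbrev cokerQ (B' : Bundle T) (s : B'.H0) : Type u := B'.MQ ⧸ Submodule.span T.Q {s.1.2}

/-- The part of the cokernel of a section on the overlap. -/
abbrev cokerL (B' : Bundle T) (s : B'.H0) : Type u := B'.ML ⧸ Submodule.span T.L {B'.ip s.1.1}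

theorem chi_tensor_section (hs : s ≠ 0) :
    (B.tensor B').chi = B.chi + Module.finrank K (cokerP B' s) + Module.finrank K (cokerQ B' s) -
      Module.finrank K (cokerL B' s) := by
  obtain ⟨hP, hQ, hL⟩ := section_ne_zero hs
  have := SectionAlgebra.finite_quotient (A := T.P) (CurveLike.finiteFibresP (T := T)) hP
  have := SectionAlgebra.finite_quotient (A := T.Q) (CurveLike.finiteFibresQ (T := T)) hQ
  have := SectionAlgebra.finite_quotient (A := T.L) (CurveLike.finiteFibresL (T := T)) hL
  obtain ⟨eP⟩ := SectionAlgebra.nonempty_quotient_mulSection (K := K) (M := B.MP)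
    (CurveLike.finiteFibresP (T := T)) hP
  obtain ⟨eQ⟩ := SectionAlgebra.nonempty_quotient_mulSection (K := K) (M := B.MQ)
    (CurveLike.finiteFibresQ (T := T)) hQ
  obtain ⟨eL⟩ := SectionAlgebra.nonempty_quotient_mulSection (K := K) (M := B.ML)
    (CurveLike.finiteFibresL (T := T)) hL
  let f := B.sectionHom B' s
  let eP' : ((B.tensor B').MP ⧸ LinearMap.range (f.fP.restrictScalars K)) ≃ₗ[K] cokerP B' s :=
    (Submodule.Quotient.restrictScalarsEquiv K (LinearMap.range f.fP)).trans (eP.restrictScalars K)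
  let eQ' : ((B.tensor B').MQ ⧸ LinearMap.range (f.fQ.restrictScalars K)) ≃ₗ[K] cokerQ B' s :=
    (Submodule.Quotient.restrictScalarsEquiv K (LinearMap.range f.fQ)).trans (eQ.restrictScalars K)
  let eL' : ((B.tensor B').ML ⧸ LinearMap.range (f.fL.restrictScalars K)) ≃ₗ[K] cokerL B' s :=
    (Submodule.Quotient.restrictScalarsEquiv K (LinearMap.range f.fL)).trans (eL.restrictScalars K)
  have := Module.Finite.equiv eP'.symm
  have := Module.Finite.equiv eQ'.symm
  have := Module.Finite.equiv eL'.symm
  rw [f.chi_eq (SectionAlgebra.mulSection_injective hP) (SectionAlgebra.mulSection_injective hQ)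
    (SectionAlgebra.mulSection_injective hL), eP'.finrank_eq, eQ'.finrank_eq, eL'.finrank_eq]

/-- The degree computed from the zeros of a section. -/
theorem deg_eq_of_section (hs : s ≠ 0) :
    B'.deg = Module.finrank K (cokerP B' s) + Module.finrank K (cokerQ B' s) -
      Module.finrank K (cokerL B' s) := by
  have h := (trivial T).chi_tensor_section hs
  rw [← (trivialTensor B').chi_eq] at h
  rw [deg]
  linarith

theorem chi_tensor_of_section (hs : s ≠ 0) : (B.tensor B').chi = B.chi + B'.deg := by
  rw [B.chi_tensor_section hs, deg_eq_of_section hs]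
  ring

omit [IsDomain T.P] [IsDomain T.Q] [IsDomain T.L] in
/-- A positive Euler characteristic gives a nonzero section. -/
theorem exists_section_of_chi_pos {B' : Bundle T} (h : 0 < B'.chi) : ∃ s : B'.H0, s ≠ 0 := by
  have : 0 < Module.finrank K B'.H0 := by exact_mod_cast h.trans_le B'.chi_le
  exact (Module.finrank_pos_iff_exists_ne_zero (R := K)).1 this

variable (B')

/-- The degree is additive. -/
theorem chi_tensor : (B.tensor B').chi = B.chi + B'.deg := by
  have hd : 0 ≤ (CurveLike.mapDegree T : ℤ) := Int.natCast_nonneg _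
  rcases Nat.eq_zero_or_pos (CurveLike.mapDegree T) with h0 | hpos
  · -- then `P¹` would receive a map of degree zero: the fibre at infinity is empty
    have hQ : Subsingleton T.Q := by
      have : IsEmpty (CurveLike.ιQ (T := T)) := Fintype.card_eq_zero_iff.1 h0
      exact (CurveLike.basisQ (T := T)).repr.toEquiv.subsingleton
    exact absurd hQ (not_subsingleton T.Q)
  · obtain ⟨N, hN⟩ : ∃ N : ℕ, 0 < B'.chi + N * (CurveLike.mapDegree T : ℤ) := by
      refine ⟨B'.chi.natAbs + 1, ?_⟩
      have h1 : (1 : ℤ) ≤ CurveLike.mapDegree T := by exact_mod_cast hpos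
      push_cast
      have h2 : -(B'.chi.natAbs : ℤ) ≤ B'.chi := by omega
      have h3 : -B'.chi ≤ |B'.chi| := neg_le_abs _
      nlinarith [abs_nonneg B'.chi]
    obtain ⟨s, hs⟩ := exists_section_of_chi_pos (B' := B'.twist N) (by rw [chi_twist]; exact hN)
    have h := B.chi_tensor_of_section hs
    rw [← (B.tensorTwist B' N).chi_eq, chi_twist, deg, chi_twist] at h
    rw [deg]
    linarith

/-- The degree is additive. -/
theorem deg_tensor : (B.tensor B').deg = B.deg + B'.deg := by
  rw [deg, B.chi_tensor B', deg, deg]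
  ring

variable {B'}

omit [IsDomain T.Q] [IsDomain T.L] in
theorem cokerP_to_cokerL_surjective (hs : s ≠ 0) (z : B'.ML) :
    ∃ (m : B'.MP) (w : T.L), z = B'.ip m + w • B'.ip s.1.1 := by
  obtain ⟨hP, -, -⟩ := section_ne_zero hs
  have := SectionAlgebra.finite_quotient (A := T.P) (CurveLike.finiteFibresP (T := T)) hP
  let S := Submodule.span T.L {B'.ip s.1.1}
  let f₀ : cokerP B' s →ₗ[T.P] B'.ML ⧸ S.restrictScalars T.P :=
    Submodule.liftQ _ ((S.restrictScalars T.P).mkQ.comp B'.ip) (by
      rw [Submodule.span_le, Set.singleton_subset_iff]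
      exact (Submodule.Quotient.mk_eq_zero _).2 (Submodule.mem_span_singleton_self _))
  let f : cokerP B' s →ₗ[K] cokerL B' s :=
    ((Submodule.Quotient.restrictScalarsEquiv T.P S).restrictScalars K).toLinearMap.comp
      (f₀.restrictScalars K)
  have hf : ∀ m : B'.MP, f (Submodule.Quotient.mk m) = Submodule.Quotient.mk (B'.ip m) := fun m => rfl
  let u : cokerL B' s ≃ₗ[K] cokerL B' s :=
    (DistribMulAction.toLinearEquiv T.L (cokerL B' s) (CurveLike.unitX T)).restrictScalars K
  have hu : ∀ v, u v = algebraMap T.P T.L (x (T := T)) • v := fun v => rfl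
  have hun : ∀ (m : ℕ) v, (u.toLinearMap ^ m) v = algebraMap T.P T.L (x (T := T)) ^ m • v := fun m v => by
    induction m with
    | zero => simp
    | succ m ih => rw [pow_succ', Module.End.mul_apply, ih, LinearEquiv.coe_coe, hu, pow_succ', mul_smul]
  have hsurj : Function.Surjective f := by
    refine SectionAlgebra.surjective_of_finite f u ?_ ?_
    · rintro _ ⟨v, rfl⟩
      obtain ⟨v, rfl⟩ := Submodule.Quotient.mk_surjective _ v
      exact ⟨Submodule.Quotient.mk (x (T := T) • v), by
        rw [hf, hf, hu, map_smul, ← Submodule.Quotient.mk_smul, algebraMap_smul]⟩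
    · intro v
      obtain ⟨v, rfl⟩ := Submodule.Quotient.mk_surjective _ v
      obtain ⟨m, q, hq⟩ := B'.exists_xpow_smul_eq_ip v
      exact ⟨m, Submodule.Quotient.mk q, by
        rw [hun, hf, ← hq, ← Submodule.Quotient.mk_smul]⟩
  obtain ⟨v, hv⟩ := hsurj (Submodule.Quotient.mk z)
  obtain ⟨m, rfl⟩ := Submodule.Quotient.mk_surjective _ v
  rw [hf, Submodule.Quotient.eq] at hv
  obtain ⟨w, hw⟩ := Submodule.mem_span_singleton.1 hv
  exact ⟨m, -w, by rw [neg_smul, hw]; abel⟩

omit [IsDomain T.Q] [IsDomain T.L] in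
/-- Multiplying by a section preserves the vanishing of `H¹`. -/
theorem Nonspecial.tensor_section {B : Bundle T} (hB : B.Nonspecial) (hs : s ≠ 0) :
    (B.tensor B').Nonspecial := by
  intro z
  suffices h : z ∈ LinearMap.range (B.tensor B').d from h
  induction z using TensorProduct.induction_on with
  | zero => exact Submodule.zero_mem _
  | tmul a b =>
    obtain ⟨m, w, rfl⟩ := cokerP_to_cokerL_surjective hs b
    rw [TensorProduct.tmul_add]
    refine Submodule.add_mem _ ?_ ?_
    · obtain ⟨n, p, hp⟩ := B.exists_xpow_smul_eq_ip a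
      -- move the pole of `a` to the section
      obtain ⟨m', w', hm'⟩ := cokerP_to_cokerL_surjective hs
        (algebraMap T.Q T.L (y (T := T)) ^ n • B'.ip m)
      have : a ⊗ₜ[T.L] B'.ip m = (B.tensor B').ip (p ⊗ₜ m') + (w' • B.ip p) ⊗ₜ B'.ip s.1.1 := by
        rw [tensor_ip_tmul, TensorProduct.smul_tmul, ← TensorProduct.tmul_add, ← hm',
          ← hp, TensorProduct.smul_tmul, smul_smul, ← mul_pow, CurveLike.x_mul_y, one_pow, one_smul]
      rw [this]
      refine Submodule.add_mem _ ((B.tensor B').ip_mem_range _) ?_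
      obtain ⟨c, hc⟩ := hB (w' • B.ip p)
      exact ⟨(B.sectionHom B' s).f0 c, (LinearMap.congr_fun (B.sectionHom B' s).d_comm c).trans
        (congrArg (fun v => v ⊗ₜ[T.L] B'.ip s.1.1) hc)⟩
    · rw [← TensorProduct.smul_tmul]
      obtain ⟨c, hc⟩ := hB (w • a)
      exact ⟨(B.sectionHom B' s).f0 c, (LinearMap.congr_fun (B.sectionHom B' s).d_comm c).trans
        (congrArg (fun v => v ⊗ₜ[T.L] B'.ip s.1.1) hc)⟩
  | add a b ha hb => exact Submodule.add_mem _ ha hb

omit [IsDomain T.Q] [IsDomain T.L] in
/-- A section has no more zeros on the overlap than on the first chart. -/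
theorem finrank_cokerL_le (hs : s ≠ 0) :
    Module.finrank K (cokerL B' s) ≤ Module.finrank K (cokerP B' s) := by
  obtain ⟨hP, -, -⟩ := section_ne_zero hs
  have := SectionAlgebra.finite_quotient (A := T.P) (CurveLike.finiteFibresP (T := T)) hP
  let S := Submodule.span T.L {B'.ip s.1.1}
  let f₀ : cokerP B' s →ₗ[T.P] B'.ML ⧸ S.restrictScalars T.P :=
    Submodule.liftQ _ ((S.restrictScalars T.P).mkQ.comp B'.ip) (by
      rw [Submodule.span_le, Set.singleton_subset_iff]
      exact (Submodule.Quotient.mk_eq_zero _).2 (Submodule.mem_span_singleton_self _))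
  let f : cokerP B' s →ₗ[K] cokerL B' s :=
    ((Submodule.Quotient.restrictScalarsEquiv T.P S).restrictScalars K).toLinearMap.comp
      (f₀.restrictScalars K)
  refine LinearMap.finrank_le_finrank_of_surjective (f := f) fun v => ?_
  obtain ⟨v, rfl⟩ := Submodule.Quotient.mk_surjective _ v
  obtain ⟨m, w, rfl⟩ := cokerP_to_cokerL_surjective hs v
  refine ⟨Submodule.Quotient.mk m, ?_⟩
  refine (Submodule.Quotient.eq S).2 ?_
  change B'.ip m - (B'.ip m + w • B'.ip s.1.1) ∈ S
  rw [sub_add_cancel_left]
  exact Submodule.neg_mem _ (Submodule.smul_mem _ _ (Submodule.mem_span_singleton_self _))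

end Bundle

end Fermat.Agent.RelJac
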